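import Fermat.Agent.TW.Flat.Val

/-!
# Images of inertia at `p` of order prime to `p` are tame
-/

set_option autoImplicit false

namespace FermatAgent.TW.Flat

open FermatAgent.RT FermatAgent.Local
open scoped Pointwise

noncomputable section

local notation "Qb" => AlgebraicClosure ℚ
local notation "GQ" => AlgebraicClosure ℚ ≃ₐ[ℚ] AlgebraicClosure ℚ

variable {A : ValuationSubring Qb} {p : ℕ} [Fact p.Prime]

/-- Inertia is normal in the decomposition group. -/
theorem conj_mem_inertia' {g i : GQ} (hg : g ∈ A.decompositionSubgroup ℚ)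
    (hi : i ∈ A.inertiaSubgroupIn ℚ) : g * i * g⁻¹ ∈ A.inertiaSubgroupIn ℚ := by
  have h := TW.conj_mem_inertia (g := g) hi
  rwa [show g • A = A from MulAction.mem_stabilizer_iff.1 hg] at h

/-- The tame character of a level: its kernel has `p`-power order in every quotient of that level,
Frobenius raises it to the `p`-th power and its image is cyclic of order prime to `p`. -/
theorem exists_tame (hA : A.LiesOverPrime p) {G : Type*} [Group G] (L : IntermediateField ℚ Qb)
    [FiniteDimensional ℚ L] [Normal ℚ L] (f : A.inertiaSubgroupIn ℚ →* G)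
    (hL : ∀ σ : A.inertiaSubgroupIn ℚ, (∀ x ∈ L, (σ : GQ) x = x) → f σ = 1) :
    ∃ θ : A.inertiaSubgroupIn ℚ →* (IsLocalRing.ResidueField A)ˣ,
      Finite θ.range ∧ (∀ σ, θ σ = 1 → ∃ a, f σ ^ p ^ a = 1) ∧
      (∀ F : GQ, A.IsFrobeniusAt F p → ∀ σ σ' : A.inertiaSubgroupIn ℚ,
        (σ' : GQ) = F * (σ : GQ) * F⁻¹ → θ σ' = θ σ ^ p) ∧
      ∀ g ∈ A.decompositionSubgroup ℚ, ∀ σ σ' : A.inertiaSubgroupIn ℚ,
        (σ' : GQ) = g * (σ : GQ) * g⁻¹ → θ σ = 1 → θ σ' = 1 := by
  classical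
  have hp := (Fact.out : p.Prime)
  obtain ⟨π, hπL, hπ0, -, hπ⟩ := exists_uniformiser hp hA L
  have hconj : ∀ g ∈ A.decompositionSubgroup ℚ, ∀ σ σ' : A.inertiaSubgroupIn ℚ,
      (σ' : GQ) = g * (σ : GQ) * g⁻¹ →
        tameVal A π σ' = res A (g ((σ : GQ) (g⁻¹ π) / g⁻¹ π)) := by
    intro g hg σ σ' hσ'
    rw [tameVal_eq_res hπ0 (mem_decomposition_of_inertia σ'.2), hσ', map_div₀]
    congr 2
    rw [← AlgEquiv.mul_apply g g⁻¹, mul_inv_cancel, AlgEquiv.one_apply]
  have hy : ∀ g ∈ A.decompositionSubgroup ℚ, ∀ σ : A.inertiaSubgroupIn ℚ,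
      res A ((σ : GQ) (g⁻¹ π) / g⁻¹ π) = tameVal A π σ := by
    intro g hg σ
    have hy0 : g⁻¹ π ≠ 0 := by simpa using hπ0
    have hv : A.valuation (g⁻¹ π) = A.valuation π := val_galois_eq (inv_mem hg) π
    rw [← tameVal_eq_res hy0 (mem_decomposition_of_inertia σ.2),
      tameVal_eq_of_val_eq hπ0 hv σ.2]
  refine ⟨tameHom A hπ0, ?_, fun σ hσ => ?_, fun F hF σ σ' hσ' => ?_, fun g hg σ σ' hσ' hσ => ?_⟩
  · refine Set.Finite.to_subtype ?_
    refine ((Set.finite_range fun g : L ≃ₐ[ℚ] L => (g ⟨π, hπL⟩ : Qb) / π).image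
      (fun z : Qb => if h : z ∈ A then IsLocalRing.residue A ⟨z, h⟩ else 0)).preimage
      (Units.val_injective.injOn) |>.subset ?_
    rintro _ ⟨σ, rfl⟩
    refine ⟨_, ⟨AlgEquiv.restrictNormalHom L (σ : GQ), rfl⟩, ?_⟩
    show (if h : _ then _ else _) = tameVal A π σ
    simp only [show ((AlgEquiv.restrictNormalHom L (σ : GQ)) ⟨π, hπL⟩ : Qb) = (σ : GQ) π from
      AlgEquiv.restrictNormal_commutes (σ : GQ) L ⟨π, hπL⟩]
    rfl
  · have h : tameVal A π σ = 1 := congrArg Units.val hσ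
    have hd := mem_decomposition_of_inertia σ.2
    obtain ⟨a, ha⟩ := exists_pow_fix_of_tame hp hA L σ.2 fun x hxL hx0 => by
      obtain ⟨k, hk⟩ := hπ x hxL hx0
      have hπk : π ^ k ≠ 0 := zpow_ne_zero _ hπ0
      have h1 : (σ : GQ) (π ^ k) / π ^ k = ((σ : GQ) π / π) ^ k := by rw [map_zpow₀, div_zpow]
      have hu : IsUnit (⟨(σ : GQ) π / π, ratio_mem hd hπ0⟩ : A) := by
        rw [← IsLocalRing.residue_ne_zero_iff_isUnit, ← tameVal_eq, h]; exact one_ne_zero
      obtain ⟨u, hu⟩ := hu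
      have hx1 : tameVal A x σ = 1 := by
        rw [tameVal_eq_of_val_eq hπk (by rw [hk, map_zpow₀]) σ.2, tameVal_eq_res hπk hd, h1]
        have e : ((σ : GQ) π / π) ^ k = A.subtype ((u ^ k : Aˣ) : A) := by
          show _ = ((Units.map (A.subtype : A →* Qb) (u ^ k) : Qbˣ) : Qb)
          rw [map_zpow, Units.val_zpow_eq_zpow_val]
          show _ = (A.subtype (u : A)) ^ k
          rw [show A.subtype (u : A) = (σ : GQ) π / π from congrArg Subtype.val hu]
        rw [e]
        show res A (((u ^ k : Aˣ) : A) : Qb) = 1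
        rw [res_eq (((u ^ k : Aˣ) : A)).2]
        show ((Units.map (IsLocalRing.residue A : A →* _) (u ^ k) :
          (IsLocalRing.ResidueField A)ˣ) : IsLocalRing.ResidueField A) = 1
        rw [map_zpow]
        have hu1 : Units.map (IsLocalRing.residue A : A →* _) u = 1 := Units.ext (by
          show IsLocalRing.residue A (u : A) = 1
          rw [hu, ← tameVal_eq, h])
        rw [hu1, one_zpow, Units.val_one]
      rw [tameVal_eq (ratio_mem hd hx0), ← map_one (IsLocalRing.residue A), residue_eq_iff] at hx1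
      have : (σ : GQ) x - x = x * ((σ : GQ) x / x - 1) := by field_simp
      rw [this, map_mul]
      exact mul_lt_of_lt_one_right (A.valuation.pos_iff.2 hx0) hx1
    refine ⟨a, ?_⟩
    rw [← map_pow]
    exact hL _ fun x hx => by rw [SubgroupClass.coe_pow]; exact ha x hx
  · have hFd := (isFrobeniusAt_iff.1 hF).1
    refine Units.ext ?_
    show tameVal A π σ' = (tameHom A hπ0 σ ^ p : _)
    rw [Units.val_pow_eq_pow_val]
    show tameVal A π σ' = tameVal A π σ ^ p
    rw [hconj F hFd σ σ' hσ', res_frobenius hF, hy F hFd σ]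
    exact ratio_mem (mem_decomposition_of_inertia σ.2) (by simpa using hπ0)
  · refine Units.ext ?_
    show tameVal A π σ' = 1
    have hy0 : g⁻¹ π ≠ 0 := by simpa using hπ0
    have hmem := ratio_mem (mem_decomposition_of_inertia σ.2) hy0
    have h : tameVal A π σ = 1 := congrArg Units.val hσ
    rw [← hy g hg σ, ← res_one (A := A), res_eq_res_iff hmem A.one_mem] at h
    rw [hconj g hg σ σ' hσ', ← res_one (A := A),
      res_eq_res_iff ((decomposition_mem_iff hg _).2 hmem) A.one_mem,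
      show g ((σ : GQ) (g⁻¹ π) / g⁻¹ π) - 1 = g ((σ : GQ) (g⁻¹ π) / g⁻¹ π - 1) by
        rw [map_sub, map_one],
      val_galois_eq hg]
    exact h

/-- A finite subgroup of the units of the residue field has order prime to `p`. -/
theorem not_dvd_card_of_residue (hA : A.LiesOverPrime p)
    (S : Subgroup (IsLocalRing.ResidueField A)ˣ) [Finite S] : ¬ p ∣ Nat.card S := by
  intro hd
  have := Duality.Local.charP_residue (Fact.out : p.Prime) hA
  obtain ⟨x, hx⟩ := exists_prime_orderOf_dvd_card' p hd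
  have h1 : ((x : (IsLocalRing.ResidueField A)ˣ) : IsLocalRing.ResidueField A) ^ p = 1 := by
    have := pow_orderOf_eq_one x
    rw [hx] at this
    exact congrArg (fun z : S => ((z : (IsLocalRing.ResidueField A)ˣ) :
      IsLocalRing.ResidueField A)) this
  have h2 : x = 1 := Subtype.ext (Units.ext (frobenius_inj (IsLocalRing.ResidueField A) p
    (by simpa [frobenius_def] using h1)))
  rw [h2, orderOf_one] at hx
  exact (Fact.out : p.Prime).ne_one hx.symm

/-- An abelian image of order prime to `p`: Frobenius acts by the `p`-th power. -/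
theorem map_frobenius_conj (hA : A.LiesOverPrime p) {G : Type*} [Group G]
    (L : IntermediateField ℚ Qb) [FiniteDimensional ℚ L] [Normal ℚ L]
    (f : A.inertiaSubgroupIn ℚ →* G)
    (hL : ∀ σ : A.inertiaSubgroupIn ℚ, (∀ x ∈ L, (σ : GQ) x = x) → f σ = 1)
    (hord : ∀ σ, ∃ m, Nat.Coprime m p ∧ f σ ^ m = 1)
    {F : GQ} (hF : A.IsFrobeniusAt F p) (σ σ' : A.inertiaSubgroupIn ℚ)
    (hσ' : (σ' : GQ) = F * (σ : GQ) * F⁻¹) : f σ' = f σ ^ p := by
  obtain ⟨θ, -, hker, hrel, -⟩ := exists_tame hA L f hL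
  have h1 : θ (σ' * (σ ^ p)⁻¹) = 1 := by
    rw [map_mul, map_inv, map_pow, hrel F hF σ σ' hσ', mul_inv_cancel]
  obtain ⟨a, ha⟩ := hker _ h1
  obtain ⟨m, hm, hm'⟩ := hord (σ' * (σ ^ p)⁻¹)
  have := pow_gcd_eq_one.2 ⟨hm', ha⟩
  rw [Nat.Coprime.pow_right a hm, pow_one, map_mul, map_inv, map_pow, mul_inv_eq_one] at this
  exact this

end

end FermatAgent.TW.Flat
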