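import Fermat.Agent.TW.Tame
import Fermat.Agent.TW.Cyclo
import Fermat.Agent.Duality.Local.Units
import Fermat.Agent.Mazur.Descent.Unramified

/-!
# Values and residues at a place over `p`: uniformisers of tame levels

`Uniform A J u`: the values of the elements fixed by `J` are the powers of `u`.
For `π ^ e = -p` (`p ∤ e`) the inertia group rotates `π` by all `e`-th roots of unity and the
stabiliser of `π` has `Uniform A _ (v π)`.
-/

set_option autoImplicit false

open scoped Pointwise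

namespace FermatAgent.TW.Flat

open FermatAgent.Local FermatAgent.RT

noncomputable section

local notation "Qb" => AlgebraicClosure ℚ
local notation "GQ" => AlgebraicClosure ℚ ≃ₐ[ℚ] AlgebraicClosure ℚ

variable {A : ValuationSubring Qb}

/-- Values as powers: comparison. -/
theorem zpow_le_zpow_iff' {Γ : Type*} [LinearOrderedCommGroupWithZero Γ] {u : Γ} (h0 : u ≠ 0)
    (h1 : u < 1) {m n : ℤ} : u ^ m ≤ u ^ n ↔ n ≤ m :=
  zpow_le_zpow_iff_right_of_lt_one₀ (zero_lt_iff.2 h0) h1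

theorem zpow_lt_zpow_iff' {Γ : Type*} [LinearOrderedCommGroupWithZero Γ] {u : Γ} (h0 : u ≠ 0)
    (h1 : u < 1) {m n : ℤ} : u ^ m < u ^ n ↔ n < m := by
  rw [← not_le, zpow_le_zpow_iff' h0 h1, not_le]

/-- The elements fixed by `J` have values in the powers of `u`. -/
structure Uniform (A : ValuationSubring Qb) (J : Subgroup GQ) (u : A.ValueGroup) : Prop where
  ne_zero : u ≠ 0
  lt_one : u < 1
  fixed : ∀ x : Qb, x ≠ 0 → (∀ σ ∈ J, σ x = x) → ∃ n : ℤ, A.valuation x = u ^ n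

namespace Uniform

variable {J : Subgroup GQ} {u : A.ValueGroup}

theorem le_of_lt_pow (hu : Uniform A J u) {x : Qb} (hfix : ∀ σ ∈ J, σ x = x) {k : ℕ}
    (hlt : A.valuation x < u ^ k) : A.valuation x ≤ u ^ (k + 1) := by
  rcases eq_or_ne x 0 with rfl | hx
  · simp
  obtain ⟨n, hn⟩ := hu.fixed x hx hfix
  rw [hn, ← zpow_natCast, zpow_lt_zpow_iff' hu.ne_zero hu.lt_one] at hlt
  rw [hn, ← zpow_natCast, zpow_le_zpow_iff' hu.ne_zero hu.lt_one]
  omega

theorem le_of_lt_one (hu : Uniform A J u) {x : Qb} (hfix : ∀ σ ∈ J, σ x = x)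
    (hlt : A.valuation x < 1) : A.valuation x ≤ u := by
  simpa using hu.le_of_lt_pow hfix (k := 0) (by simpa using hlt)

theorem exists_natPow (hu : Uniform A J u) {x : Qb} (hx : x ≠ 0) (hfix : ∀ σ ∈ J, σ x = x)
    (hle : A.valuation x ≤ 1) : ∃ n : ℕ, A.valuation x = u ^ n := by
  obtain ⟨n, hn⟩ := hu.fixed x hx hfix
  rw [hn, ← zpow_zero u, zpow_le_zpow_iff' hu.ne_zero hu.lt_one] at hle
  obtain ⟨m, rfl⟩ := Int.eq_ofNat_of_zero_le hle
  exact ⟨m, by rw [hn, zpow_natCast]⟩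

end Uniform

/-- The residue of a number, zero outside `A`. -/
def res (A : ValuationSubring Qb) (x : Qb) : IsLocalRing.ResidueField A :=
  open Classical in if h : x ∈ A then IsLocalRing.residue A ⟨x, h⟩ else 0

theorem res_eq {x : Qb} (h : x ∈ A) : res A x = IsLocalRing.residue A ⟨x, h⟩ := dif_pos h

theorem res_zero : res A 0 = 0 := by
  rw [res_eq A.zero_mem]; exact map_zero _

theorem res_one : res A 1 = 1 := by
  rw [res_eq A.one_mem]; exact map_one _

theorem res_add {x y : Qb} (hx : x ∈ A) (hy : y ∈ A) : res A (x + y) = res A x + res A y := by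
  rw [res_eq hx, res_eq hy, res_eq (A.add_mem _ _ hx hy), ← map_add]; rfl

theorem res_mul {x y : Qb} (hx : x ∈ A) (hy : y ∈ A) : res A (x * y) = res A x * res A y := by
  rw [res_eq hx, res_eq hy, res_eq (A.mul_mem _ _ hx hy), ← map_mul]; rfl

theorem res_pow {x : Qb} (hx : x ∈ A) (n : ℕ) : res A (x ^ n) = res A x ^ n := by
  rw [res_eq hx, res_eq (pow_mem hx n), ← map_pow]; rfl

theorem res_natCast (n : ℕ) : res A (n : Qb) = n := by
  rw [res_eq (natCast_mem A n), ← map_natCast (IsLocalRing.residue A)]; rfl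

theorem res_eq_res_iff {x y : Qb} (hx : x ∈ A) (hy : y ∈ A) :
    res A x = res A y ↔ A.valuation (x - y) < 1 := by
  rw [res_eq hx, res_eq hy]
  exact residue_eq_iff

theorem res_eq_zero_iff {x : Qb} (hx : x ∈ A) : res A x = 0 ↔ A.valuation x < 1 := by
  rw [← res_zero, res_eq_res_iff hx A.zero_mem, sub_zero]

theorem res_ne_zero_iff {x : Qb} (hx : x ∈ A) : res A x ≠ 0 ↔ A.valuation x = 1 := by
  rw [Ne, res_eq_zero_iff hx, not_lt]
  exact ⟨fun h => le_antisymm ((A.valuation_le_one_iff _).2 hx) h, fun h => h.ge⟩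

theorem tameVal_eq_res {x : Qb} (hx : x ≠ 0) {σ : GQ} (hσ : σ ∈ A.decompositionSubgroup ℚ) :
    tameVal A x σ = res A (σ x / x) := by
  rw [tameVal_eq (ratio_mem hσ hx), res_eq (ratio_mem hσ hx)]

theorem res_inertia {σ : GQ} (hσ : σ ∈ A.inertiaSubgroupIn ℚ) {x : Qb} (hx : x ∈ A) :
    res A (σ x) = res A x :=
  (res_eq_res_iff (inertia_apply_mem hσ hx) hx).2 (inertia_val_sub_lt_one hσ hx)

theorem res_frobenius {F : GQ} {ℓ : ℕ} (hF : A.IsFrobeniusAt F ℓ) {x : Qb} (hx : x ∈ A) :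
    res A (F x) = res A x ^ ℓ := by
  rw [← res_pow hx, res_eq_res_iff ((decomposition_mem_iff (isFrobeniusAt_iff.1 hF).1 x).2 hx)
    (pow_mem hx _)]
  exact (isFrobeniusAt_iff.1 hF).2 x hx

variable {p : ℕ} [Fact p.Prime]

/-- Roots of unity of order prime to `p` are separated by the residues. -/
theorem eq_one_of_pow_eq_one_of_close (hA : A.LiesOverPrime p) {e : ℕ} (hpe : ¬ p ∣ e) {η : Qb}
    (hη : η ^ e = 1) (h : A.valuation (η - 1) < 1) : η = 1 := by
  by_contra hne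
  have hηA : η ∈ A := by
    have : η = (η - 1) + 1 := by ring
    rw [this]
    exact A.add_mem _ _ (mem_of_val_le_one h.le) A.one_mem
  have h0 : ∑ i ∈ Finset.range e, η ^ i = 0 := by
    have := geom_sum_mul η e
    rw [hη, sub_self, mul_eq_zero] at this
    exact this.resolve_right (sub_ne_zero.2 hne)
  have h1 : A.valuation (∑ i ∈ Finset.range e, η ^ i - (e : Qb)) < 1 := by
    have e1 : ∑ i ∈ Finset.range e, η ^ i - (e : Qb) = ∑ i ∈ Finset.range e, (η ^ i - 1) := by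
      rw [Finset.sum_sub_distrib, Finset.sum_const, Finset.card_range, nsmul_eq_mul, mul_one]
    rw [e1]
    refine A.valuation.map_sum_lt one_ne_zero fun i _ => ?_
    rw [← geom_sum_mul, map_mul]
    exact val_mul_lt_one_of_le_of_lt
      (val_le_one_of_mem (sum_mem fun j _ => pow_mem hηA j)) h
  rw [h0, zero_sub, Valuation.map_neg, val_natCast_eq_one (Fact.out : p.Prime) hA hpe] at h1
  exact lt_irrefl _ h1

theorem inertia_fix_root (hA : A.LiesOverPrime p) {e : ℕ} (he : e ≠ 0) (hpe : ¬ p ∣ e) {η : Qb}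
    (hη : η ^ e = 1) {σ : GQ} (hσ : σ ∈ A.inertiaSubgroupIn ℚ) : σ η = η := by
  have hη0 : η ≠ 0 := by rintro rfl; simp [he] at hη
  have hv : A.valuation η = 1 := eq_one_of_pow_eq_one he (by rw [← map_pow, hη, map_one])
  have h := eq_one_of_pow_eq_one_of_close hA hpe (η := σ η / η)
    (by rw [div_pow, ← map_pow, hη, map_one, div_one]) (by
      rw [div_sub_one hη0, map_div₀, hv, div_one]
      exact inertia_val_sub_lt_one hσ (mem_of_val_le_one hv.le))
  exact (div_eq_one_iff_eq hη0).1 h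

/-- A finite image of inertia of order `M` and `u ^ M = v p`. -/
theorem uniform_of_hom (hA : A.LiesOverPrime p) {G : Type*} [Group G] [Finite G]
    (φ : A.inertiaSubgroupIn ℚ →* G) {u : A.ValueGroup}
    (hu : u ^ Nat.card G = A.valuation (p : Qb)) (J : Subgroup GQ)
    (hJ : ∀ σ : A.inertiaSubgroupIn ℚ, φ σ = 1 → (σ : GQ) ∈ J) : Uniform A J u := by
  classical
  cases nonempty_fintype G
  have hp := (Fact.out : p.Prime)
  have hp0 : A.valuation (p : Qb) ≠ 0 := natCast_val_ne_zero A hp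
  have hM : Nat.card G ≠ 0 := Nat.card_pos.ne'
  have hu0 : u ≠ 0 := fun h => hp0 (by rw [← hu, h, zero_pow hM])
  have hu1 : u < 1 := by
    by_contra hge
    exact ((one_le_pow₀ (not_lt.mp hge)).trans_eq hu).not_gt hA
  refine ⟨hu0, hu1, fun x hx hfix => ?_⟩
  choose sec hsec using fun g : φ.range => g.2
  let y : φ.range → Qb := fun g => ((sec g : A.inertiaSubgroupIn ℚ) : GQ) x
  have hy : ∀ (τ : A.inertiaSubgroupIn ℚ) (g : φ.range),
      (τ : GQ) (y g) = y (⟨φ τ, τ, rfl⟩ * g) := by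
    intro τ g
    set s' := sec (⟨φ τ, τ, rfl⟩ * g)
    have h1 : φ (s'⁻¹ * (τ * sec g)) = 1 := by
      rw [map_mul, map_inv, map_mul, hsec, hsec, inv_mul_eq_one]
      rfl
    have h2 := hfix _ (hJ _ h1)
    have h3 := congrArg (fun z => (s' : GQ) z) h2
    simp only [Subgroup.coe_mul, Subgroup.coe_inv, AlgEquiv.mul_apply] at h3
    rw [← AlgEquiv.mul_apply, mul_inv_cancel, AlgEquiv.one_apply] at h3
    exact h3
  have hNfix : ∀ σ ∈ A.inertiaSubgroupIn ℚ, σ (∏ g, y g) = ∏ g, y g := by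
    intro σ hσ
    rw [map_prod]
    exact Fintype.prod_equiv (Equiv.mulLeft (⟨φ ⟨σ, hσ⟩, _, rfl⟩ : φ.range)) _ _
      fun g => hy ⟨σ, hσ⟩ g
  have hN0 : ∏ g, y g ≠ 0 := Finset.prod_ne_zero_iff.2 fun g _ => by simpa [y] using hx
  obtain ⟨n, hn⟩ := Mazur.Descent.exists_val_eq_zpow_of_inertia_fixed hp hA hN0 hNfix
  rw [map_prod, Finset.prod_congr rfl (fun g _ => (val_galois_eq
    (mem_decomposition_of_inertia (sec g).2) x : A.valuation (y g) = A.valuation x)),
    Finset.prod_const, Finset.card_univ, ← Nat.card_eq_fintype_card] at hn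
  obtain ⟨c, hc⟩ : Nat.card φ.range ∣ Nat.card G := Subgroup.card_subgroup_dvd_card _
  refine ⟨n * c, ?_⟩
  have hu' : u ^ (n * c) ≠ 0 := zpow_ne_zero _ hu0
  refine (div_eq_one_iff_eq hu').1 (eq_one_of_pow_eq_one hM ?_)
  rw [div_pow, ← zpow_natCast (u ^ (n * c)), ← zpow_mul, mul_comm _ (Nat.card G : ℤ), zpow_mul,
    zpow_natCast, hu, hc, pow_mul, hn, ← zpow_natCast, ← zpow_mul,
    div_self (zpow_ne_zero _ hp0)]

section Root

variable {e : ℕ} [NeZero e] {π : Qb} (hπ : π ^ e = -(p : Qb))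
include hπ

theorem root_ne_zero : π ≠ 0 := by
  rintro rfl
  rw [zero_pow (NeZero.ne e), zero_eq_neg, Nat.cast_eq_zero] at hπ
  exact (Fact.out : p.Prime).ne_zero hπ

omit [NeZero e] in
theorem root_ratio_pow (σ : GQ) : (σ π / π) ^ e = 1 := by
  rw [div_pow, ← map_pow, hπ, map_neg, map_natCast, div_self]
  exact neg_ne_zero.2 (Nat.cast_ne_zero.2 (Fact.out : p.Prime).ne_zero)

omit [Fact p.Prime] [NeZero e] in
theorem val_root_pow : A.valuation π ^ e = A.valuation (p : Qb) := by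
  rw [← map_pow, hπ, Valuation.map_neg]

variable (hA : A.LiesOverPrime p) (hpe : ¬ p ∣ e)

/-- The rotation of `π` by inertia. -/
def rot : A.inertiaSubgroupIn ℚ →* rootsOfUnity e Qb where
  toFun σ := rootsOfUnity.mkOfPowEq ((σ : GQ) π / π) (root_ratio_pow hπ _)
  map_one' := Subtype.ext (Units.ext (by simp [div_self (root_ne_zero hπ)]))
  map_mul' σ τ := Subtype.ext (Units.ext (by
    have := root_ne_zero hπ
    have hσπ : (σ : GQ) π ≠ 0 := by simpa using this
    have h := inertia_fix_root hA (NeZero.ne e) hpe (root_ratio_pow hπ (τ : GQ)) σ.2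
    rw [map_div₀, div_eq_iff hσπ] at h
    simp only [rootsOfUnity.val_mkOfPowEq_coe, Subgroup.coe_mul, Units.val_mul, AlgEquiv.mul_apply]
    rw [h]
    field_simp))

theorem coe_rot (σ : A.inertiaSubgroupIn ℚ) :
    ((rot hπ hA hpe σ : Qbˣ) : Qb) = (σ : GQ) π / π := rootsOfUnity.val_mkOfPowEq_coe _ _

include hA hpe in
/-- Inertia rotates `π` by every `e`-th root of unity. -/
theorem exists_rot {ξ : Qb} (hξ : ξ ^ e = 1) : ∃ σ ∈ A.inertiaSubgroupIn ℚ, σ π = ξ * π := by
  have hp := (Fact.out : p.Prime)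
  set f := rot hπ hA hpe
  set d := Nat.card f.range with hd
  have hfix : ∀ σ ∈ A.inertiaSubgroupIn ℚ, σ (π ^ d) = π ^ d := by
    intro σ hσ
    have h1 : (⟨f ⟨σ, hσ⟩, _, rfl⟩ : f.range) ^ d = 1 := pow_card_eq_one'
    have h2 := congrArg (fun z : f.range => ((z.1 : Qbˣ) : Qb)) h1
    simp only [SubgroupClass.coe_pow, Units.val_pow_eq_pow_val, f, coe_rot, OneMemClass.coe_one,
      Units.val_one] at h2
    rw [map_pow, ← div_eq_one_iff_eq (pow_ne_zero _ (root_ne_zero hπ)), ← div_pow, h2]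
  obtain ⟨n, hn⟩ := Mazur.Descent.exists_val_eq_zpow_of_inertia_fixed hp hA
    (pow_ne_zero d (root_ne_zero hπ)) hfix
  have hp0 : A.valuation (p : Qb) ≠ 0 := natCast_val_ne_zero A hp
  have hde : (e : ℤ) ∣ d := by
    refine ⟨n, zpow_inj_of_lt_one hp0 hA ?_⟩
    rw [zpow_natCast, ← val_root_pow hπ, ← pow_mul, mul_comm, pow_mul, ← map_pow, hn,
      ← zpow_natCast, ← zpow_mul, mul_comm, zpow_mul, zpow_natCast, val_root_pow hπ,
      ← zpow_natCast, ← zpow_mul]
  have hcard : Nat.card (rootsOfUnity e Qb) = e := HasEnoughRootsOfUnity.natCard_rootsOfUnity Qb e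
  have htop : f.range = ⊤ := Subgroup.eq_top_of_le_card _ (by
    rw [hcard]
    exact Nat.le_of_dvd Nat.card_pos (Int.natCast_dvd_natCast.1 hde))
  obtain ⟨σ, hσ⟩ : rootsOfUnity.mkOfPowEq ξ hξ ∈ f.range := by rw [htop]; trivial
  refine ⟨σ, σ.2, ?_⟩
  have h := congrArg (fun z : rootsOfUnity e Qb => ((z : Qbˣ) : Qb)) hσ
  simp only [f, coe_rot, rootsOfUnity.val_mkOfPowEq_coe] at h
  rw [← h, div_mul_cancel₀ _ (root_ne_zero hπ)]

/-- The inertia elements fixing `π`. -/
def stabRoot (A : ValuationSubring Qb) (π : Qb) : Subgroup GQ :=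
  A.inertiaSubgroupIn ℚ ⊓ MulAction.stabilizer GQ π

omit hπ [NeZero e] [Fact p.Prime] in
theorem mem_stabRoot {σ : GQ} : σ ∈ stabRoot A π ↔ σ ∈ A.inertiaSubgroupIn ℚ ∧ σ π = π := Iff.rfl

include hA hpe in
theorem uniform_stabRoot : Uniform A (stabRoot A π) (A.valuation π) := by
  refine uniform_of_hom hA (rot hπ hA hpe) ?_ _ fun σ hσ => ⟨σ.2, ?_⟩
  · rw [HasEnoughRootsOfUnity.natCard_rootsOfUnity Qb e, val_root_pow hπ]
  · have h := congrArg (fun z : rootsOfUnity e Qb => ((z : Qbˣ) : Qb)) hσ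
    simp only [coe_rot, OneMemClass.coe_one, Units.val_one] at h
    exact (div_eq_one_iff_eq (root_ne_zero hπ)).1 h

end Root

/-- Inertia itself. -/
theorem uniform_inertia (hA : A.LiesOverPrime p) :
    Uniform A (A.inertiaSubgroupIn ℚ) (A.valuation (p : Qb)) :=
  ⟨natCast_val_ne_zero A Fact.out, hA,
    fun _ hx hf => Mazur.Descent.exists_val_eq_zpow_of_inertia_fixed Fact.out hA hx hf⟩

section Cyclo

variable {ζ : Qb} (hζ : IsPrimitiveRoot ζ p)
include hζ

theorem zeta_sub_one_ne_zero : ζ - 1 ≠ 0 :=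
  sub_ne_zero.2 (hζ.ne_one (Fact.out : p.Prime).one_lt)

/-- The tame character of `ζ - 1` is the cyclotomic character (on all of the decomposition
group). -/
theorem res_ratio_zeta (hA : A.LiesOverPrime p) (σ : GQ) :
    res A (σ (ζ - 1) / (ζ - 1)) = ((ExtCitation.cycloChar p σ : ZMod p).val :
      IsLocalRing.ResidueField A) := by
  set a := (ExtCitation.cycloChar p σ : ZMod p).val
  have hne := zeta_sub_one_ne_zero hζ
  have hσ : σ (ζ - 1) / (ζ - 1) = ∑ j ∈ Finset.range a, ζ ^ j := by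
    rw [map_sub, map_one, apply_root_eq_pow hζ σ, ← geom_sum_mul, mul_div_cancel_right₀ _ hne]
  have hmem : ∑ j ∈ Finset.range a, ζ ^ j ∈ A :=
    sum_mem fun j _ => pow_mem (Duality.Local.zeta_mem hζ) j
  rw [hσ, ← res_natCast (A := A), res_eq_res_iff hmem (natCast_mem A a)]
  have e : ∑ j ∈ Finset.range a, ζ ^ j - (a : Qb) = ∑ j ∈ Finset.range a, (ζ ^ j - 1) := by
    rw [Finset.sum_sub_distrib, Finset.sum_const, Finset.card_range, nsmul_eq_mul, mul_one]
  rw [e]
  refine A.valuation.map_sum_lt one_ne_zero fun j _ => ?_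
  rw [← geom_sum_mul, map_mul]
  exact val_mul_lt_one_of_le_of_lt (Duality.Local.val_geom_le hζ j)
    (Duality.Local.val_zeta_sub_one_lt hζ hA)

/-- The inertia elements fixing `ζ`. -/
def inertiaCyclo (p : ℕ) [Fact p.Prime] (A : ValuationSubring Qb) : Subgroup GQ :=
  A.inertiaSubgroupIn ℚ ⊓ (ExtCitation.cycloChar p).ker

omit hζ in
theorem mem_inertiaCyclo {σ : GQ} :
    σ ∈ inertiaCyclo p A ↔ σ ∈ A.inertiaSubgroupIn ℚ ∧ ExtCitation.cycloChar p σ = 1 := Iff.rfl

theorem uniform_inertiaCyclo (hA : A.LiesOverPrime p) :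
    Uniform A (inertiaCyclo p A) (A.valuation (ζ - 1)) := by
  refine uniform_of_hom hA ((ExtCitation.cycloChar p).comp (A.inertiaSubgroupIn ℚ).subtype) ?_ _
    fun σ hσ => ⟨σ.2, hσ⟩
  rw [Nat.card_eq_fintype_card, ZMod.card_units p, Duality.Local.val_zeta_sub_one_pow hζ]

omit hζ in
/-- The cyclotomic character is surjective on inertia. -/
theorem exists_inertia_cycloChar (hA : A.LiesOverPrime p) (c : (ZMod p)ˣ) :
    ∃ σ ∈ A.inertiaSubgroupIn ℚ, ExtCitation.cycloChar p σ = c := by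
  have hp := (Fact.out : p.Prime)
  have hp1 : p - 1 ≠ 0 := by have := hp.two_le; omega
  have : NeZero (p - 1) := ⟨hp1⟩
  have : NeZero p := ⟨hp.ne_zero⟩
  have hpe : ¬ p ∣ p - 1 := fun h => by
    have := Nat.le_of_dvd (Nat.pos_of_ne_zero hp1) h
    omega
  obtain ⟨ζ, hζ⟩ := exists_primitiveRoot_qbar p
  obtain ⟨π, hπ⟩ := IsAlgClosed.exists_pow_nat_eq (-(p : Qb)) (Nat.pos_of_ne_zero hp1)
  have hv : A.valuation (ζ - 1) = A.valuation π := by
    refine (pow_left_inj₀ zero_le zero_le hp1).1 ?_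
    rw [Duality.Local.val_zeta_sub_one_pow hζ, val_root_pow hπ]
  have := Duality.Local.charP_residue hp hA
  obtain ⟨η, hη⟩ := exists_primitiveRoot_qbar (p - 1)
  obtain ⟨σ₁, hσ₁, h₁⟩ := exists_rot hπ hA hpe hη.pow_eq_one
  have hgen : orderOf (ExtCitation.cycloChar p σ₁) = p - 1 := by
    refine Nat.dvd_antisymm (by rw [← ZMod.card_units p]; exact orderOf_dvd_card) ?_
    set o := orderOf (ExtCitation.cycloChar p σ₁)
    have hπ0 := root_ne_zero hπ
    have hζ0 := zeta_sub_one_ne_zero hζ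
    have hd := mem_decomposition_of_inertia hσ₁
    have hηA : η ∈ A := mem_of_val_le_one (eq_one_of_pow_eq_one hp1
      (by rw [← map_pow, hη.pow_eq_one, map_one])).le
    have h := tameVal_eq_of_val_eq hπ0 hv hσ₁
    rw [tameVal_eq_res hζ0 hd, tameVal_eq_res hπ0 hd, res_ratio_zeta hζ hA, h₁,
      mul_div_cancel_right₀ _ hπ0] at h
    have hpow : res A (η ^ o) = 1 := by
      have h1 : (ExtCitation.cycloChar p σ₁ : ZMod p) ^ o = 1 := by
        rw [← Units.val_pow_eq_pow_val, pow_orderOf_eq_one, Units.val_one]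
      have h2 := congrArg (ZMod.castHom (dvd_refl p) (IsLocalRing.ResidueField A)) h1
      rw [map_pow, map_one, ZMod.castHom_apply, ← ZMod.natCast_val, h] at h2
      rw [res_pow hηA, h2]
    have := eq_one_of_pow_eq_one_of_close hA hpe (η := η ^ o)
      (by rw [← pow_mul, mul_comm, pow_mul, hη.pow_eq_one, one_pow])
      ((res_eq_res_iff (pow_mem hηA _) A.one_mem).1 (by rw [hpow, res_one]))
    exact (hη.pow_eq_one_iff_dvd o).1 this
  have hmem : c ∈ Subgroup.zpowers (ExtCitation.cycloChar p σ₁) := by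
    rw [Subgroup.eq_top_of_card_eq (Subgroup.zpowers (ExtCitation.cycloChar p σ₁)) (by
      rw [Nat.card_zpowers, hgen, Nat.card_eq_fintype_card, ZMod.card_units p])]
    trivial
  obtain ⟨k, hk⟩ := Subgroup.mem_zpowers_iff.1 hmem
  exact ⟨σ₁ ^ k, zpow_mem hσ₁ k, by rw [map_zpow, hk]⟩

end Cyclo

end

end FermatAgent.TW.Flat
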