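import Fermat.Agent.TW.Flat.Conj

/-!
# Flat with constant unramified quotient: `dim L - h⁰ ≤ 0`
-/

set_option autoImplicit false

open Matrix Module

namespace FermatAgent.TW

noncomputable section

local notation "Qb" => AlgebraicClosure ℚ
local notation "GQ" => AlgebraicClosure ℚ ≃ₐ[ℚ] AlgebraicClosure ℚ

variable {k : Type} [Field k] [Finite k] {p : ℕ} [Fact p.Prime] [Algebra (ZMod p) k]
  {ρ : GQ →* GL (Fin 2) k}

/-- Flat with constant unramified quotient: `dim L - h⁰ ≤ 0`. -/
theorem rankLE_flatConst_of (hρ : TWHyp p ρ) {A : ValuationSubring Qb} (hA : A.LiesOverPrime p)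
    {v : Fin 2 → k} (hv : OrdLine ρ A v) :
    RankLE (flatConstConds ρ p A v ⊔ adCoboundaries ρ (A.decompositionSubgroup ℚ)) 3 :=
  (Flat.rankLE_of_ordLine hA hρ.ne_two hρ.detCyclo hρ.finiteLevel hv).2

end

end FermatAgent.TW
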