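import Fermat.Agent.TW.Flat.IrredBound
import Fermat.Agent.TW.Flat.MainConst

/-!
# Flat: `dim L - h⁰ ≤ 1`
-/

set_option autoImplicit false

open Matrix Module

namespace FermatAgent.TW

noncomputable section

local notation "Qb" => AlgebraicClosure ℚ
local notation "GQ" => AlgebraicClosure ℚ ≃ₐ[ℚ] AlgebraicClosure ℚ

variable {k : Type} [Field k] [Finite k] {p : ℕ} [hp : Fact p.Prime] [Algebra (ZMod p) k]
  {ρ : GQ →* GL (Fin 2) k} {A : ValuationSubring Qb}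

namespace Flat

open FermatAgent.Local groupCohomology

/-- The bound at a pair of characters of level two. -/
theorem rankLE_flat_shape (hA : A.LiesOverPrime p) (hp2 : p ≠ 2) (hdet : DetCyclo p ρ)
    (hρ : ∃ L : IntermediateField ℚ Qb, FiniteDimensional ℚ L ∧ ∀ σ ∈ L.fixingSubgroup, ρ σ = 1)
    {π : Qb} {F : GQ} (hπ : π ^ lvl p = -(p : Qb)) (h : Lvl2Shape p ρ A π F)
    {c₀ : GQ → Matrix (Fin 2) (Fin 2) k} (hc₀ : IsAdCocycle ρ c₀)
    (hl₀ : IsLevelConstant₁ (MonoidHom.id GQ) c₀) (hf₀ : IsFlatCocycle ρ p c₀) :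
    RankLE (flatConds ρ p A ⊔ adCoboundaries ρ (A.decompositionSubgroup ℚ)) 4 := by
  have : NeZero p := ⟨hp.1.ne_zero⟩
  obtain ⟨ζ, hζ⟩ := exists_primitiveRoot_qbar p
  obtain ⟨⟨ι, hι⟩, -⟩ := flat_main hπ hA hζ hp2 hdet h hc₀ hl₀ hf₀ 0 0
  refine rankLE_mono (rankLE_irrU hπ hA hζ hp2 hdet h ι hι hρ) (sup_le ?_ ?_)
  · rw [flatConds, Submodule.span_le]
    rintro _ ⟨c, ⟨hc, hlev, hflat⟩, rfl⟩
    refine ⟨resTo_mem_adCocycles hc hlev, fun j l =>
      (flat_main hπ hA hζ hp2 hdet h hc hlev hflat j l).2.congr fun σ hσ => ?_⟩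
    rw [rowFun, extFun_resTo A c (mem_decomposition_of_inertia hσ.1)]
  · rintro _ ⟨a, rfl⟩
    refine ⟨adDelta_mem hρ _ a, fun j l => (hasLevel_zero _).congr fun σ hσ => ?_⟩
    rw [rowFun, extFun_delta a (mem_decomposition_of_inertia hσ.1), h.stab σ hσ]
    simp [conjAct]

end Flat

/-- Flat: `dim L - h⁰ ≤ 1`. -/
theorem rankLE_flat_of (hρ : TWHyp p ρ) (hA : A.LiesOverPrime p) :
    RankLE (flatConds ρ p A ⊔ adCoboundaries ρ (A.decompositionSubgroup ℚ)) 4 := by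
  by_cases hex : ∃ c, IsAdCocycle ρ c ∧ groupCohomology.IsLevelConstant₁ (MonoidHom.id GQ) c ∧
      IsFlatCocycle ρ p c
  swap
  · rw [Flat.flatConds_eq_bot hex, bot_sup_eq]
    exact ⟨Flat.rankLE_adCoboundaries.1, Flat.rankLE_adCoboundaries.2.trans (by omega)⟩
  obtain ⟨c, hc, hlev, hflat⟩ := hex
  by_cases hno : Flat.NoLineAt ρ A
  · obtain ⟨P, π, F, hπ, hshape⟩ :=
      Flat.exists_lvl2Shape hA hρ.ne_two hρ.detCyclo hρ.finiteLevel hρ.splitEigen hno
    refine Flat.rankLE_of_comap P (Flat.rankLE_flat_shape hA hρ.ne_two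
      (Flat.detCyclo_conjRep P hρ.detCyclo) (Flat.finiteLevel_conjRep P hρ.finiteLevel) hπ hshape
      (Flat.isAdCocycle_conj P hc) (Flat.isLevelConstant₁_conj _ hlev)
      (Flat.isFlatCocycle_conj P hflat)) (sup_le ?_ ?_)
    · exact (Flat.flatConds_le_comap P).trans (Submodule.comap_mono le_sup_left)
    · exact (Flat.adCoboundaries_le_comap P).trans (Submodule.comap_mono le_sup_right)
  · obtain ⟨v, hv, hst⟩ := not_not.1 hno
    obtain ⟨w, hw⟩ :=
      Flat.exists_ordLine_of_stable hA hρ.ne_two hρ.detCyclo hρ.finiteLevel hflat hv hst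
    exact (Flat.rankLE_of_ordLine hA hρ.ne_two hρ.detCyclo hρ.finiteLevel hw).1

end

end FermatAgent.TW
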