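import Fermat.Agent.TW.Flat.Dual

/-!
# Sub-groups and quotients under duality
-/

set_option autoImplicit false

namespace FermatAgent.TW.Flat

open FermatAgent.Local
open scoped Classical

noncomputable section

local notation "Qb" => AlgebraicClosure ℚ
local notation "GQ" => AlgebraicClosure ℚ ≃ₐ[ℚ] AlgebraicClosure ℚ

variable {A : ValuationSubring Qb} {p : ℕ} [Fact p.Prime] {J : Subgroup GQ}
  {X Y X' Y' : Type} [AddCommGroup X] [AddCommGroup Y] [AddCommGroup X'] [AddCommGroup Y']
  [Fintype X] [Fintype Y] [Fintype X'] [Fintype Y']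
  {act : GQ → X → X} {act' : GQ → Y → Y} {act₁ : GQ → X' → X'} {act₁' : GQ → Y' → Y'}

/-- `ι : X' → X` and `π : Y → Y'` are adjoint. -/
structure Adjoint (P : Pairing p J act act') (P' : Pairing p J act₁ act₁') (ι : X' →+ X)
    (π : Y →+ Y') : Prop where
  adj : ∀ x' y, P'.B x' (π y) = P.B (ι x') y
  inj : Function.Injective ι
  surj : Function.Surjective π

variable {P : Pairing p J act act'} {P' : Pairing p J act₁ act₁'} {ι : X' →+ X} {π : Y →+ Y'}
  {ζ : Qb} (hζ : IsPrimitiveRoot ζ p) (hadj : Adjoint P P' ι π)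
include hζ hadj

omit hζ in
theorem Adjoint.chr_eq (x' : X') (y : Y) : P.chr ζ (ι x') y = P'.chr ζ x' (π y) := by
  rw [Pairing.chr, Pairing.chr, hadj.adj]

theorem Adjoint.mem_range {x : X} (hx : ∀ y, π y = 0 → P.B x y = 0) : x ∈ ι.range := by
  let θ : Y' →+ ZMod p := π.liftOfSurjective hadj.surj ⟨P.B x, fun y hy => hx y hy⟩
  have hθ : ∀ y, θ (π y) = P.B x y := fun y =>
    AddMonoidHom.liftOfRightInverse_comp_apply _ _ _ _ y
  obtain ⟨x', hx'⟩ := P'.exists_eq_B hζ θ
  refine ⟨x', sub_eq_zero.1 (P.left _ fun y => ?_)⟩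
  rw [map_sub, AddMonoidHom.sub_apply, sub_eq_zero, ← hadj.adj, hx', hθ]

theorem Adjoint.sum_ker (x : X) : ∑ y ∈ Finset.univ.filter (fun y => π y = 0), P.chr ζ x y =
    if x ∈ ι.range then ((Finset.univ.filter fun y => π y = 0).card : Qb) else 0 := by
  split_ifs with h
  · obtain ⟨x', rfl⟩ := h
    rw [Finset.sum_congr rfl fun y hy => by
      rw [hadj.chr_eq, (Finset.mem_filter.1 hy).2, Pairing.chr_zero_right],
      Finset.sum_const, nsmul_eq_mul, mul_one]
  · obtain ⟨y₀, hy₀, hne⟩ : ∃ y₀, π y₀ = 0 ∧ P.B x y₀ ≠ 0 := by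
      by_contra! hc
      exact h (hadj.mem_range hζ hc)
    have h1 : P.chr ζ x y₀ ≠ 1 := fun h1 =>
      hne (by simpa using (Duality.Local.zpw_eq_one_iff hζ).1 h1)
    have h2 : P.chr ζ x y₀ * ∑ y ∈ Finset.univ.filter (fun y => π y = 0), P.chr ζ x y =
        ∑ y ∈ Finset.univ.filter (fun y => π y = 0), P.chr ζ x y := by
      rw [Finset.mul_sum]
      refine Finset.sum_equiv (Equiv.addLeft y₀) (fun y => ?_) fun y _ =>
        (P.chr_add_right hζ x y₀ y).symm
      simp [hy₀]
    rw [← sub_eq_zero, ← sub_one_mul] at h2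
    exact (mul_eq_zero.1 h2).resolve_left (sub_ne_zero.2 h1)

/-- Restriction is adjoint to pull-back. -/
theorem Adjoint.form_comp (f : X → Qb) (g : Y' → Qb) :
    P.form ζ f (g ∘ π) = P'.form ζ (f ∘ ι) g := by
  obtain ⟨sec, hsec⟩ := hadj.surj.hasRightInverse
  set K := Finset.univ.filter fun y : Y => π y = 0
  have hfib : ∀ x, ∑ y, f x * (g ∘ π) y * P.chr ζ x y =
      f x * (∑ y', g y' * P.chr ζ x (sec y')) * ∑ y ∈ K, P.chr ζ x y := by
    intro x
    rw [← Finset.sum_fiberwise Finset.univ π, mul_assoc, Finset.sum_mul, Finset.mul_sum]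
    refine Finset.sum_congr rfl fun y' _ => ?_
    rw [Finset.mul_sum, Finset.mul_sum]
    refine Finset.sum_equiv (Equiv.subRight (sec y')) (fun y => ?_) fun y hy => ?_
    · simp [K, map_sub, hsec y', sub_eq_zero]
    · rw [Finset.mem_filter] at hy
      rw [Equiv.subRight_apply, Function.comp_apply, hy.2, mul_assoc, mul_assoc,
        ← P.chr_add_right hζ, add_sub_cancel]
  have hK : Fintype.card Y = Fintype.card Y' * K.card := by
    rw [← Finset.card_univ, Finset.card_eq_sum_card_fiberwise (f := π) (t := Finset.univ)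
      fun y _ => Finset.mem_univ _]
    rw [Finset.sum_congr rfl fun y' _ => ?_, Finset.sum_const, smul_eq_mul, Finset.card_univ]
    refine Finset.card_equiv (Equiv.subRight (sec y')) fun y => ?_
    simp [K, map_sub, hsec y', sub_eq_zero]
  have hN : (Fintype.card X : Qb) = Fintype.card X' * K.card := by
    rw [P.card_eq, P'.card_eq, hK, Nat.cast_mul]
  rw [Pairing.form_apply, Pairing.form_apply, Finset.sum_congr rfl fun x _ => hfib x]
  simp only [K, hadj.sum_ker hζ, mul_ite, mul_zero]
  rw [← Finset.sum_filter]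
  have himg : (Finset.univ.filter fun x => x ∈ ι.range) = Finset.univ.image ι := by
    ext x; simp [AddMonoidHom.mem_range]
  rw [himg, Finset.sum_image fun a _ b _ h => hadj.inj h, hN, mul_inv, mul_assoc]
  congr 1
  rw [Finset.mul_sum]
  refine Finset.sum_congr rfl fun x' _ => ?_
  have hK0 : (K.card : Qb) ≠ 0 := Nat.cast_ne_zero.2 (Finset.card_ne_zero.2 ⟨0, by simp [K]⟩)
  simp only [Function.comp_apply, hadj.chr_eq, hsec _, Finset.mul_sum, Finset.sum_mul]
  exact Finset.sum_congr rfl fun y' _ => by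
    rw [show K = Finset.univ.filter fun y => π y = 0 from rfl] at hK0 ⊢
    field_simp

variable {M : Submodule (fixRing A J) (X → Qb)}

/-- The dual of a restriction is the functions pulling back into the dual. -/
theorem dual_restrict : dual P' ζ (M.map (LinearMap.funLeft (fixRing A J) Qb ι)) =
    (dual P ζ M).comap (LinearMap.funLeft (fixRing A J) Qb π) := by
  ext g
  constructor
  · intro hg f hf
    show P.form ζ f (g ∘ π) ∈ _
    rw [hadj.form_comp hζ]
    exact hg _ ⟨f, hf, rfl⟩
  · rintro hg _ ⟨f, hf, rfl⟩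
    show P'.form ζ (f ∘ ι) g ∈ _
    rw [← hadj.form_comp hζ]
    exact hg f hf

omit hζ in
theorem conn_comap {N : Submodule (fixRing A J) (Y → Qb)} (h : Conn N) :
    Conn (N.comap (LinearMap.funLeft (fixRing A J) Qb π)) := by
  intro y' g hg
  obtain ⟨y, rfl⟩ := hadj.surj y'
  simpa [LinearMap.funLeft] using h y _ hg

-- Kept: omitting the unused hypotheses would change the signature of a used lemma.
set_option linter.unusedSectionVars false in
omit hζ in
theorem conn_restrict (h : Conn M) : Conn (M.map (LinearMap.funLeft (fixRing A J) Qb ι)) :=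
  fun τ => (inC_restrict ι).2 (h (ι τ))

/-- A sub-group inherits connectedness of a model and its dual. -/
theorem conn_dual_restrict (h : Conn (dual P ζ M)) :
    Conn (dual P' ζ (M.map (LinearMap.funLeft (fixRing A J) Qb ι))) := by
  rw [dual_restrict hζ hadj]
  exact conn_comap hadj h

end

end FermatAgent.TW.Flat
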