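import Fermat.Agent.TW.Flat.Ops

/-!
# Bases of local models

A minimal generating family of a local model is a `ℚ̄`-basis of all functions.
-/

set_option autoImplicit false

namespace FermatAgent.TW.Flat

open FermatAgent.Local

noncomputable section

local notation "Qb" => AlgebraicClosure ℚ
local notation "GQ" => AlgebraicClosure ℚ ≃ₐ[ℚ] AlgebraicClosure ℚ

variable {A : ValuationSubring Qb} {J : Subgroup GQ} {X : Type} [AddCommGroup X] [Fintype X]
  {act : GQ → X → X} {M : Submodule (fixRing A J) (X → Qb)}

namespace IsLModel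

variable (hM : IsLModel act M)
include hM

theorem act_bijective {σ : GQ} (hσ : σ ∈ J) : Function.Bijective (act σ) :=
  Finite.injective_iff_bijective.1 fun x y h => hM.separates x y fun f hf =>
    σ.injective (by rw [← hM.equivariant f hf σ hσ, ← hM.equivariant f hf σ hσ, h])

theorem span_qbar_eq_top : Submodule.span Qb (M : Set (X → Qb)) = ⊤ := by
  classical
  let B : Subalgebra Qb (X → Qb) := Algebra.adjoin Qb (M : Set (X → Qb))
  have hB : Subalgebra.toSubmodule B = Submodule.span Qb (M : Set (X → Qb)) := by
    rw [Algebra.adjoin_eq_span]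
    congr 1
    refine le_antisymm ?_ Submonoid.subset_closure
    intro f hf
    induction hf using Submonoid.closure_induction with
    | mem f hf => exact hf
    | one => exact hM.one_mem
    | mul f g _ _ hf hg => exact hM.mul_mem f hf g hg
  rw [← hB, eq_top_iff]
  have hsingle : ∀ x : X, (Pi.single x 1 : X → Qb) ∈ B := fun x => by
    have hsep : ∀ y : X, ∃ f ∈ M, y ≠ x → f x ≠ f y := fun y => by
      rcases eq_or_ne y x with rfl | hy
      · exact ⟨1, hM.one_mem, fun h => absurd rfl h⟩
      · by_contra! h
        exact hy (hM.separates y x fun f hf => ((h f hf).2).symm)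
    choose g hgM hg using hsep
    have h : (Pi.single x 1 : X → Qb) = ∏ y ∈ Finset.univ.erase x,
        ((g y x - g y y)⁻¹ • (g y - algebraMap Qb (X → Qb) (g y y))) := by
      funext z
      rw [Finset.prod_apply]
      rcases eq_or_ne z x with rfl | hz
      · rw [Pi.single_eq_same, Finset.prod_eq_one]
        intro y hy
        simp [inv_mul_cancel₀ (sub_ne_zero.mpr (hg y (Finset.ne_of_mem_erase hy)))]
      · rw [Pi.single_eq_of_ne hz,
          Finset.prod_eq_zero (Finset.mem_erase.mpr ⟨hz, Finset.mem_univ z⟩)]
        simp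
    rw [h]
    exact B.prod_mem fun y _ => B.smul_mem
      (B.sub_mem (Algebra.subset_adjoin (hgM y)) (B.algebraMap_mem _)) _
  intro f _
  rw [pi_eq_sum_univ' f]
  exact Submodule.sum_mem _ fun x _ => Submodule.smul_mem _ _ (hsingle x)

/-- A generating set is independent over `ℚ̄` as soon as none of its members is redundant. -/
theorem linearIndependent_of_minimal {s : Finset (X → Qb)}
    (hsM : Submodule.span (fixRing A J) (s : Set (X → Qb)) = M)
    (hmin : ∀ g ∈ s, g ∉ Submodule.span (fixRing A J) ((s : Set (X → Qb)) \ {g})) :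
    LinearIndependent Qb (fun g : s => (g : X → Qb)) := by
  classical
  rw [linearIndependent_iff']
  intro t
  induction t using Finset.strongInduction with
  | H t ih =>
    intro c hc
    by_contra! hne
    obtain ⟨j₀, hj₀, hcj₀⟩ := hne
    obtain ⟨j, hj, hjmax⟩ := t.exists_max_image (fun i => A.valuation (c i)) ⟨j₀, hj₀⟩
    have hcj : c j ≠ 0 := fun h => hcj₀ (by
      have := hjmax j₀ hj₀
      rw [h, map_zero, nonpos_iff_eq_zero, map_eq_zero] at this
      exact this)
    let d := fun i => c i / c j
    have hd : ∑ i ∈ t, d i • (i : X → Qb) = 0 := by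
      have : ∑ i ∈ t, d i • (i : X → Qb) = (c j)⁻¹ • ∑ i ∈ t, c i • (i : X → Qb) := by
        rw [Finset.smul_sum]
        exact Finset.sum_congr rfl fun i _ => by rw [smul_smul, ← div_eq_inv_mul]
      rw [this, hc, smul_zero]
    have hdJ : ∀ i ∈ t, d i ∈ fixRing A J := fun i hi => by
      refine ⟨mem_of_val_le_one ?_, fun σ hσ => ?_⟩
      · rw [map_div₀]
        exact div_le_one_of_le₀ (hjmax i hi) zero_le
      rcases eq_or_ne i j with rfl | hij
      · simp [d, div_self hcj]
      refine sub_eq_zero.mp (ih (t.erase j) (Finset.erase_ssubset hj) (fun k => σ (d k) - d k) ?_ i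
        (Finset.mem_erase.mpr ⟨hij, hi⟩))
      have hσd : ∑ k ∈ t, σ (d k) • (k : X → Qb) = 0 := by
        funext x
        obtain ⟨y, rfl⟩ := (hM.act_bijective hσ).2 x
        have h := congrArg σ (congrFun hd y)
        simp only [Finset.sum_apply, Pi.smul_apply, smul_eq_mul, map_sum, map_mul, Pi.zero_apply,
          map_zero] at h ⊢
        rw [← h]
        refine Finset.sum_congr rfl fun k _ => ?_
        rw [hM.equivariant (k : X → Qb) (hsM.le (Submodule.subset_span k.2)) σ hσ y]
      have h0 : ∑ k ∈ t, (σ (d k) - d k) • (k : X → Qb) = 0 := by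
        simp only [sub_smul, Finset.sum_sub_distrib, hσd, hd, sub_zero]
      rw [← Finset.sum_erase _ (a := j)] at h0
      · exact h0
      · simp [d, div_self hcj]
    refine hmin j j.2 ?_
    have hjeq : (j : X → Qb) = -∑ i ∈ t.erase j, d i • (i : X → Qb) := by
      rw [eq_neg_iff_add_eq_zero, ← hd, ← Finset.add_sum_erase t _ hj]
      simp [d, div_self hcj]
    refine Set.mem_of_eq_of_mem hjeq ?_
    refine Submodule.neg_mem _ (Submodule.sum_mem _ fun i hi => ?_)
    obtain ⟨hij, hi'⟩ := Finset.mem_erase.1 hi
    have h1 : (⟨d i, hdJ i hi'⟩ : fixRing A J) • (i : X → Qb) ∈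
        Submodule.span (fixRing A J) ((s : Set (X → Qb)) \ {(j : X → Qb)}) :=
      Submodule.smul_mem _ _ (Submodule.subset_span ⟨i.2, fun h => hij (Subtype.ext h)⟩)
    exact h1

/-- A basis, indexed by the points. -/
theorem exists_basis : ∃ b : X → X → Qb, LinearIndependent Qb b ∧
    Submodule.span (fixRing A J) (Set.range b) = M := by
  classical
  have hex : ∃ n, ∃ s : Finset (X → Qb), s.card = n ∧
      Submodule.span (fixRing A J) (s : Set (X → Qb)) = M := by
    obtain ⟨s, hs⟩ := hM.fg; exact ⟨_, s, rfl, hs⟩
  obtain ⟨s, hcard, hs⟩ := Nat.find_spec hex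
  have hmin : ∀ g ∈ s, g ∉ Submodule.span (fixRing A J) ((s : Set (X → Qb)) \ {g}) := by
    intro g hg hmem
    refine Nat.find_min hex (hcard ▸ Finset.card_erase_lt_of_mem hg : (s.erase g).card < _)
      ⟨s.erase g, rfl, ?_⟩
    rw [Finset.coe_erase, ← hs]
    refine le_antisymm (Submodule.span_mono Set.sdiff_subset) (Submodule.span_le.2 fun f hf => ?_)
    rcases eq_or_ne f g with rfl | hfg
    · exact hmem
    · exact Submodule.subset_span ⟨hf, hfg⟩
  have hli := hM.linearIndependent_of_minimal hs hmin
  have hspan : ⊤ ≤ Submodule.span Qb (Set.range fun g : s => (g : X → Qb)) := by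
    rw [← hM.span_qbar_eq_top, Submodule.span_le, Subtype.range_coe_subtype]
    intro f hf
    rw [← hs] at hf
    induction hf using Submodule.span_induction with
    | mem h hh => exact Submodule.subset_span hh
    | zero => exact zero_mem _
    | add a b _ _ ha hb => exact add_mem ha hb
    | smul r a _ ha => exact Submodule.smul_mem _ (r : Qb) ha
  let β := Module.Basis.mk hli hspan
  let e : X ≃ s := Fintype.equivOfCardEq (by
    rw [← Module.finrank_pi Qb, Module.finrank_eq_card_basis β])
  refine ⟨fun x => (e x : X → Qb), hli.comp e e.injective, ?_⟩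
  rw [show Set.range (fun x => (e x : X → Qb)) = (s : Set (X → Qb)) by
    ext f; exact ⟨fun ⟨x, hx⟩ => hx ▸ (e x).2, fun hf => ⟨e.symm ⟨f, hf⟩, by simp⟩⟩]
  exact hs

end IsLModel

end

end FermatAgent.TW.Flat
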