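import Fermat.Agent.TW.Flat.Red

/-!
# Change of basis
-/

set_option autoImplicit false

open Matrix Module groupCohomology

namespace FermatAgent.TW.Flat

open FermatAgent.Local

noncomputable section

local notation "Qb" => AlgebraicClosure ℚ
local notation "GQ" => AlgebraicClosure ℚ ≃ₐ[ℚ] AlgebraicClosure ℚ

variable {k : Type} [Field k] {p : ℕ} [Fact p.Prime] [Algebra (ZMod p) k]
  {ρ : GQ →* GL (Fin 2) k} {A : ValuationSubring Qb}

/-- `ρ` in another basis. -/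
def conjRep (P : GL (Fin 2) k) (ρ : GQ →* GL (Fin 2) k) : GQ →* GL (Fin 2) k :=
  (MulAut.conj P).toMonoidHom.comp ρ

@[simp] theorem conjRep_apply (P : GL (Fin 2) k) (σ : GQ) : conjRep P ρ σ = P * ρ σ * P⁻¹ := rfl

theorem coe_conjRep (P : GL (Fin 2) k) (σ : GQ) :
    (conjRep P ρ σ : Matrix (Fin 2) (Fin 2) k) =
      conjAct P (ρ σ : Matrix (Fin 2) (Fin 2) k) := by
  simp [conjAct]

theorem conjRep_conjRep (P Q : GL (Fin 2) k) : conjRep P (conjRep Q ρ) = conjRep (P * Q) ρ := by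
  ext σ : 1
  simp [mul_assoc]

theorem conjAct_conjRep (P : GL (Fin 2) k) (σ : GQ) (a : Matrix (Fin 2) (Fin 2) k) :
    conjAct (conjRep P ρ σ) (conjAct P a) = conjAct P (conjAct (ρ σ) a) := by
  rw [← conjAct_mul, ← conjAct_mul, conjRep_apply, inv_mul_cancel_right]

theorem finiteLevel_conjRep (P : GL (Fin 2) k) (hρ : ∃ L : IntermediateField ℚ Qb,
      FiniteDimensional ℚ L ∧ ∀ σ ∈ L.fixingSubgroup, ρ σ = 1) :
    ∃ L : IntermediateField ℚ Qb, FiniteDimensional ℚ L ∧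
      ∀ σ ∈ L.fixingSubgroup, conjRep P ρ σ = 1 := by
  obtain ⟨L, hL, h⟩ := hρ
  exact ⟨L, hL, fun σ hσ => by simp [h σ hσ]⟩

theorem detCyclo_conjRep (P : GL (Fin 2) k) (h : DetCyclo p ρ) : DetCyclo p (conjRep P ρ) :=
  fun σ => by rw [coe_conjRep, conjAct, Matrix.det_units_conj, h σ]

theorem isAdCocycle_conj (P : GL (Fin 2) k) {c : GQ → Matrix (Fin 2) (Fin 2) k}
    (hc : IsAdCocycle ρ c) : IsAdCocycle (conjRep P ρ) fun σ => conjAct P (c σ) := by
  refine ⟨fun σ => by rw [trace_conjAct, hc.1], fun σ τ => ?_⟩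
  show conjAct P (c (σ * τ)) = conjAct P (c σ) + conjAct (conjRep P ρ σ) (conjAct P (c τ))
  rw [hc.2, conjAct_add, conjAct_conjRep]

theorem isLevelConstant₁_conj {X Y : Type} (f : X → Y) {c : GQ → X}
    (hc : IsLevelConstant₁ (MonoidHom.id GQ) c) :
    IsLevelConstant₁ (MonoidHom.id GQ) fun σ => f (c σ) := by
  obtain ⟨F, hF, h⟩ := hc
  exact ⟨F, hF, fun g s hs => congrArg f (h g s hs)⟩

omit [Fact p.Prime] [Algebra (ZMod p) k] in
theorem isFlatCocycle_conj (P : GL (Fin 2) k) {c : GQ → Matrix (Fin 2) (Fin 2) k}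
    (hc : IsFlatCocycle ρ p c) : IsFlatCocycle (conjRep P ρ) p fun σ => conjAct P (c σ) := by
  obtain ⟨H, hR, hH, h1, h2, h3, e, hadd, heq⟩ := hc
  let φ : ((Fin 2 → k) × (Fin 2 → k)) ≃ ((Fin 2 → k) × (Fin 2 → k)) :=
    { toFun := fun z => ((P : Matrix (Fin 2) (Fin 2) k) *ᵥ z.1,
        (P : Matrix (Fin 2) (Fin 2) k) *ᵥ z.2)
      invFun := fun z => (((P⁻¹ : GL (Fin 2) k) : Matrix (Fin 2) (Fin 2) k) *ᵥ z.1,
        ((P⁻¹ : GL (Fin 2) k) : Matrix (Fin 2) (Fin 2) k) *ᵥ z.2)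
      left_inv := fun z => by simp only [gl_mulVec_mulVec, inv_mul_cancel, Units.val_one,
        Matrix.one_mulVec]
      right_inv := fun z => by simp only [gl_mulVec_mulVec, mul_inv_cancel, Units.val_one,
        Matrix.one_mulVec] }
  refine ⟨H, hR, hH, h1, h2, h3, e.trans φ, fun f g => ?_, fun σ f g h => ?_⟩
  · simp only [Equiv.trans_apply, hadd, φ, Equiv.coe_fn_mk, Prod.fst_add, Prod.snd_add,
      Matrix.mulVec_add, Prod.mk_add_mk]
  · simp only [Equiv.trans_apply, heq σ f g h, φ, Equiv.coe_fn_mk, coe_conjRep, conjAct,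
      Matrix.mulVec_add, Matrix.mulVec_mulVec]
    simp [mul_assoc]

variable (A) in
/-- Change of basis on functions. -/
def conjFun (P : GL (Fin 2) k) :
    (A.decompositionSubgroup ℚ → Matrix (Fin 2) (Fin 2) k) →ₗ[k]
      (A.decompositionSubgroup ℚ → Matrix (Fin 2) (Fin 2) k) where
  toFun c σ := conjAct P (c σ)
  map_add' _ _ := funext fun _ => conjAct_add _ _ _
  map_smul' _ _ := funext fun _ => conjAct_smul _ _ _

theorem conjFun_injective (P : GL (Fin 2) k) : Function.Injective (conjFun A P) :=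
  fun a b h => funext fun σ => by
    have := congrArg (conjAct P⁻¹) (congrFun h σ)
    simpa [conjFun, ← conjAct_mul] using this

omit [Fact p.Prime] [Algebra (ZMod p) k] in
theorem flatConds_le_comap (P : GL (Fin 2) k) :
    flatConds ρ p A ≤ (flatConds (conjRep P ρ) p A).comap (conjFun A P) := by
  refine Submodule.span_le.2 ?_
  rintro _ ⟨c, ⟨hc, hlev, hflat⟩, rfl⟩
  exact Submodule.subset_span ⟨fun σ => conjAct P (c σ),
    ⟨isAdCocycle_conj P hc, isLevelConstant₁_conj _ hlev, isFlatCocycle_conj P hflat⟩, rfl⟩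

theorem adCoboundaries_le_comap (P : GL (Fin 2) k) :
    adCoboundaries ρ (A.decompositionSubgroup ℚ) ≤
      (adCoboundaries (conjRep P ρ) (A.decompositionSubgroup ℚ)).comap (conjFun A P) := by
  rintro _ ⟨a, rfl⟩
  refine ⟨⟨conjAct P (a : Matrix (Fin 2) (Fin 2) k),
    mem_sl2.2 (by rw [trace_conjAct, mem_sl2.1 a.2])⟩, funext fun σ => ?_⟩
  show conjAct (conjRep P ρ σ) (conjAct P (a : Matrix (Fin 2) (Fin 2) k)) -
      conjAct P (a : Matrix (Fin 2) (Fin 2) k) =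
    conjAct P (conjAct (ρ σ) (a : Matrix (Fin 2) (Fin 2) k) - (a : Matrix (Fin 2) (Fin 2) k))
  rw [conjAct_conjRep]
  simp [conjAct, Matrix.mul_sub, Matrix.sub_mul]

theorem strictConds_le_comap (_hρ : ∃ L : IntermediateField ℚ Qb, FiniteDimensional ℚ L ∧
      ∀ σ ∈ L.fixingSubgroup, ρ σ = 1) (P : GL (Fin 2) k) (v : Fin 2 → k) :
    strictConds ρ A v ≤ (strictConds (conjRep P ρ) A
      ((P : Matrix (Fin 2) (Fin 2) k) *ᵥ v)).comap (conjFun A P) := by
  rintro c ⟨⟨htr, hcoc, F, hF, hlev⟩, hv⟩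
  refine ⟨⟨fun σ => by
    show Matrix.trace (conjAct P (c σ)) = 0
    rw [trace_conjAct, htr], fun σ τ => ?_, F, hF, fun g s hs => congrArg (conjAct P) (hlev g s hs)⟩,
    fun τ => ?_⟩
  · show conjAct P (c (σ * τ)) = conjAct P (c σ) + conjAct (conjRep P ρ σ) (conjAct P (c τ))
    rw [hcoc, conjAct_add, conjAct_conjRep]
  · show conjAct P (c τ) *ᵥ ((P : Matrix (Fin 2) (Fin 2) k) *ᵥ v) = 0
    rw [conjAct, Matrix.mulVec_mulVec, mul_assoc, ← Units.val_mul, inv_mul_cancel, Units.val_one,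
      mul_one, ← Matrix.mulVec_mulVec, hv τ, Matrix.mulVec_zero]

theorem rankLE_of_comap {Z Z' : Submodule k (A.decompositionSubgroup ℚ → Matrix (Fin 2) (Fin 2) k)}
    {n : ℕ} (P : GL (Fin 2) k) (h : RankLE Z' n) (hle : Z ≤ Z'.comap (conjFun A P)) :
    RankLE Z n := by
  have h1 : RankLE (Z.map (conjFun A P)) n := rankLE_mono h (Submodule.map_le_iff_le_comap.2 hle)
  have e := Submodule.equivMapOfInjective (conjFun A P) (conjFun_injective P) Z
  have := h1.1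
  exact ⟨Module.Finite.equiv e.symm, e.finrank_eq.trans_le h1.2⟩

theorem exists_mulVec_eq_e0 {v : Fin 2 → k} (hv : v ≠ 0) :
    ∃ P : GL (Fin 2) k, (P : Matrix (Fin 2) (Fin 2) k) *ᵥ v = ![1, 0] := by
  by_cases h : v 0 = 0
  · have h1 : v 1 ≠ 0 := fun h1 => hv (funext fun i => by fin_cases i <;> simp [h, h1])
    refine ⟨Matrix.GeneralLinearGroup.mkOfDetNeZero !![0, (v 1)⁻¹; 1, 0] (by simp [h1]), ?_⟩
    ext i
    fin_cases i <;>
      simp [Matrix.GeneralLinearGroup.mkOfDetNeZero, Matrix.mulVec, dotProduct,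
        Fin.sum_univ_two, h, h1]
  · refine ⟨Matrix.GeneralLinearGroup.mkOfDetNeZero !![(v 0)⁻¹, 0; -(v 1 / v 0), 1]
      (by simp [Matrix.det_fin_two, h]), ?_⟩
    ext i
    fin_cases i <;>
      simp [Matrix.GeneralLinearGroup.mkOfDetNeZero, Matrix.mulVec, dotProduct,
        Fin.sum_univ_two, h]

theorem mulVec_conjRep (P : GL (Fin 2) k) (σ : GQ) (v : Fin 2 → k) :
    (conjRep P ρ σ : Matrix (Fin 2) (Fin 2) k) *ᵥ ((P : Matrix (Fin 2) (Fin 2) k) *ᵥ v) =
      (P : Matrix (Fin 2) (Fin 2) k) *ᵥ ((ρ σ : Matrix (Fin 2) (Fin 2) k) *ᵥ v) := by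
  rw [Matrix.mulVec_mulVec, Matrix.mulVec_mulVec, ← Units.val_mul, ← Units.val_mul, conjRep_apply,
    inv_mul_cancel_right]

theorem ordLine_conjRep (P : GL (Fin 2) k) {v : Fin 2 → k} (hv : OrdLine ρ A v) :
    OrdLine (conjRep P ρ) A ((P : Matrix (Fin 2) (Fin 2) k) *ᵥ v) where
  ne_zero h := hv.ne_zero (by
    have := congrArg (fun w => ((P⁻¹ : GL (Fin 2) k) : Matrix (Fin 2) (Fin 2) k) *ᵥ w) h
    simpa only [gl_mulVec_mulVec, inv_mul_cancel, Units.val_one, Matrix.one_mulVec,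
      Matrix.mulVec_zero] using this)
  stable σ hσ := by
    obtain ⟨x, hx⟩ := hv.stable σ hσ
    exact ⟨x, by rw [mulVec_conjRep, hx, Matrix.mulVec_smul]⟩
  quotient σ hσ w := by
    obtain ⟨w, rfl⟩ : ∃ w', w = (P : Matrix (Fin 2) (Fin 2) k) *ᵥ w' :=
      ⟨((P⁻¹ : GL (Fin 2) k) : Matrix (Fin 2) (Fin 2) k) *ᵥ w, by
        rw [gl_mulVec_mulVec, mul_inv_cancel, Units.val_one, Matrix.one_mulVec]⟩
    obtain ⟨r, hr⟩ := hv.quotient σ hσ w
    exact ⟨r, by rw [mulVec_conjRep, ← Matrix.mulVec_sub, hr, Matrix.mulVec_smul]⟩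

variable [Finite k] in
/-- The bounds along an ordinary line. -/
theorem rankLE_of_ordLine (hA : A.LiesOverPrime p) (hp2 : p ≠ 2) (hdet : DetCyclo p ρ)
    (hρ : ∃ L : IntermediateField ℚ Qb, FiniteDimensional ℚ L ∧ ∀ σ ∈ L.fixingSubgroup, ρ σ = 1)
    {v : Fin 2 → k} (hv : OrdLine ρ A v) :
    RankLE (flatConds ρ p A ⊔ adCoboundaries ρ (A.decompositionSubgroup ℚ)) 4 ∧
    RankLE (flatConstConds ρ p A v ⊔ adCoboundaries ρ (A.decompositionSubgroup ℚ)) 3 := by
  obtain ⟨P, hP⟩ := exists_mulVec_eq_e0 hv.ne_zero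
  have hv' := ordLine_conjRep P hv
  rw [hP] at hv'
  have hdet' := detCyclo_conjRep P hdet
  have hup : UpperAt (conjRep P ρ) A := fun σ hσ => by
    obtain ⟨x, hx⟩ := hv'.stable σ hσ
    simpa [Matrix.mulVec, dotProduct, Fin.sum_univ_two] using congrFun hx 1
  have hquot : ∀ σ ∈ A.inertiaSubgroupIn ℚ,
      (conjRep P ρ σ : Matrix (Fin 2) (Fin 2) k) 1 1 = 1 := fun σ hσ => by
    obtain ⟨r, hr⟩ := hv'.quotient σ hσ ![0, 1]
    have := congrFun hr 1
    simp [sub_eq_zero] at this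
    simpa using this
  have hord : OrdUpper p (conjRep P ρ) A := by
    refine ⟨hup, fun σ hσ => ?_, hquot⟩
    rw [← hdet' σ, Matrix.det_fin_two, hquot σ hσ, hup σ (mem_decomposition_of_inertia hσ)]
    ring
  have hρ' := finiteLevel_conjRep P hρ
  refine ⟨rankLE_of_comap P (rankLE_flat_upper hA hp2 hord hρ') (sup_le ?_ ?_),
    rankLE_of_comap P (rankLE_flatConst_upper hA hp2 hord hρ') (sup_le ?_ ?_)⟩
  · exact (flatConds_le_comap P).trans (Submodule.comap_mono le_sup_left)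
  · exact (adCoboundaries_le_comap P).trans (Submodule.comap_mono le_sup_right)
  · rintro x ⟨hxf, hxs⟩
    refine Submodule.mem_sup_left ⟨flatConds_le_comap P hxf, ?_⟩
    have h1 : strictConds ρ A v ⊔ adCoboundaries ρ (A.decompositionSubgroup ℚ) ≤
        (strictConds (conjRep P ρ) A ![1, 0] ⊔
          adCoboundaries (conjRep P ρ) (A.decompositionSubgroup ℚ)).comap (conjFun A P) :=
      sup_le ((hP ▸ strictConds_le_comap hρ P v).trans (Submodule.comap_mono le_sup_left))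
        ((adCoboundaries_le_comap P).trans (Submodule.comap_mono le_sup_right))
    exact h1 hxs
  · exact (adCoboundaries_le_comap P).trans (Submodule.comap_mono le_sup_right)

variable [Finite k] in
/-- A stable line gives an ordinary line, if a flat deformation exists. -/
theorem exists_ordLine_of_stable (hA : A.LiesOverPrime p) (hp2 : p ≠ 2) (hdet : DetCyclo p ρ)
    (hρ : ∃ L : IntermediateField ℚ Qb, FiniteDimensional ℚ L ∧ ∀ σ ∈ L.fixingSubgroup, ρ σ = 1)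
    {c : GQ → Matrix (Fin 2) (Fin 2) k} (hflat : IsFlatCocycle ρ p c)
    {v : Fin 2 → k} (hv : v ≠ 0)
    (hst : ∀ σ ∈ A.decompositionSubgroup ℚ, ∃ x : k,
      (ρ σ : Matrix (Fin 2) (Fin 2) k) *ᵥ v = x • v) :
    ∃ w, OrdLine ρ A w := by
  obtain ⟨P, hP⟩ := exists_mulVec_eq_e0 hv
  have hup : UpperAt (conjRep P ρ) A := fun σ hσ => by
    obtain ⟨x, hx⟩ := hst σ hσ
    have h := mulVec_conjRep (ρ := ρ) P σ v
    rw [hP, hx, Matrix.mulVec_smul, hP] at h
    simpa [Matrix.mulVec, dotProduct, Fin.sum_univ_two] using congrFun h 1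
  obtain ⟨L, hL, hρL⟩ := finiteLevel_conjRep P hρ
  obtain ⟨G⟩ := exists_functionModel (isFlatCocycle_conj P hflat)
  obtain ⟨w, hw⟩ := exists_ordLine hup hA hρL hp2 (detCyclo_conjRep P hdet) G
  have h := ordLine_conjRep P⁻¹ hw
  rw [conjRep_conjRep, inv_mul_cancel] at h
  have h1 : conjRep (1 : GL (Fin 2) k) ρ = ρ := by ext σ : 1; simp
  exact ⟨_, h1 ▸ h⟩

end

end FermatAgent.TW.Flat
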