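import Fermat.Agent.TW.Flat.Dual

/-!
# Determinants of local models

The product of the determinants of dual bases is fixed by the order of the group; this pins down
a model and its dual between lattices with known determinants.
-/

set_option autoImplicit false

namespace FermatAgent.TW.Flat

open FermatAgent.Local
open scoped Classical

noncomputable section

local notation "Qb" => AlgebraicClosure ℚ
local notation "GQ" => AlgebraicClosure ℚ ≃ₐ[ℚ] AlgebraicClosure ℚ

variable {A : ValuationSubring Qb} {J : Subgroup GQ} {X : Type}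

/-- The value of the determinant of a family of functions. -/
def vdet (A : ValuationSubring Qb) {ι : Type*} [Fintype ι] (f : ι → X → Qb) (e : ι ≃ X) :
    A.ValueGroup :=
  A.valuation (Matrix.det (Matrix.of fun i j => f i (e j)))

section lattices

variable {ι : Type*} [Fintype ι] {κ : Type*} [Fintype κ]

theorem val_sign {σ : Equiv.Perm ι} : A.valuation ((Equiv.Perm.sign σ : ℤ) : Qb) = 1 := by
  rcases Int.units_eq_one_or (Equiv.Perm.sign σ) with h | h <;> simp [h, Valuation.map_neg]

theorem vdet_equiv (f : ι → X → Qb) (e e' : ι ≃ X) : vdet A f e = vdet A f e' := by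
  have h : (Matrix.of fun i j => f i (e j)) =
      (Matrix.of fun i j => f i (e' j)).submatrix id (e.trans e'.symm) := by
    ext i j; simp
  rw [vdet, vdet, h, Matrix.det_permute', map_mul, val_sign, one_mul]

theorem vdet_comp (f : ι → X → Qb) (τ : κ ≃ ι) (e : ι ≃ X) :
    vdet A (f ∘ τ) (τ.trans e) = vdet A f e := by
  rw [vdet, vdet, ← Matrix.det_submatrix_equiv_self τ (Matrix.of fun i j => f i (e j))]
  rfl

variable {f l : ι → X → Qb} (hfl : ∀ i, f i ∈ Submodule.span (fixRing A J) (Set.range l))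
include hfl

theorem exists_coeff : ∃ C : Matrix ι ι (fixRing A J),
    ∀ i x, f i x = ∑ j, (C i j : Qb) * l j x := by
  choose C hC using fun i => (Submodule.mem_span_range_iff_exists_fun _).1 (hfl i)
  refine ⟨Matrix.of C, fun i x => ?_⟩
  rw [← hC i, Finset.sum_apply]
  rfl

theorem exists_vdet_eq_mul (e : ι ≃ X) :
    ∃ C : Matrix ι ι (fixRing A J), (∀ i x, f i x = ∑ j, (C i j : Qb) * l j x) ∧
      vdet A f e = A.valuation (C.det : Qb) * vdet A l e := by
  obtain ⟨C, hC⟩ := exists_coeff hfl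
  refine ⟨C, hC, ?_⟩
  have h : (Matrix.of fun i j => f i (e j)) =
      C.map (fixRing A J).subtype * (Matrix.of fun i j => l i (e j)) := by
    ext i j; simp [Matrix.mul_apply, hC]
  rw [vdet, h, Matrix.det_mul, map_mul, ← RingHom.mapMatrix_apply, ← RingHom.map_det]
  rfl

theorem vdet_le (e : ι ≃ X) : vdet A f e ≤ vdet A l e := by
  obtain ⟨C, -, h⟩ := exists_vdet_eq_mul hfl e
  rw [h]
  exact mul_le_of_le_one_left' (val_fixRing_le C.det)

theorem span_eq_of_vdet (e : ι ≃ X) (hle : vdet A l e ≤ vdet A f e) (hl : vdet A l e ≠ 0) :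
    Submodule.span (fixRing A J) (Set.range f) = Submodule.span (fixRing A J) (Set.range l) := by
  obtain ⟨C, hC, h⟩ := exists_vdet_eq_mul hfl e
  refine le_antisymm (Submodule.span_le.2 (Set.range_subset_iff.2 hfl)) ?_
  have hv : A.valuation (C.det : Qb) = 1 := le_antisymm (val_fixRing_le _) (by
    by_contra hlt
    rw [h] at hle
    exact hle.not_gt (mul_lt_of_lt_one_left (zero_lt_iff.2 hl) (not_le.1 hlt)))
  have hd0 : (C.det : Qb) ≠ 0 := fun h0 => by rw [h0, map_zero] at hv; exact zero_ne_one hv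
  have hu : IsUnit C.det := by
    refine ⟨⟨C.det, ⟨(C.det : Qb)⁻¹, mem_of_val_le_one (by rw [map_inv₀, hv, inv_one]),
      fun σ hσ => by rw [map_inv₀, C.det.2.2 σ hσ]⟩, Subtype.ext (mul_inv_cancel₀ hd0),
      Subtype.ext (inv_mul_cancel₀ hd0)⟩, rfl⟩
  refine Submodule.span_le.2 (Set.range_subset_iff.2 fun i => ?_)
  have hli : l i = ∑ j, (C⁻¹ i j) • f j := by
    funext x
    simp only [Finset.sum_apply, smul_fixRing, hC, Finset.mul_sum]
    rw [Finset.sum_comm]
    have hcomb : ∀ k, ∑ j, (C⁻¹ i j : Qb) * ((C j k : Qb) * l k x) =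
        ((1 : Matrix ι ι (fixRing A J)) i k : Qb) * l k x := fun k => by
      rw [← Matrix.nonsing_inv_mul C hu, Matrix.mul_apply, AddSubmonoidClass.coe_finsetSum,
        Finset.sum_mul]
      simp [mul_assoc]
    rw [Finset.sum_congr rfl fun k _ => hcomb k, Finset.sum_eq_single i
      (fun k _ hk => by simp [Matrix.one_apply_ne hk.symm]) (fun h => absurd (Finset.mem_univ i) h)]
    simp
  rw [SetLike.mem_coe, hli]
  exact Submodule.sum_mem _ fun j _ =>
    Submodule.smul_mem _ _ (Submodule.subset_span ⟨j, rfl⟩)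

end lattices

variable {p : ℕ} [Fact p.Prime] {Y : Type} [AddCommGroup X] [AddCommGroup Y] [Fintype X] [Fintype Y]
  {act : GQ → X → X} {act' : GQ → Y → Y} {P : Pairing p J act act'} {ζ : Qb}
  (hζ : IsPrimitiveRoot ζ p) {M : Submodule (fixRing A J) (X → Qb)}
include hζ

/-- The determinants of dual bases. -/
theorem DualBases.vdet_mul (D : DualBases P ζ M) (e : X ≃ Y) :
    (vdet A D.b (Equiv.refl X) * vdet A D.g e) ^ 2 =
      A.valuation (Fintype.card X : Qb) ^ Fintype.card X := by
  set N := Fintype.card X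
  have hN : (N : Qb) ≠ 0 := Pairing.card_ne_zero
  let Bm : Matrix X X Qb := Matrix.of fun i x => D.b i x
  let Gm : Matrix X X Qb := Matrix.of fun j x => D.g j (e x)
  let Ψ : Matrix X X Qb := Matrix.of fun x x' => P.chr ζ x (e x')
  let π : X ≃ X := e.trans ((Equiv.neg Y).trans e.symm)
  have h1 : Bm * Ψ * Gm.transpose = (N : Qb) • (1 : Matrix X X Qb) := by
    ext i j
    have h := D.form_eq i j
    rw [Pairing.form_apply, inv_mul_eq_iff_eq_mul₀ hN] at h
    simp only [Matrix.mul_apply, Matrix.transpose_apply, Matrix.smul_apply, Matrix.one_apply,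
      smul_eq_mul, Bm, Gm, Ψ, Matrix.of_apply, Finset.sum_mul]
    rw [← h, Finset.sum_comm]
    refine Finset.sum_congr rfl fun x _ => ?_
    exact Fintype.sum_equiv e _ _ fun x' => by ring
  have h2 : Ψ * (Ψ.submatrix id π).transpose = (N : Qb) • (1 : Matrix X X Qb) := by
    ext i j
    simp only [Matrix.mul_apply, Matrix.transpose_apply, Matrix.submatrix_apply, id, Ψ,
      Matrix.of_apply, Matrix.smul_apply, Matrix.one_apply, smul_eq_mul]
    have hs : ∀ x : X, P.chr ζ i (e x) * P.chr ζ j (e (π x)) = P.chr ζ (i - j) (e x) := fun x => by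
      have : P.chr ζ j (e (π x)) = P.chr ζ (-j) (e x) := by
        simp [π, Pairing.chr]
      rw [this, ← P.chr_add_left hζ, sub_eq_add_neg]
    rw [Finset.sum_congr rfl fun x _ => hs x, e.sum_comp (fun y => P.chr ζ (i - j) y),
      P.sum_chr_right hζ]
    rcases eq_or_ne i j with rfl | hij
    · simp [N]
    · simp [hij, sub_ne_zero.2 hij]
  have e1 := congrArg (fun m : Matrix X X Qb => A.valuation m.det) h1
  have e2 := congrArg (fun m : Matrix X X Qb => A.valuation m.det) h2
  simp only [Matrix.det_mul, Matrix.det_transpose, Matrix.det_permute', Matrix.det_smul,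
    Matrix.det_one, mul_one, map_mul, map_pow, val_sign, one_mul] at e1 e2
  change A.valuation Bm.det * _ * A.valuation Gm.det = _ at e1
  show (A.valuation Bm.det * A.valuation Gm.det) ^ 2 = _
  have hΨ : A.valuation Ψ.det * A.valuation Ψ.det ≠ 0 := by
    rw [e2]; exact pow_ne_zero _ ((map_ne_zero _).2 hN)
  refine mul_right_cancel₀ hΨ ?_
  calc (A.valuation Bm.det * A.valuation Gm.det) ^ 2 * (A.valuation Ψ.det * A.valuation Ψ.det)
      = (A.valuation Bm.det * A.valuation Ψ.det * A.valuation Gm.det) *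
          (A.valuation Bm.det * A.valuation Ψ.det * A.valuation Gm.det) := by
        rw [sq]
        ac_rfl
    _ = _ := by rw [e1, e2]

theorem DualBases.vdet_ne_zero (D : DualBases P ζ M) (e : X ≃ Y) :
    vdet A D.b (Equiv.refl X) ≠ 0 ∧ vdet A D.g e ≠ 0 := by
  have h := D.vdet_mul hζ e
  have h0 : A.valuation (Fintype.card X : Qb) ^ Fintype.card X ≠ 0 :=
    pow_ne_zero _ ((map_ne_zero _).2 Pairing.card_ne_zero)
  rw [← h] at h0
  exact mul_ne_zero_iff.1 fun h => h0 (by rw [h, zero_pow two_ne_zero])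

section compare

variable {ι κ : Type*} [Fintype ι] [Fintype κ] (hM : IsLModel act M)
  (l : ι → X → Qb) (e : ι ≃ X) (l' : κ → Y → Qb) (e' : κ ≃ Y)
include hM

/-- Lattices containing the model and its dual have large determinants. -/
theorem disc_le (hl : M ≤ Submodule.span (fixRing A J) (Set.range l))
    (hl' : dual P ζ M ≤ Submodule.span (fixRing A J) (Set.range l')) :
    A.valuation (Fintype.card X : Qb) ^ Fintype.card X ≤
      (vdet A l e * vdet A l' e') ^ 2 := by
  obtain ⟨D⟩ := exists_dualBases P hζ hM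
  let eXY : X ≃ Y := Fintype.equivOfCardEq P.card_eq
  rw [← D.vdet_mul hζ eXY]
  refine pow_le_pow_left' (mul_le_mul' ?_ ?_) _
  · rw [← vdet_comp l e.symm e, Equiv.symm_trans_self]
    exact vdet_le (fun i => by rw [EquivLike.range_comp l e.symm]; exact hl (D.b_mem i)) _
  · let τ : X ≃ κ := eXY.trans e'.symm
    rw [← vdet_comp l' τ e', vdet_equiv _ (τ.trans e') eXY]
    exact vdet_le (fun i => by rw [EquivLike.range_comp l' τ]; exact hl' (D.g_mem i)) _

/-- Lattices containing the model and its dual of minimal determinant are equal to them. -/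
theorem span_eq_of_disc_ge (hl : M ≤ Submodule.span (fixRing A J) (Set.range l))
    (hl' : dual P ζ M ≤ Submodule.span (fixRing A J) (Set.range l'))
    (hdisc : (vdet A l e * vdet A l' e') ^ 2 ≤
      A.valuation (Fintype.card X : Qb) ^ Fintype.card X) :
    Submodule.span (fixRing A J) (Set.range l) = M ∧
      Submodule.span (fixRing A J) (Set.range l') = dual P ζ M := by
  obtain ⟨D⟩ := exists_dualBases P hζ hM
  let eXY : X ≃ Y := Fintype.equivOfCardEq P.card_eq
  let τ : X ≃ κ := eXY.trans e'.symm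
  rw [← D.vdet_mul hζ eXY] at hdisc
  have hb : ∀ i, D.b i ∈ Submodule.span (fixRing A J) (Set.range (l ∘ e.symm)) := fun i => by
    rw [EquivLike.range_comp l e.symm]; exact hl (D.b_mem i)
  have hg : ∀ i, D.g i ∈ Submodule.span (fixRing A J) (Set.range (l' ∘ τ)) := fun i => by
    rw [EquivLike.range_comp l' τ]; exact hl' (D.g_mem i)
  rw [← vdet_comp l e.symm e, ← vdet_comp l' τ e', Equiv.symm_trans_self,
    vdet_equiv _ (τ.trans e') eXY] at hdisc
  obtain ⟨hb0, hg0⟩ := D.vdet_ne_zero hζ eXY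
  have hb1 := vdet_le hb (Equiv.refl X)
  have hg1 := vdet_le hg eXY
  have hmul := (pow_le_pow_iff_left₀ zero_le zero_le two_ne_zero).1 hdisc
  have hl0 : vdet A (l ∘ e.symm) (Equiv.refl X) ≠ 0 := ne_bot_of_le_ne_bot hb0 hb1
  have hl0' : vdet A (l' ∘ τ) eXY ≠ 0 := ne_bot_of_le_ne_bot hg0 hg1
  have hb2 : vdet A (l ∘ e.symm) (Equiv.refl X) ≤ vdet A D.b (Equiv.refl X) :=
    le_of_mul_le_mul_right (hmul.trans (mul_le_mul' le_rfl hg1)) (zero_lt_iff.2 hl0')
  have hg2 : vdet A (l' ∘ τ) eXY ≤ vdet A D.g eXY :=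
    le_of_mul_le_mul_left (hmul.trans (mul_le_mul' hb1 le_rfl)) (zero_lt_iff.2 hl0)
  have r1 := span_eq_of_vdet hb _ hb2 hl0
  have r2 := span_eq_of_vdet hg _ hg2 hl0'
  rw [D.span_b, EquivLike.range_comp l e.symm] at r1
  rw [D.span_g, EquivLike.range_comp l' τ] at r2
  exact ⟨r1.symm, r2.symm⟩

/-- Families in the model and its dual of maximal determinant generate them. -/
theorem span_eq_of_disc_le (hl : ∀ i, l i ∈ M) (hl' : ∀ i, l' i ∈ dual P ζ M)
    (hdisc : A.valuation (Fintype.card X : Qb) ^ Fintype.card X ≤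
      (vdet A l e * vdet A l' e') ^ 2) :
    Submodule.span (fixRing A J) (Set.range l) = M ∧
      Submodule.span (fixRing A J) (Set.range l') = dual P ζ M := by
  obtain ⟨D⟩ := exists_dualBases P hζ hM
  let eXY : X ≃ Y := Fintype.equivOfCardEq P.card_eq
  let τ : X ≃ κ := eXY.trans e'.symm
  rw [← D.vdet_mul hζ eXY] at hdisc
  have hb : ∀ i, (l ∘ e.symm) i ∈ Submodule.span (fixRing A J) (Set.range D.b) := fun i => by
    rw [D.span_b]; exact hl _
  have hg : ∀ i, (l' ∘ τ) i ∈ Submodule.span (fixRing A J) (Set.range D.g) := fun i => by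
    rw [D.span_g]; exact hl' _
  rw [← vdet_comp l e.symm e, ← vdet_comp l' τ e', Equiv.symm_trans_self,
    vdet_equiv _ (τ.trans e') eXY] at hdisc
  obtain ⟨hb0, hg0⟩ := D.vdet_ne_zero hζ eXY
  have hb1 := vdet_le hb (Equiv.refl X)
  have hg1 := vdet_le hg eXY
  have hmul := (pow_le_pow_iff_left₀ zero_le zero_le two_ne_zero).1 hdisc
  have hb2 : vdet A D.b (Equiv.refl X) ≤ vdet A (l ∘ e.symm) (Equiv.refl X) :=
    le_of_mul_le_mul_right (hmul.trans (mul_le_mul' le_rfl hg1)) (zero_lt_iff.2 hg0)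
  have hg2 : vdet A D.g eXY ≤ vdet A (l' ∘ τ) eXY :=
    le_of_mul_le_mul_left (hmul.trans (mul_le_mul' hb1 le_rfl)) (zero_lt_iff.2 hb0)
  have r1 := span_eq_of_vdet hb _ hb2 hb0
  have r2 := span_eq_of_vdet hg _ hg2 hg0
  rw [D.span_b, EquivLike.range_comp l e.symm] at r1
  rw [D.span_g, EquivLike.range_comp l' τ] at r2
  exact ⟨r1, r2⟩

end compare

end

end FermatAgent.TW.Flat
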