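import Fermat.Agent.TW.Flat.Fourier
import Fermat.Agent.TW.Flat.Basis

/-!
# The dual of a local model

The functions whose Fourier form with the model is integral form a local model of the dual group.
-/

set_option autoImplicit false

namespace FermatAgent.TW.Flat

open FermatAgent.Local FermatAgent.Duality.Local
open scoped Classical

noncomputable section

local notation "Qb" => AlgebraicClosure ℚ
local notation "GQ" => AlgebraicClosure ℚ ≃ₐ[ℚ] AlgebraicClosure ℚ

variable {A : ValuationSubring Qb} {p : ℕ} [Fact p.Prime] {J : Subgroup GQ}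
  {X Y : Type} [AddCommGroup X] [AddCommGroup Y] [Fintype X] [Fintype Y]
  {act : GQ → X → X} {act' : GQ → Y → Y} (P : Pairing p J act act') {ζ : Qb}
  (hζ : IsPrimitiveRoot ζ p) {M : Submodule (fixRing A J) (X → Qb)}

/-- The dual lattice. -/
def dual (ζ : Qb) (M : Submodule (fixRing A J) (X → Qb)) :
    Submodule (fixRing A J) (Y → Qb) where
  carrier := {g | ∀ f ∈ M, P.form ζ f g ∈ fixRing A J}
  add_mem' {a b} ha hb f hf := by
    rw [map_add]; exact (fixRing A J).add_mem (ha f hf) (hb f hf)
  zero_mem' f _ := by rw [map_zero]; exact (fixRing A J).zero_mem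
  smul_mem' r a ha f hf := by
    rw [show r • a = (r : Qb) • a from rfl, map_smul, smul_eq_mul]
    exact (fixRing A J).mul_mem r.2 (ha f hf)

/-- Dual bases of a model and its dual. -/
structure DualBases (ζ : Qb) (M : Submodule (fixRing A J) (X → Qb)) where
  b : X → X → Qb
  g : X → Y → Qb
  hb : LinearIndependent Qb b
  hg : LinearIndependent Qb g
  span_b : Submodule.span (fixRing A J) (Set.range b) = M
  form_eq : ∀ i j : X, P.form ζ (b i) (g j) = if i = j then 1 else 0

namespace DualBases

variable {P} (D : DualBases P ζ M)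

theorem b_mem (i : X) : D.b i ∈ M := D.span_b.le (Submodule.subset_span ⟨i, rfl⟩)

theorem mem_iff_forall {g : Y → Qb} :
    g ∈ dual P ζ M ↔ ∀ i, P.form ζ (D.b i) g ∈ fixRing A J := by
  refine ⟨fun h i => h _ (D.b_mem i), fun h f hf => ?_⟩
  rw [← D.span_b] at hf
  induction hf using Submodule.span_induction with
  | mem f hf => obtain ⟨i, rfl⟩ := hf; exact h i
  | zero => rw [map_zero, LinearMap.zero_apply]; exact (fixRing A J).zero_mem
  | add a b _ _ ha hb => rw [map_add, LinearMap.add_apply]; exact (fixRing A J).add_mem ha hb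
  | smul r a _ ha =>
    rw [show r • a = (r : Qb) • a from rfl, map_smul, LinearMap.smul_apply, smul_eq_mul]
    exact (fixRing A J).mul_mem r.2 ha

theorem g_mem (j : X) : D.g j ∈ dual P ζ M := D.mem_iff_forall.2 fun i => by
  rw [D.form_eq]
  split_ifs
  · exact (fixRing A J).one_mem
  · exact (fixRing A J).zero_mem

theorem span_g_qbar : Submodule.span Qb (Set.range D.g) = ⊤ :=
  D.hg.span_eq_top_of_card_eq_finrank' (by rw [Module.finrank_pi, P.card_eq])

theorem span_b_qbar : Submodule.span Qb (Set.range D.b) = ⊤ :=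
  D.hb.span_eq_top_of_card_eq_finrank' (by rw [Module.finrank_pi])

theorem expand (h : Y → Qb) : h = ∑ j, P.form ζ (D.b j) h • D.g j := by
  classical
  have hh : h ∈ Submodule.span Qb (Set.range D.g) := D.span_g_qbar ▸ Submodule.mem_top
  obtain ⟨c, rfl⟩ := (Submodule.mem_span_range_iff_exists_fun Qb).1 hh
  refine Finset.sum_congr rfl fun j _ => ?_
  simp [map_sum, D.form_eq]

theorem span_g : Submodule.span (fixRing A J) (Set.range D.g) = dual P ζ M := by
  refine le_antisymm (Submodule.span_le.2 (Set.range_subset_iff.2 D.g_mem)) fun h hh => ?_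
  rw [D.expand h]
  refine Submodule.sum_mem _ fun j _ => ?_
  exact Submodule.smul_mem _ (⟨_, hh _ (D.b_mem j)⟩ : fixRing A J) (Submodule.subset_span ⟨j, rfl⟩)

theorem expand_left (f : X → Qb) : f = ∑ j, P.form ζ f (D.g j) • D.b j := by
  classical
  have hf : f ∈ Submodule.span Qb (Set.range D.b) := D.span_b_qbar ▸ Submodule.mem_top
  obtain ⟨c, rfl⟩ := (Submodule.mem_span_range_iff_exists_fun Qb).1 hf
  refine Finset.sum_congr rfl fun j _ => ?_
  simp [map_sum, D.form_eq]

end DualBases

include hζ

theorem exists_dualBases (hM : IsLModel act M) : Nonempty (DualBases P ζ M) := by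
  classical
  obtain ⟨b, hb, hspan⟩ := hM.exists_basis
  let Φ : (Y → Qb) →ₗ[Qb] (X → Qb) := LinearMap.pi fun i => P.form ζ (b i)
  have hinj : Function.Injective Φ := by
    refine (injective_iff_map_eq_zero Φ).2 fun g hg => P.eq_zero_of_form_right hζ fun f => ?_
    have hf : f ∈ Submodule.span Qb (Set.range b) :=
      (hb.span_eq_top_of_card_eq_finrank' (by rw [Module.finrank_pi])).symm ▸ Submodule.mem_top
    obtain ⟨c, rfl⟩ := (Submodule.mem_span_range_iff_exists_fun Qb).1 hf
    simp only [map_sum, LinearMap.sum_apply]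
    refine Finset.sum_eq_zero fun i _ => ?_
    rw [map_smul, LinearMap.smul_apply, show P.form ζ (b i) g = 0 from congrFun hg i, smul_zero]
  have hsurj : Function.Surjective Φ := (LinearMap.injective_iff_surjective_of_finrank_eq_finrank
    (by rw [Module.finrank_pi, Module.finrank_pi, P.card_eq])).1 hinj
  choose g hg using fun j : X => hsurj (Pi.single j 1)
  refine ⟨⟨b, g, hb, ?_, hspan, fun i j => ?_⟩⟩
  · refine LinearIndependent.of_comp Φ ?_
    have : (fun j => Φ (g j)) = fun j => (Pi.single j 1 : X → Qb) := funext hg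
    rw [Function.comp_def, this]
    exact Pi.linearIndependent_single_one X Qb
  · rw [show P.form ζ (b i) (g j) = Φ (g j) i from rfl, hg, Pi.single_apply]

include P in
omit hζ in
theorem exists_act'_bijective (_hM : IsLModel act M) {σ : GQ} (hσ : σ ∈ J) :
    Function.Bijective (act' σ) := by
  refine Finite.injective_iff_bijective.1 fun y y' h => sub_eq_zero.1 (P.right _ fun x => ?_)
  have hχ : (ExtCitation.cycloChar p σ : ZMod p) ≠ 0 := Units.ne_zero _
  refine (mul_eq_zero.1 (?_ : (ExtCitation.cycloChar p σ : ZMod p) * P.B x (y - y') = 0)).resolve_left hχ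
  rw [map_sub, mul_sub, ← P.equiv σ hσ, ← P.equiv σ hσ, h, sub_self]

theorem form_equivariant (hM : IsLModel act M) {f : X → Qb} (hf : f ∈ M) (g : Y → Qb) {σ : GQ}
    (hσ : σ ∈ J) :
    σ (P.form ζ f fun y => σ.symm (g (act' σ y))) = P.form ζ f g := by
  simp only [Pairing.form_apply, map_mul, map_inv₀, map_natCast, map_sum, AlgEquiv.apply_symm_apply,
    ← hM.equivariant f hf σ hσ, ← P.chr_equiv hζ hσ]
  congr 1
  refine Fintype.sum_equiv (Equiv.ofBijective _ (hM.act_bijective hσ)) _ _ fun x => ?_
  exact Fintype.sum_equiv (Equiv.ofBijective _ (exists_act'_bijective P hM hσ)) _ _ fun y => rfl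

theorem isLModel_dual (hM : IsLModel act M) : IsLModel act' (dual P ζ M) := by
  classical
  obtain ⟨D⟩ := exists_dualBases P hζ hM
  refine ⟨⟨Finset.univ.image D.g, by rw [Finset.coe_image, Finset.coe_univ, Set.image_univ, D.span_g]⟩,
    fun f hf => ?_, fun g hg h hh f hf => ?_, fun g hg σ hσ y => ?_, fun y y' hyy => ?_, fun g hg => ?_⟩
  · rw [P.form_one hζ]; exact hM.apply_zero_mem hf
  · -- products
    have key : ∀ φ ∈ Submodule.span (fixRing A J) (prodSet (M : Set (X → Qb)) M),
        P.form₂ ζ g h φ ∈ fixRing A J := by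
      intro φ hφ
      induction hφ using Submodule.span_induction with
      | mem φ hφ =>
        obtain ⟨a, ha, b, hb, rfl⟩ := hφ
        rw [P.form₂_prod]
        exact (fixRing A J).mul_mem (hg a ha) (hh b hb)
      | zero => rw [map_zero]; exact (fixRing A J).zero_mem
      | add a b _ _ ha hb => rw [map_add]; exact (fixRing A J).add_mem ha hb
      | smul r a _ ha =>
        rw [show r • a = (r : Qb) • a from rfl, map_smul, smul_eq_mul]
        exact (fixRing A J).mul_mem r.2 ha
    rw [P.form_mul' hζ]
    exact key _ (hM.comul f hf)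
  · -- equivariance
    have h0 : (fun y => σ.symm (g (act' σ y))) - g = 0 := by
      refine P.eq_zero_of_form_right hζ fun f => ?_
      have hf : f ∈ Submodule.span Qb (M : Set (X → Qb)) := hM.span_qbar_eq_top ▸ Submodule.mem_top
      induction hf using Submodule.span_induction with
      | mem f hf =>
        rw [map_sub, sub_eq_zero]
        refine σ.injective ?_
        rw [form_equivariant P hζ hM hf g hσ, (hg f hf).2 σ hσ]
      | zero => simp
      | add a b _ _ ha hb => rw [map_add, LinearMap.add_apply, ha, hb, add_zero]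
      | smul r a _ ha => rw [map_smul, LinearMap.smul_apply, ha, smul_zero]
    rw [← congrFun (sub_eq_zero.1 h0) y]
    exact (σ.apply_symm_apply _).symm
  · by_contra hne
    have hs : (Pi.single y 1 : Y → Qb) ∈ Submodule.span Qb (Set.range D.g) :=
      D.span_g_qbar ▸ Submodule.mem_top
    have key : ∀ f ∈ Submodule.span Qb (Set.range D.g), f y = f y' := by
      intro f hf
      induction hf using Submodule.span_induction with
      | mem f hf => obtain ⟨j, rfl⟩ := hf; exact hyy _ (D.g_mem j)
      | zero => rfl
      | add a b _ _ ha hb => simp [ha, hb]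
      | smul r a _ ha => simp [ha]
    have := key _ hs
    rw [Pi.single_eq_same, Pi.single_eq_of_ne (Ne.symm hne)] at this
    exact one_ne_zero this
  · -- comultiplication
    have hco : ∀ j k : X, P.form ζ (D.b j) (fun y => P.form ζ (D.b k) fun y' => g (y + y')) =
        P.flip.form ζ g (D.b j * D.b k) := by
      intro j k
      rw [P.flip.form_mul hζ]
      simp only [Pairing.form_apply, Pairing.flip_chr, Finset.mul_sum, Finset.sum_mul, ← P.card_eq]
      rw [Finset.sum_comm]
      refine Finset.sum_congr rfl fun y _ => ?_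
      conv_rhs => rw [Finset.sum_comm]
      refine Finset.sum_congr rfl fun x _ => ?_
      rw [Finset.sum_comm]
      refine Finset.sum_congr rfl fun y' _ => Finset.sum_congr rfl fun x' _ => ?_
      ring
    have hR : ∀ j k : X, P.form ζ (D.b j) (fun y => P.form ζ (D.b k) fun y' => g (y + y')) ∈
        fixRing A J := fun j k => by
      rw [hco, P.form_flip]
      exact hg _ (hM.mul_mem _ (D.b_mem j) _ (D.b_mem k))
    have e : (fun z : Y × Y => g (z.1 + z.2)) = ∑ j, ∑ k,
        (⟨_, hR j k⟩ : fixRing A J) • fun z : Y × Y => D.g j z.1 * D.g k z.2 := by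
      funext ⟨y, y'⟩
      simp only [Finset.sum_apply, smul_fixRing]
      rw [Finset.sum_comm]
      have h1 := congrFun (D.expand fun y' => g (y + y')) y'
      simp only [Finset.sum_apply, Pi.smul_apply, smul_eq_mul] at h1
      rw [h1]
      refine Finset.sum_congr rfl fun k _ => ?_
      have h2 := congrFun (D.expand fun y => P.form ζ (D.b k) fun y' => g (y + y')) y
      simp only [Finset.sum_apply, Pi.smul_apply, smul_eq_mul] at h2
      rw [h2, Finset.sum_mul]
      exact Finset.sum_congr rfl fun j _ => mul_assoc _ _ _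
    rw [e]
    exact Submodule.sum_mem _ fun j _ => Submodule.sum_mem _ fun k _ =>
      Submodule.smul_mem _ _ (Submodule.subset_span ⟨_, D.g_mem j, _, D.g_mem k, rfl⟩)

theorem dual_dual (hM : IsLModel act M) : dual P.flip ζ (dual P ζ M) = M := by
  obtain ⟨D⟩ := exists_dualBases P hζ hM
  refine le_antisymm (fun f hf => ?_) fun f hf g hg => by rw [P.form_flip]; exact hg f hf
  rw [D.expand_left f]
  refine Submodule.sum_mem _ fun j _ => ?_
  have h := hf _ (D.g_mem j)
  rw [P.form_flip] at h
  exact Submodule.smul_mem _ (⟨_, h⟩ : fixRing A J) (D.b_mem j)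

/-- Duality commutes with base change. -/
theorem dual_baseChange (hM : IsLModel act M) {J' : Subgroup GQ} (hJ : J' ≤ J) :
    dual (P.mono hJ) ζ (baseChange M J') = baseChange (dual P ζ M) J' := by
  obtain ⟨D⟩ := exists_dualBases P hζ hM
  let D' : DualBases (P.mono hJ) ζ (baseChange M J') :=
    ⟨D.b, D.g, D.hb, D.hg, le_antisymm
      (Submodule.span_le.2 (Set.range_subset_iff.2 fun i => mem_baseChange (D.b_mem i)))
      (Submodule.span_le.2 fun f hf => span_le_of_le hJ (D.span_b.symm ▸ hf)), D.form_eq⟩
  rw [← D'.span_g]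
  exact le_antisymm
    (Submodule.span_le.2 (Set.range_subset_iff.2 fun i => mem_baseChange (D.g_mem i)))
    (Submodule.span_le.2 fun f hf => span_le_of_le hJ (D.span_g.symm ▸ hf))

end

end FermatAgent.TW.Flat
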