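import Fermat.Agent.TW.Flat.Ops

/-!
# A point on which inertia acts by scalars in `𝔽_p`

It reduces to zero exactly when the scalar is the cyclotomic character; otherwise inertia fixes it.
-/

set_option autoImplicit false

namespace FermatAgent.TW.Flat

open FermatAgent.Local

noncomputable section

local notation "Qb" => AlgebraicClosure ℚ
local notation "GQ" => AlgebraicClosure ℚ ≃ₐ[ℚ] AlgebraicClosure ℚ

variable {A : ValuationSubring Qb} {p : ℕ} [Fact p.Prime] (hA : A.LiesOverPrime p)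
  {X : Type} [AddCommGroup X] [Finite X] {act : GQ → X → X}
  {M : Submodule (fixRing A (A.inertiaSubgroupIn ℚ)) (X → Qb)} (hM : IsLModel act M)
  {τ : X} (hτ : τ ≠ 0) (hpτ : p • τ = 0) (j : A.inertiaSubgroupIn ℚ →* (ZMod p)ˣ)
  (hj : ∀ σ : A.inertiaSubgroupIn ℚ, act σ τ = (j σ : ZMod p).val • τ)
include hM hτ hpτ hj

-- Kept: omitting the unused hypotheses would change the signature of a used lemma.
set_option linter.unusedSectionVars false in
theorem eigen_trivial_of_not_inC (hC : ¬ InC M τ) (σ : A.inertiaSubgroupIn ℚ) : j σ = 1 := by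
  by_contra hne
  have hp := (Fact.out : p.Prime)
  refine hC ?_
  have h := hM.act_sub_mem_connSub le_rfl σ.2 τ
  rw [hj σ] at h
  set n := ((j σ : ZMod p) - 1).val with hn
  have hn' : (j σ : ZMod p).val • τ - τ = n • τ := by
    have hord : addOrderOf τ ∣ p := addOrderOf_dvd_of_nsmul_eq_zero hpτ
    rw [sub_eq_iff_eq_add, ← succ_nsmul]
    refine nsmul_eq_nsmul_iff_modEq.2 (Nat.ModEq.of_dvd hord ?_)
    rw [← ZMod.natCast_eq_natCast_iff]
    simp [hn]
  rw [hn'] at h
  have hcop : Nat.Coprime n p := by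
    refine Nat.Coprime.symm (hp.coprime_iff_not_dvd.2 fun hd => hne ?_)
    rw [← ZMod.natCast_eq_zero_iff, hn, ZMod.natCast_zmod_val, sub_eq_zero] at hd
    exact Units.ext hd
  obtain ⟨m, -, hm⟩ := Nat.exists_mul_mod_eq_one_of_coprime hcop hp.one_lt
  have e : m • n • τ = τ := by
    conv_rhs => rw [← one_nsmul τ]
    rw [← mul_nsmul]
    refine nsmul_eq_nsmul_iff_modEq.2 (Nat.ModEq.of_dvd (addOrderOf_dvd_of_nsmul_eq_zero hpτ) ?_)
    rw [Nat.ModEq, hm, Nat.mod_eq_of_lt hp.one_lt]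
  exact (hM.mem_connSub).1 (e ▸ hM.connSub.nsmul_mem h m)

include hA in
omit [Finite X] in
theorem eigen_cyclo_of_inC (hC : InC M τ) (σ : A.inertiaSubgroupIn ℚ) :
    j σ = ExtCitation.cycloChar p (σ : GQ) := by
  have hp := (Fact.out : p.Prime)
  have : NeZero p := ⟨hp.ne_zero⟩
  obtain ⟨ζ, hζ⟩ := exists_primitiveRoot_qbar p
  obtain ⟨g, hg, hmax⟩ := hM.exists_small_max τ
  set β := g τ - g 0 with hβ
  have hc0 : A.valuation β ≠ 0 := hM.val_max_ne_zero hτ hmax
  have hβ0 : β ≠ 0 := (map_ne_zero _).1 hc0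
  have hc1 : A.valuation β < 1 := hC g hg
  set J₀ : Subgroup GQ := (MonoidHom.ker j).map (A.inertiaSubgroupIn ℚ).subtype
  have hu : Uniform A J₀ (A.valuation (ζ - 1)) :=
    uniform_of_hom hA j (by
      rw [Nat.card_eq_fintype_card, ZMod.card_units p, Duality.Local.val_zeta_sub_one_pow hζ])
      _ fun s hs => ⟨s, hs, rfl⟩
  have hfix : ∀ s ∈ J₀, s β = β := by
    rintro _ ⟨s, hs, rfl⟩
    have h1 : act s τ = τ := by
      rw [hj s, show j s = 1 from hs, Units.val_one, ZMod.val_one, one_nsmul]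
    show (s : GQ) β = β
    rw [hβ, map_sub, hM.apply_fixed hg s.2 h1, hM.apply_zero_fixed hg s.2]
  set u := A.valuation (ζ - 1)
  obtain ⟨n, hn⟩ := hu.exists_natPow hβ0 hfix hc1.le
  have hn0 : n ≠ 0 := fun h => by rw [hn, h, pow_zero] at hc1; exact lt_irrefl _ hc1
  have hT1 := hM.val_p_le_pow hA hτ hpτ hmax
  rw [hn, ← pow_mul, ← Duality.Local.val_zeta_sub_one_pow hζ, ← zpow_natCast, ← zpow_natCast,
    zpow_le_zpow_iff' hu.ne_zero hu.lt_one] at hT1
  have hn1 : n = 1 := by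
    have hp1 : 1 ≤ p - 1 := by have := hp.two_le; omega
    have : n * (p - 1) ≤ 1 * (p - 1) := by rw [one_mul]; exact_mod_cast hT1
    have := Nat.le_of_mul_le_mul_right this (by omega)
    omega
  rw [hn1, pow_one] at hn
  have hd := mem_decomposition_of_inertia σ.2
  have h := tameVal_eq_of_val_eq (zeta_sub_one_ne_zero hζ) hn σ.2
  rw [tameVal_eq_res hβ0 hd, tameVal_eq_res (zeta_sub_one_ne_zero hζ) hd,
    res_ratio_zeta hζ hA] at h
  -- the ratio of `β` is the scalar
  have h2 : res A ((σ : GQ) β / β) = ((j σ : ZMod p).val : IsLocalRing.ResidueField A) := by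
    rw [← res_natCast (A := A), res_eq_res_iff (ratio_mem hd hβ0) (natCast_mem A _),
      div_sub' hβ0, map_div₀, div_lt_one₀ (zero_lt_iff.2 hc0)]
    have hb := hM.val_nsmul_diff_le hg hmax (j σ : ZMod p).val
    rw [← hj σ, hM.equivariant g hg _ σ.2, ← hM.apply_zero_fixed hg σ.2, ← map_sub,
      hM.apply_zero_fixed hg σ.2] at hb
    rw [mul_comm β]
    exact hb.trans_lt (mul_lt_of_lt_one_left (zero_lt_iff.2 hc0) hc1)
  rw [h2, ← ZMod.natCast_zmod_val (j σ : ZMod p)] at h
  have := Duality.Local.charP_residue hp hA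
  refine Units.ext ?_
  rw [← ZMod.natCast_zmod_val (j σ : ZMod p),
    ← ZMod.natCast_zmod_val (ExtCitation.cycloChar p (σ : GQ) : ZMod p), ZMod.natCast_eq_natCast_iff]
  rw [ZMod.natCast_zmod_val] at h
  exact (CharP.natCast_eq_natCast (IsLocalRing.ResidueField A) p).1 h

omit j hj in
include hA in
omit [Finite X] in
/-- A non-zero inertia invariant does not reduce to zero. -/
theorem not_inC_of_fixed (hp2 : p ≠ 2) (hfix : ∀ σ ∈ A.inertiaSubgroupIn ℚ, act σ τ = τ) :
    ¬ InC M τ := by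
  intro hC
  have hp := (Fact.out : p.Prime)
  obtain ⟨c, hc⟩ : ∃ c : (ZMod p)ˣ, c ≠ 1 := by
    refine Fintype.exists_ne_of_one_lt_card ?_ 1
    rw [ZMod.card_units p]
    have := hp.two_le
    omega
  obtain ⟨σ, hσ, hχ⟩ := exists_inertia_cycloChar hA c
  have h := eigen_cyclo_of_inC hA hM hτ hpτ 1 (fun s => by
    rw [hfix s s.2]; simp [ZMod.val_one]) hC ⟨σ, hσ⟩
  exact hc (by rw [← hχ, ← h]; rfl)

end

end FermatAgent.TW.Flat
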