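import Fermat.Agent.TW.Flat.ExtTools

/-!
# Extensions of a module of level two by `𝔽_p` over the stabiliser of `π`

`σ (a, z) = (a, z + fn σ a)`.  The model has a basis of monomials in a coordinate of the quotient
and a function `f` linear of slope `π ^ p` on the sub-group.
-/

set_option autoImplicit false

namespace FermatAgent.TW.Flat

open FermatAgent.Local Module
open scoped Classical

noncomputable section

local notation "Qb" => AlgebraicClosure ℚ
local notation "GQ" => AlgebraicClosure ℚ ≃ₐ[ℚ] AlgebraicClosure ℚ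

variable {p : ℕ} [hp : Fact p.Prime] {A : ValuationSubring Qb} {π : Qb}
  {K : Type} [Field K] [Fintype K] [Algebra (ZMod p) K]

/-- The action on `K × 𝔽_p`. -/
def extAct (fn : GQ → K →ₗ[ZMod p] ZMod p) (σ : GQ) : (K × ZMod p) ≃ₗ[ZMod p] (K × ZMod p) where
  toFun w := (w.1, w.2 + fn σ w.1)
  invFun w := (w.1, w.2 - fn σ w.1)
  map_add' a b := Prod.ext rfl (by
    show a.2 + b.2 + fn σ (a.1 + b.1) = (a.2 + fn σ a.1) + (b.2 + fn σ b.1)
    rw [map_add]; ring)
  map_smul' r a := Prod.ext rfl (by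
    show r • a.2 + fn σ (r • a.1) = r • (a.2 + fn σ a.1)
    rw [map_smul, smul_add])
  left_inv a := Prod.ext rfl (add_sub_cancel_right _ _)
  right_inv a := Prod.ext rfl (sub_add_cancel _ _)

omit [Fintype K] in
theorem extAct_apply (fn : GQ → K →ₗ[ZMod p] ZMod p) (σ : GQ) (w : K × ZMod p) :
    actOf (extAct fn) σ w = (w.1, w.2 + fn σ w.1) := rfl

/-- What is known about the model of an extension. -/
structure ExtData (p : ℕ) [Fact p.Prime] [Algebra (ZMod p) K] (A : ValuationSubring Qb) (π ζ : Qb)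
    (fn : GQ → K →ₗ[ZMod p] ZMod p)
    (M : Submodule (fixRing A (stabRoot A π)) (K × ZMod p → Qb)) (x : K → Qb)
    (x' : Dual (ZMod p) K → Qb) : Prop where
  card : Fintype.card K = p ^ 2
  model : IsLModel (actOf (extAct fn)) M
  biconn : BiConn (extAct fn) ζ M
  small : ∀ z : ZMod p, Small M ((0 : K), z) (A.valuation π ^ p)
  x_zero : x 0 = 0
  x_sub : ∀ a b, a ≠ b → A.valuation (x a - x b) = A.valuation π
  x_pow : ∀ a, x a ^ p ^ 2 = -(p : Qb) * x a
  x_mem : (fun w : K × ZMod p => x w.1) ∈ M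
  x'_zero : x' 0 = 0
  x'_sub : ∀ a b, a ≠ b → A.valuation (x' a - x' b) = A.valuation π
  x'_mem : x' ∈ dual (dualPairing (stabRoot A π) fun _ => LinearEquiv.refl (ZMod p) K) ζ
    (M.comap (LinearMap.funLeft (fixRing A (stabRoot A π)) Qb (LinearMap.fst (ZMod p) K (ZMod p))))

/-- The monomials in `f` and the coordinate. -/
def monFam (p : ℕ) (f : K × ZMod p → Qb) (x : K → Qb) :
    Fin p × Fin (p ^ 2) → K × ZMod p → Qb :=
  fun ib w => f w ^ (ib.1 : ℕ) * x w.1 ^ (ib.2 : ℕ)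

variable {ζ : Qb} {fn : GQ → K →ₗ[ZMod p] ZMod p}
  {M : Submodule (fixRing A (stabRoot A π)) (K × ZMod p → Qb)} {x : K → Qb}
  {x' : Dual (ZMod p) K → Qb}
  (hπ : π ^ lvl p = -(p : Qb)) (hA : A.LiesOverPrime p) (hζ : IsPrimitiveRoot ζ p)
  (D : ExtData p A π ζ fn M x x')
include hπ hA hζ D

-- Kept: omitting the unused hypotheses would change the signature of a used lemma.
set_option linter.unusedSectionVars false in
theorem ExtData.cyclo_eq_one {σ : GQ} (hσ : σ ∈ stabRoot A π) :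
    ExtCitation.cycloChar p σ = 1 := by
  have : NeZero p := ⟨hp.1.ne_zero⟩
  have h := theta_pow_succ hπ hA hσ.1
  rw [(theta_eq_one_iff hπ hA not_dvd_lvl hσ.1).2 hσ.2, one_pow] at h
  have := Duality.Local.charP_residue hp.1 hA
  refine Units.ext ?_
  rw [← ZMod.natCast_zmod_val (ExtCitation.cycloChar p σ : ZMod p), Units.val_one, ← Nat.cast_one,
    ZMod.natCast_eq_natCast_iff]
  rw [← Nat.cast_one] at h
  exact ((CharP.natCast_eq_natCast (IsLocalRing.ResidueField A) p).1 h).symm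

/-- The restriction to the sub-group contains the linear function of slope `π ^ p`, its dual that
of slope `π`. -/
theorem ExtData.sub_lattice : let ι := LinearMap.inr (ZMod p) K (ZMod p)
    (∃ f ∈ M, ∀ z : ZMod p, f ((0 : K), z) = (z.val : Qb) * π ^ p) ∧
    ∃ y ∈ dual (dualPairing (stabRoot A π) (extAct fn)) ζ M,
      ∀ φ : Dual (ZMod p) (K × ZMod p), y φ = ((φ (ι 1)).val : Qb) * π := by
  intro ι
  have hpe := not_dvd_lvl (p := p)
  have h0 := root_ne_zero hπ
  have hu := uniform_stabRoot hπ hA hpe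
  let ρ₁ : GQ → ZMod p ≃ₗ[ZMod p] ZMod p := fun _ => LinearEquiv.refl (ZMod p) (ZMod p)
  have hι : Function.Injective ι := LinearMap.inr_injective
  have hact : ∀ σ ∈ stabRoot A π, ∀ z, ι (ρ₁ σ z) = actOf (extAct fn) σ (ι z) := fun σ _ z => by
    rw [extAct_apply]
    simp [ι, ρ₁]
  set N := M.map (LinearMap.funLeft (fixRing A (stabRoot A π)) Qb ι)
  have hN : IsLModel (actOf ρ₁) N := D.model.restrict ι.toAddMonoidHom hι hact
  have hbN : BiConn ρ₁ ζ N := biConn_restrict hζ D.biconn ι hι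
  let P := dualPairing (stabRoot A π) ρ₁
  have hD := isLModel_dual P hζ hN
  let E : ZMod p ≃+ ZMod p := AddEquiv.refl _
  let E' : ZMod p ≃+ Dual (ZMod p) (ZMod p) :=
    (LinearMap.ringLmapEquivSelf (ZMod p) (ZMod p) (ZMod p)).symm.toAddEquiv
  have hfix' : ∀ σ ∈ stabRoot A π, ∀ φ, dualAct ρ₁ σ φ = φ := fun σ hσ φ => LinearMap.ext fun z => by
    rw [dualAct_apply, D.cyclo_eq_one hπ hA hζ hσ, Units.val_one, one_mul]
    rfl
  have hfixπ : ∀ σ ∈ stabRoot A π, σ π = π := fun σ hσ => hσ.2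
  have l1 := le_span_binomFam E hN (fun σ _ z => rfl) (pow_ne_zero p h0)
    (fun σ hσ => by rw [map_pow, hfixπ σ hσ]) (by
      rw [map_pow]
      exact (small_restrict ι.toAddMonoidHom).2 (D.small _))
  have l2 := le_span_binomFam E' hD hfix' h0 hfixπ
    (hD.small_of_inC hu (fun σ hσ => hfix' σ hσ _) (hbN.2 _))
  obtain ⟨ev, hev⟩ := vdet_binomFam_sq (A := A) E (π ^ p)
  obtain ⟨ev', hev'⟩ := vdet_binomFam_sq (A := A) E' π
  obtain ⟨r1, r2⟩ := span_eq_of_disc_ge (P := P) hζ hN _ ev _ ev' l1 l2 (le_of_eq (by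
    rw [mul_pow, hev, hev', map_pow, ← pow_mul, ← pow_add, ZMod.card, ← val_root_pow hπ, ← pow_mul,
      lvl_eq_mul]
    congr 1
    ring))
  have h1p : 1 < p := hp.1.one_lt
  have m1 : binomFam E (π ^ p) ⟨1, h1p⟩ ∈ N := r1 ▸ Submodule.subset_span ⟨_, rfl⟩
  have m2 : binomFam E' π ⟨1, h1p⟩ ∈ dual P ζ N := r2 ▸ Submodule.subset_span ⟨_, rfl⟩
  constructor
  · obtain ⟨f, hf, hfe⟩ := m1
    refine ⟨f, hf, fun z => ?_⟩
    have := congrFun hfe z
    simpa [LinearMap.funLeft, binomFam, E, ι] using this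
  · rw [show dual P ζ N = _ from
      dual_restrict hζ (adjoint_of_injective (J := stabRoot A π) (ρ := extAct fn) (ρ' := ρ₁) ι hι)]
      at m2
    refine ⟨_, m2, fun φ => ?_⟩
    simp [LinearMap.funLeft, binomFam, E', LinearMap.dualMap_apply]

/-- Lifts of the two linear functions and their differences along the sub-groups. -/
theorem ExtData.exists_lifts : ∃ f ∈ M, ∃ g ∈ dual (dualPairing (stabRoot A π) (extAct fn)) ζ M,
    ∃ y ∈ dual (dualPairing (stabRoot A π) (extAct fn)) ζ M, f 0 = 0 ∧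
    (∀ z : ZMod p, f ((0 : K), z) = (z.val : Qb) * π ^ p) ∧
    (∀ φ : Dual (ZMod p) (K × ZMod p),
      y φ = ((φ (LinearMap.inr (ZMod p) K (ZMod p) 1)).val : Qb) * π) ∧
    (∀ a (z z' : ZMod p), z ≠ z' → A.valuation (f (a, z) - f (a, z')) = A.valuation π ^ p) ∧
    ∀ (t : Dual (ZMod p) (ZMod p)) (ε ε' : Dual (ZMod p) K), ε ≠ ε' →
      A.valuation (g (LinearMap.coprod ε t) - g (LinearMap.coprod ε' t)) = A.valuation π := by
  have : NeZero p := ⟨hp.1.ne_zero⟩
  have hpe := not_dvd_lvl (p := p)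
  have h0 := root_ne_zero hπ
  have hu := uniform_stabRoot hπ hA hpe
  set u := A.valuation π
  obtain ⟨⟨f, hf, hfz⟩, y, hy, hyz⟩ := D.sub_lattice hπ hA hζ
  set Mf := M.comap (LinearMap.funLeft (fixRing A (stabRoot A π)) Qb
    (LinearMap.fst (ZMod p) K (ZMod p)))
  have hfst : Function.Surjective (LinearMap.fst (ZMod p) K (ZMod p)) := fun a => ⟨(a, 0), rfl⟩
  let P := dualPairing (stabRoot A π) (extAct fn)
  have hx' : x' ∈ (dual P ζ M).map (LinearMap.funLeft (fixRing A (stabRoot A π)) Qb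
      (LinearMap.fst (ZMod p) K (ZMod p)).dualMap) := by
    rw [← dual_quot (ρ' := fun _ => LinearEquiv.refl (ZMod p) K) hζ D.model _ hfst fun σ _ w => rfl]
    exact D.x'_mem
  obtain ⟨g, hg, hge⟩ := hx'
  have hgε : ∀ ε, g ((LinearMap.fst (ZMod p) K (ZMod p)).dualMap ε) = x' ε := congrFun hge
  have hD := isLModel_dual P hζ D.model
  have hf0 : f 0 = 0 := by
    have := hfz 0
    rwa [ZMod.val_zero, Nat.cast_zero, zero_mul] at this
  have hg0 : g 0 = 0 := by
    have := hgε 0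
    rwa [map_zero, D.x'_zero] at this
  have hval : ∀ z : ZMod p, z ≠ 0 → A.valuation ((z.val : Qb)) = 1 := fun z hz =>
    val_natCast_eq_one hp.1 hA fun hd => hz <| by
      rw [← ZMod.natCast_zmod_val z, (ZMod.natCast_eq_zero_iff _ _).2 hd]
  have hfdiff : ∀ a (z z' : ZMod p), z ≠ z' → A.valuation (f (a, z) - f (a, z')) = u ^ p := by
    intro a z z' hne
    have h1 := D.model.val_diff_eq hf (D.small (z - z')) (by
      rw [hfz, hf0, sub_zero, map_mul, map_pow, hval _ (sub_ne_zero.2 hne), one_mul])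
      (pow_ne_zero _ hu.ne_zero) (D.biconn.1 (a, z'))
    rwa [Prod.mk_add_mk, add_zero, add_sub_cancel] at h1
  have hgdiff : ∀ (t : Dual (ZMod p) (ZMod p)) (ε ε' : Dual (ZMod p) K), ε ≠ ε' →
      A.valuation (g (LinearMap.coprod ε t) - g (LinearMap.coprod ε' t)) = u := by
    intro t ε ε' hne
    set η := (LinearMap.fst (ZMod p) K (ZMod p)).dualMap (ε - ε')
    have hηfix : ∀ σ ∈ stabRoot A π, dualAct (extAct fn) σ η = η := fun σ hσ =>
      LinearMap.ext fun w => by
        rw [dualAct_apply, D.cyclo_eq_one hπ hA hζ hσ, Units.val_one, one_mul]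
        rfl
    have h1 := hD.val_diff_eq (τ := η) hg (hD.small_of_inC hu hηfix (D.biconn.2 _)) (by
      rw [hgε, hg0, sub_zero]
      simpa [D.x'_zero] using D.x'_sub _ 0 (sub_ne_zero.2 hne))
      hu.ne_zero (D.biconn.2 (LinearMap.coprod ε' t))
    have e : LinearMap.coprod ε' t + η = LinearMap.coprod ε t := by
      refine LinearMap.ext fun w => ?_
      simp [η, LinearMap.coprod_apply, LinearMap.dualMap_apply]
      ring
    rwa [e] at h1
  exact ⟨f, hf, g, hg, y, hy, hf0, hfz, hyz, hfdiff, hgdiff⟩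

omit hπ hA hζ D in
/-- The exponents of the two product determinants add up. -/
theorem ext_exponent {Γ : Type*} [CommMonoid Γ] (u : Γ) :
    u ^ (p ^ 2 * (p ^ 2 - 1) * p) * (u ^ p) ^ (p * (p - 1) * p ^ 2) *
      (u ^ (p * (p - 1) * p ^ 2) * u ^ (p ^ 2 * (p ^ 2 - 1) * p)) =
      (u ^ lvl p) ^ (3 * (p ^ 2 * p)) := by
  rw [← pow_mul, ← pow_mul, ← pow_add, ← pow_add, ← pow_add, lvl_eq_mul]
  congr 1
  obtain ⟨q, hq⟩ : ∃ q, p = q + 1 := ⟨p - 1, by have := hp.1.one_le; omega⟩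
  subst hq
  have e1 : (q + 1) ^ 2 - 1 = q * q + 2 * q := Nat.sub_eq_of_eq_add (by ring)
  rw [Nat.add_sub_cancel, e1]
  ring

/-- The model and its monomial basis. -/
theorem ExtData.exists_basis : ∃ f ∈ M, f 0 = 0 ∧
    (∀ z : ZMod p, f ((0 : K), z) = (z.val : Qb) * π ^ p) ∧
    (∀ a (z z' : ZMod p), z ≠ z' → A.valuation (f (a, z) - f (a, z')) = A.valuation π ^ p) ∧
    Submodule.span (fixRing A (stabRoot A π)) (Set.range (monFam p f x)) = M ∧
    ∃ ev : Fin p × Fin (p ^ 2) ≃ K × ZMod p, vdet A (monFam p f x) ev ≠ 0 := by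
  have : NeZero p := ⟨hp.1.ne_zero⟩
  have hu := uniform_stabRoot hπ hA (not_dvd_lvl (p := p))
  set u := A.valuation π
  obtain ⟨f, hf, g, hg, y, hy, hf0, hfz, hyz, hfdiff, hgdiff⟩ := D.exists_lifts hπ hA hζ
  let P := dualPairing (stabRoot A π) (extAct fn)
  have hD := isLModel_dual P hζ D.model
  obtain ⟨ev, hev⟩ := vdet_product_sq (A := A) (Equiv.refl (K × ZMod p)) f (fun w => x w.1) x
    (fun a z => rfl) (fun a b h => D.x_sub a b h) (fun a z z' h => hfdiff a z z' h)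
  let E₂ : Dual (ZMod p) (ZMod p) × Dual (ZMod p) K ≃ Dual (ZMod p) (K × ZMod p) :=
    (Equiv.prodComm _ _).trans (LinearMap.coprodEquiv (ZMod p)).toEquiv
  have hE₂ : ∀ t ε, E₂ (t, ε) = LinearMap.coprod ε t := fun t ε => rfl
  obtain ⟨ev', hev'⟩ := vdet_product_sq (A := A) E₂ g y
    (fun t => ((t 1).val : Qb) * π)
    (fun t ε => by
      rw [hyz, hE₂]
      simp [LinearMap.coprod_apply])
    (cQ := u) (cZ := u) (fun t t' h => by
      have h1 : t 1 ≠ t' 1 := fun e => h (LinearMap.ext_ring e)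
      rw [← sub_mul, map_mul, val_natCast_sub hA (ZMod.val_lt _) (ZMod.val_lt _)
        fun e => h1 (ZMod.val_injective p e), one_mul])
    (fun t ε ε' h => by rw [hE₂, hE₂]; exact hgdiff t ε ε' h)
  have hcard' : Fintype.card (Dual (ZMod p) (ZMod p)) = p := by rw [← card_dual, ZMod.card]
  have hcK' : Fintype.card (Dual (ZMod p) K) = p ^ 2 := by rw [← card_dual, D.card]
  have hl : ∀ i b : ℕ, (fun w : K × ZMod p => f w ^ i * x w.1 ^ b) ∈ M := fun i b => by
    have h := D.model.mul_mem (f ^ i) (pow_mem_of_mem D.model hf i)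
      ((fun w : K × ZMod p => x w.1) ^ b) (pow_mem_of_mem D.model D.x_mem b)
    exact h
  have hl' : ∀ i b : ℕ, (fun w => g w ^ i * y w ^ b) ∈ dual P ζ M := fun i b => by
    have h := hD.mul_mem (g ^ i) (pow_mem_of_mem hD hg i) (y ^ b) (pow_mem_of_mem hD hy b)
    exact h
  have hspan := span_eq_of_disc_le (P := P) hζ D.model
    (fun (ib : Fin (Fintype.card (ZMod p)) × Fin (Fintype.card K)) w =>
      f w ^ (ib.1 : ℕ) * x w.1 ^ (ib.2 : ℕ)) ev
    (fun (ib : Fin (Fintype.card (Dual (ZMod p) K)) × Fin (Fintype.card (Dual (ZMod p) (ZMod p))))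
      w => g w ^ (ib.1 : ℕ) * y w ^ (ib.2 : ℕ)) ev' (fun ib => hl ib.1 ib.2)
    (fun ib => hl' ib.1 ib.2) (le_of_eq ?_)
  · refine ⟨f, hf, hf0, hfz, hfdiff, ?_, ?_⟩
    · rw [← hspan.1]
      let c : Fin p × Fin (p ^ 2) ≃ Fin (Fintype.card (ZMod p)) × Fin (Fintype.card K) :=
        (finCongr (ZMod.card p).symm).prodCongr (finCongr D.card.symm)
      rw [← EquivLike.range_comp _ c]
      rfl
    · let c : Fin p × Fin (p ^ 2) ≃ Fin (Fintype.card (ZMod p)) × Fin (Fintype.card K) :=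
        (finCongr (ZMod.card p).symm).prodCongr (finCongr D.card.symm)
      refine ⟨c.trans ev, ?_⟩
      have e : monFam p f x = (fun (ib : Fin (Fintype.card (ZMod p)) × Fin (Fintype.card K)) w =>
          f w ^ (ib.1 : ℕ) * x w.1 ^ (ib.2 : ℕ)) ∘ c := rfl
      rw [e, vdet_comp]
      intro h
      rw [h, zero_pow two_ne_zero] at hev
      exact mul_ne_zero (pow_ne_zero _ hu.ne_zero) (pow_ne_zero _ (pow_ne_zero _ hu.ne_zero))
        hev.symm
  · rw [mul_pow, hev, hev', Fintype.card_prod, D.card, hcard', hcK', ZMod.card, Nat.cast_mul,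
      Nat.cast_pow, map_mul, map_pow, ← pow_succ, ← pow_mul (A.valuation (p : Qb)),
      ← val_root_pow hπ, show (2 + 1) * (p ^ 2 * p) = 3 * (p ^ 2 * p) from rfl,
      ext_exponent u]

end

end FermatAgent.TW.Flat
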