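import Fermat.Agent.TW.Flat.Kummer

/-!
# How much a Kummer extension of degree `p` moves its integers

If `w = r + c` has value `u ^ (s / p)` with `p ∤ s`, the integers of the field of `r` are moved by
inertia by at most `|r| (ζ - 1) u ^ ((1 - s) / p)`.
-/

set_option autoImplicit false

namespace FermatAgent.TW.Flat

open FermatAgent.Local FermatAgent.Duality FermatAgent.Duality.Local

noncomputable section

local notation "Qb" => AlgebraicClosure ℚ
local notation "GQ" => AlgebraicClosure ℚ ≃ₐ[ℚ] AlgebraicClosure ℚ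

variable {p : ℕ} [Fact p.Prime] {A : ValuationSubring Qb} {ζ : Qb} {J : Subgroup GQ}

/-- If the non-zero terms have distinct values, each is at most the sum. -/
theorem val_term_le_sum {ι : Type*} {s : Finset ι} {t : ι → Qb}
    (h : ∀ i ∈ s, ∀ j ∈ s, t i ≠ 0 → A.valuation (t i) = A.valuation (t j) → i = j) {i : ι}
    (hi : i ∈ s) : A.valuation (t i) ≤ A.valuation (∑ j ∈ s, t j) := by
  classical
  obtain ⟨m, hm, hmax⟩ := s.exists_max_image (fun j => A.valuation (t j)) ⟨i, hi⟩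
  refine (hmax i hi).trans ?_
  rcases eq_or_ne (t m) 0 with h0 | h0
  · rw [h0, map_zero]; exact zero_le
  rw [A.valuation.map_sum_eq_of_lt hm fun j hj => ?_]
  rw [Finset.mem_sdiff, Finset.mem_singleton] at hj
  exact lt_of_le_of_ne (hmax j hj.1) fun e => hj.2 (h m hm j hj.1 h0 e.symm).symm

variable (hζ : IsPrimitiveRoot ζ p) {f : GQ → ZMod p} {r : Qb} (hr : IsRoot p ζ J f r)
  (hJζ : ∀ σ ∈ J, σ ζ = ζ) (hf : ∀ σ ∈ J, ∀ τ ∈ J, f (σ * τ) = f σ + f τ) {σ₁ : GQ}
  (hσ₁ : σ₁ ∈ J) (hf₁ : f σ₁ = 1)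
include hζ hr hJζ hf hσ₁ hf₁

omit hr in
/-- Lagrange resolvents. -/
theorem exists_expansion (hr0 : r ≠ 0) (hr' : ∀ σ ∈ J, σ r = zpw p ζ (f σ) * r) {x : Qb}
    (hx : ∀ σ ∈ J, f σ = 0 → σ x = x) :
    ∃ a : ℕ → Qb, (∀ k, ∀ σ ∈ J, σ (a k) = a k) ∧ x = ∑ k ∈ Finset.range p, a k * r ^ k := by
  have hp := (Fact.out : p.Prime)
  let y : ZMod p → Qb := fun i => (σ₁ ^ i.val) x
  have hfn : ∀ n : ℕ, f (σ₁ ^ n) = n := by
    intro n
    induction n with
    | zero =>
      have h := hf 1 J.one_mem 1 J.one_mem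
      rw [one_mul] at h
      simpa using (right_eq_add.1 h)
    | succ n ih => rw [pow_succ, hf _ (J.pow_mem hσ₁ n) _ hσ₁, ih, hf₁, Nat.cast_succ]
  have hy : ∀ σ ∈ J, ∀ i, σ (y i) = y (i + f σ) := by
    intro σ hσ i
    set j := (i + f σ).val
    have hmem : (σ₁ ^ j)⁻¹ * (σ * σ₁ ^ i.val) ∈ J :=
      J.mul_mem (J.inv_mem (J.pow_mem hσ₁ _)) (J.mul_mem hσ (J.pow_mem hσ₁ _))
    have h0 : f ((σ₁ ^ j)⁻¹ * (σ * σ₁ ^ i.val)) = 0 := by
      have h := hf _ (J.pow_mem hσ₁ j) _ hmem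
      rw [mul_inv_cancel_left, hf σ hσ _ (J.pow_mem hσ₁ _), hfn, hfn, ZMod.natCast_zmod_val,
        ZMod.natCast_zmod_val] at h
      linear_combination -h
    have h := congrArg (σ₁ ^ j) (hx _ hmem h0)
    rwa [← AlgEquiv.mul_apply, mul_inv_cancel_left, AlgEquiv.mul_apply] at h
  let a : ℕ → Qb := fun k =>
    (p : Qb)⁻¹ * (∑ i, zpw p ζ (-((k : ZMod p) * i)) * y i) / r ^ k
  refine ⟨a, fun k σ hσ => ?_, ?_⟩
  · simp only [a, map_div₀, map_mul, map_inv₀, map_natCast, map_sum, map_pow, hr' σ hσ,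
      map_zpw (hJζ σ hσ), hy σ hσ, mul_pow]
    rw [div_eq_div_iff (mul_ne_zero (pow_ne_zero _ (zpw_ne_zero hζ _)) (pow_ne_zero _ hr0))
      (pow_ne_zero _ hr0)]
    have e : zpw p ζ (f σ) ^ k = zpw p ζ ((k : ZMod p) * f σ) := by
      rw [zpw, ← pow_mul, mul_comm, ← zpw_natCast hζ, Nat.cast_mul, ZMod.natCast_zmod_val]
    rw [e]
    have hs : ∑ i, zpw p ζ (-((k : ZMod p) * i)) * y (i + f σ) =
        zpw p ζ ((k : ZMod p) * f σ) * ∑ i, zpw p ζ (-((k : ZMod p) * i)) * y i := by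
      rw [Finset.mul_sum]
      refine Fintype.sum_equiv (Equiv.addRight (f σ)) _ _ fun i => ?_
      rw [Equiv.coe_addRight, ← mul_assoc, ← zpw_add hζ]
      congr 2
      ring
    rw [hs]
    ring
  · have hp0 : (p : Qb) ≠ 0 := Nat.cast_ne_zero.2 hp.ne_zero
    have hak : ∀ k ∈ Finset.range p, a k * r ^ k =
        (p : Qb)⁻¹ * ∑ i, zpw p ζ (-((k : ZMod p) * i)) * y i := fun k _ =>
      div_mul_cancel₀ _ (pow_ne_zero _ hr0)
    rw [Finset.sum_congr rfl hak, ← Finset.mul_sum, Finset.sum_comm]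
    have horth : ∀ i : ZMod p, ∑ k ∈ Finset.range p, zpw p ζ (-((k : ZMod p) * i)) * y i =
        if i = 0 then (p : Qb) * y i else 0 := by
      intro i
      have e : ∀ k : ℕ, zpw p ζ (-((k : ZMod p) * i)) = zpw p ζ (-i) ^ k := fun k => by
        rw [zpw, zpw, ← pow_mul, mul_comm (-i).val, ← zpw_natCast hζ (k * (-i).val)]
        rw [Nat.cast_mul, ZMod.natCast_zmod_val, mul_neg, zpw]
      rw [← Finset.sum_mul]
      split_ifs with hi
      · simp [hi, zpw_zero]
      · simp only [e]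
        have h1 : zpw p ζ (-i) ≠ 1 := fun h => hi (by simpa using (zpw_eq_one_iff hζ).1 h)
        have := geom_sum_mul (zpw p ζ (-i)) p
        rw [zpw_pow_eq_one hζ, sub_self, mul_eq_zero] at this
        rw [this.resolve_right (sub_ne_zero.2 h1), zero_mul]
    rw [Finset.sum_congr rfl fun i _ => horth i, Finset.sum_ite_eq', if_pos (Finset.mem_univ _),
      ← mul_assoc, inv_mul_cancel₀ hp0, one_mul]
    simp [y]

/-- The expansion in powers of `r + c`. -/
theorem exists_expansion' {c : Qb} (hc : ∀ σ ∈ J, σ c = c) {x : Qb}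
    (hx : ∀ σ ∈ J, f σ = 0 → σ x = x) :
    ∃ a : ℕ → Qb, (∀ k, ∀ σ ∈ J, σ (a k) = a k) ∧
      x = ∑ k ∈ Finset.range p, a k * (r + c) ^ k := by
  obtain ⟨b, hb, hxb⟩ := exists_expansion hζ hJζ hf hσ₁ hf₁ hr.1 hr.2 hx
  refine ⟨fun j => ∑ k ∈ Finset.range p, b k * (-c) ^ (k - j) * (k.choose j : Qb), fun j σ hσ => ?_, ?_⟩
  · simp only [map_sum, map_mul, map_pow, map_neg, map_natCast, hb _ σ hσ, hc σ hσ]
  · rw [hxb]
    simp only [Finset.sum_mul]
    rw [Finset.sum_comm]
    refine Finset.sum_congr rfl fun k hk => ?_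
    rw [show r ^ k = ((r + c) + -c) ^ k by rw [add_neg_cancel_right], add_pow, Finset.mul_sum]
    refine (Finset.sum_subset (fun j hj => ?_) fun j _ hj => ?_).trans
      (Finset.sum_congr rfl fun j _ => by ring)
    · rw [Finset.mem_range] at hj hk ⊢; omega
    · rw [Finset.mem_range] at hj
      rw [Nat.choose_eq_zero_of_lt (by omega)]
      simp

/-- The bound on the motion of integers. -/
theorem val_smul_sub_le {u : A.ValueGroup} (hu : Uniform A J u) {c : Qb} (hc : ∀ σ ∈ J, σ c = c)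
    (hJA : J ≤ A.decompositionSubgroup ℚ) {s : ℕ} (hs : ¬ p ∣ s)
    (hw : A.valuation (r + c) ^ p = u ^ s) {x : Qb} (hxA : x ∈ A)
    (hx : ∀ σ ∈ J, f σ = 0 → σ x = x) {σ : GQ} (hσ : σ ∈ J) :
    A.valuation (σ x - x) ^ p * u ^ s ≤
        (A.valuation (ζ - 1) * A.valuation r) ^ p * min u (A.valuation x ^ p) ∧
      (x ≠ 0 → ∃ n : ℤ, A.valuation x ^ p = u ^ n) := by
  classical
  have hp := (Fact.out : p.Prime)
  obtain ⟨a, ha, hxa⟩ := exists_expansion' hζ hr hJζ hf hσ₁ hf₁ hc hx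
  set w := r + c with hwdef
  have hwne : w ≠ 0 := fun h => pow_ne_zero s hu.ne_zero (by rw [← hw, h, map_zero, zero_pow hp.ne_zero])
  have hval : ∀ k, a k ≠ 0 → ∃ n : ℤ, A.valuation (a k * w ^ k) ^ p = u ^ (p * n + k * s) := by
    intro k hk
    obtain ⟨n, hn⟩ := hu.fixed _ hk (ha k)
    refine ⟨n, ?_⟩
    rw [map_mul, mul_pow, hn, map_pow, ← pow_mul, mul_comm k p, pow_mul, hw, ← pow_mul,
      ← zpow_natCast, ← zpow_mul, ← zpow_natCast, ← zpow_add₀ hu.ne_zero]
    congr 1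
    push_cast
    ring
  have hdis : ∀ i ∈ Finset.range p, ∀ j ∈ Finset.range p, a i * w ^ i ≠ 0 →
      A.valuation (a i * w ^ i) = A.valuation (a j * w ^ j) → i = j := by
    intro i hi j hj hne e
    have haj : a j ≠ 0 := fun h => hne (by
      rw [h, zero_mul, map_zero, map_eq_zero] at e; exact e)
    obtain ⟨n, hn⟩ := hval i (left_ne_zero_of_mul hne)
    obtain ⟨m, hm⟩ := hval j haj
    rw [e, hm] at hn
    have h := zpow_inj_of_lt_one hu.ne_zero hu.lt_one hn
    have hd : (p : ℤ) ∣ ((i : ℤ) - j) * s := ⟨m - n, by linear_combination h.symm⟩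
    rcases (Nat.prime_iff_prime_int.1 hp).dvd_mul.1 hd with h' | h'
    · rw [Finset.mem_range] at hi hj
      have := Int.eq_zero_of_abs_lt_dvd h' (abs_sub_lt_iff.2 ⟨by omega, by omega⟩)
      omega
    · exact absurd (Int.natCast_dvd_natCast.1 h') hs
  have hterm : ∀ k ∈ Finset.range p, A.valuation (a k * w ^ k) ≤ A.valuation x := fun k hk => by
    rw [hxa]; exact val_term_le_sum hdis hk
  have hx1 : A.valuation x ≤ 1 := val_le_one_of_mem hxA
  have hsmall : ∀ k ∈ Finset.range p, k ≠ 0 → A.valuation (a k * w ^ k) ^ p ≤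
      min u (A.valuation x ^ p) := by
    intro k hk hk0
    refine le_min ?_ (pow_le_pow_left' (hterm k hk) p)
    rcases eq_or_ne (a k) 0 with h0 | h0
    · simp [h0, hp.ne_zero]
    obtain ⟨n, hn⟩ := hval k h0
    have h1 : A.valuation (a k * w ^ k) ^ p ≤ 1 := pow_le_one₀ zero_le ((hterm k hk).trans hx1)
    rw [hn] at h1 ⊢
    rw [← zpow_zero u, zpow_le_zpow_iff' hu.ne_zero hu.lt_one] at h1
    conv_rhs => rw [← zpow_one u]
    rw [zpow_le_zpow_iff' hu.ne_zero hu.lt_one]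
    by_contra hlt
    have he : (p : ℤ) * n + k * s = 0 := by omega
    have hd : (p : ℤ) ∣ (k : ℤ) * s := ⟨-n, by linear_combination he⟩
    rcases (Nat.prime_iff_prime_int.1 hp).dvd_mul.1 hd with h' | h'
    · rw [Finset.mem_range] at hk
      exact absurd (Nat.le_of_dvd (by omega) (Int.natCast_dvd_natCast.1 h')) (by omega)
    · exact hs (Int.natCast_dvd_natCast.1 h')
  set z := A.valuation (ζ - 1) * A.valuation r with hz
  have hσw : A.valuation (σ w - w) ≤ z := by
    rw [hwdef, map_add, hc σ hσ, add_sub_add_right_eq_sub, hr.2 σ hσ, ← sub_one_mul, map_mul, hz]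
    refine mul_le_mul' ?_ le_rfl
    rcases eq_or_ne (f σ) 0 with h | h
    · simp [h, zpw_zero]
    · exact (val_zpw_sub_one hζ h).le
  have hdiff : ∀ k ∈ Finset.range p,
      A.valuation (σ (a k * w ^ k) - a k * w ^ k) ^ p * u ^ s ≤
        z ^ p * min u (A.valuation x ^ p) := by
    intro k hk
    rcases eq_or_ne k 0 with rfl | hk0
    · simp [ha 0 σ hσ, hp.ne_zero]
    rw [map_mul, ha k σ hσ, map_pow, ← mul_sub, ← geom_sum₂_mul, ← hw, ← mul_pow]
    refine (pow_le_pow_left' (?_ : _ ≤ z * A.valuation (a k * w ^ k)) p).trans ?_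
    · have hgeom : A.valuation (∑ i ∈ Finset.range k, σ w ^ i * w ^ (k - 1 - i)) ≤
          A.valuation w ^ (k - 1) := A.valuation.map_sum_le fun i hi => by
        rw [Finset.mem_range] at hi
        rw [map_mul, map_pow, map_pow, val_galois_eq (hJA hσ), ← pow_add,
          show i + (k - 1 - i) = k - 1 by omega]
      calc A.valuation (a k * ((∑ i ∈ Finset.range k, σ w ^ i * w ^ (k - 1 - i)) * (σ w - w))) *
            A.valuation w
          ≤ A.valuation (a k) * (A.valuation w ^ (k - 1) * z) *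
            A.valuation w := by
            rw [map_mul, map_mul]
            exact mul_le_mul' (mul_le_mul' le_rfl (mul_le_mul' hgeom hσw)) le_rfl
        _ = z * A.valuation (a k * w ^ k) := by
            rw [map_mul, map_pow]
            conv_rhs => rw [show k = k - 1 + 1 by omega, pow_succ]
            rw [show k - 1 + 1 = k by omega]
            ac_rfl
    · rw [mul_pow]
      exact mul_le_mul' le_rfl (hsmall k hk hk0)
  constructor
  · have hsum : σ x - x = ∑ k ∈ Finset.range p, (σ (a k * w ^ k) - a k * w ^ k) := by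
      rw [Finset.sum_sub_distrib, ← map_sum, ← hxa]
    obtain ⟨m, hm, hmax⟩ := (Finset.range p).exists_max_image
      (fun k => A.valuation (σ (a k * w ^ k) - a k * w ^ k)) ⟨0, Finset.mem_range.2 hp.pos⟩
    refine le_trans (mul_le_mul' (pow_le_pow_left' ?_ p) le_rfl) (hdiff m hm)
    rw [hsum]
    exact A.valuation.map_sum_le hmax
  · intro hx0
    obtain ⟨m, hm, hmax⟩ := (Finset.range p).exists_max_image
      (fun k => A.valuation (a k * w ^ k)) ⟨0, Finset.mem_range.2 hp.pos⟩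
    have hle : A.valuation x ≤ A.valuation (a m * w ^ m) := by
      rw [hxa]; exact A.valuation.map_sum_le hmax
    have heq := le_antisymm hle (hterm m hm)
    have hm0 : a m ≠ 0 := fun h => hx0 (by
      rw [h, zero_mul, map_zero, map_eq_zero] at heq; exact heq)
    obtain ⟨n, hn⟩ := hval m hm0
    exact ⟨_, by rw [heq, hn]⟩

end

end FermatAgent.TW.Flat
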