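import Fermat.Agent.TW.Flat.Ext
import Fermat.Agent.TW.Flat.Ramify

/-!
# The fibre over a non-zero point of the quotient is not totally ramified of slope one

In the monomial basis an almost-derivation `D` at zero has `D f = 1`; it kills `p f`, which lies in
the square of the ideal of zero.
-/

set_option autoImplicit false

namespace FermatAgent.TW.Flat

open FermatAgent.Local Module Polynomial
open scoped Classical fwdDiff

noncomputable section

local notation "Qb" => AlgebraicClosure ℚ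
local notation "GQ" => AlgebraicClosure ℚ ≃ₐ[ℚ] AlgebraicClosure ℚ

variable {p : ℕ} [hp : Fact p.Prime] {A : ValuationSubring Qb} {J : Subgroup GQ}

/-- The functions `τ ↦ Δ_τ^k g 0`. -/
def iterDiff {X : Type} [AddCommGroup X] (k : ℕ) (g : X → Qb) : X → Qb := fun τ => (Δ_[τ])^[k] g 0

/-- The functions of a model vanishing at zero. -/
def augSet {X : Type} [AddCommGroup X] (M : Submodule (fixRing A J) (X → Qb)) : Set (X → Qb) :=
  {m | m ∈ M ∧ m 0 = 0}

namespace IsLModel

variable {X : Type} [AddCommGroup X] {act : GQ → X → X}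
  {M : Submodule (fixRing A J) (X → Qb)} (hM : IsLModel act M)
include hM

/-- The higher differences lie in powers of the augmentation ideal. -/
theorem iterDiff_succ_mem (k : ℕ) : ∀ g ∈ M, iterDiff (k + 1) g ∈
    Submodule.span (fixRing A J) {φ : X → Qb | ∃ b ∈ augSet M, ∃ m ∈ M,
      (1 ≤ k → m 0 = 0) ∧ φ = b * m} := by
  induction k with
  | zero =>
    intro g hg
    refine Submodule.subset_span ⟨fun τ => g τ - g 0, ⟨?_, sub_self _⟩, 1, hM.one_mem,
      fun h => absurd h (by omega), ?_⟩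
    · have e : (fun τ => g τ - g 0) = g - (⟨g 0, hM.apply_zero_mem hg⟩ : fixRing A J) • (1 : X → Qb) :=
        funext fun τ => by
          show _ = g τ - g 0 * 1
          rw [mul_one]
      rw [e]
      exact M.sub_mem hg (M.smul_mem _ hM.one_mem)
    · funext τ
      simp [iterDiff, fwdDiff]
  | succ k ih =>
    have hmem : ∀ g ∈ M, iterDiff (k + 1) g ∈ M ∧ iterDiff (k + 1) g 0 = 0 := fun g hg => by
      have h := ih g hg
      generalize iterDiff (k + 1) g = ψ at h ⊢
      induction h using Submodule.span_induction with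
      | mem φ hφ =>
        obtain ⟨b, hb, m, hm, -, rfl⟩ := hφ
        exact ⟨hM.mul_mem b hb.1 m hm, by rw [Pi.mul_apply, hb.2, zero_mul]⟩
      | zero => exact ⟨zero_mem _, rfl⟩
      | add a b _ _ ha hb => exact ⟨add_mem ha.1 hb.1, by simp [ha.2, hb.2]⟩
      | smul r a _ ha => exact ⟨M.smul_mem r ha.1, by simp [ha.2]⟩
    intro g hg
    let T : (X × X → Qb) →ₗ[fixRing A J] (X → Qb) :=
      { toFun := fun φ τ => (Δ_[τ])^[k + 1] (fun y => φ (y, τ)) 0
        map_add' := fun a b => funext fun τ => by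
          have := congrFun (fwdDiff_iter_add (fun y => a (y, τ)) (fun y => b (y, τ)) (k + 1)
            (h := τ)) 0
          exact this
        map_smul' := fun r a => funext fun τ => by
          have := congrFun (fwdDiff_iter_const_smul r (fun y => a (y, τ)) (k + 1) (h := τ)) 0
          exact this }
    have h := Submodule.mem_map_of_mem (f := T) (hM.diff_mem hg)
    rw [Submodule.map_span] at h
    have e : T (fun z : X × X => g (z.1 + z.2) - g z.1) = iterDiff (k + 1 + 1) g := by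
      funext τ
      show (Δ_[τ])^[k + 1] _ 0 = (Δ_[τ])^[k + 1 + 1] g 0
      rw [Function.iterate_succ_apply]
      rfl
    rw [e] at h
    refine Submodule.span_mono ?_ h
    rintro _ ⟨_, ⟨a, ha, _, ⟨b, hb, rfl⟩, rfl⟩, rfl⟩
    refine ⟨fun τ => b τ - b 0, ⟨?_, sub_self _⟩, _, (hmem a ha).1, fun _ => (hmem a ha).2, ?_⟩
    · have e : (fun τ => b τ - b 0) = b - (⟨b 0, hM.apply_zero_mem hb⟩ : fixRing A J) • (1 : X → Qb) :=
        funext fun τ => by
          show _ = b τ - b 0 * 1
          rw [mul_one]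
      rw [e]
      exact M.sub_mem hb (M.smul_mem _ hM.one_mem)
    · funext τ
      show (Δ_[τ])^[k + 1] (fun y => a y * (b τ - b 0)) 0 = (b τ - b 0) * (Δ_[τ])^[k + 1] a 0
      rw [show (fun y => a y * (b τ - b 0)) = (b τ - b 0) • a from
        funext fun y => by simp [mul_comm], fwdDiff_iter_const_smul]
      rfl

/-- `p f` is a combination of products of two functions vanishing at zero. -/
theorem natCast_smul_mem_sq [Module (ZMod p) X] {f : X → Qb} (hf : f ∈ M) (hf0 : f 0 = 0) :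
    (p : Qb) • f ∈ Submodule.span (fixRing A J)
      {φ : X → Qb | ∃ b ∈ augSet M, ∃ m ∈ augSet M, φ = b * m} := by
  have hpτ : ∀ τ : X, p • τ = 0 := fun τ => by
    rw [← Nat.cast_smul_eq_nsmul (ZMod p), ZMod.natCast_self, zero_smul]
  obtain ⟨q, hq⟩ : ∃ q, p = q + 1 + 1 := ⟨p - 2, by have := hp.1.two_le; omega⟩
  have e : (p : Qb) • f =
      -∑ k ∈ Finset.range (q + 1), p.choose (k + 1 + 1) • iterDiff (k + 1 + 1) f := by
    funext τ
    have h := shift_eq_sum_fwdDiff_iter τ f p 0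
    rw [zero_add, hpτ, Finset.sum_range_succ',
      show Finset.range p = Finset.range (q + 1 + 1) by rw [← hq], Finset.sum_range_succ'] at h
    simp only [Function.iterate_zero, id, Nat.choose_zero_right, one_smul, Function.iterate_one,
      zero_add, Nat.choose_one_right, hf0, fwdDiff, add_zero, sub_zero] at h
    simp only [Pi.smul_apply, smul_eq_mul, Pi.neg_apply, Finset.sum_apply, iterDiff]
    rw [nsmul_eq_mul] at h
    linear_combination -h
  rw [e]
  refine Submodule.neg_mem _ (Submodule.sum_mem _ fun k _ => ?_)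
  refine Submodule.smul_of_tower_mem _ _ (Submodule.span_mono ?_ (hM.iterDiff_succ_mem (k + 1) f hf))
  rintro _ ⟨b, hb, m, hm, hm0, rfl⟩
  exact ⟨b, hb, m, ⟨hm, hm0 (by omega)⟩, rfl⟩

end IsLModel

theorem monFam_zero {K : Type} [Field K] [Fintype K] [Algebra (ZMod p) K]
    {f : K × ZMod p → Qb} {x : K → Qb} (hf0 : f 0 = 0) (hx0 : x 0 = 0)
    (ib : Fin p × Fin (p ^ 2)) :
    monFam p f x ib 0 = if (ib.1 : ℕ) = 0 ∧ (ib.2 : ℕ) = 0 then 1 else 0 := by
  show f 0 ^ (ib.1 : ℕ) * x 0 ^ (ib.2 : ℕ) = _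
  rw [hf0, hx0]
  by_cases h : (ib.1 : ℕ) = 0 ∧ (ib.2 : ℕ) = 0
  · rw [if_pos h, h.1, h.2, pow_zero, mul_one]
  · rw [if_neg h]
    rcases not_and_or.1 h with h | h
    · rw [zero_pow h, zero_mul]
    · rw [zero_pow h, mul_zero]

variable {π ζ : Qb} {K : Type} [Field K] [Fintype K] [Algebra (ZMod p) K]
  {fn : GQ → K →ₗ[ZMod p] ZMod p} {M : Submodule (fixRing A (stabRoot A π)) (K × ZMod p → Qb)}
  {x : K → Qb} {x' : Dual (ZMod p) K → Qb}
  (hπ : π ^ lvl p = -(p : Qb)) (hA : A.LiesOverPrime p) (hζ : IsPrimitiveRoot ζ p)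
  (D : ExtData p A π ζ fn M x x') {f : K × ZMod p → Qb} (hf : f ∈ M) (hf0 : f 0 = 0)
  (hfz : ∀ z : ZMod p, f ((0 : K), z) = (z.val : Qb) * π ^ p)
  (hfdiff : ∀ a (z z' : ZMod p), z ≠ z' → A.valuation (f (a, z) - f (a, z')) = A.valuation π ^ p)
  (hspan : Submodule.span (fixRing A (stabRoot A π)) (Set.range (monFam p f x)) = M)
include hπ hA hζ D hf hf0 hfz hfdiff hspan

-- Kept: omitting the unused hypotheses would change the signature of a used lemma.
set_option linter.unusedSectionVars false in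
/-- The equation of `f` over the coordinate, and what it says at zero and at one. -/
theorem ExtData.exists_equation (hprod : A.valuation (∏ z, f ((1 : K), z)) = A.valuation π) :
    ∃ c : Fin p × Fin (p ^ 2) → fixRing A (stabRoot A π),
      (∀ w, f w ^ p = ∑ ib, (c ib : Qb) * monFam p f x ib w) ∧
      (∀ (i : Fin p) (b : Fin (p ^ 2)), (i : ℕ) = 0 → (b : ℕ) = 0 → (c (i, b) : Qb) = 0) ∧
      (∀ (i : Fin p) (b : Fin (p ^ 2)), (i : ℕ) = 0 → (b : ℕ) = 1 →
        A.valuation (c (i, b) : Qb) = 1) ∧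
      ∀ (i : Fin p) (b : Fin (p ^ 2)), (i : ℕ) = 1 → (b : ℕ) = 0 →
        A.valuation (c (i, b) : Qb) = A.valuation π ^ (p * (p - 1)) := by
  have : NeZero p := ⟨hp.1.ne_zero⟩
  have hu := uniform_stabRoot hπ hA (not_dvd_lvl (p := p))
  have hp2 : 1 < p ^ 2 := lt_of_lt_of_le hp.1.one_lt (Nat.le_self_pow two_ne_zero p)
  set u := A.valuation π
  obtain ⟨c, hc⟩ := (Submodule.mem_span_range_iff_exists_fun _).1
    (hspan.symm ▸ pow_mem_of_mem D.model hf p : f ^ p ∈ _)
  have hcw : ∀ w, f w ^ p = ∑ ib, (c ib : Qb) * monFam p f x ib w := fun w => by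
    rw [← Pi.pow_apply, ← hc, Finset.sum_apply]
    rfl
  let q : K → Fin p → Qb := fun a i => ∑ b, (c (i, b) : Qb) * x a ^ (b : ℕ)
  have hpoly : ∀ a : K, X ^ p - ∑ i : Fin p, C (q a i) * X ^ (i : ℕ) =
      ∏ z : ZMod p, (X - C (f (a, z))) := by
    intro a
    have hdeg : (∑ i : Fin p, C (q a i) * X ^ (i : ℕ)).degree < (p : WithBot ℕ) :=
      degree_sum_fin_lt _
    have h1 : (X ^ p - ∑ i : Fin p, C (q a i) * X ^ (i : ℕ)).Monic :=
      monic_X_pow_sub (by exact hdeg)
    have h2 : (∏ z : ZMod p, (X - C (f (a, z)))).Monic :=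
      monic_prod_of_monic _ _ fun z _ => monic_X_sub_C _
    have hn1 : (X ^ p - ∑ i : Fin p, C (q a i) * X ^ (i : ℕ)).natDegree = p := by
      rw [natDegree_sub_eq_left_of_natDegree_lt, natDegree_X_pow]
      rw [natDegree_X_pow]
      rcases eq_or_ne (∑ i : Fin p, C (q a i) * X ^ (i : ℕ)) 0 with h | h
      · rw [h, natDegree_zero]; exact hp.1.pos
      · exact (natDegree_lt_iff_degree_lt h).2 hdeg
    have hn2 : (∏ z : ZMod p, (X - C (f (a, z)))).natDegree = p := by
      rw [natDegree_prod_of_monic _ _ fun z _ => monic_X_sub_C _]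
      simp
    have hinj : Function.Injective fun z => f (a, z) := fun z z' h => by
      by_contra hne
      have := hfdiff a z z' hne
      rw [show f (a, z) = f (a, z') from h, sub_self, map_zero] at this
      exact pow_ne_zero _ hu.ne_zero this.symm
    refine eq_of_degree_sub_lt_of_eval_index_eq (Finset.univ : Finset (ZMod p))
      (v := fun z => f (a, z)) hinj.injOn ?_ fun z _ => ?_
    · rw [Finset.card_univ, ZMod.card]
      refine (degree_sub_lt_left (by rw [degree_eq_natDegree h1.ne_zero, degree_eq_natDegree h2.ne_zero,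
        hn1, hn2]) h1.ne_zero (by rw [h1.leadingCoeff, h2.leadingCoeff])).trans_le ?_
      rw [degree_eq_natDegree h1.ne_zero, hn1]
    · have e := hcw (a, z)
      rw [Fintype.sum_prod_type] at e
      simp only [eval_sub, eval_pow, eval_X, eval_finsetSum, eval_mul, eval_C, q, Finset.sum_mul,
        eval_prod]
      have h0 : ∏ z', (f (a, z) - f (a, z')) = 0 :=
        Finset.prod_eq_zero (Finset.mem_univ z) (sub_self _)
      rw [h0, e, sub_eq_zero]
      exact Finset.sum_congr rfl fun i _ => Finset.sum_congr rfl fun b _ => by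
        simp only [monFam]; ring
  have hcoeff : ∀ a (j : Fin p), (∏ z : ZMod p, (X - C (f (a, z)))).coeff j = -q a j := fun a j => by
    rw [← hpoly, coeff_sub, coeff_X_pow, if_neg (ne_of_lt j.2), finsetSum_coeff, zero_sub,
      Finset.sum_eq_single j (fun i _ hi => by
        rw [coeff_C_mul_X_pow, if_neg fun h => hi (Fin.ext h.symm)])
        (fun h => absurd (Finset.mem_univ _) h), coeff_C_mul_X_pow, if_pos rfl]
  have hq0 : ∀ (i : Fin p) (b : Fin (p ^ 2)), (b : ℕ) = 0 → q 0 i = (c (i, b) : Qb) := fun i b hb => by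
    simp only [q, D.x_zero]
    rw [Finset.sum_eq_single b (fun b' _ hb' => by
      rw [zero_pow fun h => hb' (Fin.ext (h.trans hb.symm)), mul_zero])
      (fun h => absurd (Finset.mem_univ _) h), hb, pow_zero, mul_one]
  refine ⟨c, hcw, fun i b hi hb => ?_, fun i b hi hb => ?_, fun i b hi hb => ?_⟩
  · have h := hcoeff 0 i
    rw [hi, coeff_zero_eq_eval_zero, eval_prod, Finset.prod_eq_zero (Finset.mem_univ 0) ?_,
      zero_eq_neg, hq0 i b hb] at h
    · exact h
    · have : f ((0 : K), (0 : ZMod p)) = 0 := hf0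
      simp [this]
  · have h := hcoeff 1 i
    rw [hi, coeff_zero_eq_eval_zero, eval_prod] at h
    have hq : A.valuation (q 1 i) = u := by
      rw [← Valuation.map_neg, ← h, map_prod, ← hprod, map_prod]
      exact Finset.prod_congr rfl fun z _ => by simp [Valuation.map_neg]
    have hx1 : A.valuation (x 1) = u := by simpa [D.x_zero] using D.x_sub 1 0 one_ne_zero
    have hrest : A.valuation (q 1 i - (c (i, b) : Qb) * x 1) ≤ u * u := by
      simp only [q]
      rw [← Finset.add_sum_erase _ _ (Finset.mem_univ b), hb, pow_one, add_sub_cancel_left]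
      refine A.valuation.map_sum_le fun b' hb' => ?_
      rw [map_mul, map_pow, hx1]
      rcases Nat.eq_zero_or_pos (b' : ℕ) with h0 | h0
      · have hc0 : (c (i, b') : Qb) = 0 := by
          have h := hcoeff 0 i
          rw [hi, coeff_zero_eq_eval_zero, eval_prod, Finset.prod_eq_zero (Finset.mem_univ 0) ?_,
            zero_eq_neg, hq0 i b' h0] at h
          · exact h
          · have : f ((0 : K), (0 : ZMod p)) = 0 := hf0
            simp [this]
        rw [hc0, map_zero, zero_mul]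
        exact zero_le
      · have hne : (b' : ℕ) ≠ 1 := fun h => (Finset.mem_erase.1 hb').1 (Fin.ext (h.trans hb.symm))
        rw [← sq]
        exact (mul_le_of_le_one_left' (val_fixRing_le _)).trans
          (pow_le_pow_right_of_le_one' hu.lt_one.le (by omega))
    have heq : A.valuation ((c (i, b) : Qb) * x 1) = u := by
      rw [← hq]
      refine A.valuation.map_eq_of_sub_lt ?_
      rw [Valuation.map_sub_swap, hq]
      exact hrest.trans_lt (mul_lt_of_lt_one_left (zero_lt_iff.2 hu.ne_zero) hu.lt_one)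
    rw [map_mul, hx1] at heq
    exact mul_right_cancel₀ hu.ne_zero (heq.trans (one_mul u).symm)
  · have h := hcoeff 0 i
    rw [hi, hq0 i b hb, ← Finset.mul_prod_erase _ _ (Finset.mem_univ (0 : ZMod p)),
      show f ((0 : K), (0 : ZMod p)) = 0 from hf0, C_0, sub_zero, coeff_X_mul,
      coeff_zero_eq_eval_zero, eval_prod] at h
    rw [← Valuation.map_neg, ← h, map_prod, Finset.prod_congr rfl fun z hz => ?_, Finset.prod_const,
      Finset.card_erase_of_mem (Finset.mem_univ _), Finset.card_univ, ZMod.card, ← pow_mul]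
    simp only [eval_sub, eval_X, eval_C, zero_sub, Valuation.map_neg]
    rw [hfz, map_mul, map_pow, val_natCast_eq_one hp.1 hA fun hd => (Finset.mem_erase.1 hz).1 ?_, one_mul]
    rw [← ZMod.natCast_zmod_val z, (ZMod.natCast_eq_zero_iff _ _).2 hd]

-- Kept: omitting the unused hypotheses would change the signature of a used lemma.
set_option linter.unusedSectionVars false in
/-- An almost-derivation at zero taking the value one at `f` cannot exist. -/
theorem ExtData.false_of_derivation (Φ : (K × ZMod p → Qb) →ₗ[Qb] Qb) {κ : Qb}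
    {μ : A.ValueGroup} (hμ : μ < A.valuation (p : Qb)) (hΦf : Φ f = 1)
    (hxmon : ∀ ib, A.valuation (Φ ((fun w => x w.1) * monFam p f x ib) -
      κ * monFam p f x ib 0) ≤ μ)
    (hfmon : ∀ ib, A.valuation (Φ (f * monFam p f x ib) - monFam p f x ib 0) ≤ μ) : False := by
  -- the same on the model
  have hlin : ∀ m ∈ M, A.valuation (Φ ((fun w => x w.1) * m) - κ * m 0) ≤ μ ∧
      A.valuation (Φ (f * m) - m 0) ≤ μ := by
    intro m hm
    rw [← hspan] at hm
    induction hm using Submodule.span_induction with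
    | mem m hm => obtain ⟨ib, rfl⟩ := hm; exact ⟨hxmon ib, hfmon ib⟩
    | zero => simp
    | add a b _ _ ha hb =>
      constructor
      · rw [mul_add, map_add, Pi.add_apply, mul_add, add_sub_add_comm]
        exact A.valuation.map_add_le ha.1 hb.1
      · rw [mul_add, map_add, Pi.add_apply, add_sub_add_comm]
        exact A.valuation.map_add_le ha.2 hb.2
    | smul r a _ ha =>
      have e : ∀ g : K × ZMod p → Qb, Φ (g * (r • a)) = (r : Qb) * Φ (g * a) := fun g => by
        rw [show g * (r • a) = (r : Qb) • (g * a) from mul_smul_comm (r : Qb) g a, map_smul,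
          smul_eq_mul]
      rw [e, e, smul_fixRing, mul_left_comm κ, ← mul_sub, ← mul_sub, A.valuation.map_mul,
        A.valuation.map_mul]
      exact ⟨(mul_le_of_le_one_left' (val_fixRing_le r)).trans ha.1,
        (mul_le_of_le_one_left' (val_fixRing_le r)).trans ha.2⟩
  -- products of two functions vanishing at zero
  have hsq : ∀ n ∈ M, ∀ m ∈ M, m 0 = 0 →
      A.valuation (Φ ((n - n 0 • (1 : K × ZMod p → Qb)) * m)) ≤ μ := by
    intro n hn
    rw [← hspan] at hn
    induction hn using Submodule.span_induction with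
    | mem n hn =>
      obtain ⟨⟨i, b⟩, rfl⟩ := hn
      intro m hm hm0
      rcases Nat.eq_zero_or_pos (b : ℕ) with hb | hb
      · rcases Nat.eq_zero_or_pos (i : ℕ) with hi | hi
        · have e : monFam p f x (i, b) = 1 := funext fun w => by simp [monFam, hi, hb]
          simp [e]
        · have e : monFam p f x (i, b) - monFam p f x (i, b) 0 • (1 : K × ZMod p → Qb) =
              f * (f ^ ((i : ℕ) - 1)) := funext fun w => by
            simp [monFam, hb, hf0, zero_pow hi.ne', ← pow_succ', Nat.sub_add_cancel hi]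
          rw [e, mul_assoc]
          have hmem := D.model.mul_mem _ (pow_mem_of_mem D.model hf ((i : ℕ) - 1)) m hm
          simpa [hm0] using (hlin _ hmem).2
      · have e : monFam p f x (i, b) - monFam p f x (i, b) 0 • (1 : K × ZMod p → Qb) =
            (fun w => x w.1) * (f ^ (i : ℕ) * (fun w : K × ZMod p => x w.1) ^ ((b : ℕ) - 1)) :=
          funext fun w => by
            simp [monFam, D.x_zero, zero_pow hb.ne', mul_left_comm (x w.1), ← pow_succ',
              Nat.sub_add_cancel hb]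
        rw [e, mul_assoc]
        have hmem := D.model.mul_mem _ (D.model.mul_mem _ (pow_mem_of_mem D.model hf (i : ℕ)) _
          (pow_mem_of_mem D.model D.x_mem ((b : ℕ) - 1))) m hm
        simpa [hm0] using (hlin _ hmem).1
    | zero => intro m _ _; simp
    | add a a' _ _ ha ha' =>
      intro m hm hm0
      rw [Pi.add_apply, add_smul, add_sub_add_comm, add_mul, map_add]
      exact A.valuation.map_add_le (ha m hm hm0) (ha' m hm hm0)
    | smul r a _ ha =>
      intro m hm hm0
      rw [show r • a = (r : Qb) • a from rfl, Pi.smul_apply, smul_assoc, ← smul_sub, smul_mul_assoc,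
        map_smul, smul_eq_mul, map_mul]
      exact (mul_le_of_le_one_left' (val_fixRing_le r)).trans (ha m hm hm0)
  have hle : A.valuation (Φ ((p : Qb) • f)) ≤ μ := by
    have h := D.model.natCast_smul_mem_sq (p := p) hf hf0
    generalize (p : Qb) • f = φ at h ⊢
    induction h using Submodule.span_induction with
    | mem φ hφ =>
      obtain ⟨b, hb, m, hm, rfl⟩ := hφ
      simpa [hb.2] using hsq b hb.1 m hm.1 hm.2
    | zero => simp
    | add a a' _ _ ha ha' => rw [map_add]; exact A.valuation.map_add_le ha ha'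
    | smul r a _ ha =>
      rw [show r • a = (r : Qb) • a from rfl, map_smul, smul_eq_mul, map_mul]
      exact (mul_le_of_le_one_left' (val_fixRing_le r)).trans ha
  rw [map_smul, smul_eq_mul, hΦf, mul_one] at hle
  exact hle.not_gt hμ

-- Kept: omitting the unused hypotheses would change the signature of a used lemma.
set_option linter.unusedSectionVars false in
/-- The functional with `f ↦ 1`, `x ↦ κ` is an almost-derivation. -/
theorem ExtData.almost_derivation {c : Fin p × Fin (p ^ 2) → fixRing A (stabRoot A π)}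
    (hcw : ∀ w, f w ^ p = ∑ ib, (c ib : Qb) * monFam p f x ib w) {κ : Qb}
    (hc00 : ∀ (i : Fin p) (b : Fin (p ^ 2)), (i : ℕ) = 0 → (b : ℕ) = 0 → (c (i, b) : Qb) = 0)
    (hrel : ∀ (i i' : Fin p) (b b' : Fin (p ^ 2)), (i : ℕ) = 1 → (b : ℕ) = 0 → (i' : ℕ) = 0 →
      (b' : ℕ) = 1 → (c (i, b) : Qb) + (c (i', b') : Qb) * κ = 0)
    (Φ : (K × ZMod p → Qb) →ₗ[Qb] Qb) {d : Fin p × Fin (p ^ 2) → Qb}
    (hΦ : ∀ ib, Φ (monFam p f x ib) = d ib)
    (hd1 : ∀ (i : Fin p) (b : Fin (p ^ 2)), (i : ℕ) = 1 → (b : ℕ) = 0 → d (i, b) = 1)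
    (hdκ : ∀ (i : Fin p) (b : Fin (p ^ 2)), (i : ℕ) = 0 → (b : ℕ) = 1 → d (i, b) = κ)
    (hd_zero : ∀ (i : Fin p) (n : Fin (p ^ 2)), ¬((i : ℕ) = 1 ∧ (n : ℕ) = 0) →
      ¬((i : ℕ) = 0 ∧ (n : ℕ) = 1) → d (i, n) = 0)
    {μ : A.ValueGroup} (hμ : A.valuation (p : Qb) * A.valuation κ ≤ μ) :
    (∀ ib, A.valuation (Φ ((fun w => x w.1) * monFam p f x ib) - κ * monFam p f x ib 0) ≤ μ) ∧
      ∀ ib, A.valuation (Φ (f * monFam p f x ib) - monFam p f x ib 0) ≤ μ := by
  have : NeZero p := ⟨hp.1.ne_zero⟩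
  have hp2 : 1 < p ^ 2 := lt_of_lt_of_le hp.1.one_lt (Nat.le_self_pow two_ne_zero p)
  let i₀ : Fin p := ⟨0, hp.1.pos⟩
  let i₁ : Fin p := ⟨1, hp.1.one_lt⟩
  let b₀ : Fin (p ^ 2) := ⟨0, by omega⟩
  let b₁ : Fin (p ^ 2) := ⟨1, hp2⟩
  have hd10 : d (i₁, b₀) = 1 := hd1 _ _ rfl rfl
  have hd01 : d (i₀, b₁) = κ := hdκ _ _ rfl rfl
  -- monomials up to twice the degree
  have hlow : ∀ i (hi : i < p) n (hn : n < p ^ 2),
      Φ (fun w => f w ^ i * x w.1 ^ n) = d (⟨i, hi⟩, ⟨n, hn⟩) := fun i hi n hn => hΦ (⟨i, hi⟩, ⟨n, hn⟩)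
  have hhigh : ∀ i (hi : i < p) n (hn : n + 1 < p ^ 2),
      Φ (fun w => f w ^ i * x w.1 ^ (p ^ 2 + n)) = -(p : Qb) * d (⟨i, hi⟩, ⟨n + 1, hn⟩) := by
    intro i hi n hn
    have e : (fun w : K × ZMod p => f w ^ i * x w.1 ^ (p ^ 2 + n)) =
        (-(p : Qb)) • fun w => f w ^ i * x w.1 ^ (n + 1) := funext fun w => by
      show _ = -(p : Qb) * (f w ^ i * x w.1 ^ (n + 1))
      rw [pow_add (x w.1) (p ^ 2) n, D.x_pow]
      ring
    rw [e, map_smul, smul_eq_mul, hlow i hi]
  have hpd : ∀ i (hi : i < p) n (hn : n + 1 < p ^ 2),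
      A.valuation (Φ (fun w => f w ^ i * x w.1 ^ (p ^ 2 + n))) ≤ μ := fun i hi n hn => by
    rw [hhigh i hi n hn, map_mul, Valuation.map_neg]
    by_cases h : i = 0 ∧ n = 0
    · rw [hdκ _ _ h.1 (by simp [h.2])]
      exact hμ
    · rw [hd_zero _ _ (by simp) (by simpa using h), map_zero, mul_zero]
      exact zero_le
  -- multiplication by the coordinate and by `f`, on monomials
  have hxmon : ∀ ib, A.valuation (Φ ((fun w => x w.1) * monFam p f x ib) - κ * monFam p f x ib 0) ≤ μ := by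
    rintro ⟨i, b⟩
    have e : ((fun w : K × ZMod p => x w.1) * monFam p f x (i, b)) =
        fun w => f w ^ (i : ℕ) * x w.1 ^ ((b : ℕ) + 1) := funext fun w => by
      simp only [Pi.mul_apply, monFam]; ring
    have e0 : monFam p f x (i, b) 0 = if (i : ℕ) = 0 ∧ (b : ℕ) = 0 then 1 else 0 :=
      monFam_zero hf0 D.x_zero (i, b)
    rw [e, e0]
    rcases Nat.lt_or_ge ((b : ℕ) + 1) (p ^ 2) with hb | hb
    · rw [hlow _ i.2 _ hb]
      split_ifs with h
      · rw [mul_one, show ((⟨(i : ℕ), i.2⟩ : Fin p), (⟨(b : ℕ) + 1, hb⟩ : Fin (p ^ 2))) = (i₀, b₁) from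
          Prod.ext (Fin.ext h.1) (Fin.ext (by simp [h.2, b₁])), hd01, sub_self, map_zero]
        exact zero_le
      · rw [mul_zero, sub_zero, hd_zero _ _ (by simp) (by simp only; omega), map_zero]
        exact zero_le
    · have hb' : (b : ℕ) + 1 = p ^ 2 + 0 := by have := b.2; omega
      rw [if_neg (by omega), mul_zero, sub_zero, hb']
      exact hpd _ i.2 0 (by omega)
  have hfmon : ∀ ib, A.valuation (Φ (f * monFam p f x ib) - monFam p f x ib 0) ≤ μ := by
    rintro ⟨i, b⟩
    have e0 : monFam p f x (i, b) 0 = if (i : ℕ) = 0 ∧ (b : ℕ) = 0 then 1 else 0 :=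
      monFam_zero hf0 D.x_zero (i, b)
    rw [e0]
    rcases Nat.lt_or_ge ((i : ℕ) + 1) p with hi | hi
    · have e : f * monFam p f x (i, b) = fun w => f w ^ ((i : ℕ) + 1) * x w.1 ^ (b : ℕ) :=
        funext fun w => by simp only [Pi.mul_apply, monFam]; ring
      rw [e, hlow _ hi _ b.2]
      split_ifs with h
      · rw [show ((⟨(i : ℕ) + 1, hi⟩ : Fin p), (⟨(b : ℕ), b.2⟩ : Fin (p ^ 2))) = (i₁, b₀) from
          Prod.ext (Fin.ext (by simp [h.1, i₁])) (Fin.ext h.2), hd10, sub_self, map_zero]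
        exact zero_le
      · rw [sub_zero, hd_zero _ _ (by simp only; omega) (by simp), map_zero]
        exact zero_le
    have e : f * monFam p f x (i, b) = ∑ jd : Fin p × Fin (p ^ 2),
        (c jd : Qb) • fun w => f w ^ (jd.1 : ℕ) * x w.1 ^ ((b : ℕ) + (jd.2 : ℕ)) := by
      funext w
      simp only [Pi.mul_apply, monFam, Finset.sum_apply, Pi.smul_apply, smul_eq_mul]
      rw [← mul_assoc, ← pow_succ', show (i : ℕ) + 1 = p by have := i.2; omega, hcw,
        Finset.sum_mul]
      exact Finset.sum_congr rfl fun jd _ => by simp only [monFam, pow_add]; ring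
    rw [if_neg (by have := hp.1.two_le; omega), sub_zero, e, map_sum]
    simp only [map_smul, smul_eq_mul]
    rcases Nat.eq_zero_or_pos (b : ℕ) with hb | hb
    · have h0 : ∑ jd : Fin p × Fin (p ^ 2),
          (c jd : Qb) * Φ (fun w => f w ^ (jd.1 : ℕ) * x w.1 ^ ((b : ℕ) + (jd.2 : ℕ))) = 0 := by
        simp only [hb, zero_add, hlow _ (Fin.is_lt _) _ (Fin.is_lt _), Fin.eta, Prod.mk.eta]
        rw [Finset.sum_eq_add_of_mem (i₁, b₀) (i₀, b₁) (Finset.mem_univ _) (Finset.mem_univ _)
          (fun h => absurd (congrArg (fun z => ((z.1 : Fin p) : ℕ)) h) one_ne_zero)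
          (fun jd _ h => by
            rw [hd_zero jd.1 jd.2 (fun e => h.1 (Prod.ext (Fin.ext e.1) (Fin.ext e.2)))
              (fun e => h.2 (Prod.ext (Fin.ext e.1) (Fin.ext e.2))), mul_zero]),
          hd10, hd01, mul_one]
        exact hrel _ _ _ _ rfl rfl rfl rfl
      rw [h0, map_zero]
      exact zero_le
    · refine A.valuation.map_sum_le fun jd _ => ?_
      obtain ⟨j, n⟩ := jd
      dsimp only
      rcases Nat.lt_or_ge ((b : ℕ) + (n : ℕ)) (p ^ 2) with hn | hn
      · rw [hlow _ j.2 _ hn]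
        by_cases h : (j : ℕ) = 0 ∧ (b : ℕ) + (n : ℕ) = 1
        · rw [hc00 j n h.1 (by omega), zero_mul, map_zero]
          exact zero_le
        · rw [hd_zero _ _ (by simp only; omega) (by simpa using h), mul_zero, map_zero]
          exact zero_le
      · obtain ⟨k, hk⟩ := Nat.exists_eq_add_of_le hn
        rw [hk, map_mul]
        exact (mul_le_of_le_one_left' (val_fixRing_le _)).trans
          (hpd _ j.2 k (by have := b.2; have := n.2; omega))
  exact ⟨hxmon, hfmon⟩

/-- No slope one. -/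
theorem ExtData.false_of_prod {ev : Fin p × Fin (p ^ 2) ≃ K × ZMod p}
    (hev : vdet A (monFam p f x) ev ≠ 0)
    (hprod : A.valuation (∏ z, f ((1 : K), z)) = A.valuation π) : False := by
  have : NeZero p := ⟨hp.1.ne_zero⟩
  have hp2 : 1 < p ^ 2 := lt_of_lt_of_le hp.1.one_lt (Nat.le_self_pow two_ne_zero p)
  have hu := uniform_stabRoot hπ hA (not_dvd_lvl (p := p))
  obtain ⟨c, hcw, hc00, hc01, hc10⟩ := D.exists_equation hπ hA hζ hf hf0 hfz hfdiff hspan hprod
  let i₀ : Fin p := ⟨0, hp.1.pos⟩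
  let i₁ : Fin p := ⟨1, hp.1.one_lt⟩
  let b₀ : Fin (p ^ 2) := ⟨0, by omega⟩
  let b₁ : Fin (p ^ 2) := ⟨1, hp2⟩
  set κ : Qb := -(c (i₁, b₀) : Qb) / (c (i₀, b₁) : Qb) with hκ
  have hc01' : (c (i₀, b₁) : Qb) ≠ 0 := fun h => by
    have := hc01 i₀ b₁ rfl rfl
    rw [h, map_zero] at this
    exact zero_ne_one this
  have hκv : A.valuation κ = A.valuation π ^ (p * (p - 1)) := by
    rw [hκ, map_div₀, Valuation.map_neg, hc10 i₁ b₀ rfl rfl, hc01 i₀ b₁ rfl rfl, div_one]
  set d : Fin p × Fin (p ^ 2) → Qb := fun ib =>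
    if (ib.1 : ℕ) = 1 ∧ (ib.2 : ℕ) = 0 then 1 else
      if (ib.1 : ℕ) = 0 ∧ (ib.2 : ℕ) = 1 then κ else 0 with hd
  set Mx := Matrix.of fun i j => monFam p f x i (ev j) with hMx
  have hdet : IsUnit Mx.det := isUnit_iff_ne_zero.2 fun h => hev (by
    rw [vdet]
    convert map_zero A.valuation using 2
    convert h using 2)
  set v := Mx⁻¹.mulVec d
  let Φ : (K × ZMod p → Qb) →ₗ[Qb] Qb :=
    { toFun := fun g => ∑ j, g (ev j) * v j
      map_add' := fun a b => by simp [add_mul, Finset.sum_add_distrib]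
      map_smul' := fun r a => by simp [mul_assoc, Finset.mul_sum] }
  have hΦ : ∀ ib, Φ (monFam p f x ib) = d ib := fun ib => by
    show (Mx.mulVec v) ib = _
    rw [Matrix.mulVec_mulVec, Matrix.mul_nonsing_inv _ hdet, Matrix.one_mulVec]
  obtain ⟨h1, h2⟩ := D.almost_derivation hπ hA hζ hf hf0 hfz hfdiff hspan hcw (κ := κ) hc00
    (fun i i' b b' hi hb hi' hb' => by
      rw [show i = i₁ from Fin.ext hi, show b = b₀ from Fin.ext hb,
        show i' = i₀ from Fin.ext hi', show b' = b₁ from Fin.ext hb', hκ, mul_div_cancel₀ _ hc01',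
        add_neg_cancel])
    Φ hΦ (fun i b h h' => if_pos ⟨h, h'⟩)
    (fun i b h h' => by simp only [hd]; rw [if_neg (by omega), if_pos ⟨h, h'⟩]) (fun i n h h' => by simp only [hd]; rw [if_neg h, if_neg h'])
    le_rfl
  refine D.false_of_derivation hπ hA hζ hf hf0 hfz hfdiff hspan Φ ?_ ?_ h1 h2
  · refine mul_lt_of_lt_one_right (zero_lt_iff.2 (natCast_val_ne_zero A hp.1)) ?_
    rw [hκv]
    exact pow_lt_one₀ zero_le hu.lt_one (mul_ne_zero hp.1.ne_zero (by have := hp.1.two_le; omega))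
  · have e : f = monFam p f x (i₁, b₀) := funext fun w => by simp [monFam, i₁, b₀]
    conv_lhs => rw [e]
    rw [hΦ]
    exact if_pos ⟨rfl, rfl⟩

omit hf hf0 hfz hfdiff hspan in
/-- The extension is not too ramified: no Kummer root of level at most `p + 1`. -/
theorem ExtData.level_gt {r c : Qb}
    (hadd : ∀ σ ∈ stabRoot A π, ∀ τ ∈ stabRoot A π, fn (σ * τ) 1 = fn σ 1 + fn τ 1)
    {σ₁ : GQ} (hσ₁ : σ₁ ∈ stabRoot A π) (hf₁ : fn σ₁ 1 = 1)
    (hr : IsRoot p ζ (stabRoot A π) (fun σ => fn σ 1) r)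
    (hc : ∀ σ ∈ stabRoot A π, σ c = c) {s : ℕ} (hs : ¬ p ∣ s)
    (hw : A.valuation (r + c) ^ p = A.valuation π ^ s) :
    (A.valuation r = 1 → p + 1 < s) ∧ (c = 0 → p ≤ s) := by
  have : NeZero p := ⟨hp.1.ne_zero⟩
  have hu := uniform_stabRoot hπ hA (not_dvd_lvl (p := p))
  obtain ⟨f, hf, hf0, hfz, hfdiff, hspan, ev, hev⟩ := D.exists_basis hπ hA hζ
  set u := A.valuation π
  have hJζ : ∀ σ ∈ stabRoot A π, σ ζ = ζ := fun σ hσ => by
    rw [apply_root_eq_pow hζ σ, D.cyclo_eq_one hπ hA hζ hσ, Units.val_one, ZMod.val_one, pow_one]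
  have hJd : stabRoot A π ≤ A.decompositionSubgroup ℚ := fun σ hσ =>
    mem_decomposition_of_inertia hσ.1
  have hmove : ∀ σ ∈ stabRoot A π, ∀ z, σ (f ((1 : K), z)) = f ((1 : K), z + fn σ 1) := fun σ hσ z => by
    rw [← D.model.equivariant f hf σ hσ]; rfl
  obtain ⟨hb, hn⟩ := val_smul_sub_le hζ hr hJζ hadd hσ₁ hf₁ hu hc hJd hs hw
    (D.model.mem_A hf ((1 : K), 0)) (fun σ hσ h => by rw [hmove σ hσ, h, add_zero]) hσ₁
  have hmv : A.valuation (σ₁ (f ((1 : K), 0)) - f ((1 : K), 0)) = u ^ p := by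
    rw [hmove σ₁ hσ₁, hf₁, zero_add]
    exact hfdiff 1 1 0 one_ne_zero
  rw [hmv, val_zeta_eq hπ hA hζ, mul_pow, ← pow_mul, ← pow_mul, ← pow_add] at hb
  constructor
  · intro hrv
    by_contra hle
    rw [not_lt] at hle
    rw [hrv, one_pow, mul_one] at hb
    have hR0 : f ((1 : K), 0) ≠ 0 := fun h => by
      rw [h, map_zero, sub_zero, map_zero] at hmv
      exact pow_ne_zero _ hu.ne_zero hmv.symm
    obtain ⟨n, hn⟩ := hn hR0
    have hn1 : A.valuation (f ((1 : K), 0)) < 1 := by
      simpa [hf0] using D.biconn.1 ((1 : K), (0 : ZMod p)) f hf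
    have hn1' := pow_lt_one₀ zero_le hn1 hp.1.ne_zero
    rw [hn, ← zpow_zero u, zpow_lt_zpow_iff' hu.ne_zero hu.lt_one] at hn1'
    have hb' := hb.trans (mul_le_mul' le_rfl (min_le_right _ _))
    rw [hn, ← zpow_natCast, ← zpow_natCast, ← zpow_add₀ hu.ne_zero,
      zpow_le_zpow_iff' hu.ne_zero hu.lt_one] at hb'
    push_cast at hb'
    have hn' : n = 1 := by
      have : (s : ℤ) ≤ (p : ℤ) + 1 := by exact_mod_cast hle
      nlinarith
    refine D.false_of_prod hπ hA hζ hf hf0 hfz hfdiff hspan hev ?_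
    rw [map_prod, Finset.prod_congr rfl fun z _ => ?_, Finset.prod_const, Finset.card_univ,
      ZMod.card, hn, hn', zpow_one]
    have hpow : ∀ m : ℕ, (σ₁ ^ m) (f ((1 : K), 0)) = f ((1 : K), (m : ZMod p)) := fun m => by
      induction m with
      | zero => simp
      | succ m ih =>
        rw [pow_succ', AlgEquiv.mul_apply, ih, hmove σ₁ hσ₁, hf₁, Nat.cast_succ]
    rw [← val_galois_eq (hJd (pow_mem hσ₁ z.val)) (f ((1 : K), 0)), hpow, ZMod.natCast_zmod_val]
  · intro hc0
    by_contra hlt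
    rw [not_le] at hlt
    rw [hc0, add_zero] at hw
    rw [hw] at hb
    have hb' := hb.trans (mul_le_mul' le_rfl (min_le_left _ _))
    rw [← pow_add, ← pow_succ, ← zpow_natCast, ← zpow_natCast,
      zpow_le_zpow_iff' hu.ne_zero hu.lt_one] at hb'
    push_cast at hb'
    nlinarith [hp.1.two_le]

end

end FermatAgent.TW.Flat
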