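import Fermat.Agent.TW.Flat.Level2
import Mathlib.LinearAlgebra.Matrix.Kronecker
import Mathlib.LinearAlgebra.Matrix.Block
import Mathlib.Data.ZMod.QuotientRing

/-!
# Two tools: models of groups of order `p`, determinants of product families
-/

set_option autoImplicit false

namespace FermatAgent.TW.Flat

open FermatAgent.Local Module
open scoped Classical Kronecker fwdDiff

noncomputable section

local notation "Qb" => AlgebraicClosure ℚ
local notation "GQ" => AlgebraicClosure ℚ ≃ₐ[ℚ] AlgebraicClosure ℚ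

variable {p : ℕ} [hp : Fact p.Prime] {A : ValuationSubring Qb} {J : Subgroup GQ}

theorem val_natCast_sub (hA : A.LiesOverPrime p) {m n : ℕ} (hm : m < p) (hn : n < p) (h : m ≠ n) :
    A.valuation ((m : Qb) - n) = 1 := by
  have := Duality.Local.charP_residue hp.1 hA
  refine le_antisymm (val_le_one_of_mem (sub_mem (natCast_mem A m) (natCast_mem A n)))
    (not_lt.1 fun hlt => h ?_)
  rw [← res_eq_res_iff (natCast_mem A m) (natCast_mem A n), res_natCast, res_natCast,
    CharP.natCast_eq_natCast (IsLocalRing.ResidueField A) p] at hlt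
  exact Nat.ModEq.eq_of_lt_of_lt hlt hm hn

/-- Two points in general position: the first difference is the one at zero. -/
theorem IsLModel.val_diff_eq {X : Type} [AddCommGroup X] {act : GQ → X → X}
    {M : Submodule (fixRing A J) (X → Qb)} (hM : IsLModel act M) {f : X → Qb} (hf : f ∈ M)
    {τ : X} {c : A.ValueGroup} (hτ : Small M τ c) (hc : A.valuation (f τ - f 0) = c) (hc0 : c ≠ 0)
    {x : X} (hx : InC M x) : A.valuation (f (x + τ) - f x) = c := by
  obtain ⟨g, hg, hmax⟩ := hM.exists_small_max x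
  have h := (hM.val_diff₂_le hf hmax hτ).trans_lt
    (mul_lt_of_lt_one_left (zero_lt_iff.2 hc0) (hx g hg))
  rw [← hc] at h ⊢
  exact A.valuation.map_eq_of_sub_lt h

theorem pow_mem_of_mem {X : Type} [AddCommGroup X] {act : GQ → X → X}
    {M : Submodule (fixRing A J) (X → Qb)} (hM : IsLModel act M) {f : X → Qb} (hf : f ∈ M) :
    ∀ n : ℕ, f ^ n ∈ M
  | 0 => by rw [pow_zero]; exact hM.one_mem
  | n + 1 => by rw [pow_succ]; exact hM.mul_mem _ (pow_mem_of_mem hM hf n) _ hf

/-- The binomial family. -/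
def binomFam {Y : Type} [AddCommGroup Y] (E : ZMod p ≃+ Y) (δ : Qb) : Fin p → Y → Qb :=
  fun k y => ((E.symm y).val.choose k : Qb) * δ ^ (k : ℕ)

theorem vdet_binomFam_sq {Y : Type} [AddCommGroup Y] (E : ZMod p ≃+ Y) (δ : Qb) :
    ∃ ev : Fin p ≃ Y, vdet A (binomFam E δ) ev ^ 2 = A.valuation δ ^ (p * (p - 1)) := by
  have : NeZero p := ⟨hp.1.ne_zero⟩
  let Z : Fin p ≃ ZMod p :=
    { toFun := fun j => (j : ℕ)
      invFun := fun z => ⟨z.val, z.val_lt⟩
      left_inv := fun j => Fin.ext (ZMod.val_natCast_of_lt j.2)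
      right_inv := fun z => ZMod.natCast_zmod_val z }
  refine ⟨Z.trans E.toEquiv, ?_⟩
  have e1 : ∀ i j : Fin p, binomFam E δ i (Z.trans E.toEquiv j) =
      ((j : ℕ).choose i : Qb) * δ ^ (i : ℕ) := fun i j => by
    simp [binomFam, Z, ZMod.val_natCast_of_lt j.2]
  have hdet : (Matrix.of fun i j => binomFam E δ i (Z.trans E.toEquiv j)).det =
      ∏ i : Fin p, δ ^ (i : ℕ) := by
    rw [Matrix.det_of_isUpperTriangular]
    · exact Finset.prod_congr rfl fun i _ => by rw [Matrix.of_apply, e1, Nat.choose_self]; simp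
    · intro i j hij
      rw [Matrix.of_apply, e1, Nat.choose_eq_zero_of_lt (by exact_mod_cast hij), Nat.cast_zero,
        zero_mul]
  rw [vdet]
  refine Eq.trans (by convert congrArg (fun z => A.valuation z ^ 2) hdet) ?_
  rw [map_prod, Finset.prod_congr rfl fun i _ => map_pow A.valuation δ _,
    Finset.prod_pow_eq_pow_sum, Fin.sum_univ_eq_sum_range fun i => i, ← pow_mul,
    Finset.sum_range_id_mul_two]

theorem le_span_binomFam {Y : Type} [AddCommGroup Y] (E : ZMod p ≃+ Y) {act : GQ → Y → Y}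
    {M : Submodule (fixRing A J) (Y → Qb)} (hM : IsLModel act M)
    (hfix : ∀ σ ∈ J, ∀ y, act σ y = y) {δ : Qb} (hδ0 : δ ≠ 0) (hδ : ∀ σ ∈ J, σ δ = δ)
    (hsmall : Small M (E 1) (A.valuation δ)) :
    M ≤ Submodule.span (fixRing A J) (Set.range (binomFam E δ)) := by
  have : NeZero p := ⟨hp.1.ne_zero⟩
  intro f hf
  set τ := E 1
  have hJ : ∀ (k : ℕ) (h : Y → Qb), (∀ σ ∈ J, ∀ y, σ (h y) = h y) →
      ∀ σ ∈ J, ∀ y, σ ((Δ_[τ])^[k] h y) = (Δ_[τ])^[k] h y := by
    intro k
    induction k with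
    | zero => exact fun h hh => hh
    | succ k ih =>
      intro h hh σ hσ y
      rw [Function.iterate_succ_apply]
      exact ih _ (fun s hs z => by rw [fwdDiff, map_sub, hh s hs, hh s hs]) σ hσ y
  have hc : ∀ k : Fin p, (Δ_[τ])^[(k : ℕ)] f 0 / δ ^ (k : ℕ) ∈ fixRing A J := fun k => by
    refine ⟨mem_of_val_le_one ?_, fun σ hσ => ?_⟩
    · rw [map_div₀, map_pow]
      exact div_le_one_of_le₀ (hM.val_fwdDiff_le hf hsmall _ _) zero_le
    · rw [map_div₀, map_pow, hδ σ hσ,
        hJ _ f (fun s hs y => hM.apply_fixed hf hs (hfix s hs y)) σ hσ]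
  have e : f = ∑ k : Fin p, (⟨_, hc k⟩ : fixRing A J) • binomFam E δ k := by
    funext y
    obtain ⟨z, rfl⟩ := E.surjective y
    have hz : E z = 0 + z.val • τ := by
      rw [zero_add, ← map_nsmul, nsmul_eq_mul, mul_one, ZMod.natCast_zmod_val]
    simp only [Finset.sum_apply, smul_fixRing, binomFam, AddEquiv.symm_apply_apply]
    conv_lhs => rw [hz, shift_eq_sum_fwdDiff_iter τ f]
    rw [Fin.sum_univ_eq_sum_range (fun k : ℕ => (Δ_[τ])^[k] f 0 / δ ^ k * ((z.val.choose k : Qb) * δ ^ k))]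
    refine (Finset.sum_subset (Finset.range_mono z.val_lt) fun k _ hk => ?_).trans
      (Finset.sum_congr rfl fun k _ => ?_)
    · rw [Finset.mem_range] at hk
      rw [Nat.choose_eq_zero_of_lt (by omega), zero_smul]
    · rw [nsmul_eq_mul]
      field_simp
  rw [e]
  exact Submodule.sum_mem _ fun k _ => Submodule.smul_mem _ _ (Submodule.subset_span ⟨k, rfl⟩)

/-- The determinant of a product family. -/
theorem vdet_product_sq {X Q Z : Type} [Fintype Q] [Fintype Z] (E : Q × Z ≃ X) (F Y : X → Qb)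
    (Y₀ : Q → Qb) (hY : ∀ q z, Y (E (q, z)) = Y₀ q) {cQ cZ : A.ValueGroup}
    (hQ : ∀ q q', q ≠ q' → A.valuation (Y₀ q - Y₀ q') = cQ)
    (hZ : ∀ q z z', z ≠ z' → A.valuation (F (E (q, z)) - F (E (q, z'))) = cZ) :
    ∃ ev : Fin (Fintype.card Z) × Fin (Fintype.card Q) ≃ X,
      vdet A (fun ib w => F w ^ (ib.1 : ℕ) * Y w ^ (ib.2 : ℕ)) ev ^ 2 =
        cQ ^ (Fintype.card Q * (Fintype.card Q - 1) * Fintype.card Z) *
          cZ ^ (Fintype.card Z * (Fintype.card Z - 1) * Fintype.card Q) := by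
  let eQ := (Fintype.equivFin Q).symm
  let eZ := (Fintype.equivFin Z).symm
  let ev : Fin (Fintype.card Z) × Fin (Fintype.card Q) ≃ X :=
    (Equiv.prodComm _ _).trans ((eQ.prodCongr eZ).trans E)
  refine ⟨ev, ?_⟩
  set VQ := (Matrix.vandermonde fun q => Y₀ (eQ q)).transpose
  set B := Matrix.blockDiagonal fun q : Fin (Fintype.card Q) =>
    (Matrix.vandermonde fun z => F (E (eQ q, eZ z))).transpose
  have e1 : (Matrix.of fun i j => (fun (ib : Fin (Fintype.card Z) × Fin (Fintype.card Q)) w =>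
      F w ^ (ib.1 : ℕ) * Y w ^ (ib.2 : ℕ)) i (ev j)) =
      ((1 : Matrix (Fin (Fintype.card Z)) (Fin (Fintype.card Z)) Qb) ⊗ₖ VQ) * B := by
    ext ⟨i, b⟩ ⟨z, q⟩
    simp only [Matrix.of_apply, Matrix.mul_apply, Fintype.sum_prod_type, Matrix.kroneckerMap_apply,
      Matrix.one_apply, B, VQ, Matrix.blockDiagonal_apply, Matrix.transpose_apply,
      Matrix.vandermonde_apply, ite_mul, one_mul, zero_mul, mul_ite, mul_zero]
    simp only [ev, Equiv.trans_apply, Equiv.prodComm_apply, Prod.swap_prod_mk, Equiv.prodCongr_apply,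
      Prod.map_apply, hY]
    simp [mul_comm]
  rw [vdet, e1]
  have hdet : (((1 : Matrix (Fin (Fintype.card Z)) (Fin (Fintype.card Z)) Qb) ⊗ₖ VQ) * B).det =
      VQ.det ^ Fintype.card Z *
        ∏ q, ((Matrix.vandermonde fun z => F (E (eQ q, eZ z))).transpose).det := by
    rw [Matrix.det_mul, Matrix.det_kronecker, Matrix.det_one, one_pow, one_mul,
      Fintype.card_fin, Matrix.det_blockDiagonal]
  refine Eq.trans (by convert congrArg (fun z => A.valuation z ^ 2) hdet) ?_
  rw [map_mul, map_pow, map_prod, mul_pow, ← pow_mul, mul_comm (Fintype.card Z) 2, pow_mul,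
    Matrix.det_transpose, val_det_vandermonde_sq (fun q => Y₀ (eQ q))
      fun i j h => hQ _ _ fun e => h (eQ.injective e),
    ← pow_mul, ← Finset.prod_pow, Finset.prod_congr rfl fun q _ => by
      rw [Matrix.det_transpose, val_det_vandermonde_sq _ fun i j h =>
        hZ _ _ _ fun e => h (eZ.injective e)],
    Finset.prod_const, Finset.card_univ, Fintype.card_fin, ← pow_mul]

end

end FermatAgent.TW.Flat
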