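import Mathlib.FieldTheory.IntermediateField.Adjoin.Basic
import Mathlib.FieldTheory.Finite.Basic
import Mathlib.Algebra.Polynomial.Roots

/-!
# Additive maps from a finite field with prescribed semilinearity are few
-/

set_option autoImplicit false

namespace FermatAgent.TW.Flat

open Polynomial Module

noncomputable section

variable {p : ℕ} [Fact p.Prime] {k : Type} [Field k] [Finite k] [Algebra (ZMod p) k]
  {K : Type} [Field K]

/-- Additive maps with values in a set of at most `|K₁|` elements, determined on `K₁`-lines by one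
value. -/
theorem card_additive_le (P : (k → K) → Prop) (K₁ : IntermediateField (ZMod p) k) (R : Finset K)
    (hR : R.card ≤ Nat.card K₁) (hadd : ∀ β, P β → ∀ x y, β (x + y) = β x + β y)
    (hval : ∀ β, P β → ∀ c, β c ∈ R)
    (hdet : ∀ β β', P β → P β' → ∀ c, β c = β' c → ∀ q ∈ K₁, β (q * c) = β' (q * c)) :
    Finite {β // P β} ∧ Nat.card {β // P β} ≤ Nat.card k := by
  classical
  have : Fintype k := Fintype.ofFinite k
  let b := Module.finBasis K₁ k
  let F : {β // P β} → (Fin (finrank K₁ k) → R) := fun β i => ⟨β.1 (b i), hval _ β.2 _⟩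
  have hF : Function.Injective F := by
    intro β β' h
    refine Subtype.ext (funext fun c => ?_)
    have h0 : ∀ γ : {β // P β}, γ.1 0 = 0 := fun γ => by
      have := hadd _ γ.2 0 0
      rw [add_zero] at this
      exact right_eq_add.1 this
    rw [← b.sum_repr c]
    induction (Finset.univ : Finset (Fin (finrank K₁ k))) using Finset.induction_on with
    | empty => rw [Finset.sum_empty, h0, h0]
    | insert i s hi ih =>
      rw [Finset.sum_insert hi, hadd _ β.2, hadd _ β'.2, ih, add_left_inj]
      exact hdet _ _ β.2 β'.2 _ (congrArg Subtype.val (congrFun h i)) _ (b.repr c i).2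
  refine ⟨Finite.of_injective F hF, (Nat.card_le_card_of_injective F hF).trans ?_⟩
  rw [Nat.card_fun, Nat.card_eq_fintype_card (α := Fin _), Fintype.card_fin,
    Module.natCard_eq_pow_finrank (K := K₁) (V := k), Nat.card_eq_fintype_card (α := R),
    Fintype.card_coe]
  exact Nat.pow_le_pow_left hR _

/-- The maps with `β (w c) = β c ^ p`. -/
theorem card_frobenius_le [CharP K p] (w : k) :
    Finite {β : k → K // (∀ x y, β (x + y) = β x + β y) ∧ ∀ c, β (w * c) = β c ^ p} ∧
      Nat.card {β : k → K // (∀ x y, β (x + y) = β x + β y) ∧ ∀ c, β (w * c) = β c ^ p} ≤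
        Nat.card k := by
  classical
  have hp := (Fact.out : p.Prime)
  have hint : IsIntegral (ZMod p) w := IsIntegral.of_finite _ _
  set K₁ := IntermediateField.adjoin (ZMod p) {w}
  set m := minpoly (ZMod p) w
  let φ : ZMod p →+* K := ZMod.castHom (dvd_refl p) K
  set Q : K[X] := ∑ i ∈ Finset.range (m.natDegree + 1), C (φ (m.coeff i)) * X ^ p ^ i with hQ
  have hQdeg : Q.natDegree ≤ p ^ m.natDegree := by
    refine natDegree_sum_le_of_forall_le _ _ fun i hi => (natDegree_C_mul_X_pow_le _ _).trans ?_
    rw [Finset.mem_range] at hi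
    exact Nat.pow_le_pow_right hp.pos (by omega)
  have hQ0 : Q ≠ 0 := fun h => by
    have h1 : Q.coeff (p ^ m.natDegree) = 1 := by
      rw [hQ, finsetSum_coeff, Finset.sum_eq_single m.natDegree]
      · rw [coeff_C_mul_X_pow, if_pos rfl, ← leadingCoeff, minpoly.monic hint, map_one]
      · intro i _ hi
        rw [coeff_C_mul_X_pow, if_neg fun h => hi (Nat.pow_right_injective hp.two_le h).symm]
      · intro h; simp at h
    rw [h, coeff_zero] at h1
    exact zero_ne_one h1
  have key : ∀ β : k → K, (∀ x y, β (x + y) = β x + β y) → (∀ c, β (w * c) = β c ^ p) →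
      ∀ (c : k) (f : (ZMod p)[X]),
        β (aeval w f * c) = f.sum fun i a => φ a * β c ^ p ^ i := by
    intro β h1 h2 c f
    let βh : k →+ K := AddMonoidHom.mk' β h1
    have hsc : ∀ (a : ZMod p) x, β (a • x) = φ a * β x := fun a x => by
      have := βh.map_nsmul a.val x
      rw [← Nat.cast_smul_eq_nsmul (ZMod p), ZMod.natCast_zmod_val, nsmul_eq_mul] at this
      rw [show φ a = (a.val : K) by
        conv_lhs => rw [← ZMod.natCast_zmod_val a]
        exact map_natCast φ _]
      exact this
    have hpw : ∀ i : ℕ, ∀ c, β (w ^ i * c) = β c ^ p ^ i := fun i => by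
      induction i with
      | zero => intro c; simp
      | succ i ih => intro c; rw [pow_succ', mul_assoc, h2, ih, ← pow_mul, pow_succ]
    rw [aeval_eq_sum_range, Finset.sum_mul, show β = ⇑βh from rfl, map_sum,
      Polynomial.sum_over_range _ (fun i => by rw [map_zero, zero_mul])]
    refine Finset.sum_congr rfl fun i _ => ?_
    rw [smul_mul_assoc]
    show β (f.coeff i • (w ^ i * c)) = _
    rw [hsc, hpw]
    rfl
  have hroot : ∀ β : k → K, ((∀ x y, β (x + y) = β x + β y) ∧ ∀ c, β (w * c) = β c ^ p) →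
      ∀ c, β c ∈ Q.roots.toFinset := by
    intro β hβ c
    rw [Multiset.mem_toFinset, mem_roots hQ0, IsRoot, hQ, eval_finsetSum]
    have h := key β hβ.1 hβ.2 c m
    have h0 := hβ.1 0 0
    rw [add_zero] at h0
    rw [minpoly.aeval, zero_mul, right_eq_add.1 h0,
      Polynomial.sum_over_range _ (fun i => by rw [map_zero, zero_mul])] at h
    simpa [eval_mul, eval_pow] using h.symm
  refine card_additive_le _ K₁ Q.roots.toFinset ?_ (fun β hβ => hβ.1) hroot ?_
  · refine (Multiset.toFinset_card_le _).trans ((Q.card_roots').trans (hQdeg.trans ?_))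
    rw [Module.natCard_eq_pow_finrank (K := ZMod p) (V := K₁), Nat.card_eq_fintype_card, ZMod.card,
      IntermediateField.adjoin.finrank hint]
  · intro β β' hβ hβ' c hc q hq
    obtain ⟨f, rfl⟩ : ∃ f : (ZMod p)[X], aeval w f = q := by
      have : q ∈ (IntermediateField.adjoin (ZMod p) {w}).toSubalgebra := hq
      rw [IntermediateField.adjoin_simple_toSubalgebra_of_isAlgebraic hint.isAlgebraic,
        Algebra.adjoin_singleton_eq_range_aeval] at this
      exact this
    rw [key β hβ.1 hβ.2 c f, key β' hβ'.1 hβ'.2 c f, hc]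

/-- The maps semilinear for `ι : K₁ → K` with all values roots of `X ^ q = w X`. -/
theorem card_semilinear_le (K₁ : IntermediateField (ZMod p) k) (ι : K₁ → K) (w : K) :
    Finite {β : k → K // (∀ x y, β (x + y) = β x + β y) ∧
        (∀ (q : K₁) c, β (q * c) = ι q * β c) ∧ ∀ c, β c ^ Nat.card K₁ = w * β c} ∧
      Nat.card {β : k → K // (∀ x y, β (x + y) = β x + β y) ∧
        (∀ (q : K₁) c, β (q * c) = ι q * β c) ∧ ∀ c, β c ^ Nat.card K₁ = w * β c} ≤
        Nat.card k := by
  classical
  set q₁ := Nat.card K₁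
  have hq : 1 < q₁ := Finite.one_lt_card
  set Q : K[X] := X ^ q₁ - C w * X with hQ
  have hdeg : Q.natDegree ≤ q₁ := by
    refine (natDegree_sub_le _ _).trans (max_le (natDegree_X_pow_le _) ?_)
    exact (natDegree_C_mul_le _ _).trans (natDegree_X_le.trans hq.le)
  have hQ0 : Q ≠ 0 := fun h => by
    have h1 : Q.coeff q₁ = 1 := by
      rw [hQ, coeff_sub, coeff_X_pow_self, coeff_C_mul, coeff_X, if_neg hq.ne, mul_zero, sub_zero]
    rw [h, coeff_zero] at h1
    exact zero_ne_one h1
  refine card_additive_le _ K₁ Q.roots.toFinset ((Multiset.toFinset_card_le _).trans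
    ((Q.card_roots').trans hdeg)) (fun β hβ => hβ.1) (fun β hβ c => ?_)
    fun β β' hβ hβ' c hc q hq' => by rw [hβ.2.1 ⟨q, hq'⟩, hβ'.2.1 ⟨q, hq'⟩, hc]
  rw [Multiset.mem_toFinset, mem_roots hQ0, Polynomial.IsRoot, hQ]
  simp [hβ.2.2 c]

end

end FermatAgent.TW.Flat
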