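import Fermat.Agent.TW.Flat.Ops
import Fermat.Agent.Duality.Local.Kummer

/-!
# Pairings of finite modules into `μ_p` and the Fourier form

For a perfect equivariant pairing `B : X × Y → 𝔽_p(1)` the form
`T(f, g) = |X|⁻¹ ∑ f x * g y * ζ ^ (-B x y)` pairs functions on `X` with functions on `Y`.
-/

set_option autoImplicit false

namespace FermatAgent.TW.Flat

open FermatAgent.Duality.Local

noncomputable section

local notation "Qb" => AlgebraicClosure ℚ
local notation "GQ" => AlgebraicClosure ℚ ≃ₐ[ℚ] AlgebraicClosure ℚ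

variable {p : ℕ} [Fact p.Prime] {J : Subgroup GQ}
  {X Y : Type} [AddCommGroup X] [AddCommGroup Y] [Fintype X] [Fintype Y]

/-- A perfect pairing into `𝔽_p(1)`. -/
structure Pairing (p : ℕ) [Fact p.Prime] (J : Subgroup GQ) {X Y : Type} [AddCommGroup X]
    [AddCommGroup Y] [Fintype X] [Fintype Y] (act : GQ → X → X) (act' : GQ → Y → Y) where
  B : X →+ Y →+ ZMod p
  left : ∀ x, (∀ y, B x y = 0) → x = 0
  right : ∀ y, (∀ x, B x y = 0) → y = 0
  equiv : ∀ σ ∈ J, ∀ x y, B (act σ x) (act' σ y) = (ExtCitation.cycloChar p σ : ZMod p) * B x y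
  card_eq : Fintype.card X = Fintype.card Y

theorem map_zpw_cyclo {ζ : Qb} (hζ : IsPrimitiveRoot ζ p) (σ : GQ) (i : ZMod p) :
    σ (zpw p ζ i) = zpw p ζ ((ExtCitation.cycloChar p σ : ZMod p) * i) := by
  have h : ((((ExtCitation.cycloChar p σ : ZMod p).val * i.val : ℕ)) : ZMod p) =
      (ExtCitation.cycloChar p σ : ZMod p) * i := by
    rw [Nat.cast_mul, ZMod.natCast_zmod_val, ZMod.natCast_zmod_val]
  rw [← h, zpw_natCast hζ, zpw, map_pow, apply_root_eq_pow hζ σ, ← pow_mul]

namespace Pairing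

variable {act : GQ → X → X} {act' : GQ → Y → Y} (P : Pairing p J act act') {ζ : Qb}
  (hζ : IsPrimitiveRoot ζ p)

/-- The pairing with the factors exchanged. -/
def flip : Pairing p J act' act where
  B := P.B.flip
  left := P.right
  right := P.left
  equiv σ hσ y x := P.equiv σ hσ x y
  card_eq := P.card_eq.symm

@[simp] theorem flip_B (x : X) (y : Y) : P.flip.B y x = P.B x y := rfl

/-- The restriction to a smaller group. -/
def mono {J' : Subgroup GQ} (h : J' ≤ J) : Pairing p J' act act' where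
  B := P.B
  left := P.left
  right := P.right
  equiv σ hσ := P.equiv σ (h hσ)
  card_eq := P.card_eq

/-- The character `x, y ↦ ζ ^ (-B x y)`. -/
def chr (ζ : Qb) (x : X) (y : Y) : Qb := zpw p ζ (-P.B x y)

theorem flip_chr (x : X) (y : Y) : P.flip.chr ζ y x = P.chr ζ x y := rfl

include hζ

theorem chr_add_left (x x' : X) (y : Y) :
    P.chr ζ (x + x') y = P.chr ζ x y * P.chr ζ x' y := by
  simp only [chr, map_add, AddMonoidHom.add_apply, neg_add, zpw_add hζ]

theorem chr_add_right (x : X) (y y' : Y) :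
    P.chr ζ x (y + y') = P.chr ζ x y * P.chr ζ x y' := by
  simp only [chr, map_add, neg_add, zpw_add hζ]

omit hζ in
@[simp] theorem chr_zero_left (y : Y) : P.chr ζ 0 y = 1 := by
  simp [chr, zpw_zero]

omit hζ in
@[simp] theorem chr_zero_right (x : X) : P.chr ζ x 0 = 1 := by
  simp [chr, zpw_zero]

theorem chr_equiv {σ : GQ} (hσ : σ ∈ J) (x : X) (y : Y) :
    P.chr ζ (act σ x) (act' σ y) = σ (P.chr ζ x y) := by
  rw [chr, chr, map_zpw_cyclo hζ, P.equiv σ hσ, mul_neg]

theorem sum_chr_left [DecidableEq Y] (y : Y) :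
    ∑ x, P.chr ζ x y = if y = 0 then (Fintype.card X : Qb) else 0 := by
  split_ifs with h
  · simp [h]
  obtain ⟨x₀, hx₀⟩ : ∃ x₀, P.B x₀ y ≠ 0 := by
    by_contra! hc
    exact h (P.right y hc)
  have h1 : P.chr ζ x₀ y ≠ 1 := fun h1 => hx₀ (by simpa using (zpw_eq_one_iff hζ).1 h1)
  have h2 : P.chr ζ x₀ y * ∑ x, P.chr ζ x y = ∑ x, P.chr ζ x y := by
    rw [Finset.mul_sum]
    exact Fintype.sum_equiv (Equiv.addLeft x₀) _ _ fun x => (P.chr_add_left hζ x₀ x y).symm
  rw [← sub_eq_zero, ← sub_one_mul] at h2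
  exact (mul_eq_zero.1 h2).resolve_left (sub_ne_zero.2 h1)

theorem sum_chr_right [DecidableEq X] (x : X) :
    ∑ y, P.chr ζ x y = if x = 0 then (Fintype.card X : Qb) else 0 := by
  rw [P.card_eq]
  exact P.flip.sum_chr_left hζ x

omit hζ in
/-- The Fourier form. -/
def form (ζ : Qb) : (X → Qb) →ₗ[Qb] (Y → Qb) →ₗ[Qb] Qb :=
  LinearMap.mk₂ Qb (fun f g => (Fintype.card X : Qb)⁻¹ * ∑ x, ∑ y, f x * g y * P.chr ζ x y)
    (fun f f' g => by simp only [Pi.add_apply, add_mul, Finset.sum_add_distrib, mul_add])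
    (fun c f g => by
      simp only [Pi.smul_apply, smul_eq_mul, Finset.mul_sum]
      exact Finset.sum_congr rfl fun x _ => Finset.sum_congr rfl fun y _ => by ring)
    (fun f g g' => by
      simp only [Pi.add_apply, mul_add, add_mul, Finset.sum_add_distrib])
    (fun c f g => by
      simp only [Pi.smul_apply, smul_eq_mul, Finset.mul_sum]
      exact Finset.sum_congr rfl fun x _ => Finset.sum_congr rfl fun y _ => by ring)

omit hζ in
theorem form_apply (f : X → Qb) (g : Y → Qb) :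
    P.form ζ f g = (Fintype.card X : Qb)⁻¹ * ∑ x, ∑ y, f x * g y * P.chr ζ x y := rfl

omit hζ in
theorem form_flip (f : X → Qb) (g : Y → Qb) : P.flip.form ζ g f = P.form ζ f g := by
  rw [form_apply, form_apply, P.card_eq, Finset.sum_comm]
  refine congrArg _ (Finset.sum_congr rfl fun x _ => Finset.sum_congr rfl fun y _ => ?_)
  rw [flip_chr]
  ring

omit hζ in
theorem card_ne_zero : (Fintype.card X : Qb) ≠ 0 :=
  Nat.cast_ne_zero.2 Fintype.card_ne_zero

theorem form_one (f : X → Qb) : P.form ζ f 1 = f 0 := by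
  classical
  simp only [form_apply, Pi.one_apply, mul_one, ← Finset.mul_sum, P.sum_chr_right hζ, mul_ite,
    mul_zero, Finset.sum_ite_eq', Finset.mem_univ, if_true]
  have := card_ne_zero (X := X)
  field_simp

theorem eq_zero_of_form_left {f : X → Qb} (h : ∀ g, P.form ζ f g = 0) : f = 0 := by
  classical
  funext x₀
  have h' := h fun y => P.chr ζ (-x₀) y
  simp only [form_apply] at h'
  have e : ∀ x, ∑ y, f x * P.chr ζ (-x₀) y * P.chr ζ x y =
      if x = x₀ then f x * Fintype.card X else 0 := fun x => by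
    simp only [mul_assoc, ← P.chr_add_left hζ, ← Finset.mul_sum, P.sum_chr_right hζ, mul_ite,
      mul_zero, neg_add_eq_sub, sub_eq_zero]
  rw [Finset.sum_congr rfl fun x _ => e x, Finset.sum_ite_eq', if_pos (Finset.mem_univ _),
    mul_comm (f x₀), ← mul_assoc, inv_mul_cancel₀ (card_ne_zero (X := X)), one_mul] at h'
  exact h'

theorem eq_zero_of_form_right {g : Y → Qb} (h : ∀ f, P.form ζ f g = 0) : g = 0 :=
  P.flip.eq_zero_of_form_left hζ fun f => by rw [form_flip]; exact h f

/-- Products on the right come from comultiplication on the left. -/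
theorem form_mul (f : X → Qb) (g h : Y → Qb) :
    P.form ζ f (g * h) = ((Fintype.card X : Qb)⁻¹) ^ 2 *
      ∑ x, ∑ x', ∑ y, ∑ y', f (x + x') * g y * h y' * (P.chr ζ x y * P.chr ζ x' y') := by
  classical
  have hN := card_ne_zero (X := X)
  have e : ∑ x, ∑ x', ∑ y, ∑ y', f (x + x') * g y * h y' * (P.chr ζ x y * P.chr ζ x' y') =
      ∑ z, ∑ y, f z * (g y * h y) * P.chr ζ z y * Fintype.card X := by
    rw [Finset.sum_comm]
    have e1 : ∀ x' : X, ∑ x, ∑ y, ∑ y', f (x + x') * g y * h y' * (P.chr ζ x y * P.chr ζ x' y') =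
        ∑ z, ∑ y, ∑ y', f z * g y * h y' * (P.chr ζ z y * P.chr ζ x' (-y + y')) := fun x' => by
      refine Fintype.sum_equiv (Equiv.addRight x') _ _ fun x => ?_
      refine Finset.sum_congr rfl fun y _ => Finset.sum_congr rfl fun y' _ => ?_
      rw [Equiv.coe_addRight, P.chr_add_left hζ x x' y, mul_assoc (P.chr ζ x y),
        ← P.chr_add_right hζ x' y (-y + y'), add_neg_cancel_left]
    rw [Finset.sum_congr rfl fun x' _ => e1 x', Finset.sum_comm]
    refine Finset.sum_congr rfl fun z _ => ?_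
    rw [Finset.sum_comm]
    refine Finset.sum_congr rfl fun y _ => ?_
    rw [Finset.sum_comm]
    simp only [← mul_assoc, ← Finset.mul_sum, P.sum_chr_left hζ, neg_add_eq_zero, mul_ite, mul_zero,
      Finset.sum_ite_eq, Finset.mem_univ, if_true]
  rw [e, form_apply]
  simp only [Pi.mul_apply, ← Finset.sum_mul]
  field_simp

omit hζ in
/-- The form on pairs. -/
def form₂ (ζ : Qb) (g h : Y → Qb) : (X × X → Qb) →ₗ[Qb] Qb where
  toFun φ := ((Fintype.card X : Qb)⁻¹) ^ 2 *
    ∑ x, ∑ x', ∑ y, ∑ y', φ (x, x') * g y * h y' * (P.chr ζ x y * P.chr ζ x' y')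
  map_add' a b := by simp only [Pi.add_apply, add_mul, Finset.sum_add_distrib, mul_add]
  map_smul' r a := by
    simp only [Pi.smul_apply, smul_eq_mul, Finset.mul_sum, RingHom.id_apply]
    refine Finset.sum_congr rfl fun x _ => Finset.sum_congr rfl fun x' _ =>
      Finset.sum_congr rfl fun y _ => Finset.sum_congr rfl fun y' _ => by ring

omit hζ in
theorem form₂_prod (a b : X → Qb) (g h : Y → Qb) :
    P.form₂ ζ g h (fun z => a z.1 * b z.2) = P.form ζ a g * P.form ζ b h := by
  simp only [form₂, LinearMap.coe_mk, AddHom.coe_mk, form_apply]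
  rw [mul_mul_mul_comm, ← sq, Finset.sum_mul_sum]
  refine congrArg _ (Finset.sum_congr rfl fun x _ => Finset.sum_congr rfl fun x' _ => ?_)
  rw [Finset.sum_mul_sum]
  exact Finset.sum_congr rfl fun y _ => Finset.sum_congr rfl fun y' _ => by ring

theorem form_mul' (f : X → Qb) (g h : Y → Qb) :
    P.form ζ f (g * h) = P.form₂ ζ g h (fun z => f (z.1 + z.2)) := P.form_mul hζ f g h

/-- Every additive map `Y → 𝔽_p` is a `B x`. -/
theorem exists_eq_B (θ : Y →+ ZMod p) : ∃ x, P.B x = θ := by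
  classical
  by_contra! hne
  have h0 : (fun y => zpw p ζ (θ y)) = (0 : Y → Qb) := by
    refine P.eq_zero_of_form_right hζ fun f => ?_
    rw [form_apply]
    refine mul_eq_zero_of_right _ (Finset.sum_eq_zero fun x _ => ?_)
    simp only [mul_assoc, ← Finset.mul_sum]
    refine mul_eq_zero_of_right _ ?_
    obtain ⟨y₀, hy₀⟩ : ∃ y₀, θ y₀ - P.B x y₀ ≠ 0 := by
      by_contra! hc
      exact hne x (AddMonoidHom.ext fun y => (sub_eq_zero.1 (hc y)).symm)
    have h1 : zpw p ζ (θ y₀ - P.B x y₀) ≠ 1 := fun h1 => hy₀ ((zpw_eq_one_iff hζ).1 h1)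
    have e : ∀ y, zpw p ζ (θ y) * P.chr ζ x y = zpw p ζ (θ y - P.B x y) := fun y => by
      rw [chr, ← zpw_add hζ, sub_eq_add_neg]
    have h2 : zpw p ζ (θ y₀ - P.B x y₀) * ∑ y, zpw p ζ (θ y) * P.chr ζ x y =
        ∑ y, zpw p ζ (θ y) * P.chr ζ x y := by
      simp only [e, Finset.mul_sum, ← zpw_add hζ]
      exact Fintype.sum_equiv (Equiv.addLeft y₀) _ _ fun y => by
        rw [Equiv.coe_addLeft, map_add, map_add, add_sub_add_comm]
    rw [← sub_eq_zero, ← sub_one_mul] at h2
    exact (mul_eq_zero.1 h2).resolve_left (sub_ne_zero.2 h1)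
  exact zpw_ne_zero hζ _ (congrFun h0 0)

end Pairing

end

end FermatAgent.TW.Flat
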