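import Fermat.Agent.TW.Defs

/-!
# Rank bounds for submodules
-/

set_option autoImplicit false

open Module

namespace FermatAgent.TW.Flat

noncomputable section

variable {k : Type} [Field k] {X : Type} [AddCommGroup X] [Module k X]

theorem rankLE_mono {Z Z' : Submodule k X} {n : ℕ} (h : RankLE Z' n) (hle : Z ≤ Z') :
    RankLE Z n := by
  have := h.1
  have : Module.Finite k Z := Submodule.finiteDimensional_of_le hle
  exact ⟨this, (Submodule.finrank_mono hle).trans h.2⟩

theorem rankLE_span_singleton (x : X) : RankLE (Submodule.span k {x}) 1 := by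
  refine ⟨Module.Finite.span_of_finite k (Set.finite_singleton x), ?_⟩
  simpa using finrank_span_le_card (R := k) ({x} : Set X)

theorem rankLE_sup {Z Z' : Submodule k X} {n n' : ℕ} (h : RankLE Z n) (h' : RankLE Z' n') :
    RankLE (Z ⊔ Z') (n + n') := by
  have := h.1
  have := h'.1
  refine ⟨Submodule.finiteDimensional_sup Z Z', ?_⟩
  have h1 := Submodule.finrank_sup_add_finrank_inf_eq Z Z'
  have h2 := h.2
  have h3 := h'.2
  omega

/-- A bound from the kernel and the image of a linear map. -/
theorem rankLE_of_map {V : Type} [AddCommGroup V] [Module k V] [Module.Finite k V]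
    {U : Submodule k X} (f : X →ₗ[k] V) {K : Submodule k X} {a b : ℕ} (hK : RankLE K b)
    (hker : ∀ x ∈ U, f x = 0 → x ∈ K) (hV : finrank k V ≤ a) : RankLE U (a + b) := by
  have := hK.1
  let g := f.comp U.subtype
  have hle : (LinearMap.ker g).map U.subtype ≤ K := by
    rintro _ ⟨x, hx, rfl⟩
    exact hker x x.2 hx
  have h1 := rankLE_mono hK hle
  have e := Submodule.equivMapOfInjective U.subtype U.injective_subtype (LinearMap.ker g)
  have := h1.1
  have : Module.Finite k (LinearMap.ker g) := Module.Finite.equiv e.symm
  have hk : finrank k (LinearMap.ker g) ≤ b := by rw [e.finrank_eq]; exact h1.2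
  have : Module.Finite k (U ⧸ LinearMap.ker g) := Module.Finite.equiv g.quotKerEquivRange.symm
  have : Module.Finite k U := Module.Finite.of_submodule_quotient (LinearMap.ker g)
  refine ⟨this, ?_⟩
  have h3 := g.finrank_range_add_finrank_ker
  have h4 := Submodule.finrank_le (LinearMap.range g)
  omega

/-- A bound from a separating function with values in a small set. -/
theorem rankLE_of_injOn [Finite k] {U K : Submodule k X} {b : ℕ} (hK : RankLE K b) {S : Type}
    [Finite S] (hS : Nat.card S ≤ Nat.card k) (F : U → S)
    (hsep : ∀ x y : U, F x = F y → (x : X) - y ∈ K) : RankLE U (1 + b) := by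
  classical
  have := hK.1
  set Q := U ⧸ K.comap U.subtype
  let G : Q → S := fun q => F q.out
  have hG : Function.Injective G := fun q q' h => by
    rw [← Submodule.Quotient.mk_out (p := K.comap U.subtype) q,
      ← Submodule.Quotient.mk_out (p := K.comap U.subtype) q', Submodule.Quotient.eq]
    exact hsep _ _ h
  have : Finite Q := Finite.of_injective G hG
  have : Module.Finite k Q := Module.Finite.of_finite
  have hcard : Nat.card Q ≤ Nat.card k := (Nat.card_le_card_of_injective G hG).trans hS
  rw [Module.natCard_eq_pow_finrank (K := k) (V := Q)] at hcard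
  have hq : finrank k Q ≤ 1 := by
    by_contra hlt
    have h1 : Nat.card k ^ 2 ≤ Nat.card k ^ finrank k Q :=
      Nat.pow_le_pow_right Nat.card_pos (by omega)
    have h2 : Nat.card k < Nat.card k ^ 2 := by
      rw [sq]
      exact lt_mul_of_one_lt_left Nat.card_pos Finite.one_lt_card
    omega
  have hle : (K.comap U.subtype).map U.subtype ≤ K := Submodule.map_comap_le _ _
  have h1 := rankLE_mono hK hle
  have e := Submodule.equivMapOfInjective U.subtype U.injective_subtype (K.comap U.subtype)
  have := h1.1
  have : Module.Finite k (K.comap U.subtype) := Module.Finite.equiv e.symm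
  have : Module.Finite k U := Module.Finite.of_submodule_quotient (K.comap U.subtype)
  refine ⟨this, ?_⟩
  have h3 := (K.comap U.subtype).finrank_quotient_add_finrank
  have h4 : finrank k (K.comap U.subtype) ≤ b := by rw [e.finrank_eq]; exact h1.2
  change finrank k Q + _ = _ at h3
  omega

end

end FermatAgent.TW.Flat
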