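import Fermat.Agent.TW.Flat.RedBeta
import Fermat.Agent.TW.Flat.RankUtil

/-!
# Upper triangular peu ramifiée cocycles with unramified diagonal
-/

set_option autoImplicit false

open Matrix Module

namespace FermatAgent.TW.Flat

open FermatAgent.Local

noncomputable section

local notation "Qb" => AlgebraicClosure ℚ
local notation "GQ" => AlgebraicClosure ℚ ≃ₐ[ℚ] AlgebraicClosure ℚ

variable {k : Type} [Field k] {p : ℕ} [Fact p.Prime] [Algebra (ZMod p) k]
  (ρ : GQ →* GL (Fin 2) k) (A : ValuationSubring Qb) (ζ : Qb)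

/-- Extension by zero. -/
def extFun : (A.decompositionSubgroup ℚ → Matrix (Fin 2) (Fin 2) k) →ₗ[k]
    (GQ → Matrix (Fin 2) (Fin 2) k) where
  toFun c σ := open Classical in if h : σ ∈ A.decompositionSubgroup ℚ then c ⟨σ, h⟩ else 0
  map_add' a b := funext fun σ => by
    by_cases h : σ ∈ A.decompositionSubgroup ℚ <;> simp [h]
  map_smul' r a := funext fun σ => by
    by_cases h : σ ∈ A.decompositionSubgroup ℚ <;> simp [h]

theorem extFun_apply (c : A.decompositionSubgroup ℚ → Matrix (Fin 2) (Fin 2) k)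
    {σ : GQ} (h : σ ∈ A.decompositionSubgroup ℚ) : extFun A c σ = c ⟨σ, h⟩ := dif_pos h

theorem extFun_resTo (c : GQ → Matrix (Fin 2) (Fin 2) k) {σ : GQ}
    (h : σ ∈ A.decompositionSubgroup ℚ) :
    extFun A (resTo (A.decompositionSubgroup ℚ) c) σ = c σ := extFun_apply A _ h

variable (p) in
/-- Upper triangular, unramified diagonal, peu ramifié corner. -/
def redU : Submodule k (A.decompositionSubgroup ℚ → Matrix (Fin 2) (Fin 2) k) where
  carrier := {c | c ∈ adCocycles ρ (A.decompositionSubgroup ℚ) ∧ (∀ σ, c σ 1 0 = 0) ∧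
    (∀ σ : A.decompositionSubgroup ℚ, (σ : GQ) ∈ A.inertiaSubgroupIn ℚ → c σ 0 0 = 0) ∧
    ∀ z : Qb, IsPrimitiveRoot z p → IsPeu p A z fun σ => extFun A c σ 0 1}
  add_mem' := fun {a b} ha hb => ⟨add_mem ha.1 hb.1, fun σ => by simp [ha.2.1, hb.2.1],
    fun σ hσ => by simp [ha.2.2.1 σ hσ, hb.2.2.1 σ hσ], fun z hz =>
    ((ha.2.2.2 z hz).add hz (hb.2.2.2 z hz)).congr fun σ _ => by simp⟩
  zero_mem' := ⟨zero_mem _, fun σ => rfl, fun σ _ => rfl, fun z hz =>
    (isPeu_zero (k := k)).congr fun σ _ => by simp⟩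
  smul_mem' := fun r c hc => ⟨Submodule.smul_mem _ r hc.1, fun σ => by simp [hc.2.1],
    fun σ hσ => by simp [hc.2.2.1 σ hσ], fun z hz =>
    ((hc.2.2.2 z hz).smul r).congr fun σ _ => by simp⟩

variable (p) in
/-- The part with vanishing diagonal. -/
def redU₀ : Submodule k (A.decompositionSubgroup ℚ → Matrix (Fin 2) (Fin 2) k) where
  carrier := {c | c ∈ redU p ρ A ∧ ∀ σ, c σ 0 0 = 0}
  add_mem' := fun {a b} ha hb => ⟨add_mem ha.1 hb.1, fun σ => by simp [ha.2, hb.2]⟩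
  zero_mem' := ⟨zero_mem _, fun σ => rfl⟩
  smul_mem' := fun r c hc => ⟨Submodule.smul_mem _ r hc.1, fun σ => by simp [hc.2]⟩

variable {ρ A ζ}

theorem cocycle_entries (hup : UpperAt ρ A)
    {c : A.decompositionSubgroup ℚ → Matrix (Fin 2) (Fin 2) k}
    (hc : c ∈ adCocycles ρ (A.decompositionSubgroup ℚ)) (h10 : ∀ σ, c σ 1 0 = 0)
    (σ τ : A.decompositionSubgroup ℚ) :
    c (σ * τ) 0 0 = c σ 0 0 + c τ 0 0 ∧
    c (σ * τ) 0 1 = c σ 0 1 + (kap ρ σ * c τ 0 1 +
      (ρ σ : Matrix (Fin 2) (Fin 2) k) 0 1 / (ρ σ : Matrix (Fin 2) (Fin 2) k) 1 1 *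
        (c τ 1 1 - c τ 0 0)) := by
  have h := hc.2.1 σ τ
  obtain ⟨e0, e1, -⟩ := conjAct_upper (hup σ σ.2) (c τ)
  constructor
  · rw [h, Matrix.add_apply, e0, h10 τ, mul_zero, add_zero]
  · rw [h, Matrix.add_apply, e1, h10 τ, mul_zero, sub_zero, kap]

variable [Finite k] (hord : OrdUpper p ρ A) (hA : A.LiesOverPrime p) (hp2 : p ≠ 2)
include hord hA hp2

omit [Finite k] in
omit hA hp2 in
theorem peuClass_of_mem {c : A.decompositionSubgroup ℚ → Matrix (Fin 2) (Fin 2) k}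
    (hc : c ∈ redU₀ p ρ A) (hζ : IsPrimitiveRoot ζ p) :
    PeuClass hord ζ fun σ => extFun A c σ 0 1 := by
  obtain ⟨⟨hcoc, h10, -, hpeu⟩, h00⟩ := hc
  have h11 : ∀ σ, c σ 1 1 = 0 := fun σ => by
    rw [TW.apply_one_one_of_trace (hcoc.1 σ), h00, neg_zero]
  have hmul : ∀ σ τ : A.decompositionSubgroup ℚ,
      c (σ * τ) 0 1 = c σ 0 1 + kap ρ σ * c τ 0 1 := fun σ τ => by
    rw [(cocycle_entries hord.upper hcoc h10 σ τ).2, h11, h00, sub_zero, mul_zero, add_zero]
  refine ⟨fun σ hσ τ hτ => ?_, fun g hg σ hσ => ?_, ?_, hpeu ζ hζ⟩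
  · rw [extFun_apply A c (mul_mem hσ.1 hτ.1), extFun_apply A c hσ.1, extFun_apply A c hτ.1]
    have := hmul ⟨σ, hσ.1⟩ ⟨τ, hτ.1⟩
    rw [(mem_ordH_iff.1 hσ).2.2, one_mul] at this
    exact this
  · rw [extFun_apply A c (conj_mem_ordH hg hσ).1, extFun_apply A c hσ.1]
    set g' : A.decompositionSubgroup ℚ := ⟨g, hg⟩
    set σ' : A.decompositionSubgroup ℚ := ⟨σ, hσ.1⟩
    have h1 : (⟨g⁻¹ * σ * g, (conj_mem_ordH hg hσ).1⟩ : A.decompositionSubgroup ℚ) =
        g'⁻¹ * σ' * g' := rfl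
    rw [h1, hmul, hmul]
    have hone : c 1 0 1 = 0 := by
      have := hmul 1 1
      rw [one_mul, show kap ρ ((1 : A.decompositionSubgroup ℚ) : GQ) = 1 by simp [kap],
        one_mul] at this
      exact right_eq_add.1 this
    have hinv := hmul g'⁻¹ g'
    rw [inv_mul_cancel, hone] at hinv
    have hk : kap ρ ((g'⁻¹ * σ' : A.decompositionSubgroup ℚ) : GQ) = kap ρ (g⁻¹) := by
      show kap ρ (g⁻¹ * σ) = _
      rw [kap_mul hord.upper (inv_mem hg) hσ.1, (mem_ordH_iff.1 hσ).2.2, mul_one]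
    have hki : kap ρ (g⁻¹) = (kap ρ g)⁻¹ := eq_inv_of_mul_eq_one_left (by
      rw [← kap_mul hord.upper (inv_mem hg) hg, inv_mul_cancel, kap, map_one]; simp)
    rw [hk, show kap ρ ((g'⁻¹ : A.decompositionSubgroup ℚ) : GQ) = kap ρ (g⁻¹) from rfl, hki]
    rw [show kap ρ ((g'⁻¹ : A.decompositionSubgroup ℚ) : GQ) = kap ρ (g⁻¹) from rfl, hki] at hinv
    linear_combination -hinv
  · obtain ⟨F, hF, hlev⟩ := hcoc.2.2
    refine ⟨F, hF, fun g hg s hs h => ?_⟩
    rw [extFun_apply A c (mul_mem hg.1 hs.1), extFun_apply A c hg.1]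
    exact congrFun (congrFun (hlev ⟨g, hg.1⟩ ⟨s, hs.1⟩ h) 0) 1

omit hA hp2 in
/-- A class vanishing on `ordH` is a coboundary. -/
theorem mem_span_delta {c : A.decompositionSubgroup ℚ → Matrix (Fin 2) (Fin 2) k}
    (hc : c ∈ redU₀ p ρ A) (h : ∀ σ : A.decompositionSubgroup ℚ,
      (σ : GQ) ∈ ordH p hord.upper → c σ 0 1 = 0) :
    c ∈ Submodule.span k {adDelta ρ (A.decompositionSubgroup ℚ)
      ⟨!![0, 1; 0, 0], mem_sl2.2 (by simp [Matrix.trace_fin_two])⟩} := by
  classical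
  obtain ⟨⟨hcoc, h10, -, -⟩, h00⟩ := hc
  have h11 : ∀ σ, c σ 1 1 = 0 := fun σ => by
    rw [TW.apply_one_one_of_trace (hcoc.1 σ), h00, neg_zero]
  have hmul : ∀ σ τ : A.decompositionSubgroup ℚ,
      c (σ * τ) 0 1 = c σ 0 1 + kap ρ σ * c τ 0 1 := fun σ τ => by
    rw [(cocycle_entries hord.upper hcoc h10 σ τ).2, h11, h00, sub_zero, mul_zero, add_zero]
  let η : A.decompositionSubgroup ℚ →* (ZMod p)ˣ × kˣ :=
    { toFun := fun σ => (ExtCitation.cycloChar p (σ : GQ),
        Units.mk0 (kap ρ σ) (kap_ne_zero hord.upper σ.2))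
      map_one' := Prod.ext (map_one _) (Units.ext (by simp [kap]))
      map_mul' := fun σ τ => Prod.ext (map_mul _ _ _) (Units.ext (kap_mul hord.upper σ.2 τ.2)) }
  have hη : ∀ σ τ : A.decompositionSubgroup ℚ, η σ = η τ → c σ 0 1 = c τ 0 1 := by
    intro σ τ e
    have h1 : (((τ⁻¹ * σ : A.decompositionSubgroup ℚ)) : GQ) ∈ ordH p hord.upper := by
      have e' : η (τ⁻¹ * σ) = 1 := by rw [map_mul, map_inv, e, inv_mul_cancel]
      exact mem_ordH_iff.2 ⟨(τ⁻¹ * σ).2, congrArg Prod.fst e',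
        congrArg Units.val (congrArg Prod.snd e')⟩
    have h2 := hmul τ (τ⁻¹ * σ)
    rw [mul_inv_cancel_left, h _ h1, mul_zero, add_zero] at h2
    exact h2
  have : Fintype η.range := Fintype.ofFinite _
  choose sec hsec using fun x : η.range => x.2
  set n := Fintype.card η.range
  set S := ∑ x, c (sec x) 0 1
  have hn : (n : k) ≠ 0 := by
    have : CharP k p := charP_of_injective_algebraMap (algebraMap (ZMod p) k).injective p
    rw [Ne, CharP.cast_eq_zero_iff k p]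
    intro hd
    have hp := (Fact.out : p.Prime)
    have h1 : p ∣ Nat.card ((ZMod p)ˣ × kˣ) :=
      hd.trans (show Fintype.card η.range ∣ _ by
        rw [← Nat.card_eq_fintype_card]; exact Subgroup.card_subgroup_dvd_card _)
    rw [Nat.card_prod] at h1
    have : Fintype k := Fintype.ofFinite k
    obtain ⟨m, -, hm⟩ := FiniteField.card k p
    rcases hp.dvd_mul.1 h1 with h2 | h2
    · rw [Nat.card_eq_fintype_card, ZMod.card_units p] at h2
      have h4 := hp.two_le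
      have := Nat.le_of_dvd (by omega) h2
      omega
    · rw [Nat.card_eq_fintype_card, Fintype.card_units, hm] at h2
      have h3 := Nat.dvd_sub (dvd_pow_self p m.ne_zero) h2
      rw [Nat.sub_sub_self (Nat.one_le_pow _ _ hp.pos)] at h3
      exact hp.not_dvd_one h3
  have havg : ∀ σ : A.decompositionSubgroup ℚ, c σ 0 1 = -(S / n) * (kap ρ σ - 1) := by
    intro σ
    have hsum : S = (n : k) * c σ 0 1 + kap ρ σ * S := by
      calc S = ∑ x, c (sec (⟨η σ, σ, rfl⟩ * x)) 0 1 :=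
            (Equiv.sum_comp (Equiv.mulLeft (⟨η σ, σ, rfl⟩ : η.range)) fun x => c (sec x) 0 1).symm
        _ = ∑ x, (c σ 0 1 + kap ρ σ * c (sec x) 0 1) := Finset.sum_congr rfl fun x _ => by
            rw [← hmul]
            refine hη _ _ ?_
            rw [hsec, map_mul, hsec]
            rfl
        _ = _ := by
            rw [Finset.sum_add_distrib, Finset.sum_const, Finset.card_univ, nsmul_eq_mul,
              ← Finset.mul_sum]
    field_simp
    linear_combination -hsum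
  rw [Submodule.mem_span_singleton]
  refine ⟨-(S / n), funext fun σ => ?_⟩
  have hup := conjAct_upper (hord.upper σ σ.2) (!![0, 1; 0, 0] : Matrix (Fin 2) (Fin 2) k)
  refine TW.ext_of_trace_zero ?_ (hcoc.1 σ) ?_ ?_ ?_
  · simp only [adDelta, LinearMap.coe_mk, AddHom.coe_mk, Pi.smul_apply, Matrix.trace_smul,
      Matrix.trace_sub, trace_conjAct]
    simp [Matrix.trace_fin_two]
  · rw [h00]
    simp only [adDelta, LinearMap.coe_mk, AddHom.coe_mk, Pi.smul_apply, Matrix.smul_apply,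
      Matrix.sub_apply, hup.1]
    simp
  · rw [havg]
    simp only [adDelta, LinearMap.coe_mk, AddHom.coe_mk, Pi.smul_apply, Matrix.smul_apply,
      Matrix.sub_apply, hup.2.1]
    simp [kap]
  · rw [h10]
    simp only [adDelta, LinearMap.coe_mk, AddHom.coe_mk, Pi.smul_apply, Matrix.smul_apply,
      Matrix.sub_apply, hup.2.2]
    simp

theorem rankLE_redU₀ : RankLE (redU₀ p ρ A) 2 := by
  classical
  have hp := (Fact.out : p.Prime)
  have : NeZero p := ⟨hp.ne_zero⟩
  obtain ⟨ζ, hζ⟩ := exists_primitiveRoot_qbar p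
  obtain ⟨F, hF⟩ := RT.exists_isFrobeniusAt hp hA
  obtain ⟨l₀, hl₀⟩ : ∃ l₀ : k →ₗ[ZMod p] ZMod p, l₀ ≠ 0 := by
    obtain ⟨l, hl⟩ := exists_ne (0 : Module.Dual (ZMod p) k)
    exact ⟨l, hl⟩
  have := Duality.Local.charP_residue hp hA
  set w : k := algebraMap (ZMod p) k (ExtCitation.cycloChar p F : ZMod p) / kap ρ F
  let e : redU₀ p ρ A → GQ → k := fun c σ => extFun A c.1 σ 0 1
  have he : ∀ c, PeuClass hord ζ (e c) := fun c => peuClass_of_mem hord c.2 hζ
  obtain ⟨hfin, hcard⟩ := card_frobenius_le (p := p) (K := IsLocalRing.ResidueField A) w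
  let Φ : redU₀ p ρ A → {β : k → IsLocalRing.ResidueField A //
      (∀ x y, β (x + y) = β x + β y) ∧ ∀ c, β (w * c) = β c ^ p} := fun c =>
    ⟨coeffMap hord ζ l₀ (e c), coeffMap_add_right hord hA hζ l₀ (he c),
      coeffMap_frobenius hord hA hζ l₀ (he c) hF⟩
  refine rankLE_of_injOn (b := 1) (rankLE_span_singleton (k := k)
    (adDelta ρ (A.decompositionSubgroup ℚ) ⟨!![0, 1; 0, 0], mem_sl2.2 (by simp [Matrix.trace_fin_two])⟩))
    hcard Φ fun x y hxy => ?_
  refine mem_span_delta hord (sub_mem x.2 y.2) fun σ hσ => ?_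
  have hadd : e x = e y + e (x - y) := funext fun τ => by
    simp [e, map_sub]
  have h0 : ∀ c, coeffMap hord ζ l₀ (e (x - y)) c = 0 := fun c => by
    have h1 : coeffMap hord ζ l₀ (e x) c = coeffMap hord ζ l₀ (e y) c :=
      congrFun (congrArg Subtype.val hxy) c
    rw [hadd, coeffMap_add_left hord hA hζ l₀ (he y) (he (x - y)) (hadd ▸ he x)] at h1
    exact add_eq_left.1 h1
  have := eq_zero_of_coeffMap_eq_zero hord hA hζ l₀ hp2 hl₀ (he (x - y)) h0 hσ
  simpa [e, extFun_apply A _ hσ.1] using this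

theorem rankLE_redU : RankLE (redU p ρ A) 3 := by
  classical
  have hp := (Fact.out : p.Prime)
  obtain ⟨F, hF⟩ := RT.exists_isFrobeniusAt hp hA
  set φ : A.decompositionSubgroup ℚ := ⟨F, (isFrobeniusAt_iff.1 hF).1⟩
  let ev : (A.decompositionSubgroup ℚ → Matrix (Fin 2) (Fin 2) k) →ₗ[k] k :=
    { toFun := fun c => c φ 0 0
      map_add' := fun a b => rfl
      map_smul' := fun r a => rfl }
  refine rankLE_of_map (a := 1) ev (rankLE_redU₀ hord hA hp2) (fun c hc h0 => ⟨hc, fun σ => ?_⟩)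
    (Module.finrank_self k).le
  obtain ⟨hcoc, h10, hI, -⟩ := hc
  obtain ⟨L', hL', hlev⟩ := hcoc.2.2
  let N := IntermediateField.normalClosure ℚ L' Qb
  have : FiniteDimensional ℚ N := normalClosure.is_finiteDimensional ℚ _ Qb
  have : Normal ℚ Qb := RT.isGalois_algClosureRat.to_normal
  have : Normal ℚ N := normalClosure.normal ℚ _ Qb
  obtain ⟨m, i, hi, hσ⟩ := exists_frobenius_pow_mul hp hA N hF σ.2
  set i' : A.decompositionSubgroup ℚ := ⟨i, mem_decomposition_of_inertia hi⟩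
  have hadd := fun a b => (cocycle_entries hord.upper hcoc h10 a b).1
  have hpow : ∀ n : ℕ, c (φ ^ n) 0 0 = 0 := fun n => by
    induction n with
    | zero =>
      have := hadd 1 1
      rw [one_mul] at this
      simpa using (right_eq_add.1 this)
    | succ n ih => rw [pow_succ, hadd, ih, show c φ 0 0 = 0 from h0, add_zero]
  have hs : (((φ ^ m * i')⁻¹ * σ : A.decompositionSubgroup ℚ) : GQ) ∈ L'.fixingSubgroup := by
    intro x
    show ((F ^ m * i : GQ))⁻¹ ((σ : GQ) (x : Qb)) = x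
    rw [hσ x (IntermediateField.le_normalClosure L' x.2)]
    exact (F ^ m * i : GQ).symm_apply_apply _
  have h1 := hlev (φ ^ m * i') ((φ ^ m * i')⁻¹ * σ) hs
  rw [mul_inv_cancel_left] at h1
  rw [h1, hadd, hpow, hI i' hi, add_zero]

end

end FermatAgent.TW.Flat
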