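import Fermat.Agent.TW.Flat.IrredShape
import Fermat.Agent.TW.Flat.RedSpace
import Fermat.Agent.TW.LocalCommon

/-!
# A cocycle vanishing on the stabiliser of `π` is a coboundary
-/

set_option autoImplicit false

open Matrix groupCohomology

namespace FermatAgent.TW.Flat

open FermatAgent.Local

noncomputable section

local notation "Qb" => AlgebraicClosure ℚ
local notation "GQ" => AlgebraicClosure ℚ ≃ₐ[ℚ] AlgebraicClosure ℚ

variable {k : Type} [Field k] {p : ℕ} [hp : Fact p.Prime] [Algebra (ZMod p) k]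
  {ρ : GQ →* GL (Fin 2) k} {A : ValuationSubring Qb} {π : Qb} {F : GQ}

/-- The cocycle rule for the extension by zero. -/
theorem extFun_cocycle {c : A.decompositionSubgroup ℚ → Matrix (Fin 2) (Fin 2) k}
    (hc : c ∈ adCocycles ρ (A.decompositionSubgroup ℚ)) {σ τ : GQ}
    (hσ : σ ∈ A.decompositionSubgroup ℚ) (hτ : τ ∈ A.decompositionSubgroup ℚ) :
    extFun A c (σ * τ) = extFun A c σ + conjAct (ρ σ) (extFun A c τ) := by
  rw [extFun_apply A c (mul_mem hσ hτ), extFun_apply A c hσ, extFun_apply A c hτ]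
  exact hc.2.1 ⟨σ, hσ⟩ ⟨τ, hτ⟩

theorem extFun_one {c : A.decompositionSubgroup ℚ → Matrix (Fin 2) (Fin 2) k}
    (hc : c ∈ adCocycles ρ (A.decompositionSubgroup ℚ)) : extFun A c 1 = 0 := by
  have h := extFun_cocycle hc (one_mem _) (one_mem _)
  rw [one_mul, map_one, conjAct, Units.val_one, one_mul, inv_one, Units.val_one, mul_one] at h
  exact right_eq_add.1 h

theorem extFun_delta (a : sl2 k) {σ : GQ} (hσ : σ ∈ A.decompositionSubgroup ℚ) :
    extFun A (adDelta ρ (A.decompositionSubgroup ℚ) a) σ =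
      conjAct (ρ σ) (a : Matrix (Fin 2) (Fin 2) k) - (a : Matrix (Fin 2) (Fin 2) k) := by
  rw [extFun_apply A _ hσ]
  rfl

theorem Lvl2Shape.tameGen_irr (h : Lvl2Shape p ρ A π F) {τ : GQ}
    (hτ : τ ∈ A.inertiaSubgroupIn ℚ)
    (hgen : ∀ σ ∈ A.inertiaSubgroupIn ℚ, ∃ i < lvl p, ∃ s ∈ stabRoot A π, σ = τ ^ i * s) :
    (ρ τ : Matrix (Fin 2) (Fin 2) k) 0 0 ^ p ≠ (ρ τ : Matrix (Fin 2) (Fin 2) k) 0 0 := by
  obtain ⟨g, hg, hne⟩ := h.irr
  obtain ⟨i, -, s, hs, rfl⟩ := hgen g hg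
  intro he
  refine hne ?_
  rw [map_mul, h.stab s hs, mul_one, map_pow, Units.val_pow_eq_pow_val,
    (diag_pow_entry (h.diag τ hτ).1 (h.diag τ hτ).2 i).2.2.1, pow_right_comm, he]

theorem conjAct_diag_diag {g : GL (Fin 2) k} (h01 : (g : Matrix (Fin 2) (Fin 2) k) 0 1 = 0)
    (h10 : (g : Matrix (Fin 2) (Fin 2) k) 1 0 = 0) (y : k) :
    conjAct g !![y, 0; 0, -y] = !![y, 0; 0, -y] := by
  have hcomm : (g : Matrix (Fin 2) (Fin 2) k) * !![y, 0; 0, -y] =
      !![y, 0; 0, -y] * (g : Matrix (Fin 2) (Fin 2) k) := by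
    ext i j
    fin_cases i <;> fin_cases j <;> simp [Matrix.mul_apply, Fin.sum_univ_two, h01, h10] <;> ring
  rw [conjAct, hcomm, mul_assoc, ← Units.val_mul, mul_inv_cancel, Units.val_one, mul_one]

theorem conjAct_antidiag_diag {g : GL (Fin 2) k} (h00 : (g : Matrix (Fin 2) (Fin 2) k) 0 0 = 0)
    (h11 : (g : Matrix (Fin 2) (Fin 2) k) 1 1 = 0) (y : k) :
    conjAct g !![y, 0; 0, -y] = !![-y, 0; 0, y] := by
  have hcomm : (g : Matrix (Fin 2) (Fin 2) k) * !![y, 0; 0, -y] =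
      !![-y, 0; 0, y] * (g : Matrix (Fin 2) (Fin 2) k) := by
    ext i j
    fin_cases i <;> fin_cases j <;> simp [Matrix.mul_apply, Fin.sum_univ_two, h00, h11] <;> ring
  rw [conjAct, hcomm, mul_assoc, ← Units.val_mul, mul_inv_cancel, Units.val_one, mul_one]

theorem mem_coboundaries_of_stab (hπ : π ^ lvl p = -(p : Qb)) (hA : A.LiesOverPrime p)
    (hp2 : p ≠ 2) (h : Lvl2Shape p ρ A π F)
    (hρ : ∃ L : IntermediateField ℚ Qb, FiniteDimensional ℚ L ∧ ∀ σ ∈ L.fixingSubgroup, ρ σ = 1)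
    {c : A.decompositionSubgroup ℚ → Matrix (Fin 2) (Fin 2) k}
    (hc : c ∈ adCocycles ρ (A.decompositionSubgroup ℚ))
    (h0 : ∀ σ ∈ stabRoot A π, extFun A c σ = 0) :
    c ∈ adCoboundaries ρ (A.decompositionSubgroup ℚ) := by
  have hpe := not_dvd_lvl (p := p)
  have hchar : CharP k p := charP_of_injective_algebraMap (algebraMap (ZMod p) k).injective p
  obtain ⟨τ, hτ, ξ, hξ, hpow, hgen⟩ := exists_tameGen hπ hA hpe
  have hirr := h.tameGen_irr hτ hgen
  have hτd := mem_decomposition_of_inertia hτ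
  set e := extFun A c
  set S : Matrix (Fin 2) (Fin 2) k := ∑ i ∈ Finset.range (lvl p), e (τ ^ i)
  have hτn : τ ^ lvl p ∈ stabRoot A π :=
    mem_stabRoot.2 ⟨pow_mem hτ _, by rw [hpow, hξ.pow_eq_one, one_mul]⟩
  have hS : S = (lvl p : k) • e τ + conjAct (ρ τ) S := by
    have h1 := Finset.sum_range_succ' (fun i => e (τ ^ i)) (lvl p)
    rw [Finset.sum_range_succ, h0 _ hτn, add_zero, pow_zero,
      show e 1 = 0 from extFun_one hc, add_zero] at h1
    have h2 : ∀ i, e (τ ^ (i + 1)) = e τ + conjAct (ρ τ) (e (τ ^ i)) := fun i => by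
      rw [pow_succ']
      exact extFun_cocycle hc hτd (pow_mem hτd i)
    simp only [h2, Finset.sum_add_distrib, Finset.sum_const, Finset.card_range] at h1
    calc S = _ := h1
      _ = _ := by
        rw [← Nat.cast_smul_eq_nsmul k]
        simp only [conjAct, Finset.mul_sum, Finset.sum_mul, S]
  have hn : (lvl p : k) ≠ 0 := fun e => hpe ((CharP.cast_eq_zero_iff k p _).1 e)
  have htr : ∀ σ ∈ A.decompositionSubgroup ℚ, Matrix.trace (e σ) = 0 := fun σ hσ => by
    rw [show e σ = c ⟨σ, hσ⟩ from extFun_apply A c hσ]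
    exact hc.1 _
  let a : sl2 k := ⟨(lvl p : k)⁻¹ • S, mem_sl2.2 (by
    rw [Matrix.trace_smul, Matrix.trace_sum, Finset.sum_eq_zero fun i _ => htr _ (pow_mem hτd i),
      smul_zero])⟩
  set c₁ := c + adDelta ρ (A.decompositionSubgroup ℚ) a
  have hc₁ : c₁ ∈ adCocycles ρ (A.decompositionSubgroup ℚ) := add_mem hc (adDelta_mem hρ _ a)
  set e₁ := extFun A c₁
  have he₁ : ∀ σ ∈ A.decompositionSubgroup ℚ, e₁ σ = e σ +
      (conjAct (ρ σ) ((lvl p : k)⁻¹ • S) - (lvl p : k)⁻¹ • S) := fun σ hσ => by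
    simp only [e₁, c₁, map_add, Pi.add_apply]
    rw [extFun_delta a hσ]
  have hτ1 : e₁ τ = 0 := by
    have h1 : e τ = (lvl p : k)⁻¹ • (S - conjAct (ρ τ) S) := by
      rw [eq_inv_smul_iff₀ hn, eq_sub_iff_add_eq]
      exact hS.symm
    rw [he₁ τ hτd, conjAct_smul, ← smul_sub, h1, ← smul_add, sub_add_sub_cancel, sub_self,
      smul_zero]
  have hJ1 : ∀ s ∈ stabRoot A π, e₁ s = 0 := fun s hs => by
    rw [he₁ s (mem_decomposition_of_inertia hs.1), show e s = 0 from h0 s hs, h.stab s hs]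
    simp [conjAct]
  have hτpow : ∀ i : ℕ, e₁ (τ ^ i) = 0 := by
    intro i
    induction i with
    | zero => rw [pow_zero]; exact extFun_one hc₁
    | succ i ih =>
      rw [pow_succ']
      show extFun A c₁ _ = 0
      rw [extFun_cocycle hc₁ hτd (pow_mem hτd i), show extFun A c₁ τ = 0 from hτ1,
        show extFun A c₁ (τ ^ i) = 0 from ih]
      simp [conjAct]
  have hI1 : ∀ σ ∈ A.inertiaSubgroupIn ℚ, e₁ σ = 0 := fun σ hσ => by
    obtain ⟨i, -, s, hs, rfl⟩ := hgen σ hσ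
    show extFun A c₁ _ = 0
    rw [extFun_cocycle hc₁ (pow_mem hτd i) (mem_decomposition_of_inertia hs.1),
      show extFun A c₁ (τ ^ i) = 0 from hτpow i, show extFun A c₁ s = 0 from hJ1 s hs]
    simp [conjAct]
  -- the value at Frobenius is diagonal
  have hFd := (isFrobeniusAt_iff.1 h.frob).1
  set X := e₁ F
  have hX : X 0 1 = 0 ∧ X 1 0 = 0 := by
    have hc' : F⁻¹ * τ * F ∈ A.inertiaSubgroupIn ℚ := by
      simpa using conj_mem_inertia' (inv_mem hFd) hτ
    have h1 : conjAct (ρ τ) X = X := by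
      have h2 := extFun_cocycle hc₁ hτd hFd
      rw [show extFun A c₁ τ = 0 from hτ1, zero_add,
        show τ * F = F * (F⁻¹ * τ * F) by group,
        extFun_cocycle hc₁ hFd (mem_decomposition_of_inertia hc'),
        show extFun A c₁ (F⁻¹ * τ * F) = 0 from hI1 _ hc'] at h2
      simpa [conjAct] using h2.symm
    have h2 : (ρ τ : Matrix (Fin 2) (Fin 2) k) * X = X * (ρ τ : Matrix (Fin 2) (Fin 2) k) := by
      conv_rhs => rw [← h1, conjAct, mul_assoc, ← Units.val_mul, inv_mul_cancel, Units.val_one,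
        mul_one]
    obtain ⟨d1, d2⟩ := h.diag τ hτ
    have e01 := congrFun (congrFun h2 0) 1
    have e10 := congrFun (congrFun h2 1) 0
    simp only [Matrix.mul_apply, Fin.sum_univ_two, d1, d2, mul_zero, zero_mul, add_zero, zero_add,
      h.pow τ hτ] at e01 e10
    constructor
    · refine (mul_eq_zero.1 (?_ : ((ρ τ : Matrix (Fin 2) (Fin 2) k) 0 0 ^ p -
        (ρ τ : Matrix (Fin 2) (Fin 2) k) 0 0) * X 0 1 = 0)).resolve_left (sub_ne_zero.2 hirr)
      linear_combination -e01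
    · refine (mul_eq_zero.1 (?_ : ((ρ τ : Matrix (Fin 2) (Fin 2) k) 0 0 ^ p -
        (ρ τ : Matrix (Fin 2) (Fin 2) k) 0 0) * X 1 0 = 0)).resolve_left (sub_ne_zero.2 hirr)
      linear_combination e10
  have h2k : (2 : k) ≠ 0 := fun e => hp2 <| (Nat.prime_dvd_prime_iff_eq hp.1 Nat.prime_two).1
    ((CharP.cast_eq_zero_iff k p 2).1 (by exact_mod_cast e))
  set y := X 0 0 / 2 with hy
  let a₂ : sl2 k := ⟨!![y, 0; 0, -y], mem_sl2.2 (by simp [Matrix.trace_fin_two])⟩
  set c₂ := c₁ + adDelta ρ (A.decompositionSubgroup ℚ) a₂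
  have hc₂ : c₂ ∈ adCocycles ρ (A.decompositionSubgroup ℚ) := add_mem hc₁ (adDelta_mem hρ _ a₂)
  have he₂ : ∀ σ ∈ A.decompositionSubgroup ℚ, extFun A c₂ σ = e₁ σ +
      (conjAct (ρ σ) !![y, 0; 0, -y] - !![y, 0; 0, -y]) := fun σ hσ => by
    simp only [c₂, map_add, Pi.add_apply]
    rw [extFun_delta a₂ hσ]
  have hI2 : ∀ σ ∈ A.inertiaSubgroupIn ℚ, extFun A c₂ σ = 0 := fun σ hσ => by
    obtain ⟨d1, d2⟩ := h.diag σ hσ
    have e2 := conjAct_diag_diag d1 d2 y
    rw [he₂ σ (mem_decomposition_of_inertia hσ), hI1 σ hσ, e2, sub_self, add_zero]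
  have hF2 : extFun A c₂ F = 0 := by
    obtain ⟨a1, a4⟩ := h.anti
    have e2 := conjAct_antidiag_diag a1 a4 y
    rw [he₂ F hFd, e2]
    have h11 : X 1 1 = -X 0 0 := by
      refine TW.apply_one_one_of_trace ?_
      show Matrix.trace (extFun A c₁ F) = 0
      rw [extFun_apply A c₁ hFd]
      exact hc₁.1 _
    ext i j
    fin_cases i <;> fin_cases j <;> simp [show e₁ F = X from rfl, hX.1, hX.2, h11, hy] <;>
      field_simp <;> ring
  -- density
  have hzero : ∀ σ : A.decompositionSubgroup ℚ, c₂ σ = 0 := by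
    obtain ⟨-, -, L₀, hL₀, hcL⟩ := id hc₂
    let N := IntermediateField.normalClosure ℚ L₀ Qb
    have : FiniteDimensional ℚ N := normalClosure.is_finiteDimensional ℚ _ Qb
    have : Normal ℚ Qb := RT.isGalois_algClosureRat.to_normal
    have : Normal ℚ N := normalClosure.normal ℚ _ Qb
    intro σ
    obtain ⟨m, i, hi, hx⟩ := exists_frobenius_pow_mul hp.1 hA N h.frob σ.2
    have hmi := mul_mem (pow_mem hFd m) (mem_decomposition_of_inertia hi)
    have hu : (F ^ m * i)⁻¹ * (σ : GQ) ∈ L₀.fixingSubgroup := fun x => by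
      show ((F ^ m * i : GQ))⁻¹ ((σ : GQ) (x : Qb)) = x
      rw [hx x (IntermediateField.le_normalClosure L₀ x.2)]
      exact (F ^ m * i : GQ).symm_apply_apply _
    have h1 := hcL ⟨_, hmi⟩ ⟨_, mul_mem (inv_mem hmi) σ.2⟩ hu
    rw [show (⟨_, hmi⟩ : A.decompositionSubgroup ℚ) * ⟨_, mul_mem (inv_mem hmi) σ.2⟩ = σ from
      Subtype.ext (mul_inv_cancel_left _ _)] at h1
    rw [h1, ← extFun_apply A c₂ hmi, extFun_cocycle hc₂ (pow_mem hFd m)
      (mem_decomposition_of_inertia hi), hI2 i hi]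
    have hFm : ∀ m : ℕ, extFun A c₂ (F ^ m) = 0 := by
      intro m
      induction m with
      | zero => rw [pow_zero]; exact extFun_one hc₂
      | succ m ih =>
        rw [pow_succ', extFun_cocycle hc₂ hFd (pow_mem hFd m), hF2, ih]
        simp [conjAct]
    rw [hFm m]
    simp [conjAct]
  refine ⟨-a - a₂, ?_⟩
  have e : c₂ = 0 := funext hzero
  simp only [c₂, c₁] at e
  rw [map_sub, map_neg]
  linear_combination (norm := abel) -e

end

end FermatAgent.TW.Flat
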