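import Fermat.Agent.TW.Flat.IrredFlat
import Fermat.Agent.TW.Flat.IrredKernel
import Fermat.Agent.TW.Flat.FixedCard

/-!
# The classes of level at least `p + 2` at a pair of characters of level two

Only the level `p ^ 2 + 1` of the upper corner is possible; its coefficient determines the class.
-/

set_option autoImplicit false

open Matrix groupCohomology

namespace FermatAgent.TW.Flat

open FermatAgent.Local

noncomputable section

local notation "Qb" => AlgebraicClosure ℚ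
local notation "GQ" => AlgebraicClosure ℚ ≃ₐ[ℚ] AlgebraicClosure ℚ

variable {k : Type} [Field k] {p : ℕ} [hp : Fact p.Prime] [Algebra (ZMod p) k]
  {ρ : GQ →* GL (Fin 2) k} {A : ValuationSubring Qb} {π ζ : Qb} {F : GQ}

theorem lvlCoef_congr (hπ : π ^ lvl p = -(p : Qb)) (hA : A.LiesOverPrime p)
    (hζ : IsPrimitiveRoot ζ p) {f f' : GQ → ZMod p} {s : ℕ} (hs : ¬ p ∣ s) (hsb : s < p ^ 2 + p)
    (h : HasLevel p A π ζ f s) (heq : ∀ σ ∈ stabRoot A π, f σ = f' σ) :
    lvlCoef p A π ζ f s = lvlCoef p A π ζ f' s := by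
  obtain ⟨r, hr, hv⟩ := h
  rw [lvlCoef_eq hπ hA hζ hr hs hsb hv, lvlCoef_eq hπ hA hζ (hr.congr heq) hs hsb hv]

/-- A functional of an entry of the first row. -/
def rowFun (c : A.decompositionSubgroup ℚ → Matrix (Fin 2) (Fin 2) k) (j : Fin 2)
    (l : k →ₗ[ZMod p] ZMod p) : GQ → ZMod p := fun σ => l (extFun A c σ 0 j)

/-- The classes of level at least `p + 2`. -/
def irrU (ρ : GQ →* GL (Fin 2) k) (hπ : π ^ lvl p = -(p : Qb)) (hA : A.LiesOverPrime p)
    (hζ : IsPrimitiveRoot ζ p) :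
    Submodule k (A.decompositionSubgroup ℚ → Matrix (Fin 2) (Fin 2) k) where
  carrier := {c | c ∈ adCocycles ρ (A.decompositionSubgroup ℚ) ∧
    ∀ (j : Fin 2) (l : k →ₗ[ZMod p] ZMod p), HasLevel p A π ζ (rowFun c j l) (p + 2)}
  add_mem' := fun {a b} ha hb => ⟨add_mem ha.1 hb.1, fun j l =>
    ((ha.2 j l).add hπ hA hζ (hb.2 j l)).congr fun σ _ => by simp [rowFun]⟩
  zero_mem' := ⟨zero_mem _, fun j l => (hasLevel_zero _).congr fun σ _ => by simp [rowFun]⟩
  smul_mem' := fun r c hc => ⟨Submodule.smul_mem _ r hc.1, fun j l =>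
    (hc.2 j (l.comp (LinearMap.mulLeft (ZMod p) r))).congr fun σ _ => by simp [rowFun]⟩

/-- Conjugation of the values on the stabiliser. -/
theorem extFun_conj (h : Lvl2Shape p ρ A π F)
    {c : A.decompositionSubgroup ℚ → Matrix (Fin 2) (Fin 2) k}
    (hc : c ∈ adCocycles ρ (A.decompositionSubgroup ℚ)) {g σ : GQ}
    (hg : g ∈ A.decompositionSubgroup ℚ) (hσ : σ ∈ stabRoot A π) :
    extFun A c (g⁻¹ * σ * g) = conjAct (ρ g⁻¹) (extFun A c σ) := by
  have hσd := mem_decomposition_of_inertia hσ.1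
  have h1 := extFun_cocycle hc (inv_mem hg) hg
  rw [inv_mul_cancel, extFun_one hc] at h1
  rw [mul_assoc, extFun_cocycle hc (inv_mem hg) (mul_mem hσd hg), extFun_cocycle hc hσd hg,
    conjAct_add, h.stab σ hσ]
  have e : conjAct (1 : GL (Fin 2) k) (extFun A c g) = extFun A c g := by simp [conjAct]
  rw [e, add_left_comm, ← h1, add_zero]

theorem conj_stabRoot_of_fix {g σ : GQ} (hg : g ∈ A.decompositionSubgroup ℚ) (hgπ : g π = π)
    (hσ : σ ∈ stabRoot A π) : g⁻¹ * σ * g ∈ stabRoot A π := by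
  refine mem_stabRoot.2 ⟨by simpa using conj_mem_inertia' (inv_mem hg) hσ.1, ?_⟩
  rw [AlgEquiv.mul_apply, AlgEquiv.mul_apply, hgπ, (mem_stabRoot.1 hσ).2]
  calc g⁻¹ π = g⁻¹ (g π) := by rw [hgπ]
    _ = π := g.symm_apply_apply π

/-- Coordinates in the field of `p ^ 2` elements. -/
theorem exists_coords_sqField [Finite k] {a : k} (ha : a ∈ sqField p k) (hirr : a ^ p ≠ a)
    {x : k} (hx : x ∈ sqField p k) :
    ∃ s t : ZMod p, x = algebraMap (ZMod p) k s + algebraMap (ZMod p) k t * a := by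
  classical
  let f : ZMod p × ZMod p → sqField p k := fun z =>
    ⟨algebraMap (ZMod p) k z.1 + algebraMap (ZMod p) k z.2 * a,
      add_mem (IntermediateField.algebraMap_mem _ _) (mul_mem (IntermediateField.algebraMap_mem _ _) ha)⟩
  have hf : Function.Injective f := by
    intro z z' e
    have e' : algebraMap (ZMod p) k z.1 + algebraMap (ZMod p) k z.2 * a =
        algebraMap (ZMod p) k z'.1 + algebraMap (ZMod p) k z'.2 * a := congrArg Subtype.val e
    have h2 : z.2 = z'.2 := by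
      by_contra h2
      have hne : algebraMap (ZMod p) k (z.2 - z'.2) ≠ 0 := fun e =>
        h2 (sub_eq_zero.1 ((map_eq_zero _).1 e))
      have e₁ : a = algebraMap (ZMod p) k ((z'.1 - z.1) / (z.2 - z'.2)) := by
        rw [map_div₀, eq_div_iff hne, map_sub, map_sub]
        linear_combination e'
      exact hirr (by rw [e₁, ← map_pow, ZMod.pow_card])
    rw [h2, add_left_inj] at e'
    exact Prod.ext ((algebraMap (ZMod p) k).injective e') h2
  have hcard : Nat.card (ZMod p × ZMod p) = Nat.card (sqField p k) := by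
    rw [Nat.card_prod, Nat.card_zmod, card_sqField ha hirr, sq]
  obtain ⟨z, hz⟩ := ((Nat.bijective_iff_injective_and_card f).2 ⟨hf, hcard⟩).2 ⟨x, hx⟩
  exact ⟨z.1, z.2, (congrArg Subtype.val hz).symm⟩

/-- The coefficient at a level, as an additive function of the functional. -/
def coefHom (hπ : π ^ lvl p = -(p : Qb)) (hA : A.LiesOverPrime p) (hζ : IsPrimitiveRoot ζ p)
    {c : A.decompositionSubgroup ℚ → Matrix (Fin 2) (Fin 2) k} {j : Fin 2} {s : ℕ} (hs : ¬ p ∣ s)
    (hsb : s < p ^ 2 + p) (hl : ∀ l, HasLevel p A π ζ (rowFun (p := p) c j l) s) :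
    (k →ₗ[ZMod p] ZMod p) →+ IsLocalRing.ResidueField A :=
  AddMonoidHom.mk' (fun l => lvlCoef p A π ζ (rowFun c j l) s) fun l l' => by
    rw [← lvlCoef_add hπ hA hζ hs hsb (hl l) (hl l')]
    rfl

section

variable (hπ : π ^ lvl p = -(p : Qb)) (hA : A.LiesOverPrime p) (hζ : IsPrimitiveRoot ζ p)
  {c : A.decompositionSubgroup ℚ → Matrix (Fin 2) (Fin 2) k} {j : Fin 2} {s : ℕ} (hs : ¬ p ∣ s)
  (hsb : s < p ^ 2 + p) (hl : ∀ l, HasLevel p A π ζ (rowFun (p := p) c j l) s)
include hπ hA hζ hs hsb hl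

omit hπ hA hζ hs hsb hl in
theorem map_algebraMap_residue (ι : sqField p k →+* IsLocalRing.ResidueField A) (t : ZMod p) :
    ι (algebraMap (ZMod p) (sqField p k) t) = (t.val : IsLocalRing.ResidueField A) := by
  conv_lhs => rw [← ZMod.natCast_zmod_val t, map_natCast, map_natCast]

theorem coefHom_scalar (t : ZMod p) (l : k →ₗ[ZMod p] ZMod p) :
    coefHom hπ hA hζ hs hsb hl (l.comp (LinearMap.mulLeft (ZMod p) (algebraMap (ZMod p) k t))) =
      (t.val : IsLocalRing.ResidueField A) * coefHom hπ hA hζ hs hsb hl l := by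
  rw [← nsmul_eq_mul, ← map_nsmul]
  congr 1
  refine LinearMap.ext fun x => ?_
  rw [LinearMap.comp_apply, LinearMap.mulLeft_apply, ← Algebra.smul_def, map_smul,
    LinearMap.smul_apply, nsmul_eq_mul, ZMod.natCast_zmod_val, smul_eq_mul]

variable (h : Lvl2Shape p ρ A π F) (hdet : DetCyclo p ρ)
  (hc : c ∈ adCocycles ρ (A.decompositionSubgroup ℚ))
include h hdet hc

/-- The tame generator acts on the coefficients. -/
theorem coefHom_tame {τ : GQ} (hτ : τ ∈ A.inertiaSubgroupIn ℚ) (l : k →ₗ[ZMod p] ZMod p) :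
    coefHom hπ hA hζ hs hsb hl (l.comp (LinearMap.mulLeft (ZMod p)
      ((ρ τ : Matrix (Fin 2) (Fin 2) k) 0 0 ^ (p + p ^ (j : ℕ))))) =
      theta A π τ ^ s * coefHom hπ hA hζ hs hsb hl l := by
  have hτd := mem_decomposition_of_inertia hτ
  obtain ⟨hlev, z, hz, e1, e2⟩ := lvlCoef_conj hπ hA hζ hs hsb (hl l) hτd
    fun σ hσ => conj_mem_stabRoot hπ hA not_dvd_lvl hτ hσ
  show lvlCoef p A π ζ _ s = _ * lvlCoef p A π ζ _ s
  rw [e1, ← res_inertia hτ hz, mul_comm]
  refine Eq.trans ?_ e2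
  refine (lvlCoef_congr hπ hA hζ hs hsb hlev fun σ hσ => ?_).symm
  set R := (ρ τ : Matrix (Fin 2) (Fin 2) k)
  set X := extFun A c σ
  obtain ⟨d1, d2⟩ := h.diag τ hτ
  have hR : R 0 0 ≠ 0 := fun e => (ρ τ).det_ne_zero (by
    show R.det = 0
    rw [Matrix.det_fin_two, e, show R 0 1 = 0 from d1]; ring)
  have e3 : R * conjAct (ρ τ⁻¹) X = X * R := by
    rw [map_inv, conjAct, inv_inv, ← mul_assoc, ← mul_assoc, ← Units.val_mul, mul_inv_cancel,
      Units.val_one, one_mul]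
  have e4 := congrFun (congrFun e3 0) j
  have e5 : R 0 0 * conjAct (ρ τ⁻¹) X 0 j = X 0 j * R j j := by
    fin_cases j <;> simpa [Matrix.mul_apply, Fin.sum_univ_two, R, d1, d2] using e4
  show _ * l (extFun A c (τ⁻¹ * σ * τ) 0 j) = l (_ * X 0 j)
  rw [extFun_conj h hc hτd hσ, ← smul_eq_mul, ← map_smul, Algebra.smul_def, ← hdet τ,
    Matrix.det_fin_two, d1, zero_mul, sub_zero, h.pow τ hτ]
  congr 1
  rw [pow_add, ← h.entry hτ j]
  change R 0 0 * R 0 0 ^ p * conjAct (ρ τ⁻¹) X 0 j = R 0 0 ^ p * R j j * X 0 j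
  linear_combination R 0 0 ^ p * e5

variable (ι : sqField p k →+* IsLocalRing.ResidueField A)
  (hι : ∀ σ (hσ : σ ∈ A.inertiaSubgroupIn ℚ),
    ι ⟨(ρ σ : Matrix (Fin 2) (Fin 2) k) 0 0, h.sq σ hσ⟩ = theta A π σ)
include hι

/-- A non-zero coefficient has one of two weights. -/
theorem coefHom_quadratic [Finite k] {τ : GQ} (hτ : τ ∈ A.inertiaSubgroupIn ℚ) (l : k →ₗ[ZMod p] ZMod p) :
    (theta A π τ ^ s - theta A π τ ^ (p + p ^ (j : ℕ))) *
      (theta A π τ ^ s - theta A π τ ^ ((p + p ^ (j : ℕ)) * p)) *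
        coefHom hπ hA hζ hs hsb hl l = 0 := by
  have hchar : CharP k p := charP_of_injective_algebraMap (algebraMap (ZMod p) k).injective p
  set a : sqField p k := ⟨(ρ τ : Matrix (Fin 2) (Fin 2) k) 0 0, h.sq τ hτ⟩
  set q := a ^ (p + p ^ (j : ℕ)) with hq
  have hq2 : (q : k) ^ p ^ 2 = q := mem_sqField.1 q.2
  obtain ⟨t, ht⟩ := exists_zmod_of_pow_eq (p := p) (x := (q : k) + (q : k) ^ p) (by
    rw [add_pow_char, ← pow_mul, ← sq, hq2, add_comm])
  obtain ⟨n, hn⟩ := exists_zmod_of_pow_eq (p := p) (x := (q : k) * (q : k) ^ p) (by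
    rw [mul_pow, ← pow_mul, ← sq, hq2, mul_comm])
  have hιq : ι q = theta A π τ ^ (p + p ^ (j : ℕ)) := by rw [hq, map_pow, hι τ hτ]
  have ht' : (t.val : IsLocalRing.ResidueField A) = ι q + ι q ^ p := by
    rw [← map_algebraMap_residue ι, ← map_pow, ← map_add]
    exact congrArg ι (Subtype.ext ht)
  have hn' : (n.val : IsLocalRing.ResidueField A) = ι q * ι q ^ p := by
    rw [← map_algebraMap_residue ι, ← map_pow, ← map_mul]
    exact congrArg ι (Subtype.ext hn)
  set m := LinearMap.mulLeft (ZMod p) (q : k)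
  have hm : ∀ l, coefHom hπ hA hζ hs hsb hl (l.comp m) =
      theta A π τ ^ s * coefHom hπ hA hζ hs hsb hl l := fun l => by
    rw [← coefHom_tame hπ hA hζ hs hsb hl h hdet hc hτ l]
    rfl
  have e : (l.comp m).comp m + l.comp (LinearMap.mulLeft (ZMod p) (algebraMap (ZMod p) k n)) =
      (l.comp m).comp (LinearMap.mulLeft (ZMod p) (algebraMap (ZMod p) k t)) :=
    LinearMap.ext fun x => by
      simp only [LinearMap.add_apply, LinearMap.comp_apply, m, LinearMap.mulLeft_apply, ← map_add,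
        ht, hn]
      congr 1
      ring
  have h1 := congrArg (coefHom hπ hA hζ hs hsb hl) e
  rw [map_add, hm, hm, coefHom_scalar, coefHom_scalar, hm, ht', hn', hιq] at h1
  rw [pow_mul]
  linear_combination h1

end

variable [Finite k] (hπ : π ^ lvl p = -(p : Qb)) (hA : A.LiesOverPrime p)
  (hζ : IsPrimitiveRoot ζ p) (hp2 : p ≠ 2) (hdet : DetCyclo p ρ) (h : Lvl2Shape p ρ A π F)
  (ι : sqField p k →+* IsLocalRing.ResidueField A)
  (hι : ∀ σ (hσ : σ ∈ A.inertiaSubgroupIn ℚ),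
    ι ⟨(ρ σ : Matrix (Fin 2) (Fin 2) k) 0 0, h.sq σ hσ⟩ = theta A π σ)
include hπ hA hζ hp2 hdet h hι

omit [Finite k] hζ hp2 hdet h hι in
theorem isPrimitiveRoot_theta {τ : GQ} (hτ : τ ∈ A.inertiaSubgroupIn ℚ) {ξ : Qb}
    (hξ : IsPrimitiveRoot ξ (lvl p)) (hpow : ∀ i : ℕ, (τ ^ i) π = ξ ^ i * π) :
    IsPrimitiveRoot (theta A π τ) (lvl p) := by
  have hpe := not_dvd_lvl (p := p)
  have hord : ∀ n : ℕ, theta A π (τ ^ n) = theta A π τ ^ n := fun n => by
    induction n with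
    | zero => rw [pow_zero, pow_zero, theta_eq_one_iff hπ hA hpe (one_mem _)]; rfl
    | succ n ih => rw [pow_succ, pow_succ, theta_mul hπ hA hpe (pow_mem hτ n) hτ, ih]
  refine IsPrimitiveRoot.mk_of_lt _ (Nat.pos_of_ne_zero (NeZero.ne _)) (theta_pow_e hπ hτ)
    fun l hl0 hl he => ?_
  rw [← hord, theta_eq_one_iff hπ hA hpe (pow_mem hτ _), hpow, mul_eq_right₀ (root_ne_zero hπ)] at he
  exact hξ.pow_ne_one_of_pos_of_lt hl0.ne' hl he

/-- All levels, except `p ^ 2 + 1` in the upper corner, are skipped. -/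
theorem hasLevel_succ {c : A.decompositionSubgroup ℚ → Matrix (Fin 2) (Fin 2) k}
    (hc : c ∈ adCocycles ρ (A.decompositionSubgroup ℚ)) {j : Fin 2} {s : ℕ} (hs1 : p + 2 ≤ s)
    (hsb : s < p ^ 2 + p) (hl : ∀ l, HasLevel p A π ζ (rowFun (p := p) c j l) s)
    (hex : ∀ hs : ¬ p ∣ s, j = 1 → s = p ^ 2 + 1 →
      ∀ l, coefHom hπ hA hζ hs hsb hl l = 0) :
    ∀ l, HasLevel p A π ζ (rowFun (p := p) c j l) (s + 1) := by
  intro l
  by_cases hs : p ∣ s
  · exact hasLevel_succ_of_dvd hπ hA hζ (by omega) hs hsb (hl l)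
  refine hasLevel_succ_of_coef hπ hA hζ hs hsb (hl l) ?_
  obtain ⟨τ, hτ, ξ, hξ, hpow, -⟩ := exists_tameGen hπ hA (not_dvd_lvl (p := p))
  have hη := isPrimitiveRoot_theta hπ hA hτ hξ hpow
  set η := theta A π τ
  by_contra hne
  have h1 := coefHom_quadratic hπ hA hζ hs hsb hl h hdet hc ι hι hτ l
  have hne' : coefHom hπ hA hζ hs hsb hl l ≠ 0 := hne
  have hmod : ∀ m, η ^ s = η ^ m → s % lvl p = m % lvl p := fun m e => by
    refine hη.pow_inj (Nat.mod_lt _ (Nat.pos_of_ne_zero (NeZero.ne _)))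
      (Nat.mod_lt _ (Nat.pos_of_ne_zero (NeZero.ne _))) ?_
    rwa [← pow_eq_pow_mod _ hη.pow_eq_one, ← pow_eq_pow_mod _ hη.pow_eq_one]
  have hp3 : 3 ≤ p := by have := hp.1.two_le; omega
  have hl1 := lvl_add_one (p := p)
  have hp9 : 3 * p ≤ p ^ 2 := by rw [sq]; exact Nat.mul_le_mul_right p hp3
  have hsdiv : lvl p ≤ s → s % lvl p = s - lvl p := fun hle => by
    rw [Nat.mod_eq_sub_mod hle, Nat.mod_eq_of_lt (by omega)]
  rcases (mul_eq_zero.1 h1).resolve_right hne' |> mul_eq_zero.1 with h2 | h2 <;>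
    have h3 := hmod _ (sub_eq_zero.1 h2) <;>
    rcases (show j = 0 ∨ j = 1 by omega) with rfl | rfl
  · rw [show p + p ^ ((0 : Fin 2) : ℕ) = p + 1 by simp, Nat.mod_eq_of_lt (show p + 1 < lvl p by omega)]
      at h3
    rcases Nat.lt_or_ge s (lvl p) with hlt | hge
    · rw [Nat.mod_eq_of_lt hlt] at h3; omega
    · rw [hsdiv hge] at h3; omega
  · rw [show p + p ^ ((1 : Fin 2) : ℕ) = 2 * p by simp; ring,
      Nat.mod_eq_of_lt (show 2 * p < lvl p by omega)] at h3
    rcases Nat.lt_or_ge s (lvl p) with hlt | hge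
    · rw [Nat.mod_eq_of_lt hlt] at h3; exact hs ⟨2, by omega⟩
    · rw [hsdiv hge] at h3; omega
  · rw [show (p + p ^ ((0 : Fin 2) : ℕ)) * p = p + 1 + lvl p by simp [add_mul, ← sq]; omega,
      Nat.add_mod_right, Nat.mod_eq_of_lt (show p + 1 < lvl p by omega)] at h3
    rcases Nat.lt_or_ge s (lvl p) with hlt | hge
    · rw [Nat.mod_eq_of_lt hlt] at h3; omega
    · rw [hsdiv hge] at h3; omega
  · rw [show (p + p ^ ((1 : Fin 2) : ℕ)) * p = 2 + lvl p + lvl p by simp [add_mul, ← sq]; omega,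
      Nat.add_mod_right, Nat.add_mod_right, Nat.mod_eq_of_lt (show 2 < lvl p by omega)] at h3
    rcases Nat.lt_or_ge s (lvl p) with hlt | hge
    · rw [Nat.mod_eq_of_lt hlt] at h3; omega
    · rw [hsdiv hge] at h3
      exact hne' (hex hs rfl (by omega) l)

/-- The first row reaches the level `p ^ 2 + 1`. -/
theorem hasLevel_top {c : A.decompositionSubgroup ℚ → Matrix (Fin 2) (Fin 2) k}
    (hc : c ∈ irrU ρ hπ hA hζ) (j : Fin 2) :
    ∀ s, p + 2 ≤ s → (s ≤ p ^ 2 + 1 ∨ j = 0 ∧ s ≤ p ^ 2 + p) →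
      ∀ l, HasLevel p A π ζ (rowFun (p := p) c j l) s := by
  intro s hs
  induction s, hs using Nat.le_induction with
  | base => exact fun _ => hc.2 j
  | succ s hs ih =>
    intro hb
    have := hp.1.two_le
    refine hasLevel_succ hπ hA hζ hp2 hdet h ι hι hc.1 hs (by rcases hb with h | h <;> omega)
      (ih (by rcases hb with h | h <;> omega)) fun _ hj hse => ?_
    rcases hb with hb | hb
    · omega
    · exact absurd (hj.symm.trans hb.1) (by decide)

/-- Without a coefficient at `p ^ 2 + 1` the class is trivial. -/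
theorem mem_coboundaries_of_coef (hρ : ∃ L : IntermediateField ℚ Qb, FiniteDimensional ℚ L ∧
      ∀ σ ∈ L.fixingSubgroup, ρ σ = 1)
    {c : A.decompositionSubgroup ℚ → Matrix (Fin 2) (Fin 2) k} (hc : c ∈ irrU ρ hπ hA hζ)
    (h0 : ∀ l, lvlCoef p A π ζ (rowFun (p := p) c 1 l) (p ^ 2 + 1) = 0) :
    c ∈ adCoboundaries ρ (A.decompositionSubgroup ℚ) := by
  have := hp.1.two_le
  have hp4 : 2 * p ≤ p ^ 2 := by rw [sq]; exact Nat.mul_le_mul_right p hp.1.two_le
  have h1 : ∀ s, p ^ 2 + 1 ≤ s → s ≤ p ^ 2 + p → ∀ l, HasLevel p A π ζ (rowFun (p := p) c 1 l) s := by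
    intro s hs
    induction s, hs using Nat.le_induction with
    | base => exact fun _ => hasLevel_top hπ hA hζ hp2 hdet h ι hι hc 1 _ (by omega) (Or.inl le_rfl)
    | succ s hs ih =>
      intro hsb
      refine hasLevel_succ hπ hA hζ hp2 hdet h ι hι hc.1 (by omega) (by omega) (ih (by omega))
        fun hnd _ hse l => ?_
      subst hse
      exact h0 l
  have hzero : ∀ σ ∈ stabRoot A π, extFun A c σ 0 0 = 0 ∧ extFun A c σ 0 1 = 0 := by
    intro σ hσ
    refine ⟨(Module.forall_dual_apply_eq_zero_iff (ZMod p) _).1 fun l => ?_,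
      (Module.forall_dual_apply_eq_zero_iff (ZMod p) _).1 fun l => ?_⟩
    · exact eq_zero_of_hasLevel hπ hA hζ
        (hasLevel_top hπ hA hζ hp2 hdet h ι hι hc 0 _ (by omega) (Or.inr ⟨rfl, le_rfl⟩) l) hσ
    · exact eq_zero_of_hasLevel hπ hA hζ (h1 _ (by omega) le_rfl l) hσ
  refine mem_coboundaries_of_stab hπ hA hp2 h hρ hc.1 fun σ hσ => ?_
  have hFd := (isFrobeniusAt_iff.1 h.frob).1
  set X := extFun A c σ
  set Y := extFun A c (F⁻¹ * σ * F)
  have hY : Y 0 1 = 0 := (hzero _ (conj_stabRoot_of_fix hFd h.frob_fix hσ)).2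
  set B := (ρ F : Matrix (Fin 2) (Fin 2) k)
  have e3 : B * Y = X * B := by
    rw [show Y = conjAct (ρ F⁻¹) X from extFun_conj h hc.1 hFd hσ, map_inv, conjAct, inv_inv,
      ← mul_assoc, ← mul_assoc, ← Units.val_mul, mul_inv_cancel, Units.val_one, one_mul]
  have e4 := congrFun (congrFun e3 1) 1
  obtain ⟨a1, a4⟩ := h.anti
  simp only [Matrix.mul_apply, Fin.sum_univ_two, B, a4, hY, mul_zero, zero_mul, add_zero] at e4
  have hu : (ρ F : Matrix (Fin 2) (Fin 2) k) 0 1 ≠ 0 := fun e => (ρ F).det_ne_zero (by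
    rw [Matrix.det_fin_two, e, a1]; ring)
  have hX10 : X 1 0 = 0 := (mul_eq_zero.1 e4.symm).resolve_right hu
  have hX11 : X 1 1 = -X 0 0 := TW.apply_one_one_of_trace (by
    show Matrix.trace (extFun A c σ) = 0
    rw [extFun_apply A c (mem_decomposition_of_inertia hσ.1)]
    exact hc.1.1 _)
  ext i j
  fin_cases i <;> fin_cases j
  · exact (hzero σ hσ).1
  · exact (hzero σ hσ).2
  · exact hX10
  · show X 1 1 = 0
    rw [hX11, show X 0 0 = 0 from (hzero σ hσ).1, neg_zero]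

/-- The coefficient at `p ^ 2 + 1`: semilinearity and the action of `F ^ 2`. -/
theorem top_coef_properties {c : A.decompositionSubgroup ℚ → Matrix (Fin 2) (Fin 2) k}
    (hc : c ∈ irrU ρ hπ hA hζ) (hs : ¬ p ∣ p ^ 2 + 1) (hsb : p ^ 2 + 1 < p ^ 2 + p)
    (hl : ∀ l, HasLevel p A π ζ (rowFun (p := p) c 1 l) (p ^ 2 + 1)) :
    (∀ (q : sqField p k) l, coefHom hπ hA hζ hs hsb hl (l.comp (LinearMap.mulLeft (ZMod p) (q : k))) =
      ι q ^ p * coefHom hπ hA hζ hs hsb hl l) ∧
    ∀ l, coefHom hπ hA hζ hs hsb hl l ^ p ^ 2 =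
      ((ExtCitation.cycloChar p (F * F) : ZMod p).val : IsLocalRing.ResidueField A) *
        coefHom hπ hA hζ hs hsb hl l := by
  have := Duality.Local.charP_residue hp.1 hA
  have hp3 : 3 ≤ p := by have := hp.1.two_le; omega
  have hl1 := lvl_add_one (p := p)
  obtain ⟨τ, hτ, ξ, hξ, hpow, hgen⟩ := exists_tameGen hπ hA (not_dvd_lvl (p := p))
  have hη := isPrimitiveRoot_theta hπ hA hτ hξ hpow
  set η := theta A π τ
  set a : sqField p k := ⟨(ρ τ : Matrix (Fin 2) (Fin 2) k) 0 0, h.sq τ hτ⟩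
  set q₁ := a ^ (p + p ^ ((1 : Fin 2) : ℕ)) with hq₁
  have hιq : ι q₁ = η ^ (2 * p) := by rw [hq₁, map_pow, hι τ hτ]; simp [two_mul, η]
  have hηp : η ^ p ^ 2 = η := by rw [← hl1, pow_succ, hη.pow_eq_one, one_mul]
  have hιqp : ι q₁ ^ p = η ^ 2 := by
    rw [hιq, ← pow_mul, mul_assoc, ← sq, mul_comm, pow_mul, hηp]
  have hirr : (q₁ : k) ^ p ≠ q₁ := fun e => by
    have e1 : q₁ ^ p = q₁ := Subtype.ext e
    have e2 := congrArg ι e1
    rw [map_pow, hιqp, hιq] at e2
    have hp9 : 3 * p ≤ p ^ 2 := by rw [sq]; exact Nat.mul_le_mul_right p hp3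
    have := hη.pow_inj (by omega) (by omega) e2
    omega
  have hm : ∀ l, coefHom hπ hA hζ hs hsb hl (l.comp (LinearMap.mulLeft (ZMod p) (q₁ : k))) =
      ι q₁ ^ p * coefHom hπ hA hζ hs hsb hl l := fun l => by
    rw [hιqp, show η ^ 2 = η ^ (p ^ 2 + 1) by rw [pow_succ η (p ^ 2), hηp, sq],
      ← coefHom_tame hπ hA hζ hs hsb hl h hdet hc.1 hτ l]
    rfl
  refine ⟨fun q l => ?_, fun l => ?_⟩
  · obtain ⟨u, v, huv⟩ := exists_coords_sqField q₁.2 hirr q.2
    have hq : q = algebraMap (ZMod p) (sqField p k) u + algebraMap (ZMod p) (sqField p k) v * q₁ :=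
      Subtype.ext huv
    have e : l.comp (LinearMap.mulLeft (ZMod p) (q : k)) =
        l.comp (LinearMap.mulLeft (ZMod p) (algebraMap (ZMod p) k u)) +
          (l.comp (LinearMap.mulLeft (ZMod p) (algebraMap (ZMod p) k v))).comp
            (LinearMap.mulLeft (ZMod p) (q₁ : k)) := LinearMap.ext fun x => by
      simp only [LinearMap.add_apply, LinearMap.comp_apply, LinearMap.mulLeft_apply, ← map_add, huv]
      congr 1
      ring
    rw [e, map_add, hm, coefHom_scalar, coefHom_scalar, hq, map_add, map_mul,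
      map_algebraMap_residue ι, map_algebraMap_residue ι, add_pow_char, mul_pow]
    have hfix : ∀ t : ZMod p, ((t.val : IsLocalRing.ResidueField A)) ^ p = t.val := fun t => by
      rw [← frobenius_def, map_natCast]
    rw [hfix, hfix]
    ring
  · have hFd := (isFrobeniusAt_iff.1 h.frob).1
    have hgπ : (F * F) π = π := by rw [AlgEquiv.mul_apply, h.frob_fix, h.frob_fix]
    obtain ⟨hlev, z, hz, e1, e2⟩ := lvlCoef_conj hπ hA hζ hs hsb (hl l) (mul_mem hFd hFd)
      fun σ hσ => conj_stabRoot_of_fix (mul_mem hFd hFd) hgπ hσ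
    have hgz : res A ((F * F) z) = res A z ^ p ^ 2 := by
      rw [AlgEquiv.mul_apply, res_frobenius h.frob ((decomposition_mem_iff hFd z).2 hz),
        res_frobenius h.frob hz, ← pow_mul, ← sq]
    rw [hgπ, div_self (root_ne_zero hπ), res_one, one_pow, mul_one, hgz, ← e1] at e2
    show lvlCoef p A π ζ _ _ ^ p ^ 2 = _
    rw [← e2, ← coefHom_scalar hπ hA hζ hs hsb hl]
    refine lvlCoef_congr hπ hA hζ hs hsb hlev fun σ hσ => ?_
    show _ * l (extFun A c ((F * F)⁻¹ * σ * (F * F)) 0 1) = l (_ * extFun A c σ 0 1)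
    rw [extFun_conj h hc.1 (mul_mem hFd hFd) hσ, ← smul_eq_mul, ← map_smul, Algebra.smul_def]
    congr 2
    obtain ⟨a1, a4⟩ := h.anti
    set R := (ρ F : Matrix (Fin 2) (Fin 2) k)
    have hcomm : (ρ (F * F) : Matrix (Fin 2) (Fin 2) k) * extFun A c σ =
        extFun A c σ * (ρ (F * F) : Matrix (Fin 2) (Fin 2) k) := by
      rw [map_mul, Units.val_mul]
      have hsc : R * R = (R 0 1 * R 1 0) • (1 : Matrix (Fin 2) (Fin 2) k) := by
        ext i j
        fin_cases i <;> fin_cases j <;>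
          simp [Matrix.mul_apply, Fin.sum_univ_two, R, a1, a4, mul_comm]
      rw [hsc]
      simp
    rw [map_inv, conjAct, inv_inv, mul_assoc, ← hcomm, ← mul_assoc, ← Units.val_mul,
      inv_mul_cancel, Units.val_one, one_mul]

/-- The classes of level at least `p + 2` span at most four dimensions. -/
theorem rankLE_irrU (hρ : ∃ L : IntermediateField ℚ Qb, FiniteDimensional ℚ L ∧
      ∀ σ ∈ L.fixingSubgroup, ρ σ = 1) : RankLE (irrU ρ hπ hA hζ) 4 := by
  classical
  have : Fintype k := Fintype.ofFinite k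
  have hchar : CharP k p := charP_of_injective_algebraMap (algebraMap (ZMod p) k).injective p
  have := hp.1.two_le
  have hs : ¬ p ∣ p ^ 2 + 1 := fun e => hp.1.not_dvd_one
    ((Nat.dvd_add_right (dvd_pow_self p two_ne_zero)).1 e)
  have hsb : p ^ 2 + 1 < p ^ 2 + p := by omega
  have hp4 : 2 * p ≤ p ^ 2 := by rw [sq]; exact Nat.mul_le_mul_right p hp.1.two_le
  have hl : ∀ c ∈ irrU ρ hπ hA hζ, ∀ l,
      HasLevel p A π ζ (rowFun (p := p) c 1 l) (p ^ 2 + 1) := fun c hc =>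
    hasLevel_top hπ hA hζ hp2 hdet h ι hι hc 1 _ (by omega) (Or.inl le_rfl)
  obtain ⟨g₀, hg₀, hirr⟩ := h.irr
  have hK2 := card_sqField (h.sq g₀ hg₀) hirr
  obtain ⟨l₀, hl₀⟩ : ∃ l₀ : k →ₗ[ZMod p] ZMod p, l₀ ≠ 0 := by
    by_contra hall
    push Not at hall
    exact one_ne_zero (α := k) ((Module.forall_dual_apply_eq_zero_iff (ZMod p) _).1 fun φ => by
      rw [hall φ, LinearMap.zero_apply])
  have hsurj : ∀ l : k →ₗ[ZMod p] ZMod p, ∃ x : k, l = l₀.comp (LinearMap.mulLeft (ZMod p) x) := by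
    let Φ : k → Module.Dual (ZMod p) k := fun x => l₀.comp (LinearMap.mulLeft (ZMod p) x)
    have hinj : Function.Injective Φ := fun x y e => by
      by_contra hne
      refine hl₀ (LinearMap.ext fun z => ?_)
      have := LinearMap.congr_fun e ((x - y)⁻¹ * z)
      simp only [Φ, LinearMap.comp_apply, LinearMap.mulLeft_apply] at this
      rw [← sub_eq_zero, ← map_sub, ← sub_mul, mul_inv_cancel_left₀ (sub_ne_zero.2 hne)] at this
      simpa using this
    intro l
    obtain ⟨x, hx⟩ := ((Fintype.bijective_iff_injective_and_card Φ).2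
      ⟨hinj, card_dual (p := p)⟩).2 l
    exact ⟨x, hx.symm⟩
  let w : IsLocalRing.ResidueField A := ((ExtCitation.cycloChar p (F * F) : ZMod p).val :
    IsLocalRing.ResidueField A)
  let ι' : sqField p k → IsLocalRing.ResidueField A := fun q => ι q ^ p
  obtain ⟨hSfin, hScard⟩ := card_semilinear_le (p := p) (sqField p k) ι' w
  let Φ : irrU ρ hπ hA hζ → {β : k → IsLocalRing.ResidueField A //
      (∀ x y, β (x + y) = β x + β y) ∧ (∀ (q : sqField p k) x, β (q * x) = ι' q * β x) ∧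
        ∀ x, β x ^ Nat.card (sqField p k) = w * β x} := fun c =>
    ⟨fun x => coefHom hπ hA hζ hs hsb (hl c c.2) (l₀.comp (LinearMap.mulLeft (ZMod p) x)),
      fun x y => by
        refine Eq.trans ?_ (map_add _ _ _)
        exact congrArg _ (LinearMap.ext fun z => by simp [add_mul]),
      fun q x => by
        refine Eq.trans ?_ ((top_coef_properties hπ hA hζ hp2 hdet h ι hι c.2 hs hsb (hl c c.2)).1 q _)
        exact congrArg _ (LinearMap.ext fun z => by
          simp only [LinearMap.comp_apply, LinearMap.mulLeft_apply]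
          congr 1
          ring),
      fun x => by
        rw [hK2]
        exact (top_coef_properties hπ hA hζ hp2 hdet h ι hι c.2 hs hsb (hl c c.2)).2 _⟩
  refine rankLE_of_injOn (b := 3) (rankLE_adCoboundaries (ρ := ρ) (A := A)) (hS := hScard) Φ fun x y e => ?_
  refine mem_coboundaries_of_coef hπ hA hζ hp2 hdet h ι hι hρ (sub_mem x.2 y.2) fun l => ?_
  obtain ⟨u, rfl⟩ := hsurj l
  set m := l₀.comp (LinearMap.mulLeft (ZMod p) u)
  have he : lvlCoef p A π ζ (rowFun (p := p) x.1 1 m) (p ^ 2 + 1) =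
      lvlCoef p A π ζ (rowFun (p := p) y.1 1 m) (p ^ 2 + 1) := congrFun (congrArg Subtype.val e) u
  have hd := hl _ (sub_mem x.2 y.2) m
  have h1 := lvlCoef_add hπ hA hζ hs hsb hd (hl _ y.2 m)
  rw [show rowFun (p := p) (x.1 - y.1) 1 m + rowFun (p := p) y.1 1 m = rowFun (p := p) x.1 1 m from
    funext fun σ => by simp [rowFun, map_sub], he] at h1
  exact add_eq_right.1 h1.symm

end

end FermatAgent.TW.Flat
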