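import Fermat.Agent.TW.Flat.Adjoint
import Mathlib.LinearAlgebra.Dual.Lemmas

/-!
# Linear modules over `𝔽_p`: the canonical pairing with the dual space, quotients, connectedness
-/

set_option autoImplicit false

namespace FermatAgent.TW.Flat

open FermatAgent.Local Module
open scoped Classical

noncomputable section

local notation "Qb" => AlgebraicClosure ℚ
local notation "GQ" => AlgebraicClosure ℚ ≃ₐ[ℚ] AlgebraicClosure ℚ

variable {A : ValuationSubring Qb} {p : ℕ} [Fact p.Prime] {J : Subgroup GQ}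
  {X : Type} [AddCommGroup X] [Module (ZMod p) X] [Fintype X]

instance dualFintype : Fintype (Dual (ZMod p) X) :=
  have : Finite (Dual (ZMod p) X) := Finite.of_injective (fun f => (f : X → ZMod p)) DFunLike.coe_injective
  Fintype.ofFinite _

theorem card_dual : Fintype.card X = Fintype.card (Dual (ZMod p) X) := by
  rw [Module.card_eq_pow_finrank (K := ZMod p), Module.card_eq_pow_finrank (K := ZMod p) (V := Dual (ZMod p) X),
    Subspace.dual_finrank_eq]

/-- The action of the Galois group by linear automorphisms, as a map. -/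
abbrev actOf (ρ : GQ → X ≃ₗ[ZMod p] X) : GQ → X → X := fun σ => ρ σ

/-- The twisted contragredient. -/
def dualAct (ρ : GQ → X ≃ₗ[ZMod p] X) : GQ → Dual (ZMod p) X → Dual (ZMod p) X :=
  fun σ φ => (ExtCitation.cycloChar p σ : ZMod p) • φ.comp (ρ σ).symm.toLinearMap

omit [Fintype X] in
theorem dualAct_apply (ρ : GQ → X ≃ₗ[ZMod p] X) (σ : GQ) (φ : Dual (ZMod p) X) (x : X) :
    dualAct ρ σ φ x = (ExtCitation.cycloChar p σ : ZMod p) * φ ((ρ σ).symm x) := rfl

/-- The pairing of a module with its dual. -/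
def dualPairing (J : Subgroup GQ) (ρ : GQ → X ≃ₗ[ZMod p] X) :
    Pairing p J (actOf ρ) (dualAct ρ) where
  B := AddMonoidHom.mk' (fun x => AddMonoidHom.mk' (fun φ : Dual (ZMod p) X => φ x)
    fun _ _ => LinearMap.add_apply _ _ _) fun x x' => AddMonoidHom.ext fun φ => map_add φ x x'
  left x h := (Module.forall_dual_apply_eq_zero_iff (ZMod p) x).1 h
  right φ h := LinearMap.ext fun x => h x
  equiv σ _ x φ := by
    show dualAct ρ σ φ (ρ σ x) = _
    rw [dualAct_apply, LinearEquiv.symm_apply_apply]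
    rfl
  card_eq := card_dual

@[simp] theorem dualPairing_B (ρ : GQ → X ≃ₗ[ZMod p] X) (x : X) (φ : Dual (ZMod p) X) :
    (dualPairing J ρ).B x φ = φ x := rfl

variable {ρ : GQ → X ≃ₗ[ZMod p] X} {X' : Type} [AddCommGroup X'] [Module (ZMod p) X'] [Fintype X']
  {ρ' : GQ → X' ≃ₗ[ZMod p] X'}

theorem adjoint_of_injective (ι : X' →ₗ[ZMod p] X) (hι : Function.Injective ι) :
    Adjoint (dualPairing J ρ) (dualPairing J ρ') ι.toAddMonoidHom ι.dualMap.toAddMonoidHom :=
  ⟨fun _ _ => rfl, hι, LinearMap.dualMap_surjective_of_injective hι⟩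

theorem adjoint_of_surjective (π : X →ₗ[ZMod p] X') (hπ : Function.Surjective π) :
    Adjoint (dualPairing J ρ).flip (dualPairing J ρ').flip π.dualMap.toAddMonoidHom
      π.toAddMonoidHom :=
  ⟨fun _ _ => rfl, LinearMap.dualMap_injective_of_surjective hπ, hπ⟩

omit [Fintype X] [Fintype X'] in
theorem dualMap_equivariant (π : X →ₗ[ZMod p] X') {σ : GQ}
    (h : ∀ x, π (ρ σ x) = ρ' σ (π x)) (φ : Dual (ZMod p) X') :
    π.dualMap (dualAct ρ' σ φ) = dualAct ρ σ (π.dualMap φ) := by
  refine LinearMap.ext fun x => ?_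
  simp only [LinearMap.dualMap_apply, dualAct_apply]
  congr 2
  rw [LinearEquiv.symm_apply_eq, ← h, LinearEquiv.apply_symm_apply]

variable {ζ : Qb} (hζ : IsPrimitiveRoot ζ p) {M : Submodule (fixRing A J) (X → Qb)}
  (hM : IsLModel (actOf ρ) M)

/-- A model and its dual are connected. -/
def BiConn (ρ : GQ → X ≃ₗ[ZMod p] X) (ζ : Qb) (M : Submodule (fixRing A J) (X → Qb)) : Prop :=
  Conn M ∧ Conn (dual (dualPairing J ρ) ζ M)

include hζ

theorem biConn_restrict (h : BiConn ρ ζ M) (ι : X' →ₗ[ZMod p] X) (hι : Function.Injective ι) :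
    BiConn ρ' ζ (M.map (LinearMap.funLeft (fixRing A J) Qb ι)) :=
  ⟨conn_restrict (adjoint_of_injective (ρ := ρ) (ρ' := ρ') ι hι) h.1,
    conn_dual_restrict hζ (adjoint_of_injective ι hι) h.2⟩

include hM

theorem comap_eq_dual (π : X →ₗ[ZMod p] X') (hπ : Function.Surjective π) :
    M.comap (LinearMap.funLeft (fixRing A J) Qb π) =
      dual (dualPairing J ρ').flip ζ ((dual (dualPairing J ρ) ζ M).map
        (LinearMap.funLeft (fixRing A J) Qb π.dualMap)) := by
  have h := (dual_restrict hζ (adjoint_of_surjective (ρ := ρ) (ρ' := ρ') (J := J) π hπ)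
    (M := dual (dualPairing J ρ) ζ M)).symm
  rw [dual_dual (dualPairing J ρ) hζ hM] at h
  exact h

/-- The functions pulling back into a model are a model of the quotient. -/
theorem isLModel_quot (π : X →ₗ[ZMod p] X') (hπ : Function.Surjective π)
    (hact : ∀ σ ∈ J, ∀ x, π (ρ σ x) = ρ' σ (π x)) :
    IsLModel (actOf ρ') (M.comap (LinearMap.funLeft (fixRing A J) Qb π)) := by
  rw [comap_eq_dual (ρ' := ρ') hζ hM π hπ]
  exact isLModel_dual _ hζ ((isLModel_dual _ hζ hM).restrict π.dualMap.toAddMonoidHom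
    (LinearMap.dualMap_injective_of_surjective hπ) fun σ hσ φ => dualMap_equivariant π (hact σ hσ) φ)

/-- The dual of the quotient model is the restriction of the dual. -/
theorem dual_quot (π : X →ₗ[ZMod p] X') (hπ : Function.Surjective π)
    (hact : ∀ σ ∈ J, ∀ x, π (ρ σ x) = ρ' σ (π x)) :
    dual (dualPairing J ρ') ζ (M.comap (LinearMap.funLeft (fixRing A J) Qb π)) =
      (dual (dualPairing J ρ) ζ M).map (LinearMap.funLeft (fixRing A J) Qb π.dualMap) := by
  rw [comap_eq_dual (ρ' := ρ') hζ hM π hπ]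
  exact dual_dual (dualPairing J ρ').flip hζ ((isLModel_dual _ hζ hM).restrict π.dualMap.toAddMonoidHom
    (LinearMap.dualMap_injective_of_surjective hπ) fun σ hσ φ => dualMap_equivariant π (hact σ hσ) φ)

theorem biConn_quot (h : BiConn ρ ζ M) (π : X →ₗ[ZMod p] X') (hπ : Function.Surjective π)
    (hact : ∀ σ ∈ J, ∀ x, π (ρ σ x) = ρ' σ (π x)) :
    BiConn ρ' ζ (M.comap (LinearMap.funLeft (fixRing A J) Qb π)) := by
  refine ⟨fun y g hg => ?_, ?_⟩
  · obtain ⟨x, rfl⟩ := hπ y
    simpa [LinearMap.funLeft] using h.1 x _ hg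
  · rw [dual_quot (ρ' := ρ') hζ hM π hπ hact]
    exact fun φ => (inC_restrict π.dualMap.toAddMonoidHom).2 (h.2 _)

/-- Models with an inertia element without the two tame eigenvalues are connected. -/
theorem biConn_of_surjective (hJ : J ≤ A.inertiaSubgroupIn ℚ) {σ : GQ} (hσ : σ ∈ J)
    (h1 : Function.Surjective fun x => ρ σ x - x)
    (hχ : Function.Surjective fun x =>
      ρ σ x - (ExtCitation.cycloChar p σ : ZMod p) • x) : BiConn ρ ζ M := by
  refine ⟨fun y => ?_, fun ψ => ?_⟩
  · obtain ⟨x, rfl⟩ := h1 y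
    exact hM.act_sub_mem_connSub hJ hσ x
  · have hD := isLModel_dual (dualPairing J ρ) hζ hM
    have hinj : Function.Injective fun φ => dualAct ρ σ φ - φ := by
      intro φ φ' e
      refine LinearMap.ext fun y => ?_
      obtain ⟨x, rfl⟩ := hχ y
      have := LinearMap.congr_fun e (ρ σ x)
      simp only [LinearMap.sub_apply, dualAct_apply, LinearEquiv.symm_apply_apply] at this
      simp only [map_sub, map_smul, smul_eq_mul]
      linear_combination -this
    obtain ⟨φ, rfl⟩ := (Finite.injective_iff_surjective.1 hinj) ψ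
    exact hD.act_sub_mem_connSub hJ hσ φ

/-- Connectedness is preserved by base change. -/
theorem biConn_baseChange (h : BiConn ρ ζ M) {J' : Subgroup GQ} (hJ : J' ≤ J) :
    BiConn ρ ζ (baseChange M J') := by
  refine ⟨fun x => inC_baseChange (h.1 x), ?_⟩
  show Conn (dual ((dualPairing J ρ).mono hJ) ζ (baseChange M J'))
  rw [dual_baseChange (dualPairing J ρ) hζ hM hJ]
  exact fun x => inC_baseChange (h.2 x)

end

end FermatAgent.TW.Flat
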