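import Fermat.Agent.TW.Flat.Orbit
import Fermat.Agent.TW.Flat.Quot

/-!
# Characters of level two on inertia and the modules they define

`π ^ lvl p = -p`; a `Lvl2Char` has values in a field of `p ^ 2` elements, is trivial on the
stabiliser of `π`, does not take its values in `𝔽_p` and has norm the cyclotomic character.
-/

set_option autoImplicit false

namespace FermatAgent.TW.Flat

open FermatAgent.Local Module
open scoped Classical

noncomputable section

local notation "Qb" => AlgebraicClosure ℚ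
local notation "GQ" => AlgebraicClosure ℚ ≃ₐ[ℚ] AlgebraicClosure ℚ

/-- `p ^ 2 - 1`. -/
def lvl (p : ℕ) : ℕ := p ^ 2 - 1

variable {p : ℕ} [hp : Fact p.Prime]

theorem lvl_add_one : lvl p + 1 = p ^ 2 :=
  Nat.sub_add_cancel (Nat.one_le_pow _ _ hp.1.pos)

omit hp in
theorem lvl_eq_mul : lvl p = (p + 1) * (p - 1) := by
  rw [lvl, ← Nat.sq_sub_sq, one_pow]

theorem not_dvd_lvl : ¬ p ∣ lvl p := fun h => hp.1.not_dvd_one (by
  have := Nat.dvd_sub (dvd_pow_self p two_ne_zero) h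
  rwa [← lvl_add_one, Nat.add_sub_cancel_left] at this)

instance : NeZero (lvl p) := ⟨fun h => by
  have := lvl_add_one (p := p)
  have := Nat.pow_le_pow_left hp.1.two_le 2
  omega⟩

variable {A : ValuationSubring Qb} {π : Qb} {K : Type} [Field K] [Fintype K] [Algebra (ZMod p) K]

/-- A character of level two on inertia. -/
structure Lvl2Char (p : ℕ) [Fact p.Prime] [Algebra (ZMod p) K] (A : ValuationSubring Qb) (π : Qb)
    (ψ : GQ → K) : Prop where
  card : Fintype.card K = p ^ 2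
  mul : ∀ σ ∈ A.inertiaSubgroupIn ℚ, ∀ τ ∈ A.inertiaSubgroupIn ℚ, ψ (σ * τ) = ψ σ * ψ τ
  ne_zero : ∀ σ, ψ σ ≠ 0
  stab : ∀ s ∈ stabRoot A π, ψ s = 1
  norm : ∀ σ ∈ A.inertiaSubgroupIn ℚ,
    ψ σ ^ (p + 1) = algebraMap (ZMod p) K (ExtCitation.cycloChar p σ : ZMod p)
  irr : ∃ σ ∈ A.inertiaSubgroupIn ℚ, ψ σ ^ p ≠ ψ σ

variable (p) in
/-- Multiplication by a character. -/
def scaleAct (ψ : GQ → K) (σ : GQ) : K ≃ₗ[ZMod p] K :=
  if h : ψ σ = 0 then LinearEquiv.refl (ZMod p) K else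
    { toFun := fun x => ψ σ * x
      invFun := fun x => (ψ σ)⁻¹ * x
      map_add' := mul_add _
      map_smul' := fun r x => mul_smul_comm r _ x
      left_inv := fun x => inv_mul_cancel_left₀ h x
      right_inv := fun x => mul_inv_cancel_left₀ h x }

/-- The twisted contragredient as linear automorphisms. -/
def dualEquiv {X : Type} [AddCommGroup X] [Module (ZMod p) X]
    (ρ : GQ → X ≃ₗ[ZMod p] X) (σ : GQ) : Dual (ZMod p) X ≃ₗ[ZMod p] Dual (ZMod p) X where
  toFun := dualAct ρ σ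
  invFun φ := ((ExtCitation.cycloChar p σ)⁻¹ : (ZMod p)ˣ) • φ.comp (ρ σ).toLinearMap
  map_add' a b := LinearMap.ext fun x => by
    simp only [dualAct_apply, LinearMap.add_apply, mul_add]
  map_smul' r a := LinearMap.ext fun x => by
    simp only [dualAct_apply, RingHom.id_apply, LinearMap.smul_apply, smul_eq_mul, mul_left_comm]
  left_inv φ := LinearMap.ext fun x => by
    simp only [Units.smul_def, LinearMap.smul_apply, LinearMap.comp_apply, dualAct_apply,
      LinearEquiv.coe_coe, LinearEquiv.symm_apply_apply, smul_eq_mul]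
    rw [Units.inv_mul_cancel_left]
  right_inv φ := LinearMap.ext fun x => by
    simp only [Units.smul_def, LinearMap.smul_apply, LinearMap.comp_apply, dualAct_apply,
      LinearEquiv.coe_coe, LinearEquiv.apply_symm_apply, smul_eq_mul]
    rw [Units.mul_inv_cancel_left]

theorem dualEquiv_apply {X : Type} [AddCommGroup X] [Module (ZMod p) X]
    (ρ : GQ → X ≃ₗ[ZMod p] X) (σ : GQ) (φ : Dual (ZMod p) X) :
    dualEquiv ρ σ φ = dualAct ρ σ φ := rfl

namespace Lvl2Char

variable {ψ : GQ → K} (hψ : Lvl2Char p A π ψ)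
include hψ

theorem scale_apply (σ : GQ) (x : K) : scaleAct p ψ σ x = ψ σ * x := by
  rw [scaleAct, dif_neg (hψ.ne_zero σ)]; rfl

theorem scale_symm_apply (σ : GQ) (x : K) : (scaleAct p ψ σ).symm x = (ψ σ)⁻¹ * x := by
  rw [LinearEquiv.symm_apply_eq, hψ.scale_apply, mul_inv_cancel_left₀ (hψ.ne_zero σ)]

theorem map_one : ψ 1 = 1 := hψ.stab 1 (one_mem _)

theorem map_pow {σ : GQ} (hσ : σ ∈ A.inertiaSubgroupIn ℚ) (n : ℕ) : ψ (σ ^ n) = ψ σ ^ n := by
  induction n with
  | zero => rw [pow_zero, pow_zero, hψ.map_one]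
  | succ n ih => rw [pow_succ, pow_succ, hψ.mul _ (pow_mem hσ n) _ hσ, ih]

/-- A value outside `𝔽_p` generates `K` as a group. -/
theorem exists_coords : ∃ σ ∈ A.inertiaSubgroupIn ℚ, ∀ τ : K, τ ≠ 0 →
    ∀ w, ∃ s t : ZMod p, w = s • τ + t • (ψ σ * τ) := by
  obtain ⟨σ, hσ, hne⟩ := hψ.irr
  refine ⟨σ, hσ, fun τ hτ w => ?_⟩
  let F : ZMod p × ZMod p → K := fun z => z.1 • τ + z.2 • (ψ σ * τ)
  have hF : Function.Injective F := by
    intro z z' h
    have h0 : ((algebraMap (ZMod p) K (z.1 - z'.1)) + algebraMap (ZMod p) K (z.2 - z'.2) * ψ σ) * τ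
        = 0 := by
      simp only [F, Algebra.smul_def] at h
      rw [map_sub, map_sub]
      linear_combination h
    have h1 := (mul_eq_zero.1 h0).resolve_right hτ
    have h2 : z.2 - z'.2 = 0 := by
      by_contra h2
      have h2' : algebraMap (ZMod p) K (z.2 - z'.2) ≠ 0 := fun h => h2 ((map_eq_zero _).1 h)
      have e : ψ σ = algebraMap (ZMod p) K (-(z.1 - z'.1) / (z.2 - z'.2)) := by
        rw [map_div₀, map_neg, eq_div_iff h2']
        linear_combination h1
      exact hne (by rw [e, ← _root_.map_pow, ZMod.pow_card])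
    rw [h2, _root_.map_zero, zero_mul, add_zero, map_eq_zero] at h1
    exact Prod.ext (sub_eq_zero.1 h1) (sub_eq_zero.1 h2)
  obtain ⟨z, hz⟩ := ((Fintype.bijective_iff_injective_and_card F).2
    ⟨hF, by rw [Fintype.card_prod, ZMod.card, hψ.card, sq]⟩).2 w
  exact ⟨z.1, z.2, hz.symm⟩

theorem scale_mul : ∀ σ ∈ A.inertiaSubgroupIn ℚ, ∀ τ ∈ A.inertiaSubgroupIn ℚ, ∀ y,
    scaleAct p ψ (σ * τ) y = scaleAct p ψ σ (scaleAct p ψ τ y) := fun σ hσ τ hτ y => by
  rw [hψ.scale_apply, hψ.scale_apply, hψ.scale_apply, hψ.mul σ hσ τ hτ, mul_assoc]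

theorem dual_mul : ∀ σ ∈ A.inertiaSubgroupIn ℚ, ∀ τ ∈ A.inertiaSubgroupIn ℚ, ∀ φ,
    dualEquiv (scaleAct p ψ) (σ * τ) φ =
      dualEquiv (scaleAct p ψ) σ (dualEquiv (scaleAct p ψ) τ φ) := fun σ hσ τ hτ φ => by
  refine LinearMap.ext fun x => ?_
  simp only [dualEquiv_apply, dualAct_apply, hψ.scale_symm_apply, hψ.mul σ hσ τ hτ, mul_inv,
    _root_.map_mul, Units.val_mul]
  rw [mul_comm (ψ σ)⁻¹, mul_assoc (ψ τ)⁻¹, mul_assoc]

theorem card_dual_eq : Fintype.card (Dual (ZMod p) K) = lvl p + 1 := by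
  rw [← card_dual, hψ.card, lvl_add_one]

/-- `χ / ψ = ψ ^ p`. -/
theorem cyclo_mul_inv {σ : GQ} (hσ : σ ∈ A.inertiaSubgroupIn ℚ) :
    algebraMap (ZMod p) K (ExtCitation.cycloChar p σ : ZMod p) * (ψ σ)⁻¹ = ψ σ ^ p := by
  rw [← hψ.norm σ hσ, pow_succ, mul_inv_cancel_right₀ (hψ.ne_zero σ)]

/-- The dual module is free, if the module is. -/
theorem dual_free (hfree : ∀ σ ∈ A.inertiaSubgroupIn ℚ, ψ σ = 1 → σ π = π) :
    ∀ σ ∈ A.inertiaSubgroupIn ℚ, ∀ φ : Dual (ZMod p) K, φ ≠ 0 →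
      (dualEquiv (scaleAct p ψ) σ φ = φ ↔ σ π = π) := by
  intro σ hσ φ hφ
  have hval : ∀ x : K, dualAct (scaleAct p ψ) σ φ x = φ (ψ σ ^ p * x) := fun x => by
    rw [dualAct_apply, hψ.scale_symm_apply, ← hψ.cyclo_mul_inv hσ, mul_assoc, ← Algebra.smul_def,
      map_smul, smul_eq_mul]
  refine ⟨fun h => hfree σ hσ ?_, fun h => ?_⟩
  · by_contra hne
    have hne' : ψ σ ^ p - 1 ≠ 0 := sub_ne_zero.2 fun h1 => hne (by
      have : CharP K p := charP_of_injective_algebraMap (algebraMap (ZMod p) K).injective p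
      exact frobenius_inj K p (by simpa [frobenius_def] using h1))
    refine hφ (LinearMap.ext fun y => ?_)
    have h1 := LinearMap.congr_fun h ((ψ σ ^ p - 1)⁻¹ * y)
    rw [dualEquiv_apply, hval, ← sub_eq_zero, ← map_sub, ← sub_one_mul,
      mul_inv_cancel_left₀ hne'] at h1
    simpa using h1
  · refine LinearMap.ext fun x => ?_
    rw [dualEquiv_apply, hval, hψ.stab σ (mem_stabRoot.2 ⟨hσ, h⟩), one_pow, one_mul]

end Lvl2Char

variable (hπ : π ^ lvl p = -(p : Qb)) (hA : A.LiesOverPrime p)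
include hπ hA

-- Kept: omitting the unused hypotheses would change the signature of a used lemma.
set_option linter.unusedSectionVars false in
theorem val_zeta_eq {ζ : Qb} (hζ : IsPrimitiveRoot ζ p) :
    A.valuation (ζ - 1) = A.valuation π ^ (p + 1) := by
  refine (pow_left_inj₀ zero_le zero_le (by have := hp.1.two_le; omega : p - 1 ≠ 0)).1 ?_
  rw [Duality.Local.val_zeta_sub_one_pow hζ, ← pow_mul, ← lvl_eq_mul, val_root_pow hπ]

theorem theta_pow_succ {σ : GQ} (hσ : σ ∈ A.inertiaSubgroupIn ℚ) :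
    theta A π σ ^ (p + 1) = ((ExtCitation.cycloChar p σ : ZMod p).val :
      IsLocalRing.ResidueField A) := by
  have : NeZero p := ⟨hp.1.ne_zero⟩
  obtain ⟨ζ, hζ⟩ := exists_primitiveRoot_qbar p
  have h0 := root_ne_zero hπ
  have hd := mem_decomposition_of_inertia hσ
  rw [← res_ratio_zeta hζ hA σ, ← tameVal_eq_res (zeta_sub_one_ne_zero hζ) hd,
    tameVal_eq_of_val_eq (pow_ne_zero (p + 1) h0) (by rw [val_zeta_eq hπ hA hζ, map_pow]) hσ,
    tameVal_eq_res (pow_ne_zero _ h0) hd, theta, map_pow, ← div_pow, res_pow (ratio_mem hd h0)]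

end

end FermatAgent.TW.Flat
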