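import Fermat.Agent.TW.Flat.Conj
import Fermat.Agent.TW.Flat.Level2
import Fermat.Agent.TW.LocalStrict
import Mathlib.GroupTheory.PGroup

/-!
# The shape of `ρ|D` without stable line: two conjugate tame characters of level two
-/

set_option autoImplicit false

open Matrix

namespace FermatAgent.TW.Flat

open FermatAgent.Local

noncomputable section

local notation "Qb" => AlgebraicClosure ℚ
local notation "GQ" => AlgebraicClosure ℚ ≃ₐ[ℚ] AlgebraicClosure ℚ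

variable {k : Type} [Field k] {p : ℕ} [hp : Fact p.Prime] {ρ : GQ →* GL (Fin 2) k}
  {A : ValuationSubring Qb}

/-- `ρ|D` has no stable line. -/
def NoLineAt (ρ : GQ →* GL (Fin 2) k) (A : ValuationSubring Qb) : Prop :=
  ¬ ∃ v : Fin 2 → k, v ≠ 0 ∧ ∀ σ ∈ A.decompositionSubgroup ℚ, ∃ x : k,
    (ρ σ : Matrix (Fin 2) (Fin 2) k) *ᵥ v = x • v

theorem NoLineAt.conjRep (h : NoLineAt ρ A) (P : GL (Fin 2) k) :
    NoLineAt (Flat.conjRep P ρ) A := by
  rintro ⟨v, hv, hst⟩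
  refine h ⟨((P⁻¹ : GL (Fin 2) k) : Matrix (Fin 2) (Fin 2) k) *ᵥ v, fun h0 => hv ?_,
    fun σ hσ => ?_⟩
  · have := congrArg (fun w => (P : Matrix (Fin 2) (Fin 2) k) *ᵥ w) h0
    simpa only [gl_mulVec_mulVec, mul_inv_cancel, Units.val_one, Matrix.one_mulVec,
      Matrix.mulVec_zero] using this
  · obtain ⟨x, hx⟩ := hst σ hσ
    refine ⟨x, ?_⟩
    have e := congrArg (fun w => ((P⁻¹ : GL (Fin 2) k) : Matrix (Fin 2) (Fin 2) k) *ᵥ w) hx
    simp only [conjRep_apply, gl_mulVec_mulVec, Matrix.mulVec_smul] at e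
    rw [gl_mulVec_mulVec, ← e]
    congr 2
    group

variable [Algebra (ZMod p) k]

/-- Two conjugate characters of level two, in their eigenbasis. -/
structure Lvl2Shape (p : ℕ) [Fact p.Prime] [Algebra (ZMod p) k] (ρ : GQ →* GL (Fin 2) k)
    (A : ValuationSubring Qb) (π : Qb) (F : GQ) : Prop where
  frob : A.IsFrobeniusAt F p
  frob_fix : F π = π
  diag : ∀ σ ∈ A.inertiaSubgroupIn ℚ, (ρ σ : Matrix (Fin 2) (Fin 2) k) 0 1 = 0 ∧
    (ρ σ : Matrix (Fin 2) (Fin 2) k) 1 0 = 0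
  pow : ∀ σ ∈ A.inertiaSubgroupIn ℚ,
    (ρ σ : Matrix (Fin 2) (Fin 2) k) 1 1 = (ρ σ : Matrix (Fin 2) (Fin 2) k) 0 0 ^ p
  sq : ∀ σ ∈ A.inertiaSubgroupIn ℚ,
    (ρ σ : Matrix (Fin 2) (Fin 2) k) 0 0 ^ p ^ 2 = (ρ σ : Matrix (Fin 2) (Fin 2) k) 0 0
  stab : ∀ s ∈ stabRoot A π, ρ s = 1
  irr : ∃ σ ∈ A.inertiaSubgroupIn ℚ,
    (ρ σ : Matrix (Fin 2) (Fin 2) k) 0 0 ^ p ≠ (ρ σ : Matrix (Fin 2) (Fin 2) k) 0 0
  anti : (ρ F : Matrix (Fin 2) (Fin 2) k) 0 0 = 0 ∧ (ρ F : Matrix (Fin 2) (Fin 2) k) 1 1 = 0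

omit [Algebra (ZMod p) k] in
theorem exists_map_eq (hA : A.LiesOverPrime p) {L : IntermediateField ℚ Qb}
    [FiniteDimensional ℚ L] [Normal ℚ L] (hL : ∀ σ ∈ L.fixingSubgroup, ρ σ = 1) {F : GQ}
    (hF : A.IsFrobeniusAt F p) {σ : GQ} (hσ : σ ∈ A.decompositionSubgroup ℚ) :
    ∃ m : ℕ, ∃ i ∈ A.inertiaSubgroupIn ℚ, ρ σ = ρ F ^ m * ρ i := by
  obtain ⟨m, i, hi, hx⟩ := exists_frobenius_pow_mul hp.1 hA L hF hσ
  refine ⟨m, i, hi, ?_⟩
  have h := hL ((F ^ m * i)⁻¹ * σ) fun x => by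
    show ((F ^ m * i : GQ))⁻¹ (σ (x : Qb)) = x
    rw [hx x x.2]
    exact (F ^ m * i : GQ).symm_apply_apply _
  rw [map_mul, map_inv, inv_mul_eq_one] at h
  rw [← h, map_mul, map_pow]

omit hp in
theorem isFrobeniusAt_inertia_mul {F i : GQ} (hF : A.IsFrobeniusAt F p)
    (hi : i ∈ A.inertiaSubgroupIn ℚ) : A.IsFrobeniusAt (i * F) p := by
  rw [isFrobeniusAt_iff] at hF ⊢
  refine ⟨mul_mem (mem_decomposition_of_inertia hi) hF.1, fun z hz => ?_⟩
  rw [AlgEquiv.mul_apply, show i (F z) - z ^ p = (i (F z) - F z) + (F z - z ^ p) by ring]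
  exact A.valuation.map_add_lt
    (inertia_val_sub_lt_one hi ((decomposition_mem_iff hF.1 z).2 hz)) (hF.2 z hz)

/-- Upper triangular matrices with equal diagonal: powers. -/
theorem upper_pow_entry {T : Matrix (Fin 2) (Fin 2) k} (h10 : T 1 0 = 0) (hd : T 1 1 = T 0 0)
    (n : ℕ) : (T ^ (n + 1)) 1 0 = 0 ∧ (T ^ (n + 1)) 1 1 = T 0 0 ^ (n + 1) ∧
      (T ^ (n + 1)) 0 1 = (n + 1 : ℕ) * T 0 0 ^ n * T 0 1 := by
  induction n with
  | zero => simp [h10, hd]
  | succ n ih =>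
    obtain ⟨a, b, c⟩ := ih
    rw [pow_succ' T, Matrix.mul_apply, Matrix.mul_apply, Matrix.mul_apply, Fin.sum_univ_two,
      Fin.sum_univ_two, Fin.sum_univ_two, h10, a, b, c, hd]
    refine ⟨by ring, by ring, ?_⟩
    push_cast
    ring

theorem diag_pow_entry {T : Matrix (Fin 2) (Fin 2) k} (h01 : T 0 1 = 0) (h10 : T 1 0 = 0) (n : ℕ) :
    (T ^ n) 0 1 = 0 ∧ (T ^ n) 1 0 = 0 ∧ (T ^ n) 0 0 = T 0 0 ^ n ∧ (T ^ n) 1 1 = T 1 1 ^ n := by
  induction n with
  | zero => simp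
  | succ n ih =>
    obtain ⟨a, b, c, d⟩ := ih
    simp [pow_succ, Matrix.mul_apply, Fin.sum_univ_two, h01, h10, a, b, c, d]

variable [Finite k]

theorem exists_lvl2Shape (hA : A.LiesOverPrime p) (hp2 : p ≠ 2) (hdet : DetCyclo p ρ)
    (hρ : ∃ L : IntermediateField ℚ Qb, FiniteDimensional ℚ L ∧ ∀ σ ∈ L.fixingSubgroup, ρ σ = 1)
    (hsplit : ∀ σ, ∃ v : Fin 2 → k, v ≠ 0 ∧
      ∃ r : k, (ρ σ : Matrix (Fin 2) (Fin 2) k) *ᵥ v = r • v)
    (hno : NoLineAt ρ A) :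
    ∃ (P : GL (Fin 2) k) (π : Qb) (F : GQ), π ^ lvl p = -(p : Qb) ∧
      Lvl2Shape p (conjRep P ρ) A π F := by
  classical
  have hchar : CharP k p := charP_of_injective_algebraMap (algebraMap (ZMod p) k).injective p
  have : Fintype k := Fintype.ofFinite k
  have hpe := not_dvd_lvl (p := p)
  obtain ⟨π, hπ⟩ := IsAlgClosed.exists_pow_nat_eq (-(p : Qb))
    (Nat.pos_of_ne_zero (NeZero.ne (lvl p)))
  obtain ⟨L₀, hL₀, hρL⟩ := hρ
  have : FiniteDimensional ℚ (IntermediateField.adjoin ℚ {π}) :=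
    IntermediateField.adjoin.finiteDimensional
      ((AlgebraicClosure.isAlgebraic ℚ).isAlgebraic π).isIntegral
  set L₁ := L₀ ⊔ IntermediateField.adjoin ℚ {π}
  have : FiniteDimensional ℚ L₁ := IntermediateField.finiteDimensional_sup _ _
  let N := IntermediateField.normalClosure ℚ L₁ Qb
  have : FiniteDimensional ℚ N := normalClosure.is_finiteDimensional ℚ _ Qb
  have : Normal ℚ Qb := RT.isGalois_algClosureRat.to_normal
  have : Normal ℚ N := normalClosure.normal ℚ _ Qb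
  have hle : L₁ ≤ N := IntermediateField.le_normalClosure L₁
  have hNρ : ∀ σ ∈ N.fixingSubgroup, ρ σ = 1 := fun σ hσ =>
    hρL σ (IntermediateField.fixingSubgroup_antitone (le_sup_left.trans hle) hσ)
  let f : A.inertiaSubgroupIn ℚ →* GL (Fin 2) k × rootsOfUnity (lvl p) Qb :=
    (ρ.comp (A.inertiaSubgroupIn ℚ).subtype).prod (rot hπ hA hpe)
  have hfL : ∀ σ : A.inertiaSubgroupIn ℚ, (∀ x ∈ N, (σ : GQ) x = x) → f σ = 1 := fun σ hσ => by
    refine Prod.ext (hNρ σ fun x => hσ x x.2) (Subtype.ext (Units.ext ?_))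
    show ((rot hπ hA hpe σ : Qbˣ) : Qb) = 1
    rw [coe_rot, hσ π (hle (le_sup_right (α := IntermediateField ℚ Qb)
      (IntermediateField.mem_adjoin_simple_self ℚ π))), div_self (root_ne_zero hπ)]
  obtain ⟨θ, hfin, hker, -, hnorm⟩ := exists_tame hA N f hfL
  have := hfin
  set n := Nat.card θ.range with hn
  have hnp : ¬ p ∣ n := not_dvd_card_of_residue hA θ.range
  -- wild inertia acts trivially
  have hwild : ∀ σ, θ σ = 1 → ρ σ = 1 := by
    let P₀ : Subgroup (GL (Fin 2) k) :=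
      θ.ker.map (ρ.comp (A.inertiaSubgroupIn ℚ).subtype)
    have hP₀ : IsPGroup p P₀ := by
      rintro ⟨_, σ, hσ, rfl⟩
      obtain ⟨a, ha⟩ := hker σ hσ
      exact ⟨a, Subtype.ext (congrArg Prod.fst ha)⟩
    let : MulAction P₀ (Fin 2 → k) :=
      { smul := fun g v => ((g : GL (Fin 2) k) : Matrix (Fin 2) (Fin 2) k) *ᵥ v
        one_smul := fun v => Matrix.one_mulVec v
        mul_smul := fun g h v => (gl_mulVec_mulVec (g : GL (Fin 2) k) h v).symm }
    have hcardV : p ∣ Nat.card (Fin 2 → k) := by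
      obtain ⟨m, -, hm⟩ := FiniteField.card k p
      rw [Nat.card_fun, Nat.card_eq_fintype_card (α := Fin 2), Fintype.card_fin,
        Nat.card_eq_fintype_card, hm, ← pow_mul]
      exact dvd_pow_self p (Nat.mul_ne_zero m.ne_zero two_ne_zero)
    obtain ⟨v, hv, hv0⟩ := hP₀.exists_fixed_point_of_prime_dvd_card_of_fixed_point (Fin 2 → k)
      hcardV (a := 0) (fun g => Matrix.mulVec_zero _)
    have hfixv : ∀ σ, θ σ = 1 → (ρ σ : Matrix (Fin 2) (Fin 2) k) *ᵥ v = v := fun σ hσ =>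
      hv ⟨ρ σ, σ, hσ, rfl⟩
    by_contra hne
    push Not at hne
    obtain ⟨σ₀, hσ₀, hne⟩ := hne
    refine hno ⟨v, fun h => hv0 h.symm, fun g hg => ?_⟩
    set w := (ρ g : Matrix (Fin 2) (Fin 2) k) *ᵥ v with hw
    by_contra hnot
    push Not at hnot
    have hfixw : (ρ σ₀ : Matrix (Fin 2) (Fin 2) k) *ᵥ w = w := by
      let σ' : A.inertiaSubgroupIn ℚ :=
        ⟨g⁻¹ * (σ₀ : GQ) * g, by simpa using conj_mem_inertia' (inv_mem hg) σ₀.2⟩
      have h1 : θ σ' = 1 := hnorm g⁻¹ (inv_mem hg) σ₀ σ' (by simp [σ']) hσ₀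
      conv_rhs => rw [hw, ← hfixv σ' h1, gl_mulVec_mulVec, ← map_mul]
      rw [hw, gl_mulVec_mulVec, ← map_mul]
      simp [σ', mul_assoc]
    have hd : v 0 * w 1 - v 1 * w 0 ≠ 0 := fun h0 => by
      have hv' : v ≠ 0 := fun h => hv0 h.symm
      obtain ⟨t, ht⟩ := exists_eq_of_lineForm_eq_zero hv' (u := w) h0
      exact hnot t ht
    refine hne (Units.ext ?_)
    have e1 := hfixv σ₀ hσ₀
    set R := (ρ σ₀ : Matrix (Fin 2) (Fin 2) k)
    have a0 := congrFun e1 0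
    have a1 := congrFun e1 1
    have b0 := congrFun hfixw 0
    have b1 := congrFun hfixw 1
    simp only [Matrix.mulVec, dotProduct, Fin.sum_univ_two] at a0 a1 b0 b1
    ext i j
    fin_cases i <;> fin_cases j <;>
      simp only [Fin.zero_eta, Fin.mk_one, Units.val_one, Matrix.one_apply_eq, Matrix.one_apply_ne,
        ne_eq, zero_ne_one, one_ne_zero, not_false_eq_true] <;>
      refine mul_left_cancel₀ hd ?_
    · linear_combination w 1 * a0 - v 1 * b0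
    · linear_combination -w 0 * a0 + v 0 * b0
    · linear_combination w 1 * a1 - v 1 * b1
    · linear_combination -w 0 * a1 + v 0 * b1
  have hrot1 : ∀ σ, θ σ = 1 → rot hπ hA hpe σ = 1 := fun σ hσ => by
    obtain ⟨a, ha⟩ := hker σ hσ
    have h1 : rot hπ hA hpe σ ^ p ^ a = 1 := congrArg Prod.snd ha
    have h2 : rot hπ hA hpe σ ^ lvl p = 1 := Subtype.ext ((rot hπ hA hpe σ).2)
    have := pow_gcd_eq_one.2 ⟨h1, h2⟩
    rwa [Nat.Coprime.pow_left a (hp.1.coprime_iff_not_dvd.2 hpe), pow_one] at this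
  obtain ⟨⟨g₀, τ, rfl⟩, hgen⟩ := (inferInstance : IsCyclic θ.range).exists_generator
  have hpowgen : ∀ σ : A.inertiaSubgroupIn ℚ, ∃ j : ℕ, ρ (σ : GQ) = ρ (τ : GQ) ^ j ∧
      rot hπ hA hpe σ = rot hπ hA hpe τ ^ j := by
    intro σ
    obtain ⟨j, hj⟩ := mem_powers_iff_mem_zpowers.2 (hgen ⟨θ σ, σ, rfl⟩)
    have h1 : θ τ ^ j = θ σ := congrArg Subtype.val hj
    have h2 : θ ((τ ^ j)⁻¹ * σ) = 1 := by rw [map_mul, map_inv, map_pow, h1, inv_mul_cancel]
    refine ⟨j, ?_, ?_⟩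
    · have := hwild _ h2
      rw [Subgroup.coe_mul, Subgroup.coe_inv, SubgroupClass.coe_pow, map_mul, map_inv, map_pow,
        inv_mul_eq_one] at this
      exact this.symm
    · have := hrot1 _ h2
      rw [map_mul, map_inv, map_pow, inv_mul_eq_one] at this
      exact this.symm
  have hTn : ρ (τ : GQ) ^ n = 1 := by
    rw [← map_pow, ← SubgroupClass.coe_pow]
    refine hwild _ ?_
    rw [map_pow]
    exact congrArg Subtype.val (pow_card_eq_one' (x := (⟨θ τ, τ, rfl⟩ : θ.range)))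
  have hFconj : ∀ F, A.IsFrobeniusAt F p →
      ρ F * ρ (τ : GQ) = ρ (τ : GQ) ^ p * ρ F := by
    intro F hF
    have h := map_frobenius_conj hA N (ρ.comp (A.inertiaSubgroupIn ℚ).subtype)
      (fun σ hσ => hNρ σ fun x => hσ x x.2)
      (fun σ => ⟨n, (hp.1.coprime_iff_not_dvd.2 hnp).symm, by
        obtain ⟨j, hj, -⟩ := hpowgen σ
        show ρ (σ : GQ) ^ n = 1
        rw [hj, ← pow_mul, mul_comm, pow_mul, hTn, one_pow]⟩)
      hF τ ⟨F * (τ : GQ) * F⁻¹, conj_mem_inertia' (isFrobeniusAt_iff.1 hF).1 τ.2⟩ rfl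
    simp only [MonoidHom.comp_apply, Subgroup.coe_subtype, map_mul, map_inv] at h
    rw [← h, inv_mul_cancel_right]
  -- a triangular form of the generator
  obtain ⟨v, hv, r, hvr⟩ := hsplit (τ : GQ)
  obtain ⟨P₁, hP₁⟩ := exists_mulVec_eq_e0 hv
  set T₁ : Matrix (Fin 2) (Fin 2) k := (conjRep P₁ ρ (τ : GQ) : Matrix (Fin 2) (Fin 2) k) with hT₁
  have hT10 : T₁ 1 0 = 0 := by
    have h := mulVec_conjRep (ρ := ρ) P₁ (τ : GQ) v
    rw [hP₁, hvr, Matrix.mulVec_smul, hP₁] at h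
    simpa [hT₁, Matrix.mulVec, dotProduct, Fin.sum_univ_two] using congrFun h 1
  have had : T₁ 0 0 ≠ T₁ 1 1 := by
    intro hd
    have hn0 : n ≠ 0 := fun h => hnp (h ▸ dvd_zero p)
    have hT₁n : conjRep P₁ ρ (τ : GQ) ^ n = 1 := by
      rw [conjRep_apply, conj_pow, hTn, mul_one, mul_inv_cancel]
    obtain ⟨m, hm⟩ := Nat.exists_eq_succ_of_ne_zero hn0
    have h01 : T₁ 0 1 = 0 := by
      have h := (upper_pow_entry hT10 hd.symm m).2.2
      rw [← Nat.succ_eq_add_one, ← hm, hT₁, ← Units.val_pow_eq_pow_val, hT₁n, Units.val_one,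
        Matrix.one_apply_ne zero_ne_one, ← hT₁] at h
      have hnk : ((n : ℕ) : k) ≠ 0 := fun h => hnp ((CharP.cast_eq_zero_iff k p n).1 h)
      have h0 : T₁ 0 0 ≠ 0 := by
        intro h0
        have := (conjRep P₁ ρ (τ : GQ)).det_ne_zero
        rw [← hT₁, Matrix.det_fin_two, h0, hT10, zero_mul, mul_zero, sub_zero] at this
        exact this rfl
      exact (mul_eq_zero.1 h.symm).resolve_left (mul_ne_zero hnk (pow_ne_zero _ h0))
    have hscal : T₁ = T₁ 0 0 • (1 : Matrix (Fin 2) (Fin 2) k) := by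
      ext i j
      fin_cases i <;> fin_cases j <;> simp [h01, hT10, hd]
    obtain ⟨F, hF⟩ := RT.exists_isFrobeniusAt hp.1 hA
    have hTp : T₁ ^ p = T₁ := by
      have h := congrArg (fun g => P₁ * g * P₁⁻¹) (hFconj F hF)
      have e : conjRep P₁ ρ F * conjRep P₁ ρ (τ : GQ) =
          conjRep P₁ ρ (τ : GQ) ^ p * conjRep P₁ ρ F := by
        simp only [conjRep_apply, conj_pow]
        simpa [mul_assoc] using h
      have e' := congrArg (fun g : GL (Fin 2) k => (g : Matrix (Fin 2) (Fin 2) k)) e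
      simp only [Units.val_mul, Units.val_pow_eq_pow_val, ← hT₁] at e'
      have hc : (conjRep P₁ ρ F : Matrix (Fin 2) (Fin 2) k) * T₁ = T₁ * conjRep P₁ ρ F := by
        rw [hscal, mul_smul_comm, smul_mul_assoc, mul_one, one_mul]
      rw [hc] at e'
      exact ((conjRep P₁ ρ F).isUnit.mul_left_injective e').symm
    have ha : T₁ 0 0 ^ p = T₁ 0 0 := by
      have h := congrFun (congrFun hTp 1) 1
      have := (upper_pow_entry hT10 hd.symm (p - 1)).2.1
      rw [Nat.sub_add_cancel hp.1.one_le] at this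
      rw [this, hd.symm] at h
      exact h
    obtain ⟨c₀, hc₀⟩ := exists_zmod_of_pow_eq (p := p) ha
    obtain ⟨g, hg⟩ := IsCyclic.exists_ofOrder_eq_natCard (α := (ZMod p)ˣ)
    obtain ⟨σ, hσ, hχ⟩ := exists_inertia_cycloChar hA g
    obtain ⟨j, hj, -⟩ := hpowgen ⟨σ, hσ⟩
    have hdetτ := detCyclo_conjRep P₁ hdet (τ : GQ)
    rw [← hT₁, Matrix.det_fin_two, h01, zero_mul, sub_zero, hd.symm, ← hc₀, ← _root_.map_mul] at hdetτ
    have hτχ := (algebraMap (ZMod p) k).injective hdetτ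
    have hσχ : ExtCitation.cycloChar p σ = ExtCitation.cycloChar p (τ : GQ) ^ j := by
      refine Units.ext ((algebraMap (ZMod p) k).injective ?_)
      rw [← hdet σ, show ρ σ = ρ (τ : GQ) ^ j from hj, Units.val_pow_eq_pow_val, Matrix.det_pow,
        hdet, ← map_pow, Units.val_pow_eq_pow_val]
    have h2 : 2 ∣ p - 1 := by
      rcases hp.1.eq_two_or_odd with h | h
      · exact absurd h hp2
      · omega
    obtain ⟨q, hq⟩ := h2
    have hc0ne : c₀ ≠ 0 := fun h => (ExtCitation.cycloChar p (τ : GQ)).ne_zero (by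
      rw [← hτχ, h, mul_zero])
    have hτq : ExtCitation.cycloChar p (τ : GQ) ^ q = 1 := by
      refine Units.ext ?_
      rw [Units.val_pow_eq_pow_val, ← hτχ, ← sq, ← pow_mul, ← hq, ZMod.pow_card_sub_one_eq_one hc0ne,
        Units.val_one]
    have hgq : g ^ q = 1 := by
      rw [← hχ, hσχ, ← pow_mul, mul_comm, pow_mul, hτq, one_pow]
    have hd := orderOf_dvd_of_pow_eq_one hgq
    rw [hg, Nat.card_eq_fintype_card, ZMod.card_units p] at hd
    have hp3 := hp.1.two_le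
    have := Nat.le_of_dvd (by omega) hd
    omega
  let P₂ : GL (Fin 2) k := uni (T₁ 0 1 / (T₁ 0 0 - T₁ 1 1))
  set P := P₂ * P₁
  set T : Matrix (Fin 2) (Fin 2) k := (conjRep P ρ (τ : GQ) : Matrix (Fin 2) (Fin 2) k) with hT
  have hTe : T 0 1 = 0 ∧ T 1 0 = 0 ∧ T 0 0 = T₁ 0 0 ∧ T 1 1 = T₁ 1 1 := by
    have hne : T₁ 0 0 - T₁ 1 1 ≠ 0 := sub_ne_zero.2 had
    have e : T * (P₂ : Matrix (Fin 2) (Fin 2) k) = (P₂ : Matrix (Fin 2) (Fin 2) k) * T₁ := by
      rw [hT, hT₁, ← Units.val_mul, ← Units.val_mul]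
      congr 1
      simp [P, mul_assoc]
    have e00 := congrFun (congrFun e 0) 0
    have e01 := congrFun (congrFun e 0) 1
    have e10 := congrFun (congrFun e 1) 0
    have e11 := congrFun (congrFun e 1) 1
    simp only [P₂, coe_uni, Matrix.mul_apply, Fin.sum_univ_two, Matrix.of_apply, Matrix.cons_val',
      Matrix.cons_val_zero, Matrix.cons_val_one, Matrix.cons_val_fin_one, hT10, mul_zero, add_zero,
      mul_one, one_mul, zero_mul, zero_add] at e00 e01 e10 e11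
    refine ⟨?_, e10, e00, ?_⟩
    · rw [e00] at e01
      field_simp at e01
      have : T 0 1 * (T₁ 0 0 - T₁ 1 1) = 0 := by linear_combination e01
      exact (mul_eq_zero.1 this).resolve_right hne
    · rw [e10, zero_mul, zero_add] at e11
      exact e11
  obtain ⟨hT01, hT10', hT00, hT11⟩ := hTe
  have had' : T 0 0 ≠ T 1 1 := by rw [hT00, hT11]; exact had
  have hdiag : ∀ σ : A.inertiaSubgroupIn ℚ, ∃ j : ℕ,
      (conjRep P ρ (σ : GQ) : Matrix (Fin 2) (Fin 2) k) = T ^ j ∧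
        rot hπ hA hpe σ = rot hπ hA hpe τ ^ j := fun σ => by
    obtain ⟨j, hj, hj'⟩ := hpowgen σ
    refine ⟨j, ?_, hj'⟩
    rw [hT, ← Units.val_pow_eq_pow_val, conjRep_apply, conjRep_apply, conj_pow, hj]
  -- Frobenius exchanges the lines
  obtain ⟨F₀, hF₀⟩ := RT.exists_isFrobeniusAt hp.1 hA
  set G : Matrix (Fin 2) (Fin 2) k := (conjRep P ρ F₀ : Matrix (Fin 2) (Fin 2) k) with hG
  have hGT : G * T = T ^ p * G := by
    rw [hG, hT, ← Units.val_pow_eq_pow_val, ← Units.val_mul, ← Units.val_mul]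
    congr 1
    simp only [conjRep_apply, conj_pow]
    simpa [mul_assoc] using congrArg (fun g => P * g * P⁻¹) (hFconj F₀ hF₀)
  obtain ⟨p01, p10, p00, p11⟩ := diag_pow_entry hT01 hT10' p
  have g00 := congrFun (congrFun hGT 0) 0
  have g01 := congrFun (congrFun hGT 0) 1
  have g10 := congrFun (congrFun hGT 1) 0
  have g11 := congrFun (congrFun hGT 1) 1
  simp only [Matrix.mul_apply, Fin.sum_univ_two, hT01, hT10', p01, p10, p00, p11, mul_zero,
    zero_mul, add_zero, zero_add] at g00 g01 g10 g11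
  have hnoP := hno.conjRep P
  have hoff : ∀ i : Fin 2, G (1 - i) i ≠ 0 := by
    intro i h0
    refine hnoP ⟨Pi.single i 1, fun h => one_ne_zero (α := k) (by simpa using congrFun h i), fun σ hσ => ?_⟩
    obtain ⟨m, s, hs, hσe⟩ := exists_map_eq (ρ := conjRep P ρ) hA
      (L := N) (fun σ hσ => by simp [hNρ σ hσ]) hF₀ hσ
    have hGall : ∀ n : ℕ, (G ^ n) (1 - i) i = 0 := by
      intro n
      induction n with
      | zero => fin_cases i <;> simp
      | succ n ih =>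
        fin_cases i <;> simp [pow_succ, Matrix.mul_apply, Fin.sum_univ_two] at ih h0 ⊢ <;>
          simp [ih, h0]
    have hGm := hGall m
    obtain ⟨j, hj, -⟩ := hdiag ⟨s, hs⟩
    obtain ⟨q01, q10, -, -⟩ := diag_pow_entry hT01 hT10' j
    have hz : (conjRep P ρ σ : Matrix (Fin 2) (Fin 2) k) (1 - i) i = 0 := by
      rw [hσe, Units.val_mul, Units.val_pow_eq_pow_val, hj, ← hG]
      fin_cases i <;> simp [Matrix.mul_apply, Fin.sum_univ_two, q01, q10] at hGm ⊢ <;>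
        simp [hGm]
    refine ⟨(conjRep P ρ σ : Matrix (Fin 2) (Fin 2) k) i i, ?_⟩
    rw [Matrix.mulVec_single_one]
    ext l
    fin_cases i <;> fin_cases l <;> simp [Matrix.col_apply] at hz ⊢ <;> simpa using hz
  have hG10 : G 1 0 ≠ 0 := by simpa using hoff 0
  have hG01 : G 0 1 ≠ 0 := by simpa using hoff 1
  have hda : T 1 1 = T 0 0 ^ p :=
    mul_left_cancel₀ hG01 (g01.trans (mul_comm _ _))
  have had2 : T 0 0 = T 1 1 ^ p :=
    mul_left_cancel₀ hG10 (g10.trans (mul_comm _ _))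
  have hsq : T 0 0 ^ p ^ 2 = T 0 0 := by rw [sq, pow_mul, ← hda, ← had2]
  have hirr : T 0 0 ^ p ≠ T 0 0 := fun h => had' (by rw [hda, h])
  have hG00 : G 0 0 = 0 := by
    by_contra h0
    exact hirr (mul_left_cancel₀ h0 (g00.trans (mul_comm _ _))).symm
  have hG11 : G 1 1 = 0 := by
    by_contra h0
    refine had' ?_
    conv_lhs => rw [had2]
    exact (mul_left_cancel₀ h0 (g11.trans (mul_comm _ _))).symm
  -- a Frobenius fixing `π`
  obtain ⟨i₀, hi₀, hi₀π⟩ := exists_rot hπ hA hpe (ξ := (F₀ π / π)⁻¹)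
    (by rw [inv_pow, root_ratio_pow hπ F₀, inv_one])
  have hξ := root_ratio_pow hπ F₀
  have hFfix : (i₀ * F₀) π = π := by
    rw [AlgEquiv.mul_apply, show F₀ π = F₀ π / π * π from (div_mul_cancel₀ _ (root_ne_zero hπ)).symm,
      map_mul, inertia_fix_root hA (NeZero.ne _) hpe hξ hi₀, hi₀π, ← mul_assoc, mul_inv_cancel₀ ?_,
      one_mul]
    exact div_ne_zero (by simpa using root_ne_zero hπ) (root_ne_zero hπ)
  refine ⟨P, π, i₀ * F₀, hπ, isFrobeniusAt_inertia_mul hF₀ hi₀, hFfix, fun σ hσ => ?_,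
    fun σ hσ => ?_, fun σ hσ => ?_, fun s hs => ?_, ⟨τ, τ.2, hirr⟩, ?_⟩
  · obtain ⟨j, hj, -⟩ := hdiag ⟨σ, hσ⟩
    obtain ⟨q01, q10, -, -⟩ := diag_pow_entry hT01 hT10' j
    rw [hj]
    exact ⟨q01, q10⟩
  · obtain ⟨j, hj, -⟩ := hdiag ⟨σ, hσ⟩
    obtain ⟨-, -, q00, q11⟩ := diag_pow_entry hT01 hT10' j
    rw [hj, q00, q11, hda, ← pow_mul, ← pow_mul, mul_comm]
  · obtain ⟨j, hj, -⟩ := hdiag ⟨σ, hσ⟩
    obtain ⟨-, -, q00, -⟩ := diag_pow_entry hT01 hT10' j
    rw [hj, q00, ← pow_mul, mul_comm, pow_mul, hsq]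
  · obtain ⟨j, hj, hrot⟩ := hdiag ⟨s, hs.1⟩
    have h1 : rot hπ hA hpe ⟨s, hs.1⟩ = 1 := Subtype.ext (Units.ext (by
      rw [coe_rot, (mem_stabRoot.1 hs).2, div_self (root_ne_zero hπ)]; rfl))
    rw [h1] at hrot
    have hord : lvl p ∣ j := by
      obtain ⟨ξ, hξ'⟩ := HasEnoughRootsOfUnity.exists_primitiveRoot Qb (lvl p)
      obtain ⟨σ', hσ', hσ'π⟩ := exists_rot hπ hA hpe hξ'.pow_eq_one
      obtain ⟨l, -, hl⟩ := hdiag ⟨σ', hσ'⟩
      refine hξ'.dvd_of_pow_eq_one _ ?_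
      have e : ((rot hπ hA hpe ⟨σ', hσ'⟩ : Qbˣ) : Qb) = ξ := by
        rw [coe_rot, hσ'π, mul_div_cancel_right₀ _ (root_ne_zero hπ)]
      rw [← e, hl]
      have h2 : (rot hπ hA hpe τ ^ l) ^ j = 1 := by rw [← pow_mul, mul_comm, pow_mul, ← hrot, one_pow]
      simpa using congrArg (fun z : rootsOfUnity (lvl p) Qb => ((z : Qbˣ) : Qb)) h2
    obtain ⟨q01, q10, q00, q11⟩ := diag_pow_entry hT01 hT10' j
    have hT0 : T 0 0 ≠ 0 := fun h => by
      apply had'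
      rw [hda, h, zero_pow hp.1.ne_zero]
    have hae : T 0 0 ^ lvl p = 1 := by
      refine mul_right_cancel₀ hT0 ?_
      rw [← pow_succ, lvl_add_one, hsq, one_mul]
    obtain ⟨c, rfl⟩ := hord
    refine Units.ext (Matrix.ext fun a b => ?_)
    rw [hj]
    fin_cases a <;> fin_cases b <;>
      simp [q01, q10, q00, q11, hda, pow_mul, pow_right_comm _ p (lvl p), hae]
  · obtain ⟨j, hj, -⟩ := hdiag ⟨i₀, hi₀⟩
    obtain ⟨q01, q10, -, -⟩ := diag_pow_entry hT01 hT10' j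
    rw [map_mul, Units.val_mul, hj, ← hG]
    simp [Matrix.mul_apply, Fin.sum_univ_two, q01, q10, hG00, hG11]

end

end FermatAgent.TW.Flat
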