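import Fermat.Agent.TW.Flat.Val
import Fermat.Agent.Duality.Local.Kummer
import Fermat.Agent.Duality.Local.Transfer

/-!
# Kummer roots at a place over `p`

`IsRoot p ζ H f r`: the Kummer character of `r` on `H` is `f`.
-/

set_option autoImplicit false

namespace FermatAgent.TW.Flat

open FermatAgent.Local FermatAgent.Duality FermatAgent.Duality.Local

noncomputable section

local notation "Qb" => AlgebraicClosure ℚ
local notation "GQ" => AlgebraicClosure ℚ ≃ₐ[ℚ] AlgebraicClosure ℚ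

variable {p : ℕ} [Fact p.Prime] {A : ValuationSubring Qb} {ζ : Qb} {H : Subgroup GQ}

/-- `σ r = ζ ^ f σ * r` on `H`. -/
def IsRoot (p : ℕ) [Fact p.Prime] (ζ : Qb) (H : Subgroup GQ) (f : GQ → ZMod p) (r : Qb) : Prop :=
  r ≠ 0 ∧ ∀ σ ∈ H, σ r = zpw p ζ (f σ) * r

/-- An additive level constant function on `H`. -/
structure HomOn (p : ℕ) (H : Subgroup GQ) (f : GQ → ZMod p) : Prop where
  map_mul : ∀ σ ∈ H, ∀ τ ∈ H, f (σ * τ) = f σ + f τ
  level : ∃ F : IntermediateField ℚ Qb, FiniteDimensional ℚ F ∧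
    ∀ g ∈ H, ∀ s ∈ H, s ∈ F.fixingSubgroup → f (g * s) = f g

namespace IsRoot

variable {f f' : GQ → ZMod p} {r r' : Qb} (hζ : IsPrimitiveRoot ζ p)

theorem mono (hr : IsRoot p ζ H f r) {H' : Subgroup GQ} (h : H' ≤ H) : IsRoot p ζ H' f r :=
  ⟨hr.1, fun σ hσ => hr.2 σ (h hσ)⟩

theorem congr (hr : IsRoot p ζ H f r) (h : ∀ σ ∈ H, f σ = f' σ) : IsRoot p ζ H f' r :=
  ⟨hr.1, fun σ hσ => h σ hσ ▸ hr.2 σ hσ⟩

theorem mul_fixed (hr : IsRoot p ζ H f r) {c : Qb} (hc : c ≠ 0) (hfix : ∀ σ ∈ H, σ c = c) :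
    IsRoot p ζ H f (r * c) :=
  ⟨mul_ne_zero hr.1 hc, fun σ hσ => by rw [map_mul, hr.2 σ hσ, hfix σ hσ, mul_assoc]⟩

include hζ

theorem mul (hr : IsRoot p ζ H f r) (hr' : IsRoot p ζ H f' r') :
    IsRoot p ζ H (fun σ => f σ + f' σ) (r * r') :=
  ⟨mul_ne_zero hr.1 hr'.1, fun σ hσ => by
    rw [map_mul, hr.2 σ hσ, hr'.2 σ hσ, zpw_add hζ]; ring⟩

omit hζ in
theorem div_fixed (hr : IsRoot p ζ H f r) (hr' : IsRoot p ζ H f r') {σ : GQ} (hσ : σ ∈ H) :
    σ (r / r') = r / r' := by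
  have h0 : zpw p ζ (f σ) ≠ 0 := fun h => by
    have h1 := hr.2 σ hσ
    rw [h, zero_mul] at h1
    exact (hr.1) (σ.injective (h1.trans (map_zero σ).symm))
  rw [map_div₀, hr.2 σ hσ, hr'.2 σ hσ, mul_div_mul_left _ _ h0]

theorem pow_fixed (hr : IsRoot p ζ H f r) {σ : GQ} (hσ : σ ∈ H) : σ (r ^ p) = r ^ p := by
  rw [map_pow, hr.2 σ hσ, mul_pow, zpw_pow_eq_one hζ, one_mul]

theorem conj (hr : IsRoot p ζ H f r) {g : GQ} (hg : ∀ σ ∈ H, g⁻¹ * σ * g ∈ H) :
    IsRoot p ζ H (fun σ => (ExtCitation.cycloChar p g : ZMod p) * f (g⁻¹ * σ * g)) (g r) := by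
  refine ⟨by simpa using hr.1, fun σ hσ => ?_⟩
  have h := congrArg g (hr.2 _ (hg σ hσ))
  rw [map_mul, ← AlgEquiv.mul_apply] at h
  rw [show g * (g⁻¹ * σ * g) = σ * g by group, AlgEquiv.mul_apply] at h
  rw [h]
  congr 1
  have e : ((((ExtCitation.cycloChar p g : ZMod p).val * (f (g⁻¹ * σ * g)).val : ℕ)) : ZMod p) =
      (ExtCitation.cycloChar p g : ZMod p) * f (g⁻¹ * σ * g) := by
    rw [Nat.cast_mul, ZMod.natCast_zmod_val, ZMod.natCast_zmod_val]
  beta_reduce
  rw [← e, zpw_natCast hζ, zpw, map_pow, apply_root_eq_pow hζ g, ← pow_mul]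

end IsRoot

/-- Hilbert 90: every homomorphism is a Kummer character. -/
theorem exists_isRoot (hζ : IsPrimitiveRoot ζ p) (hfix : ∀ σ ∈ H, σ ζ = ζ) {f : GQ → ZMod p}
    (hf : HomOn p H f) : ∃ r, IsRoot p ζ H f r := by
  obtain ⟨F, hF, hlev⟩ := hf.level
  obtain ⟨t, ht, htg⟩ := exists_eq_div_of_mulCocycle (fun g : H => zpw p ζ (f g))
    (isLev₁_iff_exists_field.2 ⟨F, hF, fun g s hs => by
      show zpw p ζ (f ((g * s : H) : GQ)) = zpw p ζ (f g)
      rw [Subgroup.coe_mul, hlev g g.2 s s.2 hs]⟩)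
    (fun g => zpw_ne_zero hζ _) fun g h => by
      rw [Subgroup.coe_mul, hf.map_mul g g.2 h h.2, zpw_add hζ, map_zpw (hfix g g.2)]
  exact ⟨t, ht, fun σ hσ => by rw [htg ⟨σ, hσ⟩, div_mul_cancel₀ _ ht]⟩

variable (hA : A.LiesOverPrime p)
include hA

/-- Every residue is fixed by a power of the Frobenius map. -/
theorem exists_res_pow_eq {x : Qb} (hx : x ∈ A) :
    ∃ n : ℕ, 0 < n ∧ A.valuation (x ^ p ^ n - x) < 1 := by
  have hp := (Fact.out : p.Prime)
  have hint : IsIntegral ℚ x := ((AlgebraicClosure.isAlgebraic ℚ).isAlgebraic x).isIntegral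
  have : FiniteDimensional ℚ (IntermediateField.adjoin ℚ {x}) :=
    IntermediateField.adjoin.finiteDimensional hint
  set K := IntermediateField.adjoin ℚ {x}
  have hxK : x ∈ localField K A := le_localField (IntermediateField.mem_adjoin_simple_self ℚ x)
  have := finite_resRing hp hA (K := K)
  have := Duality.Local.charP_residue hp hA
  set R := resRing (localField K A) A
  have ha : IsLocalRing.residue A ⟨x, hx⟩ ∈ R := ⟨⟨x, hx⟩, hxK, rfl⟩
  set a := IsLocalRing.residue A ⟨x, hx⟩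
  obtain ⟨i, j, hij, he⟩ := Finite.exists_ne_map_eq_of_infinite
    fun n : ℕ => (⟨a ^ p ^ n, pow_mem ha _⟩ : R)
  have key : ∀ i j : ℕ, i < j → a ^ p ^ i = a ^ p ^ j → a ^ p ^ (j - i) = a := by
    intro i j hlt he
    refine iterateFrobenius_inj (IsLocalRing.ResidueField A) p i ?_
    simp only [iterateFrobenius_def]
    rw [he, ← pow_mul, ← pow_add, Nat.sub_add_cancel hlt.le]
  have he' : a ^ p ^ i = a ^ p ^ j := congrArg Subtype.val he
  obtain ⟨n, hn, hna⟩ : ∃ n, 0 < n ∧ a ^ p ^ n = a := by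
    rcases lt_or_gt_of_ne hij with h | h
    · exact ⟨j - i, by omega, key i j h he'⟩
    · exact ⟨i - j, by omega, key j i h he'.symm⟩
  refine ⟨n, hn, ?_⟩
  rw [← map_pow] at hna
  exact residue_eq_residue_iff.1 hna

/-- Fixed integers are `p`-th powers of fixed integers modulo the maximal ideal. -/
theorem exists_pth_root_mod {x : Qb} (hx : x ∈ A) (hfix : ∀ σ ∈ H, σ x = x) :
    ∃ c ∈ A, (∀ σ ∈ H, σ c = c) ∧ A.valuation (x - c ^ p) < 1 := by
  obtain ⟨n, hn, h⟩ := exists_res_pow_eq hA hx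
  refine ⟨x ^ p ^ (n - 1), pow_mem hx _, fun σ hσ => by rw [map_pow, hfix σ hσ], ?_⟩
  rw [← pow_mul, ← pow_succ, Nat.sub_add_cancel hn, Valuation.map_sub_swap]
  exact h

/-- `r ^ p ≡ 1` forces `r ≡ 1`. -/
theorem val_sub_one_lt {r : Qb} (h : A.valuation (r ^ p - 1) < 1) :
    A.valuation (r - 1) < 1 := by
  have hp := (Fact.out : p.Prime)
  have := Duality.Local.charP_residue hp hA
  have hv : A.valuation r = 1 := eq_one_of_pow_eq_one hp.ne_zero (by
    rw [← map_pow]; exact val_eq_one_of_sub_lt h)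
  have hr : r ∈ A := mem_of_val_le_one hv.le
  rw [← res_eq_res_iff hr A.one_mem, res_one]
  have h' := (res_eq_res_iff (pow_mem hr p) A.one_mem).2 h
  rw [res_pow hr, res_one] at h'
  exact frobenius_inj _ p (by simpa [frobenius_def] using h')

variable (hζ : IsPrimitiveRoot ζ p)
include hζ

/-- The value of `r - 1` from that of `r ^ p - 1`. -/
theorem val_sub_one_pow {r : Qb} (h1 : A.valuation (r ^ p - 1) < 1)
    (h : A.valuation (ζ - 1) ^ p < A.valuation (r ^ p - 1)) :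
    A.valuation (r - 1) ^ p = A.valuation (r ^ p - 1) := by
  have hp := (Fact.out : p.Prime)
  have hw := val_sub_one_lt hA h1
  set w := r - 1 with hwdef
  have hb := val_one_add_pow_sub_le (p := p) (A := A) hw.le
  rw [show (1 + w) ^ p - 1 - w ^ p = (r ^ p - 1) - w ^ p by rw [hwdef]; ring] at hb
  have hz := val_zeta_sub_one_pow (A := A) hζ
  set z := A.valuation (ζ - 1)
  have hzp : z ^ p = A.valuation (p : Qb) * z := by
    rw [← hz, ← pow_succ, Nat.sub_add_cancel hp.one_le]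
  have hzw : z < A.valuation w := by
    by_contra hle
    rw [not_lt] at hle
    refine h.not_ge ?_
    rw [show r ^ p - 1 = (r ^ p - 1 - w ^ p) + w ^ p by ring]
    refine A.valuation.map_add_le (hb.trans ?_) (by rw [map_pow]; exact pow_le_pow_left' hle p)
    rw [hzp]
    exact mul_le_mul' le_rfl hle
  have hlt : A.valuation (r ^ p - 1 - w ^ p) < A.valuation (w ^ p) := by
    refine hb.trans_lt ?_
    rw [map_pow, ← hz]
    conv_rhs => rw [← Nat.sub_add_cancel hp.one_le, pow_succ]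
    exact mul_lt_mul_of_pos_right
      (pow_lt_pow_left₀ hzw zero_le (by have := hp.two_le; omega)) (zero_le.trans_lt hzw)
  rw [← map_pow]
  conv_rhs => rw [show r ^ p - 1 = w ^ p + (r ^ p - 1 - w ^ p) by ring]
  exact (A.valuation.map_add_eq_of_lt_left hlt).symm

omit hA hζ in
/-- Powers of `y` close to one move the level by at least a `p`-th power. -/
theorem val_pow_sub_one_le {y : Qb} (hy : A.valuation (y - 1) ≤ 1) :
    A.valuation (y ^ p - 1) ≤
      max (A.valuation (p : Qb) * A.valuation (y - 1)) (A.valuation (y - 1) ^ p) := by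
  have hb := val_one_add_pow_sub_le (p := p) (A := A) hy
  rw [show y ^ p - 1 = ((1 + (y - 1)) ^ p - 1 - (y - 1) ^ p) + (y - 1) ^ p by ring]
  refine A.valuation.map_add_le (hb.trans (le_max_left _ _)) ?_
  rw [map_pow]
  exact le_max_right _ _

/-- A root of a number within `(ζ - 1) ^ p` of one is fixed by inertia fixing `ζ`. -/
theorem fixed_of_close {f : GQ → ZMod p} {r : Qb} (hr : IsRoot p ζ H f r)
    (hb : A.valuation (r ^ p - 1) ≤ A.valuation (ζ - 1) ^ p) {σ : GQ} (hσ : σ ∈ H)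
    (hσI : σ ∈ A.inertiaSubgroupIn ℚ) (hσζ : σ ζ = ζ) : σ r = r := by
  have hp := (Fact.out : p.Prime)
  have hne := zeta_sub_one_ne_zero hζ
  set π := ζ - 1 with hπ
  set t := (r - 1) / π with ht
  have hrt : r = 1 + π * t := by rw [ht, mul_div_cancel₀ _ hne, add_sub_cancel]
  have hc : (r ^ p - 1) = π ^ p * ((r ^ p - 1) / π ^ p) := by
    rw [mul_div_cancel₀ _ (pow_ne_zero _ hne)]
  have htA : A.valuation t ≤ 1 := by
    refine val_le_one_of_artinSchreier hζ (c := (r ^ p - 1) / π ^ p) ?_ (by rw [← hπ, ← hrt, ← hc])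
    rw [map_div₀, map_pow]
    exact div_le_one_of_le₀ hb zero_le
  have hπσ : σ π = π := by rw [hπ, map_sub, hσζ, map_one]
  have hlt : A.valuation (σ r - r) < A.valuation π := by
    rw [hrt, map_add, map_one, map_mul, hπσ, add_sub_add_left_eq_sub, ← mul_sub, map_mul]
    exact mul_lt_of_lt_one_right (zero_lt_iff.2 ((map_ne_zero _).2 hne))
      (inertia_val_sub_lt_one hσI (mem_of_val_le_one htA))
  by_contra hne'
  have hi : f σ ≠ 0 := fun h0 => hne' (by rw [hr.2 σ hσ, h0, zpw_zero, one_mul])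
  have hv : A.valuation r = 1 := by
    refine val_eq_one_of_sub_lt (val_sub_one_lt hA (hb.trans_lt ?_))
    exact pow_lt_one₀ zero_le (val_zeta_sub_one_lt hζ hA) hp.ne_zero
  rw [hr.2 σ hσ, ← sub_one_mul, map_mul, hv, mul_one, val_zpw_sub_one hζ hi] at hlt
  exact lt_irrefl _ hlt

end

end FermatAgent.TW.Flat
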