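import Fermat.Agent.TW.Flat.Level2
import Fermat.Agent.TW.Flat.Kummer

/-!
# Levels of Kummer characters of the stabiliser of `π`

`HasLevel p A π ζ f s`: some root of `f` has its `p`-th power within `π ^ s` of one.
-/

set_option autoImplicit false

namespace FermatAgent.TW.Flat

open FermatAgent.Local FermatAgent.Duality.Local

noncomputable section

local notation "Qb" => AlgebraicClosure ℚ
local notation "GQ" => AlgebraicClosure ℚ ≃ₐ[ℚ] AlgebraicClosure ℚ

variable {p : ℕ} [hp : Fact p.Prime] {A : ValuationSubring Qb} {π ζ : Qb}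

/-- Some root of `f` on the stabiliser of `π` has level at least `s`. -/
def HasLevel (p : ℕ) [Fact p.Prime] (A : ValuationSubring Qb) (π ζ : Qb) (f : GQ → ZMod p) (s : ℕ) :
    Prop :=
  ∃ r : Qb, IsRoot p ζ (stabRoot A π) f r ∧ A.valuation (r ^ p - 1) ≤ A.valuation π ^ s

/-- The coefficient of a character at level `s`. -/
def lvlCoef (p : ℕ) [Fact p.Prime] (A : ValuationSubring Qb) (π ζ : Qb) (f : GQ → ZMod p) (s : ℕ) :
    IsLocalRing.ResidueField A :=
  open Classical in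
  if h : HasLevel p A π ζ f s then res A ((h.choose ^ p - 1) / π ^ s) else 0

theorem HasLevel.congr {f f' : GQ → ZMod p} {s : ℕ} (h : HasLevel p A π ζ f s)
    (heq : ∀ σ ∈ stabRoot A π, f σ = f' σ) : HasLevel p A π ζ f' s := by
  obtain ⟨r, hr, hv⟩ := h
  exact ⟨r, hr.congr heq, hv⟩

theorem hasLevel_zero (s : ℕ) : HasLevel p A π ζ 0 s :=
  ⟨1, ⟨one_ne_zero, fun σ _ => by simp [zpw_zero]⟩, by simp⟩

variable (hπ : π ^ lvl p = -(p : Qb)) (hA : A.LiesOverPrime p) (hζ : IsPrimitiveRoot ζ p)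
include hπ hA hζ

theorem zeta_fixed_stabRoot {σ : GQ} (hσ : σ ∈ stabRoot A π) : σ ζ = ζ := by
  have := Duality.Local.charP_residue hp.1 hA
  have h := theta_pow_succ hπ hA hσ.1
  rw [(theta_eq_one_iff hπ hA not_dvd_lvl hσ.1).2 (mem_stabRoot.1 hσ).2, one_pow, ← Nat.cast_one] at h
  have h1 : (ExtCitation.cycloChar p σ : ZMod p).val = 1 := by
    have : NeZero p := ⟨hp.1.ne_zero⟩
    refine Nat.ModEq.eq_of_lt_of_lt ((CharP.natCast_eq_natCast (IsLocalRing.ResidueField A) p).1 h).symm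
      (ZMod.val_lt _) hp.1.one_lt
  rw [apply_root_eq_pow hζ σ, h1, pow_one]

/-- Fixed numbers: the levels of their `p`-th powers are multiples of `p`. -/
theorem val_pow_gap {y : Qb} (hy : ∀ σ ∈ stabRoot A π, σ y = y) {s : ℕ} (hs : ¬ p ∣ s)
    (hsb : s < p ^ 2 + p) (h : A.valuation (y ^ p - 1) ≤ A.valuation π ^ s) :
    A.valuation (y ^ p - 1) ≤ A.valuation π ^ (s + 1) := by
  have hu := uniform_stabRoot hπ hA (not_dvd_lvl (p := p))
  by_contra hgt
  rw [not_le] at hgt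
  have hs0 : s ≠ 0 := fun h0 => hs (h0 ▸ dvd_zero p)
  have hlt1 : A.valuation (y ^ p - 1) < 1 := h.trans_lt (pow_lt_one₀ zero_le hu.lt_one hs0)
  have hz : A.valuation (ζ - 1) ^ p ≤ A.valuation π ^ (s + 1) := by
    rw [val_zeta_eq hπ hA hζ, ← pow_mul]
    refine pow_le_pow_right_of_le_one' hu.lt_one.le ?_
    rw [add_one_mul, ← sq]
    omega
  have e := val_sub_one_pow hA hζ hlt1 (hz.trans_lt hgt)
  have hne : y - 1 ≠ 0 := fun h0 => by
    rw [h0, map_zero, zero_pow hp.1.ne_zero] at e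
    rw [← e] at hgt
    exact not_lt_zero hgt
  obtain ⟨m, hm⟩ := hu.fixed _ hne fun σ hσ => by rw [map_sub, map_one, hy σ hσ]
  rw [← e, hm, ← zpow_natCast, ← zpow_natCast, ← zpow_mul] at h hgt
  rw [zpow_le_zpow_iff' hu.ne_zero hu.lt_one] at h
  rw [zpow_lt_zpow_iff' hu.ne_zero hu.lt_one] at hgt
  push_cast at hgt
  have : (s : ℤ) = m * p := by omega
  exact hs (Int.natCast_dvd_natCast.1 ⟨m, by rw [this]; ring⟩)

/-- Two roots of high level differ by more. -/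
theorem root_sub_le {f : GQ → ZMod p} {r r' : Qb} (hr : IsRoot p ζ (stabRoot A π) f r)
    (hr' : IsRoot p ζ (stabRoot A π) f r') {s : ℕ} (hs : ¬ p ∣ s) (hsb : s < p ^ 2 + p)
    (h : A.valuation (r ^ p - 1) ≤ A.valuation π ^ s)
    (h' : A.valuation (r' ^ p - 1) ≤ A.valuation π ^ s) :
    A.valuation (r' ^ p - r ^ p) ≤ A.valuation π ^ (s + 1) := by
  have hu := uniform_stabRoot hπ hA (not_dvd_lvl (p := p))
  have hs0 : s ≠ 0 := fun h0 => hs (h0 ▸ dvd_zero p)
  have hv : A.valuation r ^ p = 1 := by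
    rw [← map_pow]
    exact val_eq_one_of_sub_lt (h.trans_lt (pow_lt_one₀ zero_le hu.lt_one hs0))
  have e : r' ^ p - r ^ p = r ^ p * ((r' / r) ^ p - 1) := by
    rw [mul_sub, ← mul_pow, mul_one, mul_div_cancel₀ _ hr.1]
  have hd : A.valuation (r' ^ p - r ^ p) ≤ A.valuation π ^ s := by
    rw [show r' ^ p - r ^ p = (r' ^ p - 1) - (r ^ p - 1) by ring]
    exact (A.valuation.map_sub _ _).trans (max_le h' h)
  rw [e, map_mul, map_pow, hv, one_mul] at hd ⊢
  exact val_pow_gap hπ hA hζ (fun σ hσ => hr'.div_fixed hr hσ) hs hsb hd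

-- Kept: omitting the unused hypotheses would change the signature of a used lemma.
set_option linter.unusedSectionVars false in
theorem mem_of_level {r : Qb} {s : ℕ} (h : A.valuation (r ^ p - 1) ≤ A.valuation π ^ s) :
    (r ^ p - 1) / π ^ s ∈ A :=
  mem_of_val_le_one (by rw [map_div₀, map_pow]; exact div_le_one_of_le₀ h zero_le)

theorem lvlCoef_eq {f : GQ → ZMod p} {r : Qb} (hr : IsRoot p ζ (stabRoot A π) f r) {s : ℕ}
    (hs : ¬ p ∣ s) (hsb : s < p ^ 2 + p) (h : A.valuation (r ^ p - 1) ≤ A.valuation π ^ s) :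
    lvlCoef p A π ζ f s = res A ((r ^ p - 1) / π ^ s) := by
  have hl : HasLevel p A π ζ f s := ⟨r, hr, h⟩
  rw [lvlCoef, dif_pos hl]
  obtain ⟨h1, h2⟩ := hl.choose_spec
  rw [res_eq_res_iff (mem_of_level hπ hA hζ h2) (mem_of_level hπ hA hζ h), ← sub_div,
    sub_sub_sub_cancel_right, map_div₀, map_pow, div_lt_one₀]
  · refine (root_sub_le hπ hA hζ hr h1 hs hsb h h2).trans_lt ?_
    have hu := uniform_stabRoot hπ hA (not_dvd_lvl (p := p))
    exact pow_lt_pow_right_of_lt_one₀ (zero_lt_iff.2 hu.ne_zero) hu.lt_one (Nat.lt_succ_self s)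
  · exact zero_lt_iff.2 (pow_ne_zero _ ((map_ne_zero _).2 (root_ne_zero hπ)))

theorem HasLevel.add {f f' : GQ → ZMod p} {s : ℕ} (h : HasLevel p A π ζ f s)
    (h' : HasLevel p A π ζ f' s) : HasLevel p A π ζ (f + f') s := by
  obtain ⟨r, hr, hv⟩ := h
  obtain ⟨r', hr', hv'⟩ := h'
  refine ⟨r * r', hr.mul hζ hr', ?_⟩
  rw [mul_pow, show r ^ p * r' ^ p - 1 =
    (r ^ p - 1) + ((r' ^ p - 1) + (r ^ p - 1) * (r' ^ p - 1)) by ring]
  refine A.valuation.map_add_le hv (A.valuation.map_add_le hv' ?_)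
  rw [map_mul]
  exact (mul_le_of_le_one_right' (hv'.trans (pow_le_one₀ zero_le
    (uniform_stabRoot hπ hA (not_dvd_lvl (p := p))).lt_one.le))).trans hv

theorem lvlCoef_add {f f' : GQ → ZMod p} {s : ℕ} (hs : ¬ p ∣ s) (hsb : s < p ^ 2 + p)
    (h : HasLevel p A π ζ f s) (h' : HasLevel p A π ζ f' s) :
    lvlCoef p A π ζ (f + f') s = lvlCoef p A π ζ f s + lvlCoef p A π ζ f' s := by
  have hu := uniform_stabRoot hπ hA (not_dvd_lvl (p := p))
  have hs0 : s ≠ 0 := fun h0 => hs (h0 ▸ dvd_zero p)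
  obtain ⟨r, hr, hv⟩ := h
  obtain ⟨r', hr', hv'⟩ := h'
  have hv'' : A.valuation ((r * r') ^ p - 1) ≤ A.valuation π ^ s := by
    rw [mul_pow, show r ^ p * r' ^ p - 1 =
      (r ^ p - 1) + ((r' ^ p - 1) + (r ^ p - 1) * (r' ^ p - 1)) by ring]
    refine A.valuation.map_add_le hv (A.valuation.map_add_le hv' ?_)
    rw [map_mul]
    exact (mul_le_of_le_one_right' (hv'.trans (pow_le_one₀ zero_le hu.lt_one.le))).trans hv
  rw [lvlCoef_eq hπ hA hζ (f := f + f') (hr.mul hζ hr') hs hsb hv'',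
    lvlCoef_eq hπ hA hζ hr hs hsb hv, lvlCoef_eq hπ hA hζ hr' hs hsb hv',
    ← res_add (mem_of_level hπ hA hζ hv) (mem_of_level hπ hA hζ hv'),
    res_eq_res_iff (mem_of_level hπ hA hζ hv'')
      (A.add_mem _ _ (mem_of_level hπ hA hζ hv) (mem_of_level hπ hA hζ hv')),
    ← add_div, ← sub_div, mul_pow,
    show r ^ p * r' ^ p - 1 - (r ^ p - 1 + (r' ^ p - 1)) = (r ^ p - 1) * (r' ^ p - 1) by ring,
    map_div₀, map_pow, div_lt_one₀ (zero_lt_iff.2 (pow_ne_zero _ hu.ne_zero)), map_mul]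
  calc A.valuation (r ^ p - 1) * A.valuation (r' ^ p - 1)
      ≤ A.valuation π ^ s * A.valuation π ^ s := mul_le_mul' hv hv'
    _ < A.valuation π ^ s * 1 := mul_lt_mul_of_pos_left (pow_lt_one₀ zero_le hu.lt_one hs0)
        (zero_lt_iff.2 (pow_ne_zero _ hu.ne_zero))
    _ = A.valuation π ^ s := mul_one _

theorem hasLevel_succ_of_coef {f : GQ → ZMod p} {s : ℕ} (hs : ¬ p ∣ s) (hsb : s < p ^ 2 + p)
    (h : HasLevel p A π ζ f s) (h0 : lvlCoef p A π ζ f s = 0) :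
    HasLevel p A π ζ f (s + 1) := by
  have hu := uniform_stabRoot hπ hA (not_dvd_lvl (p := p))
  obtain ⟨r, hr, hv⟩ := h
  rw [lvlCoef_eq hπ hA hζ hr hs hsb hv, res_eq_zero_iff (mem_of_level hπ hA hζ hv), map_div₀,
    map_pow, div_lt_one₀ (zero_lt_iff.2 (pow_ne_zero _ hu.ne_zero))] at h0
  exact ⟨r, hr, hu.le_of_lt_pow (fun σ hσ => by rw [map_sub, map_one, hr.pow_fixed hζ hσ]) h0⟩

/-- Levels divisible by `p` are removed. -/
theorem hasLevel_succ_of_dvd {f : GQ → ZMod p} {s : ℕ} (hs0 : s ≠ 0) (hs : p ∣ s)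
    (hsb : s < p ^ 2 + p) (h : HasLevel p A π ζ f s) : HasLevel p A π ζ f (s + 1) := by
  have hu := uniform_stabRoot hπ hA (not_dvd_lvl (p := p))
  have h0 := root_ne_zero hπ
  obtain ⟨m, rfl⟩ := hs
  have hm0 : m ≠ 0 := fun h => hs0 (by rw [h, mul_zero])
  have hmp : m ≤ p := by
    by_contra hlt
    have h1 : p * (p + 1) ≤ p * m := Nat.mul_le_mul_left p (by omega)
    rw [mul_add, mul_one, ← sq] at h1
    omega
  obtain ⟨r, hr, hv⟩ := h
  have hfix : ∀ σ ∈ stabRoot A π, σ ((r ^ p - 1) / π ^ (p * m)) = (r ^ p - 1) / π ^ (p * m) :=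
    fun σ hσ => by rw [map_div₀, map_sub, map_one, map_pow σ π, (mem_stabRoot.1 hσ).2, hr.pow_fixed hζ hσ]
  obtain ⟨c, hc, hcfix, hclt⟩ := exists_pth_root_mod hA (mem_of_level hπ hA hζ hv) hfix
  set y := 1 + c * π ^ m with hy
  have hcv : A.valuation (c * π ^ m) ≤ A.valuation π ^ m := by
    rw [map_mul, map_pow]; exact mul_le_of_le_one_left' (val_le_one_of_mem hc)
  have hy1 : A.valuation y = 1 := val_eq_one_of_sub_lt (by
    rw [hy, add_sub_cancel_left]
    exact hcv.trans_lt (pow_lt_one₀ zero_le hu.lt_one hm0))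
  have hy0 : y ≠ 0 := fun h => by rw [h, map_zero] at hy1; exact zero_ne_one hy1
  refine ⟨r * y⁻¹, hr.mul_fixed (inv_ne_zero hy0) fun σ hσ => by
    rw [map_inv₀, hy, _root_.map_add, map_one, map_mul, map_pow, (mem_stabRoot.1 hσ).2, hcfix σ hσ], ?_⟩
  rw [mul_pow, inv_pow, ← div_eq_mul_inv, div_sub_one (pow_ne_zero _ hy0), map_div₀, map_pow, hy1,
    one_pow, div_one]
  have hb := val_one_add_pow_sub_le (p := p) (A := A) (hcv.trans (pow_le_one₀ zero_le hu.lt_one.le))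
  rw [← hy] at hb
  have e : r ^ p - y ^ p = ((r ^ p - 1) / π ^ (p * m) - c ^ p) * π ^ (p * m) -
      (y ^ p - 1 - (c * π ^ m) ^ p) := by
    rw [sub_mul, div_mul_cancel₀ _ (pow_ne_zero _ h0), mul_pow, ← pow_mul, mul_comm m p]
    ring
  rw [e]
  refine (A.valuation.map_sub _ _).trans (max_le ?_ ?_)
  · rw [map_mul, map_pow, pow_succ']
    exact mul_le_mul' (hu.le_of_lt_one (fun σ hσ => by
      rw [map_sub, map_pow σ c, hcfix σ hσ, hfix σ hσ]) hclt) le_rfl
  · refine hb.trans ((mul_le_mul' le_rfl hcv).trans ?_)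
    rw [← val_root_pow hπ, ← pow_add]
    refine pow_le_pow_right_of_le_one' hu.lt_one.le ?_
    have h1 : lvl p + 1 = p * p := by rw [lvl_add_one, sq]
    obtain ⟨q, rfl⟩ : ∃ q, p = q + 1 := ⟨p - 1, by have := hp.1.one_le; omega⟩
    have h2 : q * m ≤ q * (q + 1) := Nat.mul_le_mul_left q hmp
    have h3 : 1 ≤ q := by have := hp.1.two_le; omega
    nlinarith

/-- A character of the highest level is trivial. -/
theorem eq_zero_of_hasLevel {f : GQ → ZMod p} (h : HasLevel p A π ζ f (p ^ 2 + p)) {σ : GQ}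
    (hσ : σ ∈ stabRoot A π) : f σ = 0 := by
  obtain ⟨r, hr, hv⟩ := h
  have hfix := fixed_of_close hA hζ hr (by
    rw [val_zeta_eq hπ hA hζ, ← pow_mul, add_one_mul, ← sq]; exact hv) hσ hσ.1
    (zeta_fixed_stabRoot hπ hA hζ hσ)
  have h1 := hr.2 σ hσ
  rw [hfix] at h1
  exact (zpw_eq_one_iff hζ).1 (mul_right_cancel₀ hr.1 ((one_mul r).trans h1).symm)

/-- The action of an element of the decomposition group. -/
theorem lvlCoef_conj {f : GQ → ZMod p} {s : ℕ} (hs : ¬ p ∣ s) (hsb : s < p ^ 2 + p)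
    (h : HasLevel p A π ζ f s) {g : GQ} (hg : g ∈ A.decompositionSubgroup ℚ)
    (hgJ : ∀ σ ∈ stabRoot A π, g⁻¹ * σ * g ∈ stabRoot A π) :
    HasLevel p A π ζ (fun σ => (ExtCitation.cycloChar p g : ZMod p) * f (g⁻¹ * σ * g)) s ∧
    ∃ z ∈ A, lvlCoef p A π ζ f s = res A z ∧
      lvlCoef p A π ζ (fun σ => (ExtCitation.cycloChar p g : ZMod p) * f (g⁻¹ * σ * g)) s =
        res A (g z) * res A (g π / π) ^ s := by
  have h0 := root_ne_zero hπ
  obtain ⟨r, hr, hv⟩ := h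
  have hgr := hr.conj hζ hgJ
  have hv' : A.valuation ((g r) ^ p - 1) ≤ A.valuation π ^ s := by
    rw [← map_pow, show g (r ^ p) - 1 = g (r ^ p - 1) by rw [map_sub, map_one], val_galois_eq hg]
    exact hv
  refine ⟨⟨g r, hgr, hv'⟩, _, mem_of_level hπ hA hζ hv, lvlCoef_eq hπ hA hζ hr hs hsb hv, ?_⟩
  rw [lvlCoef_eq hπ hA hζ hgr hs hsb hv', ← res_pow (ratio_mem hg h0),
    ← res_mul ((decomposition_mem_iff hg _).2 (mem_of_level hπ hA hζ hv))
      (pow_mem (ratio_mem hg h0) _)]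
  congr 1
  rw [map_div₀, map_sub, map_one, map_pow, map_pow g π, div_pow]
  have : g π ≠ 0 := by simpa using h0
  field_simp

/-- Levels below `p + 2` are excluded by a ramification bound. -/
theorem hasLevel_of_bound {f : GQ → ZMod p}
    (hf : HomOn p (stabRoot A π) f)
    (H : ∀ σ₁ ∈ stabRoot A π, f σ₁ = 1 → ∀ r c : Qb, IsRoot p ζ (stabRoot A π) f r →
      (∀ σ ∈ stabRoot A π, σ c = c) → ∀ s : ℕ, ¬ p ∣ s →
      A.valuation (r + c) ^ p = A.valuation π ^ s →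
        (A.valuation r = 1 → p + 1 < s) ∧ (c = 0 → p ≤ s)) :
    HasLevel p A π ζ f (p + 2) := by
  classical
  have hu := uniform_stabRoot hπ hA (not_dvd_lvl (p := p))
  have h0 := root_ne_zero hπ
  set J := stabRoot A π
  by_cases hf0 : ∀ σ ∈ J, f σ = 0
  · exact (hasLevel_zero _).congr fun σ hσ => (hf0 σ hσ).symm
  push Not at hf0
  obtain ⟨σ', hσ', hne⟩ := hf0
  have hfpow : ∀ n : ℕ, f (σ' ^ n) = n * f σ' := by
    intro n
    induction n with
    | zero =>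
      have h := hf.map_mul 1 J.one_mem 1 J.one_mem
      rw [one_mul] at h
      simpa using (right_eq_add.1 h)
    | succ n ih => rw [pow_succ, hf.map_mul _ (J.pow_mem hσ' n) _ hσ', ih]; push_cast; ring
  have : NeZero p := ⟨hp.1.ne_zero⟩
  set σ₁ := σ' ^ (f σ')⁻¹.val
  have hσ₁ : σ₁ ∈ J := J.pow_mem hσ' _
  have hf₁ : f σ₁ = 1 := by rw [hfpow, ZMod.natCast_zmod_val, inv_mul_cancel₀ hne]
  obtain ⟨r₀, hr₀⟩ := exists_isRoot hζ (fun σ hσ => zeta_fixed_stabRoot hπ hA hζ hσ) hf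
  obtain ⟨n, hn⟩ := hu.fixed (r₀ ^ p) (pow_ne_zero _ hr₀.1) fun σ hσ => hr₀.pow_fixed hζ hσ
  set r := r₀ * π ^ (-(n / (p : ℤ))) with hrdef
  have hr : IsRoot p ζ J f r := hr₀.mul_fixed (zpow_ne_zero _ h0) fun σ hσ => by
    rw [map_zpow₀, (mem_stabRoot.1 hσ).2]
  obtain ⟨s₀, hs₀⟩ := Int.eq_ofNat_of_zero_le (Int.emod_nonneg n (by exact_mod_cast hp.1.ne_zero :
    (p : ℤ) ≠ 0))
  have hrv : A.valuation r ^ p = A.valuation π ^ s₀ := by
    rw [hrdef, map_mul, mul_pow, ← map_pow, hn, map_zpow₀, ← zpow_natCast (A.valuation π ^ _),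
      ← zpow_mul, ← zpow_add₀ hu.ne_zero, ← zpow_natCast, ← hs₀, Int.emod_def]
    congr 1
    ring
  have hs₀p : s₀ < p := by
    have := Int.emod_lt_of_pos n (by exact_mod_cast hp.1.pos : (0 : ℤ) < p)
    omega
  have hr1 : A.valuation r = 1 := by
    rcases Nat.eq_zero_or_pos s₀ with h | h
    · exact eq_one_of_pow_eq_one hp.1.ne_zero (by rw [hrv, h, pow_zero])
    · have := (H σ₁ hσ₁ hf₁ r 0 hr (fun σ _ => map_zero σ) s₀
        (fun hd => absurd (Nat.le_of_dvd h hd) (by omega)) (by rw [add_zero, hrv])).2 rfl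
      omega
  obtain ⟨c, hc, hcfix, hclt⟩ := exists_pth_root_mod hA (H := J) (x := r ^ p)
    (mem_of_val_le_one (by rw [map_pow, hr1, one_pow])) fun σ hσ => hr.pow_fixed hζ hσ
  have hcv : A.valuation c = 1 := eq_one_of_pow_eq_one hp.1.ne_zero (by
    have h1 : A.valuation (r ^ p) = 1 := by rw [map_pow, hr1, one_pow]
    rw [← map_pow, ← h1]
    refine A.valuation.map_eq_of_sub_lt ?_
    rw [Valuation.map_sub_swap, h1]
    exact hclt)
  have hc0 : c ≠ 0 := fun h => by rw [h, map_zero] at hcv; exact zero_ne_one hcv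
  have h1 : HasLevel p A π ζ f 1 := by
    refine ⟨r * c⁻¹, hr.mul_fixed (inv_ne_zero hc0) fun σ hσ => by rw [map_inv₀, hcfix σ hσ], ?_⟩
    rw [pow_one]
    refine hu.le_of_lt_one (fun σ hσ => ?_) ?_
    · rw [map_sub, map_one, map_pow, map_mul, map_inv₀, hcfix σ hσ, hr.2 σ hσ, mul_assoc, mul_pow,
        zpw_pow_eq_one hζ, one_mul]
    · rw [mul_pow, inv_pow, ← div_eq_mul_inv, div_sub_one (pow_ne_zero _ hc0), map_div₀, map_pow,
        hcv, one_pow, div_one]
      exact hclt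
  have hstep : ∀ s, s ≠ 0 → s ≤ p + 1 → HasLevel p A π ζ f s → HasLevel p A π ζ f (s + 1) := by
    intro s hs0 hsp h
    have hsb : s < p ^ 2 + p := by
      have := Nat.pow_le_pow_left hp.1.two_le 2
      omega
    by_cases hd : p ∣ s
    · exact hasLevel_succ_of_dvd hπ hA hζ hs0 hd hsb h
    obtain ⟨r, hr, hv⟩ := h
    refine ⟨r, hr, ?_⟩
    by_contra hgt
    rw [not_le] at hgt
    have hfix : ∀ σ ∈ J, σ (r ^ p - 1) = r ^ p - 1 := fun σ hσ => by
      rw [map_sub, map_one, hr.pow_fixed hζ hσ]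
    have heq : A.valuation (r ^ p - 1) = A.valuation π ^ s := by
      refine le_antisymm hv (not_lt.1 fun hlt => hgt.not_ge ?_)
      exact hu.le_of_lt_pow hfix hlt
    have hlt1 : A.valuation (r ^ p - 1) < 1 := hv.trans_lt (pow_lt_one₀ zero_le hu.lt_one hs0)
    have hw : A.valuation (r - 1) ^ p = A.valuation π ^ s := by
      rw [val_sub_one_pow hA hζ hlt1 ?_, heq]
      rw [heq, val_zeta_eq hπ hA hζ, ← pow_mul]
      refine pow_lt_pow_right_of_lt_one₀ (zero_lt_iff.2 hu.ne_zero) hu.lt_one ?_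
      rw [add_one_mul, ← sq]
      omega
    have hrv : A.valuation r = 1 := val_eq_one_of_sub_lt (val_sub_one_lt hA hlt1)
    have := (H σ₁ hσ₁ hf₁ r (-1) hr (fun σ _ => by rw [map_neg, map_one]) s hd
      (by rw [← sub_eq_add_neg]; exact hw)).1 hrv
    omega
  have hall : ∀ k, k ≤ p + 1 → HasLevel p A π ζ f (k + 1) := by
    intro k
    induction k with
    | zero => exact fun _ => h1
    | succ k ih => exact fun hk => hstep (k + 1) (by omega) hk (ih (by omega))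
  exact hall (p + 1) le_rfl

end

end FermatAgent.TW.Flat
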