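import Fermat.Agent.TW.Defs
import Fermat.Agent.TW.Flat.Quot

/-!
# The group scheme of a flat cocycle as a local model

`G = V × V` with `σ (x, y) = (ρ σ x, ρ σ y + c σ ρ σ x)`.
-/

set_option autoImplicit false

open Matrix

namespace FermatAgent.TW.Flat

noncomputable section

local notation "Qb" => AlgebraicClosure ℚ
local notation "GQ" => AlgebraicClosure ℚ ≃ₐ[ℚ] AlgebraicClosure ℚ

variable {k : Type} [Field k] (p : ℕ) [Fact p.Prime] [Algebra (ZMod p) k]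
  (ρ : GQ →* GL (Fin 2) k)

theorem gl_mulVec_mulVec (g h : GL (Fin 2) k) (v : Fin 2 → k) :
    (g : Matrix (Fin 2) (Fin 2) k) *ᵥ ((h : Matrix (Fin 2) (Fin 2) k) *ᵥ v) =
      ((g * h : GL (Fin 2) k) : Matrix (Fin 2) (Fin 2) k) *ᵥ v := by
  rw [Matrix.mulVec_mulVec, Units.val_mul]

/-- The action on `V`. -/
def vAct (σ : GQ) : (Fin 2 → k) ≃ₗ[ZMod p] (Fin 2 → k) where
  toFun v := (ρ σ : Matrix (Fin 2) (Fin 2) k) *ᵥ v
  invFun v := (((ρ σ)⁻¹ : GL (Fin 2) k) : Matrix (Fin 2) (Fin 2) k) *ᵥ v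
  map_add' := Matrix.mulVec_add _
  map_smul' r v := Matrix.mulVec_smul _ r v
  left_inv v := by beta_reduce; rw [gl_mulVec_mulVec, inv_mul_cancel, Units.val_one, Matrix.one_mulVec]
  right_inv v := by beta_reduce; rw [gl_mulVec_mulVec, mul_inv_cancel, Units.val_one, Matrix.one_mulVec]

@[simp] theorem vAct_apply (σ : GQ) (v : Fin 2 → k) :
    vAct p ρ σ v = (ρ σ : Matrix (Fin 2) (Fin 2) k) *ᵥ v := rfl

/-- The action on `V × V` attached to `c`. -/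
def gAct (c : GQ → Matrix (Fin 2) (Fin 2) k) (σ : GQ) :
    ((Fin 2 → k) × (Fin 2 → k)) ≃ₗ[ZMod p] ((Fin 2 → k) × (Fin 2 → k)) :=
  (LinearEquiv.prodCongr (vAct p ρ σ) (vAct p ρ σ)).trans
    { toFun := fun z => (z.1, z.2 + c σ *ᵥ z.1)
      invFun := fun z => (z.1, z.2 - c σ *ᵥ z.1)
      map_add' := fun z w => Prod.ext rfl (by
        show z.2 + w.2 + c σ *ᵥ (z.1 + w.1) = (z.2 + c σ *ᵥ z.1) + (w.2 + c σ *ᵥ w.1)
        rw [Matrix.mulVec_add]; abel)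
      map_smul' := fun r z => Prod.ext rfl (by
        show r • z.2 + c σ *ᵥ (r • z.1) = r • (z.2 + c σ *ᵥ z.1)
        rw [Matrix.mulVec_smul, smul_add])
      left_inv := fun z => Prod.ext rfl (add_sub_cancel_right _ _)
      right_inv := fun z => Prod.ext rfl (sub_add_cancel _ _) }

@[simp] theorem gAct_apply (c : GQ → Matrix (Fin 2) (Fin 2) k) (σ : GQ)
    (z : (Fin 2 → k) × (Fin 2 → k)) :
    gAct p ρ c σ z = ((ρ σ : Matrix (Fin 2) (Fin 2) k) *ᵥ z.1,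
      (ρ σ : Matrix (Fin 2) (Fin 2) k) *ᵥ z.2 + (c σ * (ρ σ : Matrix (Fin 2) (Fin 2) k)) *ᵥ z.1) := by
  show ((ρ σ : Matrix (Fin 2) (Fin 2) k) *ᵥ z.1,
    (ρ σ : Matrix (Fin 2) (Fin 2) k) *ᵥ z.2 + c σ *ᵥ ((ρ σ : Matrix (Fin 2) (Fin 2) k) *ᵥ z.1)) = _
  rw [Matrix.mulVec_mulVec]

variable {p} {ρ}

/-- The global model of a flat cocycle. -/
theorem exists_functionModel {c : GQ → Matrix (Fin 2) (Fin 2) k} (hc : IsFlatCocycle ρ p c) :
    Nonempty (GalRep.Flat.FunctionModel p ((Fin 2 → k) × (Fin 2 → k)) (actOf (gAct p ρ c))) := by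
  obtain ⟨H, hR, hH, hfin, -, -, e, hadd, heq⟩ := hc
  exact ⟨GalRep.Flat.FunctionModel.ofHopf e hadd fun σ f g h => by
    rw [heq σ f g h]; exact (gAct_apply p ρ c σ _).symm⟩

omit [Fact p.Prime] [Algebra (ZMod p) k] in
/-- Adding a coboundary does not change flatness. -/
theorem isFlatCocycle_add_delta {c : GQ → Matrix (Fin 2) (Fin 2) k} (hc : IsFlatCocycle ρ p c)
    (a : Matrix (Fin 2) (Fin 2) k) :
    IsFlatCocycle ρ p fun σ => c σ + (conjAct (ρ σ) a - a) := by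
  obtain ⟨H, hR, hH, h1, h2, h3, e, hadd, heq⟩ := hc
  let φ : ((Fin 2 → k) × (Fin 2 → k)) ≃ ((Fin 2 → k) × (Fin 2 → k)) :=
    { toFun := fun z => (z.1, z.2 - a *ᵥ z.1)
      invFun := fun z => (z.1, z.2 + a *ᵥ z.1)
      left_inv := fun z => Prod.ext rfl (sub_add_cancel _ _)
      right_inv := fun z => Prod.ext rfl (add_sub_cancel_right _ _) }
  refine ⟨H, hR, hH, h1, h2, h3, e.trans φ, fun f g => ?_, fun σ f g h => ?_⟩
  · simp only [Equiv.trans_apply, hadd, φ, Equiv.coe_fn_mk, Prod.fst_add, Prod.snd_add,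
      Matrix.mulVec_add]
    exact Prod.ext rfl (add_sub_add_comm _ _ _ _)
  · simp only [Equiv.trans_apply, heq σ f g h, φ, Equiv.coe_fn_mk]
    refine Prod.ext rfl ?_
    show (ρ σ : Matrix (Fin 2) (Fin 2) k) *ᵥ (e f).2 + _ - _ = _
    have e1 : (c σ + (conjAct (ρ σ) a - a)) * (ρ σ : Matrix (Fin 2) (Fin 2) k) =
        c σ * (ρ σ : Matrix (Fin 2) (Fin 2) k) + (ρ σ : Matrix (Fin 2) (Fin 2) k) * a -
          a * (ρ σ : Matrix (Fin 2) (Fin 2) k) := by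
      rw [add_mul, sub_mul, conjAct, mul_assoc _ _ (ρ σ : Matrix (Fin 2) (Fin 2) k), ← Units.val_mul,
        inv_mul_cancel, Units.val_one, mul_one, add_sub_assoc]
    rw [e1]
    simp only [Matrix.sub_mulVec, Matrix.add_mulVec, Matrix.mulVec_sub, ← Matrix.mulVec_mulVec]
    abel

end

end FermatAgent.TW.Flat
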