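import Fermat.Agent.TW.Flat.IrredLine
import Fermat.Agent.TW.Flat.IrredShape
import Fermat.Agent.TW.Flat.ExtRing
import Fermat.Agent.TW.Flat.Levels
import Fermat.Agent.TW.Flat.Setup

/-!
# Flat cocycles at a pair of characters of level two: the levels on the stabiliser of `π`
-/

set_option autoImplicit false

open Matrix groupCohomology

namespace FermatAgent.TW.Flat

open FermatAgent.Local

noncomputable section

local notation "Qb" => AlgebraicClosure ℚ
local notation "GQ" => AlgebraicClosure ℚ ≃ₐ[ℚ] AlgebraicClosure ℚ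

variable (p : ℕ) [hp : Fact p.Prime] (k : Type) [Field k] [Algebra (ZMod p) k]

/-- The field of `p ^ 2` elements in `k`, when there is one. -/
def sqField : IntermediateField (ZMod p) k where
  carrier := {x | x ^ p ^ 2 = x}
  mul_mem' {a b} ha hb := show (a * b) ^ p ^ 2 = a * b by rw [mul_pow, ha, hb]
  one_mem' := one_pow _
  add_mem' {a b} ha hb := show (a + b) ^ p ^ 2 = a + b by
    have : CharP k p := charP_of_injective_algebraMap (algebraMap (ZMod p) k).injective p
    rw [add_pow_char_pow, ha, hb]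
  zero_mem' := zero_pow (pow_ne_zero _ hp.1.ne_zero)
  algebraMap_mem' r := show algebraMap (ZMod p) k r ^ p ^ 2 = algebraMap (ZMod p) k r by
    rw [← map_pow, ZMod.pow_card_pow]
  inv_mem' a ha := show a⁻¹ ^ p ^ 2 = a⁻¹ by rw [inv_pow, ha]

variable {p k}

theorem mem_sqField {x : k} : x ∈ sqField p k ↔ x ^ p ^ 2 = x := Iff.rfl

theorem card_sqField [Finite k] {a : k} (ha : a ∈ sqField p k) (hirr : a ^ p ≠ a) :
    Nat.card (sqField p k) = p ^ 2 := by
  classical
  have : Fintype k := Fintype.ofFinite k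
  rw [Nat.card_eq_fintype_card]
  refine le_antisymm ?_ ?_
  · have hne : (Polynomial.X ^ p ^ 2 - Polynomial.X : Polynomial k) ≠ 0 :=
      FiniteField.X_pow_card_pow_sub_X_ne_zero k two_ne_zero hp.1.one_lt
    have h1 := Polynomial.card_roots' (Polynomial.X ^ p ^ 2 - Polynomial.X : Polynomial k)
    rw [FiniteField.X_pow_card_pow_sub_X_natDegree_eq k two_ne_zero hp.1.one_lt] at h1
    refine le_trans ?_ h1
    refine le_trans ?_ (Multiset.toFinset_card_le _)
    rw [← Finset.card_univ, ← Finset.card_map ⟨((↑) : sqField p k → k), Subtype.coe_injective⟩]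
    refine Finset.card_le_card fun x hx => ?_
    obtain ⟨y, -, rfl⟩ := Finset.mem_map.1 hx
    rw [Multiset.mem_toFinset, Polynomial.mem_roots hne]
    simpa [sub_eq_zero] using mem_sqField.1 y.2
  · let F : ZMod p × ZMod p → sqField p k := fun z => z.1 • (1 : sqField p k) + z.2 • ⟨a, ha⟩
    have hF : Function.Injective F := by
      intro z z' h
      have h' : algebraMap (ZMod p) k z.1 + algebraMap (ZMod p) k z.2 * a =
          algebraMap (ZMod p) k z'.1 + algebraMap (ZMod p) k z'.2 * a := by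
        have := congrArg (fun w : sqField p k => (w : k)) h
        simpa [F, Algebra.smul_def] using this
      have h2 : z.2 = z'.2 := by
        by_contra h2
        have hne : algebraMap (ZMod p) k (z.2 - z'.2) ≠ 0 := fun e =>
          h2 (sub_eq_zero.1 ((map_eq_zero _).1 e))
        have e : a = algebraMap (ZMod p) k ((z'.1 - z.1) / (z.2 - z'.2)) := by
          rw [map_div₀, eq_div_iff hne, map_sub, map_sub]
          linear_combination h'
        exact hirr (by rw [e, ← map_pow, ZMod.pow_card])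
      rw [h2, add_left_inj] at h'
      exact Prod.ext ((algebraMap (ZMod p) k).injective h') h2
    have h := Fintype.card_le_of_injective F hF
    rwa [Fintype.card_prod, ZMod.card, ← sq] at h

/-- The embedding of the weight `j`. -/
def powEmb (j : Fin 2) : sqField p k →ₗ[ZMod p] k where
  toFun a := (a : k) ^ p ^ (j : ℕ)
  map_add' a b := by
    have : CharP k p := charP_of_injective_algebraMap (algebraMap (ZMod p) k).injective p
    show ((a : k) + b) ^ _ = _
    rw [add_pow_char_pow]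
  map_smul' t a := by
    show ((t • a : sqField p k) : k) ^ _ = t • (a : k) ^ _
    rw [IntermediateField.coe_smul, Algebra.smul_def, Algebra.smul_def, mul_pow, ← map_pow,
      ZMod.pow_card_pow]

theorem powEmb_injective (j : Fin 2) : Function.Injective (powEmb (p := p) (k := k) j) :=
  (injective_iff_map_eq_zero _).2 fun _ ha => Subtype.ext (eq_zero_of_pow_eq_zero ha)

variable {ρ : GQ →* GL (Fin 2) k} {A : ValuationSubring Qb} {π ζ : Qb} {F : GQ}

theorem Lvl2Shape.entry (h : Lvl2Shape p ρ A π F) {σ : GQ} (hσ : σ ∈ A.inertiaSubgroupIn ℚ)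
    (j : Fin 2) :
    (ρ σ : Matrix (Fin 2) (Fin 2) k) j j = (ρ σ : Matrix (Fin 2) (Fin 2) k) 0 0 ^ p ^ (j : ℕ) := by
  fin_cases j <;> simp [h.pow σ hσ]

theorem Lvl2Shape.mulVec_single (h : Lvl2Shape p ρ A π F) {σ : GQ}
    (hσ : σ ∈ A.inertiaSubgroupIn ℚ) (j : Fin 2) (x : k) :
    (ρ σ : Matrix (Fin 2) (Fin 2) k) *ᵥ Pi.single j x =
      Pi.single j ((ρ σ : Matrix (Fin 2) (Fin 2) k) j j * x) := by
  funext i
  fin_cases i <;> fin_cases j <;>
    simp [Matrix.mulVec, dotProduct, Fin.sum_univ_two, (h.diag σ hσ).1, (h.diag σ hσ).2]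

/-- The levels of the first row of a flat cocycle, and the residue embedding of `ρ|I`. -/
theorem flat_main [Finite k] (hπ : π ^ lvl p = -(p : Qb)) (hA : A.LiesOverPrime p)
    (hζ : IsPrimitiveRoot ζ p) (hp2 : p ≠ 2) (hdet : DetCyclo p ρ) (h : Lvl2Shape p ρ A π F)
    {c : GQ → Matrix (Fin 2) (Fin 2) k} (hc : IsAdCocycle ρ c)
    (hlev : IsLevelConstant₁ (MonoidHom.id GQ) c) (hflat : IsFlatCocycle ρ p c) (j : Fin 2)
    (l : k →ₗ[ZMod p] ZMod p) :
    (∃ ι : sqField p k →+* IsLocalRing.ResidueField A,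
      ∀ σ (hσ : σ ∈ A.inertiaSubgroupIn ℚ),
        ι ⟨(ρ σ : Matrix (Fin 2) (Fin 2) k) 0 0, h.sq σ hσ⟩ = theta A π σ) ∧
    HasLevel p A π ζ (fun σ => l (c σ 0 j)) (p + 2) := by
  classical
  have hpe := not_dvd_lvl (p := p)
  have : Fintype k := Fintype.ofFinite k
  have : CharP k p := charP_of_injective_algebraMap (algebraMap (ZMod p) k).injective p
  have hu := uniform_stabRoot hπ hA hpe
  set I := A.inertiaSubgroupIn ℚ with hI
  have hJI : stabRoot A π ≤ I := fun s hs => hs.1
  obtain ⟨g₀, hg₀, hirr⟩ := h.irr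
  have hK2 := card_sqField (h.sq g₀ hg₀) hirr
  have : Fintype (sqField p k) := Fintype.ofFinite _
  rw [Nat.card_eq_fintype_card] at hK2
  have hne0 : ∀ σ ∈ I, (ρ σ : Matrix (Fin 2) (Fin 2) k) 0 0 ≠ 0 := fun σ hσ h0 =>
    (ρ σ).det_ne_zero (by rw [Matrix.det_fin_two, h0, (h.diag σ hσ).1]; ring)
  -- the character of level two
  let ψ : GQ → sqField p k := fun σ =>
    if hσ : σ ∈ I then ⟨(ρ σ : Matrix (Fin 2) (Fin 2) k) 0 0, h.sq σ hσ⟩ else 1
  have hψI : ∀ σ ∈ I, (ψ σ : k) = (ρ σ : Matrix (Fin 2) (Fin 2) k) 0 0 := fun σ hσ => by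
    simp only [ψ, dif_pos hσ]
  have hψ : Lvl2Char p A π ψ :=
    { card := hK2
      mul := fun σ hσ τ hτ => Subtype.ext (by
        rw [IntermediateField.coe_mul, hψI σ hσ, hψI τ hτ, hψI _ (mul_mem hσ hτ), map_mul,
          Units.val_mul, Matrix.mul_apply, Fin.sum_univ_two, (h.diag σ hσ).1, zero_mul, add_zero])
      ne_zero := fun σ h0 => by
        by_cases hσ : σ ∈ I
        · exact hne0 σ hσ (by rw [← hψI σ hσ, h0]; rfl)
        · simp [ψ, dif_neg hσ] at h0
      stab := fun s hs => Subtype.ext (by rw [hψI s (hJI hs), h.stab s hs]; simp)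
      norm := fun σ hσ => Subtype.ext (by
        show ((ψ σ : k)) ^ (p + 1) = algebraMap (ZMod p) k _
        rw [hψI σ hσ, ← hdet σ, Matrix.det_fin_two, (h.diag σ hσ).1, zero_mul, sub_zero, h.pow σ hσ,
          pow_succ'])
      irr := ⟨g₀, hg₀, fun e => hirr (by
        have := congrArg (fun z : sqField p k => (z : k)) e
        simpa [hψI g₀ hg₀] using this)⟩ }
  -- the models
  obtain ⟨G⟩ := exists_functionModel hflat
  set M₀ := ofFunctionModel G A I
  have hM₀ : IsLModel (actOf (gAct p ρ c)) M₀ := isLModel_ofFunctionModel G hA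
  have hb₀ : BiConn (gAct p ρ c) ζ M₀ := by
    set R := (ρ g₀ : Matrix (Fin 2) (Fin 2) k)
    have key : ∀ χ : ZMod p, Function.Surjective fun x => gAct p ρ c g₀ x - χ • x := by
      intro χ
      set t := algebraMap (ZMod p) k χ with ht
      have ht0 : R 0 0 - t ≠ 0 := fun e => hirr (by
        rw [show R 0 0 = t from sub_eq_zero.1 e, ht, ← map_pow, ZMod.pow_card])
      have ht1 : R 1 1 - t ≠ 0 := fun e => hirr <| frobenius_inj k p <| by
        simp only [frobenius_def]
        rw [← h.pow g₀ hg₀]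
        show R 1 1 ^ p = R 1 1
        rw [sub_eq_zero.1 e, ht, ← map_pow, ZMod.pow_card]
      have hinj : ∀ w : Fin 2 → k, R *ᵥ w = χ • w → w = 0 := fun w hw => by
        have e0 := congrFun hw 0
        have e1 := congrFun hw 1
        simp only [Matrix.mulVec, dotProduct, Fin.sum_univ_two, R, (h.diag g₀ hg₀).1,
          (h.diag g₀ hg₀).2, Pi.smul_apply, Algebra.smul_def, zero_mul, add_zero, zero_add] at e0 e1
        funext i
        fin_cases i
        · exact (mul_eq_zero.1 (show (R 0 0 - t) * w 0 = 0 by linear_combination e0)).resolve_left ht0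
        · exact (mul_eq_zero.1 (show (R 1 1 - t) * w 1 = 0 by linear_combination e1)).resolve_left ht1
      refine Finite.injective_iff_surjective.1 fun x y e => sub_eq_zero.1 ?_
      have e' : gAct p ρ c g₀ (x - y) - χ • (x - y) = 0 := by
        rw [map_sub, smul_sub, sub_sub_sub_comm]
        exact sub_eq_zero.2 e
      rw [sub_eq_zero, gAct_apply, Prod.ext_iff] at e'
      have h1 := hinj _ e'.1
      have h2 := e'.2
      simp only [h1, Matrix.mulVec_zero, add_zero] at h2
      exact Prod.ext h1 (hinj _ h2)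
    refine biConn_of_surjective hζ hM₀ le_rfl hg₀ ?_ (key _)
    simpa only [one_smul] using key 1
  -- the sub-module `K × V`
  let e_j : sqField p k →ₗ[ZMod p] (Fin 2 → k) :=
    (LinearMap.single (ZMod p) (fun _ : Fin 2 => k) j).comp (powEmb j)
  let fσ : GQ → sqField p k →ₗ[ZMod p] (Fin 2 → k) := fun σ =>
    ((Matrix.mulVecLin (c σ * (ρ σ : Matrix (Fin 2) (Fin 2) k))).restrictScalars (ZMod p)).comp e_j
  let act' : GQ → (sqField p k × (Fin 2 → k)) ≃ₗ[ZMod p] (sqField p k × (Fin 2 → k)) := fun σ =>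
    (scaleAct p ψ σ).skewProd (vAct p ρ σ) (fσ σ)
  have hact' : ∀ σ z, act' σ z =
      (scaleAct p ψ σ z.1, (ρ σ : Matrix (Fin 2) (Fin 2) k) *ᵥ z.2 + fσ σ z.1) := fun σ z => rfl
  let ι : sqField p k × (Fin 2 → k) →ₗ[ZMod p] (Fin 2 → k) × (Fin 2 → k) :=
    e_j.prodMap LinearMap.id
  have hι : Function.Injective ι := fun x y e => by
    have e1 : e_j x.1 = e_j y.1 := congrArg Prod.fst e
    have e2 : powEmb (p := p) (k := k) j x.1 = powEmb (p := p) (k := k) j y.1 := Pi.single_injective j e1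
    exact Prod.ext (powEmb_injective j e2) (by simpa [ι] using congrArg Prod.snd e)
  have heq : ∀ σ ∈ I, ∀ z, ι (act' σ z) = gAct p ρ c σ (ι z) := fun σ hσ z => by
    rw [gAct_apply, hact']
    refine Prod.ext ?_ rfl
    show Pi.single j ((scaleAct p ψ σ z.1 : k) ^ p ^ (j : ℕ)) = _ *ᵥ Pi.single j ((z.1 : k) ^ p ^ (j : ℕ))
    rw [h.mulVec_single hσ, h.entry hσ, hψ.scale_apply, IntermediateField.coe_mul, hψI σ hσ, mul_pow]
  set M' := M₀.map (LinearMap.funLeft (fixRing A I) Qb ι)
  have hM' : IsLModel (actOf act') M' := hM₀.restrict ι.toAddMonoidHom hι heq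
  have hb' : BiConn act' ζ M' := biConn_restrict hζ hb₀ ι hι
  -- the quotient of level two
  let fstK := LinearMap.fst (ZMod p) (sqField p k) (Fin 2 → k)
  have hfst : Function.Surjective fstK := fun a => ⟨(a, 0), rfl⟩
  have hfsteq : ∀ σ ∈ I, ∀ z, fstK (act' σ z) = scaleAct p ψ σ (fstK z) := fun σ _ z => rfl
  set Mq := M'.comap (LinearMap.funLeft (fixRing A I) Qb fstK)
  have hMq : IsLModel (actOf (scaleAct p ψ)) Mq := isLModel_quot hζ hM' fstK hfst hfsteq
  have hbq : BiConn (scaleAct p ψ) ζ Mq := biConn_quot hζ hM' hb' fstK hfst hfsteq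
  obtain ⟨hfree, ⟨ιr, hιr⟩, hcoord⟩ := piece_main hπ hA hψ hζ hMq hbq hp2
  refine ⟨⟨ιr, fun σ hσ => ?_⟩, ?_⟩
  · rw [← hιr σ hσ]
    exact congrArg ιr (Subtype.ext (hψI σ hσ).symm)
  by_cases hl : l = 0
  · exact (hasLevel_zero _).congr fun σ _ => by simp [hl]
  have hKfree : ∀ σ ∈ A.inertiaSubgroupIn ℚ, ∀ y : sqField p k, y ≠ 0 →
      (scaleAct p ψ σ y = y ↔ σ π = π) := fun σ hσ y hy => by
    rw [hψ.scale_apply, mul_eq_right₀ hy]
    exact ⟨hfree σ hσ, fun e => hψ.stab σ (mem_stabRoot.2 ⟨hσ, e⟩)⟩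
  obtain ⟨O⟩ := exists_orbitCoord hπ hA hpe (scaleAct p ψ) hψ.scale_mul hKfree
    (hψ.card.trans lvl_add_one.symm)
  obtain ⟨O'⟩ := exists_orbitCoord hπ hA hpe (dualEquiv (scaleAct p ψ)) hψ.dual_mul
    (hψ.dual_free hfree) hψ.card_dual_eq
  obtain ⟨hOx, hO'x⟩ := hcoord O O'
  -- the extension of `K` by `𝔽_p`
  obtain ⟨b, hb⟩ : ∃ b : k, l b = 1 := by
    obtain ⟨x, hx⟩ : ∃ x, l x ≠ 0 := by
      by_contra hall
      push Not at hall
      exact hl (LinearMap.ext hall)
    exact ⟨(l x)⁻¹ • x, by rw [map_smul, smul_eq_mul, inv_mul_cancel₀ hx]⟩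
  let πX : sqField p k × (Fin 2 → k) →ₗ[ZMod p] sqField p k × ZMod p :=
    LinearMap.id.prodMap (l.comp (LinearMap.proj 0))
  have hπX : Function.Surjective πX := fun z =>
    ⟨(z.1, Pi.single 0 (z.2 • b)), Prod.ext rfl (by simp [πX, hb])⟩
  let fn : GQ → sqField p k →ₗ[ZMod p] ZMod p := fun σ => (l.comp (LinearMap.proj 0)).comp (fσ σ)
  have hπeq : ∀ σ ∈ stabRoot A π, ∀ z, πX (act' σ z) = extAct fn σ (πX z) := fun σ hσ z => by
    rw [hact', hψ.scale_apply, hψ.stab σ hσ, one_mul, h.stab σ hσ, Units.val_one, Matrix.one_mulVec]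
    refine Prod.ext rfl ?_
    show l ((z.2 + fσ σ z.1) 0) = l (z.2 0) + fn σ z.1
    rw [Pi.add_apply, map_add]
    rfl
  set M'J := baseChange M' (stabRoot A π)
  have hM'J : IsLModel (actOf act') M'J := hM'.baseChange hJI
  set MX := M'J.comap (LinearMap.funLeft (fixRing A (stabRoot A π)) Qb πX)
  have hMX : IsLModel (actOf (extAct fn)) MX := isLModel_quot hζ hM'J πX hπX hπeq
  have hbX : BiConn (extAct fn) ζ MX :=
    biConn_quot hζ hM'J (biConn_baseChange hζ hM' hb' hJI) πX hπX hπeq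
  -- the sub-module through `b`
  let ιW : sqField p k →ₗ[ZMod p] sqField p k × (Fin 2 → k) :=
    (LinearMap.inr (ZMod p) (sqField p k) (Fin 2 → k)).comp
      ((LinearMap.single (ZMod p) (fun _ : Fin 2 => k) 0).comp
        ((LinearMap.mulRight (ZMod p) b).comp (sqField p k).val.toLinearMap))
  have hb0 : b ≠ 0 := fun e => by rw [e, map_zero] at hb; exact zero_ne_one hb
  have hιW : Function.Injective ιW := fun x y e => by
    have e1 : (x : k) * b = (y : k) * b := Pi.single_injective 0 (congrArg Prod.snd e)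
    exact Subtype.ext (mul_right_cancel₀ hb0 e1)
  set MW := M'.map (LinearMap.funLeft (fixRing A I) Qb ιW)
  have hMW : IsLModel (actOf (scaleAct p ψ)) MW := hM'.restrict ιW.toAddMonoidHom hιW
    fun σ hσ w => by
      show ιW (scaleAct p ψ σ w) = act' σ (ιW w)
      rw [hact']
      refine Prod.ext (map_zero _).symm ?_
      show Pi.single (0 : Fin 2) ((scaleAct p ψ σ w : k) * b) =
        (ρ σ : Matrix (Fin 2) (Fin 2) k) *ᵥ Pi.single (0 : Fin 2) ((w : k) * b) + fσ σ 0
      rw [map_zero, add_zero, h.mulVec_single hσ, hψ.scale_apply, IntermediateField.coe_mul,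
        hψI σ hσ, mul_assoc]
  have hbW : BiConn (scaleAct p ψ) ζ MW := biConn_restrict hζ hb' ιW hιW
  have hlat := O.le_span hπ hA hpe hMW (fun s hs => by
    show scaleAct p ψ s O.y₁ = O.y₁
    rw [hψ.scale_apply, hψ.stab s hs, one_mul]) le_rfl fun f hf => by
    rw [pow_one]
    refine hu.le_of_lt_one (fun s hs => ?_) (hbW.1 _ f hf)
    rw [map_sub, hMW.apply_zero_fixed hf hs.1, hMW.apply_fixed hf hs.1 (by
      show scaleAct p ψ s O.y₁ = O.y₁
      rw [hψ.scale_apply, hψ.stab s hs, one_mul])]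
  obtain ⟨w₀, hw₀, hlw₀⟩ : ∃ w₀ : sqField p k, w₀ ≠ 0 ∧ l ((w₀ : k) * b) = 0 := by
    obtain ⟨x, y, hxy, e⟩ := Fintype.exists_ne_map_eq_of_card_lt
      (fun w : sqField p k => l ((w : k) * b))
      (by rw [ZMod.card, hK2]; exact lt_self_pow₀ hp.1.one_lt (by norm_num))
    exact ⟨x - y, sub_ne_zero.2 hxy, by
      rw [AddSubgroupClass.coe_sub, sub_mul, map_sub, show l ((x : k) * b) = l ((y : k) * b) from e,
        sub_self]⟩
  have hXW : ∀ w : sqField p k, πX (ιW w) = (0, l ((w : k) * b)) := fun w => by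
    simp [πX, ιW]
  have hsmall : ∀ z : ZMod p, Small MX ((0 : sqField p k), z) (A.valuation π ^ p) := by
    intro z g hg
    have h1 : (fun w => g (πX (ιW w))) ∈ Submodule.span (fixRing A (stabRoot A π))
        (Set.range (latticeFam O.x 1 (lvl p))) := by
      have h2 := Submodule.mem_map_of_mem
        (f := LinearMap.funLeft (fixRing A (stabRoot A π)) Qb ιW) (Submodule.mem_comap.1 hg)
      rw [show M'J = Submodule.span _ (M' : Set _) from rfl, Submodule.map_span] at h2
      refine Submodule.span_le.2 ?_ h2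
      rintro _ ⟨f, hf, rfl⟩
      have h3 := hlat ⟨f, hf, rfl⟩
      refine Submodule.span_induction (p := fun v _ => v ∈ Submodule.span (fixRing A (stabRoot A π))
        (Set.range (latticeFam O.x 1 (lvl p)))) ?_ (zero_mem _) (fun _ _ _ _ ha hb => add_mem ha hb)
        (fun r v _ hv => ?_) h3
      · rintro v ⟨i, rfl⟩
        exact Submodule.subset_span ⟨i, rfl⟩
      · exact Submodule.smul_mem _ (⟨(r : Qb), r.2.1, fun σ hσ => r.2.2 σ (hJI hσ)⟩ :
          fixRing A (stabRoot A π)) hv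
    have h4 := line_bound hπ hA hψ hfree O h1 hw₀ (fun t => by
      show g (πX (ιW (t • w₀))) = g (πX (ιW 0))
      rw [hXW, hXW, IntermediateField.coe_smul, smul_mul_assoc, map_smul, hlw₀, smul_zero,
        ZeroMemClass.coe_zero, zero_mul, map_zero]) (z • 1)
    rw [hXW, hXW, IntermediateField.coe_smul, smul_mul_assoc, map_smul, OneMemClass.coe_one, one_mul,
      hb, smul_eq_mul, mul_one, ZeroMemClass.coe_zero, zero_mul, map_zero] at h4
    exact h4
  have hxpow : ∀ a, O.x a ^ p ^ 2 = -(p : Qb) * O.x a := fun a => by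
    rcases eq_or_ne a 0 with rfl | ha
    · rw [O.x_zero, mul_zero, zero_pow (pow_ne_zero _ hp.1.ne_zero)]
    · rw [← lvl_add_one, pow_succ, O.pow_e hπ ha]
  have hMXfst : MX.comap (LinearMap.funLeft (fixRing A (stabRoot A π)) Qb
      (LinearMap.fst (ZMod p) (sqField p k) (ZMod p))) = baseChange Mq (stabRoot A π) := by
    rw [← comap_baseChange (ρ' := scaleAct p ψ) hζ hM' fstK hfst hfsteq hJI]
    ext v
    exact Iff.rfl
  have hD : ExtData p A π ζ fn MX O.x O'.x :=
    { card := hK2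
      model := hMX
      biconn := hbX
      small := hsmall
      x_zero := O.x_zero
      x_sub := fun a a' ne => O.val_x_sub hπ hA hpe ne
      x_pow := hxpow
      x_mem := mem_baseChange (Submodule.mem_comap.1 hOx)
      x'_zero := O'.x_zero
      x'_sub := fun a a' ne => O'.val_x_sub hπ hA hpe ne
      x'_mem := by
        rw [hMXfst]
        show O'.x ∈ dual ((dualPairing I (scaleAct p ψ)).mono hJI) ζ (baseChange Mq (stabRoot A π))
        rw [dual_baseChange _ hζ hMq hJI]
        exact mem_baseChange hO'x }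
  have hfn : ∀ σ ∈ stabRoot A π, fn σ 1 = l (c σ 0 j) := fun σ hσ => by
    show l ((((c σ * (ρ σ : Matrix (Fin 2) (Fin 2) k)) *ᵥ
      Pi.single j (((1 : sqField p k) : k) ^ p ^ (j : ℕ))) 0)) = _
    rw [h.stab σ hσ, Units.val_one, mul_one, OneMemClass.coe_one, one_pow, Matrix.mulVec_single_one]
    rfl
  have hadd : ∀ σ ∈ stabRoot A π, ∀ τ ∈ stabRoot A π,
      l (c (σ * τ) 0 j) = l (c σ 0 j) + l (c τ 0 j) := fun σ hσ τ _ => by
    rw [hc.2, Matrix.add_apply, map_add, h.stab σ hσ]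
    simp [conjAct]
  obtain ⟨L, hL, hcL⟩ := hlev
  refine hasLevel_of_bound hπ hA hζ ⟨hadd, L, hL, fun g _ s _ hs => by
    show l (c (g * s) 0 j) = l (c g 0 j)
    rw [← hcL g s hs]⟩ fun σ₁ hσ₁ hf₁ r cc hr hcc s hs hw => ?_
  exact hD.level_gt hπ hA hζ (fun σ hσ τ hτ => by
      rw [hfn _ (mul_mem hσ hτ), hfn σ hσ, hfn τ hτ, hadd σ hσ τ hτ]) hσ₁
    ((hfn σ₁ hσ₁).trans hf₁) (hr.congr fun σ hσ => (hfn σ hσ).symm) hcc hs hw

end

end FermatAgent.TW.Flat
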