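import Fermat.Agent.TW.Flat.Piece

/-!
# Functions on a level two module constant on a line; quotients and base change
-/

set_option autoImplicit false

namespace FermatAgent.TW.Flat

open FermatAgent.Local Module Polynomial
open scoped Classical

noncomputable section

local notation "Qb" => AlgebraicClosure ℚ
local notation "GQ" => AlgebraicClosure ℚ ≃ₐ[ℚ] AlgebraicClosure ℚ

variable {p : ℕ} [hp : Fact p.Prime] {A : ValuationSubring Qb}

/-- Quotient models commute with base change. -/
theorem comap_baseChange {J : Subgroup GQ} {X X' : Type} [AddCommGroup X] [Module (ZMod p) X]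
    [Fintype X] [AddCommGroup X'] [Module (ZMod p) X'] [Fintype X']
    {ρ : GQ → X ≃ₗ[ZMod p] X} {ρ' : GQ → X' ≃ₗ[ZMod p] X'} {ζ : Qb} (hζ : IsPrimitiveRoot ζ p)
    {M : Submodule (fixRing A J) (X → Qb)} (hM : IsLModel (actOf ρ) M) (π : X →ₗ[ZMod p] X')
    (hπ : Function.Surjective π) (hact : ∀ σ ∈ J, ∀ x, π (ρ σ x) = ρ' σ (π x))
    {J' : Subgroup GQ} (hJ : J' ≤ J) :
    (baseChange M J').comap (LinearMap.funLeft (fixRing A J') Qb π) =
      baseChange (M.comap (LinearMap.funLeft (fixRing A J) Qb π)) J' := by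
  have hD := isLModel_dual (dualPairing J ρ) hζ hM
  have hN := hD.restrict π.dualMap.toAddMonoidHom
    (LinearMap.dualMap_injective_of_surjective hπ) (act' := dualAct ρ')
    fun σ hσ φ => dualMap_equivariant π (hact σ hσ) φ
  have hmap : (baseChange (dual (dualPairing J ρ) ζ M) J').map
      (LinearMap.funLeft (fixRing A J') Qb π.dualMap) =
      baseChange ((dual (dualPairing J ρ) ζ M).map
        (LinearMap.funLeft (fixRing A J) Qb π.dualMap)) J' := by
    rw [baseChange, baseChange, Submodule.map_span, Submodule.map_coe]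
    rfl
  have e1 : dual (dualPairing J' ρ) ζ (baseChange M J') =
      baseChange (dual (dualPairing J ρ) ζ M) J' := dual_baseChange (dualPairing J ρ) hζ hM hJ
  have e2 := dual_baseChange (dualPairing J ρ').flip hζ hN hJ
  rw [comap_eq_dual (ρ' := ρ') hζ (hM.baseChange hJ) π hπ, e1, hmap,
    comap_eq_dual (ρ' := ρ') hζ hM π hπ]
  exact e2

variable {π : Qb} {K : Type} [Field K] [Fintype K] [Algebra (ZMod p) K] {ψ : GQ → K}

/-- A function on the module which is constant on a line is constant up to `π ^ p`. -/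
theorem line_bound (hπ : π ^ lvl p = -(p : Qb)) (hA : A.LiesOverPrime p)
    (hψ : Lvl2Char p A π ψ) (hfree : ∀ σ ∈ A.inertiaSubgroupIn ℚ, ψ σ = 1 → σ π = π)
    (O : OrbitCoord A π (actOf (scaleAct p ψ)))
    {h : K → Qb} (hh : h ∈ Submodule.span (fixRing A (stabRoot A π))
      (Set.range (latticeFam O.x 1 (lvl p))))
    {w₀ : K} (hw₀ : w₀ ≠ 0) (hconst : ∀ t : ZMod p, h (t • w₀) = h 0) (w : K) :
    A.valuation (h w - h 0) ≤ A.valuation π ^ p := by
  have : NeZero p := ⟨hp.1.ne_zero⟩
  have hpe := not_dvd_lvl (p := p)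
  have h0 := root_ne_zero hπ
  have hu := uniform_stabRoot hπ hA hpe
  obtain ⟨c, hc⟩ := (Submodule.mem_span_range_iff_exists_fun _).1 hh
  let b : Fin (lvl p) → Qb := fun i => (c (Sum.inr i) : Qb)
  have hval : ∀ v, h v - h 0 = ∑ i : Fin (lvl p), b i * O.x v ^ (1 + (i : ℕ)) := fun v => by
    have e1 : ∀ v, h v = (c (Sum.inl ()) : Qb) + ∑ i : Fin (lvl p), b i * O.x v ^ (1 + (i : ℕ)) :=
      fun v => by
        rw [← hc, Finset.sum_apply, Fintype.sum_sum_type, Fintype.sum_unique]
        simp [latticeFam, b, Subring.smul_def]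
    rw [e1 v, e1 0, O.x_zero, Finset.sum_eq_zero (f := fun i : Fin (lvl p) => b i * (0 : Qb) ^ (1 + (i : ℕ)))
      fun i _ => by simp [zero_pow (by omega : 1 + (i : ℕ) ≠ 0)]]
    ring
  set y := O.x w₀
  have hy : A.valuation y = A.valuation π := O.val_x hπ hA hpe hw₀
  have hy0 : y ≠ 0 := fun h => h0 (by rwa [h, map_zero, eq_comm, map_eq_zero] at hy)
  -- the line sees all the `(p - 1)`-st roots of unity
  have hroot : ∀ t : ZMod p, t ≠ 0 → (O.x (t • w₀) / y) ^ (p - 1) = 1 := by
    intro t ht
    have hy₁ : O.y₁ ≠ 0 := fun h => h0 (by rw [← O.x_y₁, h, O.x_zero])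
    obtain ⟨σ, hσ, hσy⟩ := O.trans (t • O.y₁) (smul_ne_zero ht hy₁)
    have hψσ : ψ σ = algebraMap (ZMod p) K t := by
      have h1 := hσy
      rw [show actOf (scaleAct p ψ) σ O.y₁ = scaleAct p ψ σ O.y₁ from rfl, hψ.scale_apply,
        Algebra.smul_def] at h1
      exact mul_right_cancel₀ hy₁ h1
    have e1 : O.x (t • w₀) = σ π / π * y := by
      rw [show t • w₀ = actOf (scaleAct p ψ) σ w₀ by
        show _ = scaleAct p ψ σ w₀
        rw [hψ.scale_apply, hψσ, Algebra.smul_def], O.equiv σ hσ]
      obtain ⟨s, hs, hsw⟩ := O.trans w₀ hw₀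
      have hy' : y = s π / π * π := by
        rw [div_mul_cancel₀ _ h0, show y = O.x w₀ from rfl, ← hsw, O.equiv s hs, O.x_y₁]
      rw [show O.x w₀ = y from rfl, hy', map_mul,
        inertia_fix_root hA (NeZero.ne _) hpe (root_ratio_pow hπ s) hσ]
      field_simp
    rw [e1, mul_div_cancel_right₀ _ hy0]
    have h1 : σ ^ (p - 1) ∈ A.inertiaSubgroupIn ℚ := pow_mem hσ _
    have h2 := hfree _ h1 (by
      rw [hψ.map_pow hσ, hψσ, ← _root_.map_pow, ZMod.pow_card_sub_one_eq_one ht, _root_.map_one])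
    have h3 : ∀ n : ℕ, (σ ^ n) π = (σ π / π) ^ n * π := fun n => by
      induction n with
      | zero => simp
      | succ n ih =>
        rw [pow_succ', AlgEquiv.mul_apply, ih, map_mul, map_pow,
          inertia_fix_root hA (NeZero.ne _) hpe (root_ratio_pow hπ σ) hσ, pow_succ,
          mul_assoc ((σ π / π) ^ n), div_mul_cancel₀ _ h0]
    rw [h3] at h2
    exact (mul_eq_right₀ h0).1 h2
  -- so the coefficients in each class modulo `p - 1` cancel
  have hp1 : 0 < p - 1 := by have := hp.1.two_le; omega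
  let S : Fin (p - 1) → Qb := fun r =>
    ∑ i ∈ Finset.univ.filter (fun i : Fin (lvl p) => (i : ℕ) % (p - 1) = (r : ℕ)),
    b i * y ^ (1 + (i : ℕ))
  have hS : ∀ r, S r = 0 := by
    have hpoly : ∑ r : Fin (p - 1), C (S r) * X ^ (r : ℕ) = (0 : Qb[X]) := by
      let ev : {t : ZMod p // t ≠ 0} → Qb := fun t => O.x ((t : ZMod p) • w₀) / y
      have hev : Function.Injective ev := fun t t' h => by
        have h1 := O.inj ((div_left_inj' hy0).1 h)
        exact Subtype.ext (smul_left_injective (ZMod p) hw₀ h1)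
      refine eq_zero_of_degree_lt_of_eval_index_eq_zero (Finset.univ : Finset {t : ZMod p // t ≠ 0})
        (v := ev) hev.injOn ?_ fun t _ => ?_
      · rw [Finset.card_univ, Fintype.card_subtype_compl, Fintype.card_subtype_eq, ZMod.card]
        exact degree_sum_fin_lt _
      · set η := ev t with hη
        have hη1 : η ^ (p - 1) = 1 := hroot _ t.2
        have hη0 : η ≠ 0 := fun h => by rw [h, zero_pow hp1.ne'] at hη1; exact zero_ne_one hη1
        have hxt : O.x ((t : ZMod p) • w₀) = η * y := (div_mul_cancel₀ _ hy0).symm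
        have hz := hval ((t : ZMod p) • w₀)
        rw [hconst, sub_self, hxt] at hz
        simp only [eval_finsetSum, eval_mul, eval_C, eval_pow, eval_X, S, Finset.sum_mul]
        refine mul_left_cancel₀ hη0 ?_
        rw [mul_zero, hz, Finset.mul_sum,
          ← Finset.sum_fiberwise Finset.univ (fun i : Fin (lvl p) =>
            (⟨(i : ℕ) % (p - 1), Nat.mod_lt _ hp1⟩ : Fin (p - 1)))]
        refine Finset.sum_congr rfl fun r _ => ?_
        rw [Finset.mul_sum]
        refine Finset.sum_congr (by ext i; simp [Fin.ext_iff]) fun i hi => ?_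
        rw [Finset.mem_filter] at hi
        have e : η ^ (i : ℕ) = η ^ (r : ℕ) := by
          conv_lhs => rw [← Nat.mod_add_div (i : ℕ) (p - 1), pow_add, pow_mul, hη1, one_pow, mul_one]
          rw [show ((i : ℕ) % (p - 1)) = (r : ℕ) from congrArg Fin.val hi.2]
        rw [mul_pow, pow_add η 1, pow_one, e]
        ring
    intro r
    have := congrArg (fun q : Qb[X] => q.coeff r) hpoly
    simpa [finsetSum_coeff, coeff_C_mul_X_pow, Fin.val_inj] using this
  -- the low terms are small
  have hterm : ∀ i : Fin (lvl p), A.valuation (b i * y ^ (1 + (i : ℕ))) ≤ A.valuation π ^ p := by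
    have hhigh : ∀ i : Fin (lvl p), p - 1 ≤ (i : ℕ) →
        A.valuation (b i * y ^ (1 + (i : ℕ))) ≤ A.valuation π ^ p := fun i hi => by
      rw [map_mul, map_pow, hy]
      exact (mul_le_of_le_one_left' (val_fixRing_le _)).trans
        (pow_le_pow_right_of_le_one' hu.lt_one.le (by omega))
    intro i
    rcases Nat.lt_or_ge (i : ℕ) (p - 1) with hi | hi
    swap
    · exact hhigh i hi
    have h1 := hS ⟨i, hi⟩
    simp only [S] at h1
    rw [← Finset.add_sum_erase _ _ (show i ∈ Finset.univ.filter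
      (fun j : Fin (lvl p) => (j : ℕ) % (p - 1) = (i : ℕ)) by simp [Nat.mod_eq_of_lt hi]),
      add_eq_zero_iff_eq_neg] at h1
    rw [h1, Valuation.map_neg]
    refine A.valuation.map_sum_le fun j hj => hhigh j ?_
    rw [Finset.mem_erase, Finset.mem_filter] at hj
    by_contra hlt
    exact hj.1 (Fin.ext (by rw [← hj.2.2, Nat.mod_eq_of_lt (by omega)]))
  rw [hval]
  rcases eq_or_ne w 0 with rfl | hw
  · refine A.valuation.map_sum_le fun i _ => ?_
    rw [O.x_zero, zero_pow (by omega), mul_zero, map_zero]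
    exact zero_le
  refine A.valuation.map_sum_le fun i _ => (le_of_eq ?_).trans (hterm i)
  rw [map_mul, map_mul, map_pow, map_pow, hy, O.val_x hπ hA hpe hw]

end

end FermatAgent.TW.Flat
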