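import Fermat.Agent.TW.Flat.Val
import Fermat.Agent.GalRep.Flat.Closure
import Fermat.Agent.LocalP.Conditions.FlatCriterion
import Mathlib.Algebra.Group.ForwardDiff

/-!
# Local models of finite Galois modules and their differences

A local model of `X` over a subgroup `J` of the Galois group is an algebra of equivariant
functions on `X`, finite over the integers of `A` fixed by `J`, separating, closed under
comultiplication. The size of `g τ - g 0` over the model measures how close `τ` is to zero.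
-/

set_option autoImplicit false

open scoped fwdDiff

namespace FermatAgent.TW.Flat

open FermatAgent.Local

noncomputable section

local notation "Qb" => AlgebraicClosure ℚ
local notation "GQ" => AlgebraicClosure ℚ ≃ₐ[ℚ] AlgebraicClosure ℚ

variable {A : ValuationSubring Qb} {J : Subgroup GQ}

/-- The integers of `A` fixed by `J`. -/
def fixRing (A : ValuationSubring Qb) (J : Subgroup GQ) : Subring Qb where
  carrier := {r | r ∈ A ∧ ∀ σ ∈ J, σ r = r}
  mul_mem' {a b} ha hb := ⟨A.mul_mem _ _ ha.1 hb.1, fun σ h => by rw [map_mul, ha.2 σ h, hb.2 σ h]⟩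
  one_mem' := ⟨A.one_mem, fun σ _ => map_one σ⟩
  add_mem' {a b} ha hb := ⟨A.add_mem _ _ ha.1 hb.1, fun σ h => by rw [map_add, ha.2 σ h, hb.2 σ h]⟩
  zero_mem' := ⟨A.zero_mem, fun σ _ => map_zero σ⟩
  neg_mem' {a} ha := ⟨A.neg_mem _ ha.1, fun σ h => by rw [map_neg, ha.2 σ h]⟩

theorem val_fixRing_le (r : fixRing A J) : A.valuation (r : Qb) ≤ 1 :=
  (A.valuation_le_one_iff _).2 r.2.1

theorem smul_fixRing {X : Type} (r : fixRing A J) (f : X → Qb) (x : X) :
    (r • f) x = (r : Qb) * f x := rfl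

/-- Evaluations of a span are bounded by the evaluations of the spanning set. -/
theorem val_le_of_mem_span {X : Type} {S : Set (X → Qb)} {f : X → Qb}
    (hf : f ∈ Submodule.span (fixRing A J) S) {x : X} {c : A.ValueGroup}
    (h : ∀ g ∈ S, A.valuation (g x) ≤ c) : A.valuation (f x) ≤ c := by
  induction hf using Submodule.span_induction with
  | mem g hg => exact h g hg
  | zero => simp
  | add a b _ _ ha hb => exact A.valuation.map_add_le ha hb
  | smul r a _ ha =>
    rw [smul_fixRing, map_mul]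
    exact (mul_le_of_le_one_left' (val_fixRing_le r)).trans ha

theorem val_lt_one_of_mem_span {X : Type} {S : Set (X → Qb)} {f : X → Qb}
    (hf : f ∈ Submodule.span (fixRing A J) S) {x : X}
    (h : ∀ g ∈ S, A.valuation (g x) < 1) : A.valuation (f x) < 1 := by
  induction hf using Submodule.span_induction with
  | mem g hg => exact h g hg
  | zero => simp
  | add a b _ _ ha hb => exact A.valuation.map_add_lt ha hb
  | smul r a _ ha =>
    rw [smul_fixRing, map_mul]
    exact (mul_le_of_le_one_left' (val_fixRing_le r)).trans_lt ha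

/-- Products of two functions, as functions on pairs. -/
def prodSet {X Y : Type} (S : Set (X → Qb)) (T : Set (Y → Qb)) : Set (X × Y → Qb) :=
  {φ | ∃ g ∈ S, ∃ h ∈ T, φ = fun z => g z.1 * h z.2}

variable {X : Type} [AddCommGroup X] {act : GQ → X → X}

/-- A submonoid of a finite group is a subgroup. -/
def subgroupOfFinite {X : Type} [AddCommGroup X] [Finite X] (S : AddSubmonoid X) :
    AddSubgroup X :=
  { S with
    neg_mem' := fun {x} hx => by
      have h : -x = (addOrderOf x - 1) • x := by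
        rw [neg_eq_iff_add_eq_zero, ← succ_nsmul', Nat.sub_add_cancel
          (addOrderOf_pos x), addOrderOf_nsmul_eq_zero]
      rw [h]
      exact S.nsmul_mem hx _ }

/-- A local model of `X` over `J`. -/
structure IsLModel (act : GQ → X → X) (M : Submodule (fixRing A J) (X → Qb)) : Prop where
  fg : M.FG
  one_mem : 1 ∈ M
  mul_mem : ∀ f ∈ M, ∀ g ∈ M, f * g ∈ M
  equivariant : ∀ f ∈ M, ∀ σ ∈ J, ∀ x, f (act σ x) = σ (f x)
  separates : ∀ x y : X, (∀ f ∈ M, f x = f y) → x = y
  comul : ∀ f ∈ M, (fun z : X × X => f (z.1 + z.2)) ∈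
    Submodule.span (fixRing A J) (prodSet (M : Set (X → Qb)) M)

/-- `τ` is within `c` of zero in the model. -/
def Small (M : Submodule (fixRing A J) (X → Qb)) (τ : X) (c : A.ValueGroup) : Prop :=
  ∀ f ∈ M, A.valuation (f τ - f 0) ≤ c

/-- `τ` reduces to zero. -/
def InC (M : Submodule (fixRing A J) (X → Qb)) (τ : X) : Prop :=
  ∀ f ∈ M, A.valuation (f τ - f 0) < 1

/-- All points reduce to zero. -/
def Conn (M : Submodule (fixRing A J) (X → Qb)) : Prop := ∀ τ, InC M τ

namespace IsLModel

variable {M : Submodule (fixRing A J) (X → Qb)} (hM : IsLModel act M)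
include hM

theorem val_le_one {f : X → Qb} (hf : f ∈ M) (x : X) : A.valuation (f x) ≤ 1 := by
  classical
  obtain ⟨s, hs⟩ := hM.fg
  -- the largest value on the generators
  rcases s.eq_empty_or_nonempty with rfl | hne
  · rw [Finset.coe_empty, Submodule.span_empty] at hs
    rw [← hs, Submodule.mem_bot] at hf
    simp [hf]
  obtain ⟨g, hg, hmax⟩ := s.exists_max_image (fun g => A.valuation (g x)) hne
  have hall : ∀ h ∈ M, A.valuation (h x) ≤ A.valuation (g x) := fun h hh =>
    val_le_of_mem_span (hs.symm ▸ hh) hmax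
  have hgM : g ∈ M := hs ▸ Submodule.subset_span hg
  refine (hall f hf).trans ?_
  by_contra hlt
  rw [not_le] at hlt
  have := hall _ (hM.mul_mem g hgM g hgM)
  rw [Pi.mul_apply, map_mul] at this
  exact absurd ((mul_le_iff_le_one_left (zero_lt_one.trans hlt)).1 this) (not_le.2 hlt)

theorem mem_A {f : X → Qb} (hf : f ∈ M) (x : X) : f x ∈ A := mem_of_val_le_one (hM.val_le_one hf x)

theorem diff_mem {f : X → Qb} (hf : f ∈ M) :
    (fun z : X × X => f (z.1 + z.2) - f z.1) ∈ Submodule.span (fixRing A J)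
      (prodSet (M : Set (X → Qb)) ((fun h x => h x - h 0) '' (M : Set (X → Qb)))) := by
  let L : (X × X → Qb) →ₗ[fixRing A J] (X × X → Qb) :=
    LinearMap.id - LinearMap.funLeft (fixRing A J) Qb fun z : X × X => (z.1, (0 : X))
  have h := Submodule.mem_map_of_mem (f := L) (hM.comul f hf)
  rw [Submodule.map_span] at h
  have e : L (fun z : X × X => f (z.1 + z.2)) = fun z => f (z.1 + z.2) - f z.1 := by
    funext z; simp [L, LinearMap.funLeft]
  rw [e] at h
  refine Submodule.span_mono ?_ h
  rintro _ ⟨_, ⟨g, hg, g', hg', rfl⟩, rfl⟩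
  refine ⟨g, hg, _, ⟨g', hg', rfl⟩, ?_⟩
  funext z
  simp [L, LinearMap.funLeft, mul_sub]

theorem translate_mem {f : X → Qb} (hf : f ∈ M) (τ : X) :
    ∃ s : Finset ((X → Qb) × Qb), (∀ q ∈ s, q.1 ∈ M ∧ A.valuation q.2 ≤ 1) ∧
      ∀ x, f (x + τ) = ∑ q ∈ s, q.2 * q.1 x := by
  classical
  have h := hM.comul f hf
  rw [Submodule.mem_span_set] at h
  obtain ⟨c, hc, hsum⟩ := h
  choose! g hg g' hg' hgg using fun φ (hφ : φ ∈ c.support) => hc hφ
  have hev : ∀ x, f (x + τ) = ∑ φ ∈ c.support, ((c φ : Qb) * g' φ τ) * g φ x := fun x => by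
    have := congrFun hsum (x, τ)
    rw [Finsupp.sum, Finset.sum_apply] at this
    rw [← this]
    refine Finset.sum_congr rfl fun φ hφ => ?_
    rw [smul_fixRing, show φ (x, τ) = g φ x * g' φ τ from congrFun (hgg φ hφ) (x, τ)]
    ring
  let s : Finset ((X → Qb) × Qb) := c.support.image fun φ =>
    (g φ, ∑ ψ ∈ c.support with g ψ = g φ, (c ψ : Qb) * g' ψ τ)
  refine ⟨s, fun q hq => ?_, fun x => ?_⟩
  · obtain ⟨φ, hφ, rfl⟩ := Finset.mem_image.1 hq
    exact ⟨hg φ hφ, A.valuation.map_sum_le fun ψ hψ => by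
      rw [map_mul]
      exact mul_le_one' (val_fixRing_le _) (hM.val_le_one (hg' ψ (Finset.mem_filter.1 hψ).1) τ)⟩
  · rw [hev, ← Finset.sum_fiberwise_of_maps_to (g := fun φ => (g φ, ∑ ψ ∈ c.support with g ψ = g φ,
      (c ψ : Qb) * g' ψ τ)) (t := s) fun φ hφ => Finset.mem_image_of_mem _ hφ]
    refine Finset.sum_congr rfl fun q hq => ?_
    obtain ⟨φ₀, hφ₀, rfl⟩ := Finset.mem_image.1 hq
    dsimp only
    rw [Finset.sum_mul]
    refine Finset.sum_congr ?_ fun φ hφ => ?_
    · ext φ
      simp only [Finset.mem_filter, Prod.mk.injEq, and_congr_right_iff]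
      exact fun _ => ⟨fun h => h.1, fun h => ⟨h, by simp only [h]⟩⟩
    · rw [(Finset.mem_filter.1 hφ).2]

theorem val_diff_le {f : X → Qb} (hf : f ∈ M) {τ : X} {c : A.ValueGroup} (hτ : Small M τ c)
    (x : X) : A.valuation (f (x + τ) - f x) ≤ c := by
  refine val_le_of_mem_span (x := (x, τ)) (hM.diff_mem hf) ?_
  rintro _ ⟨g, hg, _, ⟨h, hh, rfl⟩, rfl⟩
  rw [map_mul]
  exact (mul_le_of_le_one_left' (hM.val_le_one hg x)).trans (hτ h hh)

theorem val_diff_lt {f : X → Qb} (hf : f ∈ M) {τ : X} (hτ : InC M τ) (x : X) :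
    A.valuation (f (x + τ) - f x) < 1 := by
  refine val_lt_one_of_mem_span (x := (x, τ)) (hM.diff_mem hf) ?_
  rintro _ ⟨g, hg, _, ⟨h, hh, rfl⟩, rfl⟩
  rw [map_mul]
  exact (mul_le_of_le_one_left' (hM.val_le_one hg x)).trans_lt (hτ h hh)

/-- The second difference. -/
theorem val_diff₂_le {f : X → Qb} (hf : f ∈ M) {x τ : X} {c d : A.ValueGroup} (hx : Small M x c)
    (hτ : Small M τ d) :
    A.valuation (f (x + τ) - f x - (f τ - f 0)) ≤ c * d := by
  let L : (X × X → Qb) →ₗ[fixRing A J] (X × X → Qb) :=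
    LinearMap.id - LinearMap.funLeft (fixRing A J) Qb fun z : X × X => ((0 : X), z.2)
  have h := Submodule.mem_map_of_mem (f := L) (hM.diff_mem hf)
  rw [Submodule.map_span] at h
  have hb := val_le_of_mem_span (x := (x, τ)) (c := c * d) h ?_
  · simpa [L, LinearMap.funLeft] using hb
  rintro _ ⟨_, ⟨g, hg, _, ⟨k, hk, rfl⟩, rfl⟩, rfl⟩
  have e : L (fun z : X × X => g z.1 * (k z.2 - k 0)) (x, τ) = (g x - g 0) * (k τ - k 0) := by
    simp [L, LinearMap.funLeft, sub_mul]
  rw [e, map_mul]
  exact mul_le_mul' (hx g hg) (hτ k hk)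

theorem small_add {τ w : X} {c : A.ValueGroup} (hτ : Small M τ c) (hw : Small M w c) :
    Small M (τ + w) c := fun f hf => by
  rw [show f (τ + w) - f 0 = (f (τ + w) - f τ) + (f τ - f 0) by ring]
  exact A.valuation.map_add_le (hM.val_diff_le hf hw τ) (hτ f hf)

/-- Translations do not move a point away: some function sees `w` between `τ` and `τ + w`. -/
theorem small_of_translate {τ w : X} {c : A.ValueGroup}
    (h : ∀ g ∈ M, A.valuation (g (τ + w) - g τ) ≤ c) : Small M w c := by
  intro f hf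
  obtain ⟨s, hs, hev⟩ := hM.translate_mem hf (-τ)
  rw [show f w = f ((τ + w) + -τ) by rw [add_comm τ w, add_neg_cancel_right],
    show f 0 = f (τ + -τ) by rw [add_neg_cancel], hev, hev, ← Finset.sum_sub_distrib]
  refine A.valuation.map_sum_le fun q hq => ?_
  rw [← mul_sub, map_mul]
  exact (mul_le_of_le_one_left' (hs q hq).2).trans (h q.1 (hs q hq).1)

/-- The points reducing to zero. -/
def connSub [Finite X] : AddSubgroup X :=
  subgroupOfFinite
    { carrier := {τ | InC M τ}
      add_mem' := fun {τ w} hτ hw f hf => by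
        rw [show f (τ + w) - f 0 = (f (τ + w) - f τ) + (f τ - f 0) by ring]
        exact A.valuation.map_add_lt (hM.val_diff_lt hf hw τ) (hτ f hf)
      zero_mem' := fun f _ => by simp }

theorem mem_connSub [Finite X] {τ : X} : τ ∈ hM.connSub ↔ InC M τ := Iff.rfl

theorem act_sub_mem_connSub [Finite X] (hJ : J ≤ A.inertiaSubgroupIn ℚ) {σ : GQ} (hσ : σ ∈ J)
    (τ : X) : act σ τ - τ ∈ hM.connSub := by
  intro f hf
  obtain ⟨s, hs, hev⟩ := hM.translate_mem hf (-τ)
  rw [show act σ τ - τ = act σ τ + -τ from sub_eq_add_neg _ _, hev, show f 0 = f (τ + -τ) by rw [add_neg_cancel], hev,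
    ← Finset.sum_sub_distrib]
  refine A.valuation.map_sum_lt one_ne_zero fun q hq => ?_
  rw [← mul_sub, map_mul, hM.equivariant _ (hs q hq).1 σ hσ]
  exact (mul_le_of_le_one_left' (hs q hq).2).trans_lt
    (inertia_val_sub_lt_one (hJ hσ) (hM.mem_A (hs q hq).1 τ))

theorem exists_max_diff (x y : X) :
    ∃ g ∈ M, ∀ f ∈ M, A.valuation (f x - f y) ≤ A.valuation (g x - g y) := by
  classical
  obtain ⟨s, hs⟩ := hM.fg
  obtain ⟨g, hg, hmax⟩ := (insert (1 : X → Qb) s).exists_max_image
    (fun g => A.valuation (g x - g y)) (Finset.insert_nonempty _ _)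
  have hgM : g ∈ M := by
    rcases Finset.mem_insert.1 hg with rfl | hg
    · exact hM.one_mem
    · exact hs ▸ Submodule.subset_span hg
  refine ⟨g, hgM, fun f hf => ?_⟩
  rw [← hs] at hf
  induction hf using Submodule.span_induction with
  | mem h hh => exact hmax h (Finset.mem_insert_of_mem hh)
  | zero => simp
  | add a b _ _ ha hb =>
    rw [Pi.add_apply, Pi.add_apply, add_sub_add_comm]
    exact A.valuation.map_add_le ha hb
  | smul r a _ ha =>
    rw [smul_fixRing, smul_fixRing, ← mul_sub, map_mul]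
    exact (mul_le_of_le_one_left' (val_fixRing_le r)).trans ha

theorem exists_small_max (τ : X) : ∃ g ∈ M, Small M τ (A.valuation (g τ - g 0)) :=
  hM.exists_max_diff τ 0

theorem small_nsmul {τ : X} {c : A.ValueGroup} (hτ : Small M τ c) (n : ℕ) : Small M (n • τ) c := by
  induction n with
  | zero => intro f _; simp
  | succ n ih => rw [succ_nsmul]; exact hM.small_add ih hτ

/-- Multiples of a point, to first order. -/
theorem val_nsmul_diff_le {f : X → Qb} (hf : f ∈ M) {τ : X} {c : A.ValueGroup} (hτ : Small M τ c)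
    (n : ℕ) : A.valuation (f (n • τ) - f 0 - (n : Qb) * (f τ - f 0)) ≤ c * c := by
  induction n with
  | zero => simp
  | succ n ih =>
    have e : f ((n + 1) • τ) - f 0 - ((n + 1 : ℕ) : Qb) * (f τ - f 0) =
        (f (n • τ + τ) - f (n • τ) - (f τ - f 0)) +
          (f (n • τ) - f 0 - (n : Qb) * (f τ - f 0)) := by
      rw [succ_nsmul]; push_cast; ring
    rw [e]
    exact A.valuation.map_add_le (hM.val_diff₂_le hf (hM.small_nsmul hτ n) hτ) ih

theorem val_max_ne_zero {τ : X} (hτ : τ ≠ 0) {c : A.ValueGroup} (h : Small M τ c) : c ≠ 0 := by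
  rintro rfl
  refine hτ (hM.separates τ 0 fun f hf => sub_eq_zero.1 ?_)
  simpa using h f hf

/-- Iterated differences along `τ`. -/
theorem val_fwdDiff_le {f : X → Qb} (hf : f ∈ M) {τ : X} {c : A.ValueGroup} (hτ : Small M τ c) :
    ∀ (i : ℕ) (x : X), A.valuation ((Δ_[τ])^[i] f x) ≤ c ^ i := by
  have key : ∀ i : ℕ, ∀ g ∈ M, ∀ x, A.valuation ((Δ_[τ])^[i] g x) ≤ c ^ i := by
    intro i
    induction i with
    | zero => intro g hg x; simpa using hM.val_le_one hg x
    | succ i ih =>
      intro g hg x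
      let L : (X × X → Qb) →ₗ[fixRing A J] (X → Qb) :=
        LinearMap.funLeft (fixRing A J) Qb fun y : X => (y, τ)
      have h := Submodule.mem_map_of_mem (f := L) (hM.diff_mem hg)
      rw [Submodule.map_span] at h
      have hd : (Δ_[τ] g) ∈ Submodule.span (fixRing A J) (L '' prodSet (M : Set (X → Qb))
          ((fun h x => h x - h 0) '' (M : Set (X → Qb)))) := h
      let D : (X → Qb) →ₗ[fixRing A J] (X → Qb) :=
        { toFun := (Δ_[τ])^[i]
          map_add' := fun a b => fwdDiff_iter_add _ _ _ _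
          map_smul' := fun r a => fwdDiff_iter_const_smul _ _ _ _ }
      have h2 := Submodule.mem_map_of_mem (f := D) hd
      rw [Submodule.map_span] at h2
      rw [Function.iterate_succ_apply]
      refine val_le_of_mem_span h2 ?_
      rintro _ ⟨_, ⟨_, ⟨a, ha, _, ⟨b, hb, rfl⟩, rfl⟩, rfl⟩, rfl⟩
      have e : L (fun z : X × X => a z.1 * (b z.2 - b 0)) = (b τ - b 0) • a := by
        funext y; simp [L, LinearMap.funLeft, mul_comm]
      show A.valuation ((Δ_[τ])^[i] (L _) x) ≤ _
      rw [e, fwdDiff_iter_const_smul, Pi.smul_apply, smul_eq_mul, map_mul, pow_succ']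
      exact mul_le_mul' (hτ b hb) (ih a ha x)
  exact fun i x => key i f hf x

/-- A non-zero point of order `p` is not too close to zero. -/
theorem val_p_le_pow {p : ℕ} [hp : Fact p.Prime] (hA : A.LiesOverPrime p) {τ : X} (hτ : τ ≠ 0)
    (hpτ : p • τ = 0) {c : A.ValueGroup} (hc : Small M τ c) :
    A.valuation (p : Qb) ≤ c ^ (p - 1) := by
  obtain ⟨g, hg, hmax⟩ := hM.exists_small_max τ
  refine le_trans ?_ (pow_le_pow_left' (hc g hg) _)
  set v := A.valuation (g τ - g 0) with hv
  have hv0 : v ≠ 0 := hM.val_max_ne_zero hτ hmax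
  by_contra hlt
  rw [not_le] at hlt
  have hp1 := hp.1.two_le
  have hv1 : v < 1 := by
    by_contra hge
    exact (hlt.trans hA).not_ge (one_le_pow₀ (not_lt.1 hge))
  have h := shift_eq_sum_fwdDiff_iter τ g p 0
  rw [zero_add, hpτ, Finset.sum_range_succ',
    show Finset.range p = Finset.range (p - 1 + 1) by rw [Nat.sub_add_cancel hp.1.one_le],
    Finset.sum_range_succ'] at h
  simp only [Function.iterate_zero, id, Nat.choose_zero_right, one_smul, Function.iterate_one,
    zero_add, Nat.choose_one_right] at h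
  have h1 : Δ_[τ] g 0 = g τ - g 0 := by rw [fwdDiff, zero_add]
  have h2 : (∑ k ∈ Finset.range (p - 1), p.choose (k + 1 + 1) • (Δ_[τ])^[k + 1 + 1] g 0) +
      (p : Qb) * (g τ - g 0) = 0 := by
    have e : p = p - 1 + 1 := by omega
    rw [← h1]
    rw [nsmul_eq_mul] at h
    linear_combination -h
  have hsum : A.valuation (∑ k ∈ Finset.range (p - 1), p.choose (k + 1 + 1) •
      (Δ_[τ])^[k + 1 + 1] g 0) < A.valuation (p : Qb) * v := by
    refine A.valuation.map_sum_lt (mul_ne_zero (natCast_val_ne_zero A hp.1) hv0) fun k hk => ?_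
    rw [Finset.mem_range] at hk
    rw [nsmul_eq_mul, map_mul]
    rcases eq_or_ne (k + 1 + 1) p with hkp | hkp
    · rw [hkp, Nat.choose_self, Nat.cast_one, map_one, one_mul]
      refine (hM.val_fwdDiff_le hg hmax p 0).trans_lt ?_
      conv_lhs => rw [show p = p - 1 + 1 by omega, pow_succ]
      exact mul_lt_mul_of_pos_right hlt (zero_lt_iff.2 hv0)
    · obtain ⟨m, hm⟩ := hp.1.dvd_choose_self (k := k + 1 + 1) (by omega) (by omega)
      rw [hm, Nat.cast_mul, map_mul]
      refine lt_of_le_of_lt (mul_le_mul' (mul_le_of_le_one_right'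
        (val_le_one_of_mem (natCast_mem A m))) (hM.val_fwdDiff_le hg hmax _ 0)) ?_
      refine mul_lt_mul_of_pos_left ?_ (zero_lt_iff.2 (natCast_val_ne_zero A hp.1))
      calc v ^ (k + 1 + 1) ≤ v ^ 2 := pow_le_pow_right_of_le_one' hv1.le (by omega)
        _ < v := by rw [sq]; exact mul_lt_of_lt_one_left (zero_lt_iff.2 hv0) hv1
  rw [eq_neg_of_add_eq_zero_left h2, Valuation.map_neg, map_mul] at hsum
  exact lt_irrefl _ hsum

end IsLModel

end

end FermatAgent.TW.Flat
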