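import Fermat.Agent.TW.Flat.Model

/-!
# Operations on local models: sub-groups, base change, models from finite flat group schemes
-/

set_option autoImplicit false

namespace FermatAgent.TW.Flat

open FermatAgent.Local FermatAgent.GalRep.Flat

noncomputable section

local notation "Qb" => AlgebraicClosure ℚ
local notation "GQ" => AlgebraicClosure ℚ ≃ₐ[ℚ] AlgebraicClosure ℚ

variable {A : ValuationSubring Qb} {J : Subgroup GQ} {X : Type} [AddCommGroup X]
  {act : GQ → X → X} {M : Submodule (fixRing A J) (X → Qb)}

namespace IsLModel

variable (hM : IsLModel act M)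
include hM

theorem act_add {σ : GQ} (hσ : σ ∈ J) (x y : X) : act σ (x + y) = act σ x + act σ y := by
  refine hM.separates _ _ fun f hf => ?_
  rw [hM.equivariant f hf σ hσ]
  have key : ∀ φ ∈ Submodule.span (fixRing A J) (prodSet (M : Set (X → Qb)) M),
      φ (act σ x, act σ y) = σ (φ (x, y)) := by
    intro φ hφ
    induction hφ using Submodule.span_induction with
    | mem φ h =>
      obtain ⟨g, hg, h', hh', rfl⟩ := h
      simp only [hM.equivariant g hg σ hσ, hM.equivariant h' hh' σ hσ, map_mul]
    | zero => simp
    | add a b _ _ ha hb => simp only [Pi.add_apply, ha, hb, map_add]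
    | smul r a _ ha => rw [smul_fixRing, smul_fixRing, ha, map_mul, r.2.2 σ hσ]
  exact (key _ (hM.comul f hf)).symm

theorem act_zero {σ : GQ} (hσ : σ ∈ J) : act σ 0 = 0 := by
  have h := hM.act_add hσ 0 0
  rw [add_zero] at h
  exact right_eq_add.mp h

theorem apply_fixed {f : X → Qb} (hf : f ∈ M) {x : X} {σ : GQ} (hσ : σ ∈ J) (hx : act σ x = x) :
    σ (f x) = f x := by
  rw [← hM.equivariant f hf σ hσ, hx]

theorem apply_zero_fixed {f : X → Qb} (hf : f ∈ M) {σ : GQ} (hσ : σ ∈ J) : σ (f 0) = f 0 :=
  hM.apply_fixed hf hσ (hM.act_zero hσ)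

theorem apply_zero_mem {f : X → Qb} (hf : f ∈ M) : f 0 ∈ fixRing A J :=
  ⟨hM.mem_A hf 0, fun _ hσ => hM.apply_zero_fixed hf hσ⟩

/-- A fixed point reducing to zero is within the uniformiser of zero. -/
theorem small_of_inC {u : A.ValueGroup} (hu : Uniform A J u) {τ : X}
    (hτ : ∀ σ ∈ J, act σ τ = τ) (h : InC M τ) : Small M τ u := fun f hf =>
  hu.le_of_lt_one (fun σ hσ => by
    rw [map_sub, hM.apply_fixed hf hσ (hτ σ hσ), hM.apply_zero_fixed hf hσ]) (h f hf)

section restrict

variable {X' : Type} [AddCommGroup X'] {act' : GQ → X' → X'} (ι : X' →+ X)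

theorem restrict (hι : Function.Injective ι) (hact : ∀ σ ∈ J, ∀ x, ι (act' σ x) = act σ (ι x)) :
    IsLModel act' (M.map (LinearMap.funLeft (fixRing A J) Qb ι)) where
  fg := hM.fg.map _
  one_mem := ⟨1, hM.one_mem, rfl⟩
  mul_mem := by
    rintro _ ⟨f, hf, rfl⟩ _ ⟨g, hg, rfl⟩
    exact ⟨f * g, hM.mul_mem f hf g hg, rfl⟩
  equivariant := by
    rintro _ ⟨f, hf, rfl⟩ σ hσ x
    show f (ι (act' σ x)) = σ (f (ι x))
    rw [hact σ hσ, hM.equivariant f hf σ hσ]
  separates x y h := hι (hM.separates _ _ fun f hf => h _ ⟨f, hf, rfl⟩)
  comul := by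
    rintro _ ⟨f, hf, rfl⟩
    have h := Submodule.mem_map_of_mem
      (f := LinearMap.funLeft (fixRing A J) Qb (Prod.map ι ι)) (hM.comul f hf)
    rw [Submodule.map_span] at h
    have e : (LinearMap.funLeft (fixRing A J) Qb (Prod.map ι ι)) (fun z => f (z.1 + z.2)) =
        fun z : X' × X' => (LinearMap.funLeft (fixRing A J) Qb ι f) (z.1 + z.2) := by
      funext z; simp [LinearMap.funLeft]
    rw [e] at h
    refine Submodule.span_mono ?_ h
    rintro _ ⟨_, ⟨g, hg, g', hg', rfl⟩, rfl⟩
    exact ⟨_, ⟨g, hg, rfl⟩, _, ⟨g', hg', rfl⟩, rfl⟩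

end restrict

end IsLModel

theorem small_restrict {X' : Type} [AddCommGroup X'] (ι : X' →+ X) {τ : X'} {c : A.ValueGroup} :
    Small (M.map (LinearMap.funLeft (fixRing A J) Qb ι)) τ c ↔ Small M (ι τ) c := by
  constructor
  · intro h f hf
    simpa [LinearMap.funLeft] using h _ ⟨f, hf, rfl⟩
  · rintro h _ ⟨f, hf, rfl⟩
    simpa [LinearMap.funLeft] using h f hf

theorem inC_restrict {X' : Type} [AddCommGroup X'] (ι : X' →+ X) {τ : X'} :
    InC (M.map (LinearMap.funLeft (fixRing A J) Qb ι)) τ ↔ InC M (ι τ) := by
  constructor
  · intro h f hf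
    simpa [LinearMap.funLeft] using h _ ⟨f, hf, rfl⟩
  · rintro h _ ⟨f, hf, rfl⟩
    simpa [LinearMap.funLeft] using h f hf

section baseChange

variable (M) (J' : Subgroup GQ)

/-- Extension of the scalars to the integers fixed by a smaller group. -/
def baseChange : Submodule (fixRing A J') (X → Qb) := Submodule.span _ (M : Set (X → Qb))

variable {M} {J'}

omit [AddCommGroup X] in
theorem mem_baseChange {f : X → Qb} (hf : f ∈ M) : f ∈ baseChange M J' := Submodule.subset_span hf

variable (hJ : J' ≤ J)
include hJ

theorem span_le_of_le {Y : Type} {S : Set (Y → Qb)} {f : Y → Qb}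
    (hf : f ∈ Submodule.span (fixRing A J) S) : f ∈ Submodule.span (fixRing A J') S := by
  induction hf using Submodule.span_induction with
  | mem g hg => exact Submodule.subset_span hg
  | zero => exact zero_mem _
  | add a b _ _ ha hb => exact add_mem ha hb
  | smul r a _ ha =>
    exact Submodule.smul_mem _ (⟨r, r.2.1, fun σ hσ => r.2.2 σ (hJ hσ)⟩ : fixRing A J') ha

theorem IsLModel.baseChange (hM : IsLModel act M) : IsLModel act (baseChange M J') where
  fg := by
    obtain ⟨s, hs⟩ := hM.fg
    refine ⟨s, le_antisymm (Submodule.span_le.2 fun g hg => mem_baseChange (hs ▸ Submodule.subset_span hg))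
      (Submodule.span_le.2 fun g hg => span_le_of_le hJ (hs.symm ▸ hg))⟩
  one_mem := mem_baseChange hM.one_mem
  mul_mem f hf g hg := by
    induction hf using Submodule.span_induction with
    | mem f hf =>
      induction hg using Submodule.span_induction with
      | mem g hg => exact mem_baseChange (hM.mul_mem f hf g hg)
      | zero => rw [mul_zero]; exact zero_mem _
      | add a b _ _ ha hb => rw [mul_add]; exact add_mem ha hb
      | smul r a _ ha => rw [mul_smul_comm]; exact Submodule.smul_mem _ r ha
    | zero => rw [zero_mul]; exact zero_mem _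
    | add a b _ _ ha hb => rw [add_mul]; exact add_mem ha hb
    | smul r a _ ha => rw [smul_mul_assoc]; exact Submodule.smul_mem _ r ha
  equivariant f hf σ hσ x := by
    induction hf using Submodule.span_induction with
    | mem g hg => exact hM.equivariant g hg σ (hJ hσ) x
    | zero => simp
    | add a b _ _ ha hb => simp only [Pi.add_apply, ha, hb, map_add]
    | smul r a _ ha => rw [smul_fixRing, smul_fixRing, ha, map_mul, r.2.2 σ hσ]
  separates x y h := hM.separates x y fun f hf => h f (mem_baseChange hf)
  comul f hf := by
    induction hf using Submodule.span_induction with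
    | mem g hg =>
      refine Submodule.span_mono ?_ (span_le_of_le hJ (hM.comul g hg))
      rintro _ ⟨a, ha, b, hb, rfl⟩
      exact ⟨a, mem_baseChange ha, b, mem_baseChange hb, rfl⟩
    | zero => exact zero_mem _
    | add a b _ _ ha hb => exact add_mem ha hb
    | smul r a _ ha => exact Submodule.smul_mem _ r ha

omit hJ in
theorem inC_baseChange {τ : X} (h : InC M τ) : InC (Flat.baseChange M J') τ := fun f hf => by
  induction hf using Submodule.span_induction with
  | mem g hg => exact h g hg
  | zero => simp
  | add a b _ _ ha hb =>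
    rw [Pi.add_apply, Pi.add_apply, add_sub_add_comm]
    exact A.valuation.map_add_lt ha hb
  | smul r a _ ha =>
    rw [smul_fixRing, smul_fixRing, ← mul_sub, map_mul]
    exact (mul_le_of_le_one_left' (val_fixRing_le r)).trans_lt ha

end baseChange

section ofFunctionModel

variable {p : ℕ} [Fact p.Prime] (G : FunctionModel p X act)

/-- The local model over `J` spanned by a global one. -/
def ofFunctionModel (A : ValuationSubring Qb) (J : Subgroup GQ) :
    Submodule (fixRing A J) (X → Qb) :=
  Submodule.span _ (G.A : Set (X → Qb))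

theorem smul_rp_mem_span (hA : A.LiesOverPrime p) {Y : Type} {S : Set (Y → Qb)} {φ : Y → Qb}
    (r : GaloisRep.ratLocalizedAt p) (hφ : φ ∈ Submodule.span (fixRing A J) S) :
    (r • φ) ∈ Submodule.span (fixRing A J) S := by
  have hr : ((r : ℚ) : Qb) ∈ fixRing A J :=
    ⟨LocalP.FlatModel.ratLocalized_mem Fact.out hA r, fun σ _ => map_ratCast σ _⟩
  have e : r • φ = (⟨_, hr⟩ : fixRing A J) • φ := funext fun y => smul_qbar_eq r (φ y)
  rw [e]
  exact Submodule.smul_mem _ _ hφ

theorem isLModel_ofFunctionModel (hA : A.LiesOverPrime p) :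
    IsLModel act (ofFunctionModel G A J) where
  fg := by
    obtain ⟨s, hs⟩ := G.fg
    refine ⟨s, le_antisymm (Submodule.span_mono fun g hg => ?_) (Submodule.span_le.2 fun g hg => ?_)⟩
    · show g ∈ Subalgebra.toSubmodule G.A
      exact hs ▸ Submodule.subset_span hg
    · have hg' : g ∈ Submodule.span (GaloisRep.ratLocalizedAt p) (s : Set (X → Qb)) := hs.symm ▸ hg
      clear hg
      induction hg' using Submodule.span_induction with
      | mem g hg => exact Submodule.subset_span hg
      | zero => exact zero_mem _
      | add a b _ _ ha hb => exact add_mem ha hb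
      | smul r a h ha => exact smul_rp_mem_span hA r ha
  one_mem := Submodule.subset_span G.A.one_mem
  mul_mem f hf g hg := by
    induction hf using Submodule.span_induction with
    | mem f hf =>
      induction hg using Submodule.span_induction with
      | mem g hg => exact Submodule.subset_span (G.A.mul_mem hf hg)
      | zero => rw [mul_zero]; exact zero_mem _
      | add a b _ _ ha hb => rw [mul_add]; exact add_mem ha hb
      | smul r a _ ha => rw [mul_smul_comm]; exact Submodule.smul_mem _ r ha
    | zero => rw [zero_mul]; exact zero_mem _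
    | add a b _ _ ha hb => rw [add_mul]; exact add_mem ha hb
    | smul r a _ ha => rw [smul_mul_assoc]; exact Submodule.smul_mem _ r ha
  equivariant f hf σ hσ x := by
    induction hf using Submodule.span_induction with
    | mem g hg => exact G.equivariant g hg σ x
    | zero => simp
    | add a b _ _ ha hb => simp only [Pi.add_apply, ha, hb, map_add]
    | smul r a _ ha => rw [smul_fixRing, smul_fixRing, ha, map_mul, r.2.2 σ hσ]
  separates x y h := G.separates x y fun f hf => h f (Submodule.subset_span hf)
  comul f hf := by
    induction hf using Submodule.span_induction with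
    | mem g hg =>
      obtain ⟨t, ht⟩ := G.add_mem g hg
      have key : (prodTensor G.A.val G.A.val t : X × X → Qb) ∈ Submodule.span (fixRing A J)
          (prodSet (ofFunctionModel G A J : Set (X → Qb)) (ofFunctionModel G A J)) := by
        clear ht
        induction t using TensorProduct.induction_on with
        | zero => rw [map_zero]; exact zero_mem _
        | tmul a b =>
          exact Submodule.subset_span ⟨a, Submodule.subset_span a.2, b,
            Submodule.subset_span b.2, funext fun z => prodTensor_tmul _ _ a b z⟩
        | add a b ha hb => rw [map_add]; exact add_mem ha hb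
      rw [show (fun z : X × X => g (z.1 + z.2)) = prodTensor G.A.val G.A.val t from
        funext fun z => (congrFun ht z).symm]
      exact key
    | zero => exact zero_mem _
    | add a b _ _ ha hb => exact add_mem ha hb
    | smul r a _ ha => exact Submodule.smul_mem _ r ha

omit [Fact p.Prime] in
/-- A global model is stable under every element of the decomposition group. -/
theorem inC_act_of_decomposition {σ : GQ} (hσ : σ ∈ A.decompositionSubgroup ℚ) {x : X}
    (h : InC (ofFunctionModel G A J) x) : InC (ofFunctionModel G A J) (act σ x) := fun f hf => by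
  induction hf using Submodule.span_induction with
  | mem g hg =>
    have h0 : act σ 0 = 0 := G.act_zero σ
    rw [show g 0 = g (act σ 0) by rw [h0], G.equivariant g hg, G.equivariant g hg, ← map_sub,
      val_galois_eq hσ]
    exact h g (Submodule.subset_span hg)
  | zero => simp
  | add a b _ _ ha hb =>
    rw [Pi.add_apply, Pi.add_apply, add_sub_add_comm]
    exact A.valuation.map_add_lt ha hb
  | smul r a _ ha =>
    rw [smul_fixRing, smul_fixRing, ← mul_sub, map_mul]
    exact (mul_le_of_le_one_left' (val_fixRing_le r)).trans_lt ha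

end ofFunctionModel

end

end FermatAgent.TW.Flat
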