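import Fermat.Agent.TW.Flat.Disc
import Mathlib.LinearAlgebra.Vandermonde
import Mathlib.LinearAlgebra.Matrix.Determinant.Basic

/-!
# Modules on whose non-zero points inertia acts through one orbit of a tame root

For `π ^ e = -p` an `OrbitCoord` sends the non-zero points bijectively to the rotations of `π`.
-/

set_option autoImplicit false

namespace FermatAgent.TW.Flat

open FermatAgent.Local

noncomputable section

local notation "Qb" => AlgebraicClosure ℚ
local notation "GQ" => AlgebraicClosure ℚ ≃ₐ[ℚ] AlgebraicClosure ℚ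

variable {A : ValuationSubring Qb}

/-- The tame character of `π`. -/
def theta (A : ValuationSubring Qb) (π : Qb) (σ : GQ) : IsLocalRing.ResidueField A :=
  res A (σ π / π)

/-- Numbers with all differences of the same value have a Vandermonde determinant of known value. -/
theorem val_det_vandermonde_sq {n : ℕ} (v : Fin n → Qb) {c : A.ValueGroup}
    (h : ∀ i j, i ≠ j → A.valuation (v i - v j) = c) :
    A.valuation (Matrix.vandermonde v).det ^ 2 = c ^ (n * (n - 1)) := by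
  have hs : ∑ i : Fin n, (Finset.Ioi i).card = ∑ i ∈ Finset.range n, i := by
    simp only [Fin.card_Ioi]
    rw [Fin.sum_univ_eq_sum_range fun i => n - 1 - i]
    exact Finset.sum_range_reflect (fun i => i) n
  rw [Matrix.det_vandermonde, map_prod, Finset.prod_congr rfl fun i _ => by
    rw [map_prod, Finset.prod_congr rfl fun j hj => h j i (Finset.mem_Ioi.1 hj).ne',
      Finset.prod_const], Finset.prod_pow_eq_pow_sum, hs, ← pow_mul, Finset.sum_range_id_mul_two]

variable {p : ℕ} [Fact p.Prime] {e : ℕ} [NeZero e] {π : Qb} (hπ : π ^ e = -(p : Qb))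
  (hA : A.LiesOverPrime p) (hpe : ¬ p ∣ e)
include hπ hA hpe

omit hπ in
/-- Distinct `e`-th roots of unity have distinct residues. -/
theorem val_root_sub_root {η η' : Qb} (hη : η ^ e = 1) (hη' : η' ^ e = 1) (hne : η ≠ η') :
    A.valuation (η - η') = 1 := by
  have hv : ∀ z : Qb, z ^ e = 1 → A.valuation z = 1 := fun z hz =>
    eq_one_of_pow_eq_one (NeZero.ne e) (by rw [← map_pow, hz, map_one])
  have h0 : η' ≠ 0 := by rintro rfl; simp [NeZero.ne e] at hη'
  refine le_antisymm ((A.valuation.map_sub _ _).trans (max_le (hv _ hη).le (hv _ hη').le))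
    (not_lt.1 fun h => hne ?_)
  have h1 := eq_one_of_pow_eq_one_of_close hA hpe (η := η / η')
    (by rw [div_pow, hη, hη', div_one]) (by
      rw [div_sub_one h0, map_div₀, hv _ hη', div_one]; exact h)
  exact (div_eq_one_iff_eq h0).1 h1

-- Kept: omitting the unused hypotheses would change the signature of a used lemma.
set_option linter.unusedSectionVars false in
theorem theta_mul {σ τ : GQ} (hσ : σ ∈ A.inertiaSubgroupIn ℚ) (hτ : τ ∈ A.inertiaSubgroupIn ℚ) :
    theta A π (σ * τ) = theta A π σ * theta A π τ := by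
  have h0 := root_ne_zero hπ
  have hd := fun {s : GQ} (hs : s ∈ A.inertiaSubgroupIn ℚ) => mem_decomposition_of_inertia hs
  simp only [theta, ← tameVal_eq_res h0 (hd hσ), ← tameVal_eq_res h0 (hd hτ),
    ← tameVal_eq_res h0 (hd (mul_mem hσ hτ))]
  exact tameVal_mul h0 hσ hτ

theorem theta_eq_one_iff {σ : GQ} (hσ : σ ∈ A.inertiaSubgroupIn ℚ) :
    theta A π σ = 1 ↔ σ π = π := by
  have h0 := root_ne_zero hπ
  rw [← div_eq_one_iff_eq (a := σ π) h0]
  refine ⟨fun h => ?_, fun h => by rw [theta, h, res_one]⟩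
  refine eq_one_of_pow_eq_one_of_close hA hpe (root_ratio_pow hπ σ) ?_
  rwa [theta, ← res_one (A := A),
    res_eq_res_iff (ratio_mem (mem_decomposition_of_inertia hσ) h0) A.one_mem] at h

omit hA hpe in
theorem theta_pow_e {σ : GQ} (hσ : σ ∈ A.inertiaSubgroupIn ℚ) : theta A π σ ^ e = 1 := by
  rw [theta, ← res_pow (ratio_mem (mem_decomposition_of_inertia hσ) (root_ne_zero hπ)),
    root_ratio_pow hπ σ, res_one]

/-- A generator of the tame quotient of level `e`. -/
theorem exists_tameGen : ∃ τ ∈ A.inertiaSubgroupIn ℚ, ∃ ξ : Qb, IsPrimitiveRoot ξ e ∧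
    (∀ i : ℕ, (τ ^ i) π = ξ ^ i * π) ∧
    ∀ σ ∈ A.inertiaSubgroupIn ℚ, ∃ i < e, ∃ s ∈ stabRoot A π, σ = τ ^ i * s := by
  obtain ⟨ξ, hξ⟩ := HasEnoughRootsOfUnity.exists_primitiveRoot Qb e
  obtain ⟨τ, hτ, hτπ⟩ := exists_rot hπ hA hpe hξ.pow_eq_one
  have hpow : ∀ i : ℕ, (τ ^ i) π = ξ ^ i * π := by
    intro i
    induction i with
    | zero => simp
    | succ i ih =>
      rw [pow_succ', AlgEquiv.mul_apply, ih, map_mul, map_pow,
        inertia_fix_root hA (NeZero.ne e) hpe hξ.pow_eq_one hτ, hτπ, pow_succ]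
      ring
  refine ⟨τ, hτ, ξ, hξ, hpow, fun σ hσ => ?_⟩
  obtain ⟨i, hi, hiξ⟩ := hξ.eq_pow_of_pow_eq_one (root_ratio_pow hπ σ)
  refine ⟨i, hi, (τ ^ i)⁻¹ * σ,
    mem_stabRoot.2 ⟨mul_mem (inv_mem (pow_mem hτ i)) hσ, ?_⟩, (mul_inv_cancel_left _ _).symm⟩
  refine (τ ^ i).injective ?_
  rw [← AlgEquiv.mul_apply, mul_inv_cancel_left, hpow, hiξ, div_mul_cancel₀ _ (root_ne_zero hπ)]

/-- The stabiliser of `π` is normal in inertia. -/
theorem conj_mem_stabRoot {g s : GQ} (hg : g ∈ A.inertiaSubgroupIn ℚ) (hs : s ∈ stabRoot A π) :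
    g⁻¹ * s * g ∈ stabRoot A π := by
  refine mem_stabRoot.2 ⟨mul_mem (mul_mem (inv_mem hg) hs.1) hg, g.injective ?_⟩
  have h1 : g π = g π / π * π := (div_mul_cancel₀ _ (root_ne_zero hπ)).symm
  rw [← AlgEquiv.mul_apply, mul_assoc g⁻¹, mul_inv_cancel_left, AlgEquiv.mul_apply, h1, map_mul,
    inertia_fix_root hA (NeZero.ne e) hpe (root_ratio_pow hπ g) hs.1, (mem_stabRoot.1 hs).2]

/-- An element fixed by the stabiliser of `π`, in powers of `π` over the fixed ring of inertia. -/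
theorem exists_fixed_expansion {z : Qb} (hz : ∀ s ∈ stabRoot A π, s z = z)
    (hz1 : A.valuation z ≤ 1) :
    ∃ b : Fin e → fixRing A (A.inertiaSubgroupIn ℚ),
      z = ∑ k : Fin e, (b k : Qb) * π ^ (k : ℕ) := by
  classical
  have hp := (Fact.out : p.Prime)
  have h0 := root_ne_zero hπ
  obtain ⟨τ, hτ, ξ, hξ, hpow, hgen⟩ := exists_tameGen hπ hA hpe
  have hξI : ∀ σ ∈ A.inertiaSubgroupIn ℚ, σ ξ = ξ := fun σ hσ =>
    inertia_fix_root hA (NeZero.ne e) hpe hξ.pow_eq_one hσ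
  have hξ0 : ξ ≠ 0 := hξ.ne_zero (NeZero.ne e)
  have he0 : (e : Qb) ≠ 0 := Nat.cast_ne_zero.2 (NeZero.ne e)
  let c : ℕ → Qb := fun k => (e : Qb)⁻¹ * (∑ i ∈ Finset.range e, (ξ ^ (i * k))⁻¹ * (τ ^ i) z)
  have hτe : τ ^ e ∈ stabRoot A π :=
    mem_stabRoot.2 ⟨pow_mem hτ e, by rw [hpow, hξ.pow_eq_one, one_mul]⟩
  have hfix : ∀ k : ℕ, ∀ σ ∈ A.inertiaSubgroupIn ℚ, σ (c k / π ^ k) = c k / π ^ k := by
    intro k
    have hτc : τ (c k / π ^ k) = c k / π ^ k := by
      have hτ1 : τ π = ξ * π := by simpa using hpow 1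
      have hshift : ∑ i ∈ Finset.range e, (ξ ^ (i * k))⁻¹ * (τ ^ (i + 1)) z =
          ξ ^ k * ∑ i ∈ Finset.range e, (ξ ^ (i * k))⁻¹ * (τ ^ i) z := by
        set G : ℕ → Qb := fun i => (ξ ^ (i * k))⁻¹ * (τ ^ i) z
        have hG : ∀ i, (ξ ^ (i * k))⁻¹ * (τ ^ (i + 1)) z = ξ ^ k * G (i + 1) := fun i => by
          simp only [G, add_mul, one_mul, pow_add, mul_inv]
          field_simp
        have hGe : G e = G 0 := by
          simp only [G, pow_mul, hξ.pow_eq_one, hz _ hτe, pow_zero, one_pow,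
            AlgEquiv.one_apply]
        rw [Finset.sum_congr rfl fun i _ => hG i, ← Finset.mul_sum]
        congr 1
        have h1 := Finset.sum_range_succ' G e
        rw [Finset.sum_range_succ, hGe] at h1
        exact (add_right_cancel h1).symm
      simp only [c, map_div₀, map_mul, map_inv₀, map_natCast, map_sum, map_pow, hξI τ hτ, hτ1,
        ← AlgEquiv.mul_apply, ← pow_succ', hshift, mul_pow]
      field_simp
    intro σ hσ
    obtain ⟨i, -, s, hs, rfl⟩ := hgen σ hσ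
    have hsc : s (c k / π ^ k) = c k / π ^ k := by
      simp only [c, map_div₀, map_mul, map_inv₀, map_natCast, map_sum, map_pow, hξI s hs.1,
        (mem_stabRoot.1 hs).2]
      congr 2
      refine Finset.sum_congr rfl fun j _ => ?_
      have h := congrArg (τ ^ j) (hz _ (conj_mem_stabRoot hπ hA hpe (pow_mem hτ j) hs))
      rw [← AlgEquiv.mul_apply, mul_assoc (τ ^ j)⁻¹, mul_inv_cancel_left,
        AlgEquiv.mul_apply] at h
      rw [h]
    rw [AlgEquiv.mul_apply, hsc]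
    clear hσ
    induction i with
    | zero => simp
    | succ i ih => rw [pow_succ, AlgEquiv.mul_apply, hτc, ih]
  have hsum : z = ∑ k ∈ Finset.range e, c k := by
    simp only [c, ← Finset.mul_sum]
    rw [Finset.sum_comm, Finset.sum_eq_single 0]
    · simp [inv_mul_cancel_left₀ he0]
    · intro i hi hi0
      rw [← Finset.sum_mul]
      refine mul_eq_zero_of_left ?_ _
      have h1 : ξ ^ i ≠ 1 := hξ.pow_ne_one_of_pos_of_lt hi0 (Finset.mem_range.1 hi)
      have e1 : ∀ k : ℕ, (ξ ^ (i * k))⁻¹ = ((ξ ^ i)⁻¹) ^ k := fun k => by rw [inv_pow, pow_mul]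
      simp only [e1]
      have := geom_sum_mul ((ξ ^ i)⁻¹) e
      rw [inv_pow, ← pow_mul, mul_comm i, pow_mul, hξ.pow_eq_one, one_pow, inv_one, sub_self,
        mul_eq_zero] at this
      exact this.resolve_right (sub_ne_zero.2 fun h => h1 (inv_eq_one.1 h))
    · exact fun h => absurd (Finset.mem_range.2 (Nat.pos_of_ne_zero (NeZero.ne e))) h
  have hvc : ∀ k, A.valuation (c k) ≤ 1 := fun k => by
    simp only [c]
    rw [map_mul, map_inv₀, val_natCast_eq_one hp hA hpe, inv_one, one_mul]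
    refine A.valuation.map_sum_le fun i _ => ?_
    have hξv : A.valuation ξ = 1 := eq_one_of_pow_eq_one (NeZero.ne e)
      (by rw [← map_pow, hξ.pow_eq_one, map_one])
    rw [map_mul, map_inv₀, map_pow, hξv, one_pow, inv_one, one_mul,
      val_galois_eq (mem_decomposition_of_inertia (pow_mem hτ i))]
    exact hz1
  set u := A.valuation π with hu
  have hu' := uniform_stabRoot hπ hA hpe
  have hint : ∀ k : Fin e, c (k : ℕ) / π ^ (k : ℕ) ∈ A := by
    intro k
    rcases eq_or_ne (c k) 0 with h | h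
    · simp [h, A.zero_mem]
    obtain ⟨n, hn⟩ := (uniform_inertia (A := A) hA).fixed _ (div_ne_zero h (pow_ne_zero _ h0))
      (hfix k)
    refine mem_of_val_le_one ?_
    rw [hn]
    have hk : A.valuation (c k) = u ^ ((e : ℤ) * n + (k : ℕ)) := by
      rw [map_div₀, map_pow, div_eq_iff (pow_ne_zero _ hu'.ne_zero), ← val_root_pow hπ] at hn
      rw [hn, zpow_add₀ hu'.ne_zero, zpow_mul, zpow_natCast, zpow_natCast]
    have h1 := hvc k
    rw [hk, ← zpow_zero u, zpow_le_zpow_iff' hu'.ne_zero hu'.lt_one] at h1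
    have hn0 : 0 ≤ n := by
      by_contra hn0
      have h2 : (e : ℤ) * n ≤ (e : ℤ) * (-1) := by gcongr; omega
      have := k.2
      omega
    obtain ⟨m, rfl⟩ := Int.eq_ofNat_of_zero_le hn0
    rw [zpow_natCast]
    exact pow_le_one₀ zero_le hA.le
  refine ⟨fun k => ⟨c k / π ^ (k : ℕ), hint k, hfix k⟩, ?_⟩
  rw [hsum, ← Fin.sum_univ_eq_sum_range c]
  exact Finset.sum_congr rfl fun k _ => (div_mul_cancel₀ _ (pow_ne_zero _ h0)).symm

omit hπ hA hpe

variable {Y : Type} [AddCommGroup Y]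

/-- A coordinate identifying the non-zero points with the rotations of `π`. -/
structure OrbitCoord (A : ValuationSubring Qb) (π : Qb) (act : GQ → Y → Y) where
  x : Y → Qb
  x_zero : x 0 = 0
  y₁ : Y
  x_y₁ : x y₁ = π
  inj : Function.Injective x
  equiv : ∀ σ ∈ A.inertiaSubgroupIn ℚ, ∀ y, x (act σ y) = σ (x y)
  trans : ∀ y, y ≠ 0 → ∃ σ ∈ A.inertiaSubgroupIn ℚ, act σ y₁ = y

include hπ hA hpe in
theorem exists_orbitCoord [Module (ZMod p) Y] [Fintype Y] (ρ : GQ → Y ≃ₗ[ZMod p] Y)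
    (hmul : ∀ σ ∈ A.inertiaSubgroupIn ℚ, ∀ τ ∈ A.inertiaSubgroupIn ℚ, ∀ y,
      ρ (σ * τ) y = ρ σ (ρ τ y))
    (hfree : ∀ σ ∈ A.inertiaSubgroupIn ℚ, ∀ y, y ≠ 0 → (ρ σ y = y ↔ σ π = π))
    (hcard : Fintype.card Y = e + 1) : Nonempty (OrbitCoord A π fun σ => ρ σ) := by
  classical
  have h0 := root_ne_zero hπ
  obtain ⟨τ, hτ, ξ, hξ, hpow, hgen⟩ := exists_tameGen hπ hA hpe
  obtain ⟨y₁, hy₁⟩ : ∃ y₁ : Y, y₁ ≠ 0 :=
    Fintype.exists_ne_of_one_lt_card (by rw [hcard]; have := NeZero.ne e; omega) 0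
  have hone : ∀ y, ρ 1 y = y := fun y => (ρ 1).injective (by
    rw [← hmul 1 (one_mem _) 1 (one_mem _), one_mul])
  have hiff : ∀ σ ∈ A.inertiaSubgroupIn ℚ, ∀ τ ∈ A.inertiaSubgroupIn ℚ,
      (ρ σ y₁ = ρ τ y₁ ↔ σ π = τ π) := by
    intro σ hσ τ hτ
    have h1 : ρ (τ⁻¹ * σ) y₁ = y₁ ↔ ρ σ y₁ = ρ τ y₁ := by
      rw [← (ρ τ).injective.eq_iff, ← hmul τ hτ _ (mul_mem (inv_mem hτ) hσ), mul_inv_cancel_left]
    have h2 : (τ⁻¹ * σ) π = π ↔ σ π = τ π := by
      rw [← τ.injective.eq_iff, ← AlgEquiv.mul_apply, mul_inv_cancel_left]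
    rw [← h1, ← h2]
    exact hfree _ (mul_mem (inv_mem hτ) hσ) _ hy₁
  let ev : Fin e → {y : Y // y ≠ 0} := fun i =>
    ⟨ρ (τ ^ (i : ℕ)) y₁, fun h => hy₁ ((ρ _).injective (h.trans (map_zero _).symm))⟩
  have hev : Function.Injective ev := fun i j h => by
    have h1 := (hiff _ (pow_mem hτ _) _ (pow_mem hτ _)).1 (congrArg Subtype.val h)
    rw [hpow, hpow] at h1
    exact Fin.ext (hξ.pow_inj i.2 j.2 (mul_right_cancel₀ h0 h1))
  have hsurj : Function.Surjective ev :=
    ((Fintype.bijective_iff_injective_and_card ev).2 ⟨hev, by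
      rw [Fintype.card_fin, Fintype.card_subtype_compl, Fintype.card_subtype_eq, hcard]
      omega⟩).2
  have htrans : ∀ y, y ≠ 0 → ∃ σ ∈ A.inertiaSubgroupIn ℚ, ρ σ y₁ = y := fun y hy => by
    obtain ⟨i, hi⟩ := hsurj ⟨y, hy⟩
    exact ⟨_, pow_mem hτ _, congrArg Subtype.val hi⟩
  choose! sec hsecI hsec using htrans
  let x : Y → Qb := fun y => if y = 0 then 0 else sec y π
  have hx : ∀ σ ∈ A.inertiaSubgroupIn ℚ, x (ρ σ y₁) = σ π := fun σ hσ => by
    have hne : ρ σ y₁ ≠ 0 := fun h => hy₁ ((ρ σ).injective (h.trans (map_zero _).symm))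
    simp only [x, if_neg hne]
    exact (hiff _ (hsecI _ hne) _ hσ).1 (hsec _ hne)
  refine ⟨⟨x, if_pos rfl, y₁, ?_, fun y y' h => ?_, fun σ hσ y => ?_,
    fun y hy => ⟨sec y, hsecI y hy, hsec y hy⟩⟩⟩
  · have := hx 1 (one_mem _)
    rwa [hone] at this
  · rcases eq_or_ne y 0 with rfl | hy <;> rcases eq_or_ne y' 0 with rfl | hy'
    · rfl
    · simp only [x, if_pos, if_neg hy'] at h
      exact absurd ((sec y').injective (h.symm.trans (map_zero _).symm)) h0
    · simp only [x, if_pos, if_neg hy] at h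
      exact absurd ((sec y).injective (h.trans (map_zero _).symm)) h0
    · rw [← hsec y hy, ← hsec y' hy'] at h ⊢
      rw [hx _ (hsecI y hy), hx _ (hsecI y' hy')] at h
      exact (hiff _ (hsecI y hy) _ (hsecI y' hy')).2 h
  · rcases eq_or_ne y 0 with rfl | hy
    · simp [x]
    · show x (ρ σ y) = σ (x y)
      rw [← hsec y hy, ← hmul σ hσ _ (hsecI y hy), hx _ (mul_mem hσ (hsecI y hy)),
        hx _ (hsecI y hy), AlgEquiv.mul_apply]

namespace OrbitCoord

variable {act : GQ → Y → Y} (O : OrbitCoord A π act)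
include hπ hA hpe

omit [Fact p.Prime] [NeZero e] in
omit hA hpe in
theorem pow_e {y : Y} (hy : y ≠ 0) : O.x y ^ e = -(p : Qb) := by
  obtain ⟨σ, hσ, rfl⟩ := O.trans y hy
  rw [O.equiv σ hσ, O.x_y₁, ← map_pow, hπ, map_neg, map_natCast]

-- Kept: omitting the unused hypotheses would change the signature of a used lemma.
set_option linter.unusedSectionVars false in
theorem val_x {y : Y} (hy : y ≠ 0) : A.valuation (O.x y) = A.valuation π := by
  obtain ⟨σ, hσ, rfl⟩ := O.trans y hy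
  rw [O.equiv σ hσ, O.x_y₁, val_galois_eq (mem_decomposition_of_inertia hσ)]

/-- The distances between the coordinates. -/
theorem val_x_sub {y y' : Y} (h : y ≠ y') : A.valuation (O.x y - O.x y') = A.valuation π := by
  have h0 := root_ne_zero hπ
  rcases eq_or_ne y 0 with rfl | hy
  · rw [O.x_zero, zero_sub, Valuation.map_neg, O.val_x hπ hA hpe h.symm]
  rcases eq_or_ne y' 0 with rfl | hy'
  · rw [O.x_zero, sub_zero, O.val_x hπ hA hpe hy]
  have hr : ∀ z, z ≠ 0 → (O.x z / π) ^ e = 1 := fun z hz => by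
    rw [div_pow, O.pow_e hπ hz, hπ, div_self]
    exact neg_ne_zero.2 (Nat.cast_ne_zero.2 (Fact.out : p.Prime).ne_zero)
  have h1 := val_root_sub_root hA hpe (hr y hy) (hr y' hy')
    fun he => h (O.inj ((div_left_inj' h0).1 he))
  rw [← sub_div, map_div₀, div_eq_one_iff_eq ((map_ne_zero _).2 h0)] at h1
  exact h1

/-- The lattice in which the functions of a model with all points within `u ^ a` of zero lie. -/
theorem le_span [Fintype Y]
    {M : Submodule (fixRing A (A.inertiaSubgroupIn ℚ)) (Y → Qb)} (hM : IsLModel act M)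
    (hfix : ∀ s ∈ stabRoot A π, act s O.y₁ = O.y₁) {a : ℕ} (ha : 1 ≤ a)
    (hsmall : ∀ f ∈ M, A.valuation (f O.y₁ - f 0) ≤ A.valuation π ^ a) :
    M ≤ Submodule.span (fixRing A (A.inertiaSubgroupIn ℚ))
      (Set.range (Sum.elim (fun _ : Unit => (1 : Y → Qb))
        fun (k : Fin e) y => O.x y ^ (a + (k : ℕ)))) := by
  intro f hf
  have h0 := root_ne_zero hπ
  have hy₁ : O.y₁ ≠ 0 := fun h => h0 (by rw [← O.x_y₁, h, O.x_zero])
  set z := (f O.y₁ - f 0) / π ^ a
  obtain ⟨b, hb⟩ := exists_fixed_expansion hπ hA hpe (z := z) (fun s hs => by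
    simp only [z, map_div₀, map_sub, map_pow, hM.apply_fixed hf hs.1 (hfix s hs),
      hM.apply_zero_fixed hf hs.1, (mem_stabRoot.1 hs).2]) (by
    rw [map_div₀, map_pow]; exact div_le_one_of_le₀ (hsmall f hf) zero_le)
  have key : f O.y₁ - f 0 = ∑ k : Fin e, (b k : Qb) * π ^ (a + (k : ℕ)) := by
    calc f O.y₁ - f 0 = π ^ a * z := by rw [mul_div_cancel₀ _ (pow_ne_zero _ h0)]
      _ = _ := by
        rw [hb, Finset.mul_sum]
        exact Finset.sum_congr rfl fun k _ => by rw [pow_add]; ring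
  have hf' : f = (⟨f 0, hM.apply_zero_mem hf⟩ : fixRing A (A.inertiaSubgroupIn ℚ)) • (1 : Y → Qb) +
      ∑ k : Fin e, b k • fun y => O.x y ^ (a + (k : ℕ)) := by
    funext y
    simp only [Pi.add_apply, Finset.sum_apply, smul_fixRing, Pi.one_apply, mul_one]
    rcases eq_or_ne y 0 with rfl | hy
    · rw [O.x_zero, Finset.sum_eq_zero fun k _ => ?_, add_zero]
      rw [zero_pow (by omega), mul_zero]
    obtain ⟨σ, hσ, rfl⟩ := O.trans y hy
    have hk := congrArg σ key
    have e1 : ∀ k : Fin e, σ ((b k : Qb) * π ^ (a + (k : ℕ))) =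
        (b k : Qb) * σ π ^ (a + (k : ℕ)) := fun k => by rw [map_mul, map_pow, (b k).2.2 σ hσ]
    rw [map_sub, map_sum, hM.apply_zero_fixed hf hσ, Finset.sum_congr rfl fun k _ => e1 k] at hk
    rw [hM.equivariant f hf σ hσ, O.equiv σ hσ, O.x_y₁]
    linear_combination hk
  rw [hf']
  exact add_mem (Submodule.smul_mem _ _ (Submodule.subset_span ⟨Sum.inl (), rfl⟩))
    (Submodule.sum_mem _ fun k _ => Submodule.smul_mem _ _ (Submodule.subset_span ⟨Sum.inr k, rfl⟩))

end OrbitCoord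

end

end FermatAgent.TW.Flat
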