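import Fermat.Agent.TW.Flat.Shape
import Fermat.Agent.TW.Flat.Ramify
import Fermat.Agent.TW.Lines

/-!
# Flat classes are peu ramifiées: their Kummer roots on `I ∩ ker χ` are units
-/

set_option autoImplicit false

open Matrix groupCohomology

namespace FermatAgent.TW.Flat

open FermatAgent.Local FermatAgent.Duality.Local

noncomputable section

local notation "Qb" => AlgebraicClosure ℚ
local notation "GQ" => AlgebraicClosure ℚ ≃ₐ[ℚ] AlgebraicClosure ℚ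

variable {k : Type} [Field k] {p : ℕ} [Fact p.Prime] [Algebra (ZMod p) k]
  {A : ValuationSubring Qb} {ζ : Qb}

/-- All the Kummer roots of `e` on `I ∩ ker χ` may be taken units. -/
def IsPeu (p : ℕ) [Fact p.Prime] [Algebra (ZMod p) k] (A : ValuationSubring Qb) (ζ : Qb)
    (e : GQ → k) : Prop :=
  ∀ l : k →ₗ[ZMod p] ZMod p, ∃ r : Qb, A.valuation r = 1 ∧
    IsRoot p ζ (inertiaCyclo p A) (fun σ => l (e σ)) r

theorem isPeu_zero : IsPeu p A ζ (0 : GQ → k) := fun l =>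
  ⟨1, map_one _, one_ne_zero, fun σ _ => by simp [zpw_zero]⟩

theorem IsPeu.add (hζ : IsPrimitiveRoot ζ p) {e e' : GQ → k} (h : IsPeu p A ζ e)
    (h' : IsPeu p A ζ e') : IsPeu p A ζ (e + e') := fun l => by
  obtain ⟨r, hr, hr'⟩ := h l
  obtain ⟨s, hs, hs'⟩ := h' l
  exact ⟨r * s, by rw [map_mul, hr, hs, one_mul],
    (hr'.mul hζ hs').congr fun σ _ => (map_add l _ _).symm⟩

theorem IsPeu.smul {e : GQ → k} (h : IsPeu p A ζ e) (c : k) : IsPeu p A ζ (c • e) := fun l => by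
  obtain ⟨r, hr, hr'⟩ := h (l.comp (LinearMap.mulLeft (ZMod p) c))
  exact ⟨r, hr, hr'⟩

theorem IsPeu.congr {e e' : GQ → k} (h : IsPeu p A ζ e)
    (heq : ∀ σ ∈ inertiaCyclo p A, e σ = e' σ) : IsPeu p A ζ e' := fun l => by
  obtain ⟨r, hr, hr'⟩ := h l
  exact ⟨r, hr, hr'.congr fun σ hσ => by rw [heq σ hσ]⟩

/-- A shift `(n, x) ↦ (n, x + n v)`. -/
def shiftAct {V : Type} [AddCommGroup V] [Module (ZMod p) V] (v : V) :
    (ZMod p × V) ≃ₗ[ZMod p] (ZMod p × V) where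
  toFun z := (z.1, z.2 + z.1 • v)
  invFun z := (z.1, z.2 - z.1 • v)
  map_add' a b := Prod.ext rfl (by
    show a.2 + b.2 + (a.1 + b.1) • v = (a.2 + a.1 • v) + (b.2 + b.1 • v)
    rw [add_smul]; abel)
  map_smul' c a := Prod.ext rfl (by
    show c • a.2 + (c • a.1) • v = c • (a.2 + a.1 • v)
    rw [smul_add, smul_assoc])
  left_inv z := Prod.ext rfl (add_sub_cancel_right _ _)
  right_inv z := Prod.ext rfl (sub_add_cancel _ _)

@[simp] theorem shiftAct_apply {V : Type} [AddCommGroup V] [Module (ZMod p) V] (v : V)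
    (z : ZMod p × V) : shiftAct v z = (z.1, z.2 + z.1 • v) := rfl

variable [Finite k] {ρ : GQ →* GL (Fin 2) k}

theorem peu_of_flat (hA : A.LiesOverPrime p) (hord : OrdUpper p ρ A) (hζ : IsPrimitiveRoot ζ p)
    {c : GQ → Matrix (Fin 2) (Fin 2) k} (hc : IsAdCocycle ρ c)
    (hlev : IsLevelConstant₁ (MonoidHom.id GQ) c) (hflat : IsFlatCocycle ρ p c)
    (h10 : ∀ σ ∈ inertiaCyclo p A, c σ 1 0 = 0) (h00 : ∀ σ ∈ inertiaCyclo p A, c σ 0 0 = 0) :
    IsPeu p A ζ fun σ => c σ 0 1 := by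
  classical
  have hp := (Fact.out : p.Prime)
  have hchar : CharP k p := charP_of_injective_algebraMap (algebraMap (ZMod p) k).injective p
  have : Fintype k := Fintype.ofFinite k
  have : NeZero p := ⟨hp.ne_zero⟩
  set J := inertiaCyclo p A with hJdef
  have hJI : J ≤ A.inertiaSubgroupIn ℚ := inf_le_left
  have hJD : ∀ σ ∈ J, σ ∈ A.decompositionSubgroup ℚ := fun σ hσ =>
    mem_decomposition_of_inertia (hJI hσ)
  have hρ00 : ∀ σ ∈ J, (ρ σ : Matrix (Fin 2) (Fin 2) k) 0 0 = 1 := fun σ hσ => by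
    rw [hord.char σ (hJI hσ), (mem_inertiaCyclo.1 hσ).2, Units.val_one, map_one]
  have hρ11 : ∀ σ ∈ J, (ρ σ : Matrix (Fin 2) (Fin 2) k) 1 1 = 1 := fun σ hσ =>
    hord.quot σ (hJI hσ)
  have hζfix : ∀ σ ∈ J, σ ζ = ζ := fun σ hσ => by
    rw [apply_root_eq_pow hζ σ, (mem_inertiaCyclo.1 hσ).2, Units.val_one, ZMod.val_one, pow_one]
  have hadd : ∀ σ ∈ J, ∀ τ ∈ J, c (σ * τ) 0 1 = c σ 0 1 + c τ 0 1 := by
    intro σ hσ τ hτ
    have h11 : c τ 1 1 = 0 := by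
      rw [TW.apply_one_one_of_trace (hc.1 τ), h00 τ hτ, neg_zero]
    rw [hc.2, Matrix.add_apply, (conjAct_upper (hord.upper σ (hJD σ hσ)) (c τ)).2.1, hρ00 σ hσ,
      hρ11 σ hσ, h10 τ hτ, h00 τ hτ, h11]
    ring
  intro l
  set f : GQ → ZMod p := fun σ => l (c σ 0 1) with hf
  by_cases hf0 : ∀ σ ∈ J, f σ = 0
  · exact ⟨1, map_one _, one_ne_zero, fun σ hσ => by
      show σ 1 = zpw p ζ (f σ) * 1
      rw [hf0 σ hσ]
      simp [zpw_zero]⟩
  push Not at hf0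
  obtain ⟨σ', hσ', hne⟩ := hf0
  have hfadd : ∀ σ ∈ J, ∀ τ ∈ J, f (σ * τ) = f σ + f τ := fun σ hσ τ hτ => by
    simp only [hf, hadd σ hσ τ hτ, map_add]
  have hfpow : ∀ n : ℕ, f (σ' ^ n) = n * f σ' := by
    intro n
    induction n with
    | zero =>
      have h := hfadd 1 J.one_mem 1 J.one_mem
      rw [one_mul] at h
      simpa using (right_eq_add.1 h)
    | succ n ih => rw [pow_succ, hfadd _ (J.pow_mem hσ' n) _ hσ', ih]; push_cast; ring
  set σ₁ := σ' ^ (f σ')⁻¹.val with hσ₁def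
  have hσ₁ : σ₁ ∈ J := J.pow_mem hσ' _
  have hf₁ : f σ₁ = 1 := by rw [hσ₁def, hfpow, ZMod.natCast_zmod_val, inv_mul_cancel₀ hne]
  obtain ⟨F, hF, hlevF⟩ := hlev
  obtain ⟨r₀, hr₀⟩ := exists_isRoot hζ hζfix (f := f)
    ⟨hfadd, F, hF, fun g _ s _ hs => by simp only [hf, hlevF g s hs]⟩
  set π := ζ - 1 with hπ
  have hπ0 : π ≠ 0 := zeta_sub_one_ne_zero hζ
  have hπfix : ∀ σ ∈ J, σ π = π := fun σ hσ => by rw [hπ, map_sub, hζfix σ hσ, map_one]
  have hu := uniform_inertiaCyclo hζ hA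
  set u := A.valuation π with hudef
  obtain ⟨n, hn⟩ := hu.fixed (r₀ ^ p) (pow_ne_zero _ hr₀.1) fun σ hσ => hr₀.pow_fixed hζ hσ
  set r := r₀ * π ^ (-(n / (p : ℤ))) with hrdef
  have hr : IsRoot p ζ J f r := hr₀.mul_fixed (zpow_ne_zero _ hπ0) fun σ hσ => by
    rw [map_zpow₀, hπfix σ hσ]
  obtain ⟨s, hs⟩ := Int.eq_ofNat_of_zero_le (Int.emod_nonneg n (by exact_mod_cast hp.ne_zero :
    (p : ℤ) ≠ 0))
  have hrv : A.valuation r ^ p = u ^ s := by
    rw [hrdef, map_mul, mul_pow, ← map_pow, hn, map_zpow₀, ← zpow_natCast (u ^ _), ← _root_.zpow_mul,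
      ← zpow_add₀ hu.ne_zero, ← zpow_natCast, ← hs, Int.emod_def]
    congr 1
    ring
  have hsp : s < p := by
    have := Int.emod_lt_of_pos n (by exact_mod_cast hp.pos : (0 : ℤ) < p)
    omega
  rcases Nat.eq_zero_or_pos s with rfl | hspos
  · exact ⟨r, eq_one_of_pow_eq_one hp.ne_zero (by rw [hrv, pow_zero]), hr⟩
  exfalso
  -- the sub-quotient `0 → 𝔽_p → X → 𝔽_p → 0`
  obtain ⟨G⟩ := exists_functionModel hflat
  have hM := (isLModel_ofFunctionModel (J := A.inertiaSubgroupIn ℚ) G hA).baseChange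
    (J' := J) hJI
  let ι : ZMod p × (k × k) →ₗ[ZMod p] (Fin 2 → k) × (Fin 2 → k) :=
    { toFun := fun z => (![z.2.1, algebraMap (ZMod p) k z.1], ![z.2.2, 0])
      map_add' := fun a b => by
        refine Prod.ext ?_ ?_ <;> ext i <;> fin_cases i <;> simp
      map_smul' := fun t a => by
        refine Prod.ext ?_ ?_ <;> ext i <;> fin_cases i <;> simp [Algebra.smul_def] }
  have hι : Function.Injective ι := fun a b h => by
    have e1 : a.2.1 = b.2.1 := congrFun (congrArg Prod.fst h) 0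
    have e2 : algebraMap (ZMod p) k a.1 = algebraMap (ZMod p) k b.1 :=
      congrFun (congrArg Prod.fst h) 1
    have e3 : a.2.2 = b.2.2 := congrFun (congrArg Prod.snd h) 0
    exact Prod.ext ((algebraMap (ZMod p) k).injective e2) (Prod.ext e1 e3)
  let ρS : GQ → (ZMod p × (k × k)) ≃ₗ[ZMod p] (ZMod p × (k × k)) := fun σ =>
    shiftAct ((ρ σ : Matrix (Fin 2) (Fin 2) k) 0 1, c σ 0 1)
  have hS := hM.restrict (act' := actOf ρS) ι.toAddMonoidHom hι fun σ hσ z => by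
    show ι (ρS σ z) = gAct p ρ c σ (ι z)
    rw [gAct_apply]
    refine Prod.ext ?_ ?_ <;> ext i <;> fin_cases i <;>
      simp [ι, ρS, Matrix.mulVec, dotProduct, Fin.sum_univ_two, Matrix.mul_apply, hρ00 σ hσ,
        hρ11 σ hσ, hord.upper σ (hJD σ hσ), h10 σ hσ, h00 σ hσ,
        TW.apply_one_one_of_trace (hc.1 σ), Algebra.smul_def] <;> ring
  let π₂ : ZMod p × (k × k) →ₗ[ZMod p] ZMod p × ZMod p :=
    (LinearMap.id).prodMap (l.comp (LinearMap.snd (ZMod p) k k))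
  have hl : Function.Surjective l := fun t =>
    ⟨t • c σ₁ 0 1, by rw [map_smul, smul_eq_mul, show l (c σ₁ 0 1) = 1 from hf₁, mul_one]⟩
  have hπ₂ : Function.Surjective π₂ := fun z => by
    obtain ⟨b, hb⟩ := hl z.2
    exact ⟨(z.1, (0, b)), Prod.ext rfl hb⟩
  let ρX : GQ → (ZMod p × ZMod p) ≃ₗ[ZMod p] (ZMod p × ZMod p) := fun σ => shiftAct (f σ)
  have hX := isLModel_quot (ρ' := ρX) hζ hS π₂ hπ₂ fun σ _ z => by
    simp [ρX, ρS, π₂, hf, map_add, map_smul]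
  set N := (Submodule.map (LinearMap.funLeft (fixRing A J) Qb ι.toAddMonoidHom)
    (baseChange (ofFunctionModel G A (A.inertiaSubgroupIn ℚ)) J)).comap
      (LinearMap.funLeft (fixRing A J) Qb π₂)
  set τ : ZMod p × ZMod p := (1, 0)
  set w : ZMod p × ZMod p := (0, 1)
  obtain ⟨g, hg, hmax⟩ := hX.exists_max_diff (τ + w) τ
  have hsmall : Small N w (A.valuation (g (τ + w) - g τ)) := hX.small_of_translate hmax
  have hT := hX.val_p_le_pow hA (show w ≠ 0 by simp [w]) (by simp [w]) hsmall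
  have hgτ : g (τ + w) = σ₁ (g τ) := by
    rw [← hX.equivariant g hg σ₁ hσ₁]
    simp [ρX, τ, w, hf₁]
  have hfix : ∀ σ ∈ J, f σ = 0 → σ (g τ) = g τ := fun σ hσ h0 =>
    hX.apply_fixed hg hσ (by simp [ρX, τ, h0])
  obtain ⟨hb, -⟩ := val_smul_sub_le hζ hr hζfix hfadd hσ₁ hf₁ hu (c := 0)
    (fun σ _ => map_zero σ) (fun σ hσ => hJD σ hσ) (s := s)
    (fun hd => absurd (Nat.le_of_dvd hspos hd) (by omega)) (by rw [add_zero, hrv])
    (hX.mem_A hg τ) hfix hσ₁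
  rw [hgτ] at hT
  have hz : u ≤ A.valuation (σ₁ (g τ) - g τ) := by
    refine (pow_le_pow_iff_left₀ (n := p - 1) zero_le zero_le ?_).1 ?_
    · have := hp.two_le; omega
    · rw [hudef, hπ, val_zeta_sub_one_pow hζ]; exact hT
  have h := (mul_le_mul' (pow_le_pow_left' hz p) le_rfl).trans hb
  rw [mul_pow, hrv, ← hπ, ← hudef] at h
  have h' := h.trans (mul_le_mul' le_rfl (min_le_left _ _))
  rw [← pow_add, ← pow_succ, ← zpow_natCast, ← zpow_natCast,
    zpow_le_zpow_iff' hu.ne_zero hu.lt_one] at h'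
  omega

end

end FermatAgent.TW.Flat
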