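import Fermat.Agent.TW.Flat.Level2
import Fermat.Agent.TW.Flat.Eigen

/-!
# Biconnected models of a simple module of level two

The coordinate of weight one is in the model, the dual coordinate in the dual.
-/

set_option autoImplicit false

namespace FermatAgent.TW.Flat

open FermatAgent.Local Module
open scoped Classical

noncomputable section

local notation "Qb" => AlgebraicClosure ℚ
local notation "GQ" => AlgebraicClosure ℚ ≃ₐ[ℚ] AlgebraicClosure ℚ

variable {p : ℕ} [hp : Fact p.Prime] {A : ValuationSubring Qb} {π : Qb}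
  {K : Type} [Field K] [Fintype K] [Algebra (ZMod p) K] {ψ : GQ → K}

/-- The lattice family of a coordinate. -/
def latticeFam {Y : Type} (x : Y → Qb) (a e : ℕ) : Unit ⊕ Fin e → Y → Qb :=
  Sum.elim (fun _ => (1 : Y → Qb)) fun (k : Fin e) y => x y ^ (a + (k : ℕ))

variable (hπ : π ^ lvl p = -(p : Qb)) (hA : A.LiesOverPrime p)
include hπ hA

/-- The determinant of the lattice family. -/
theorem vdet_latticeFam {Y : Type} [AddCommGroup Y] [Fintype Y] {act : GQ → Y → Y}
    (O : OrbitCoord A π act) (hY : Fintype.card Y = lvl p + 1) {a : ℕ} (ha : 1 ≤ a) :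
    ∃ ev : Unit ⊕ Fin (lvl p) ≃ Y, vdet A (latticeFam O.x a (lvl p)) ev ^ 2 =
      A.valuation π ^ (2 * a * lvl p + lvl p * (lvl p - 1)) := by
  have hpe := not_dvd_lvl (p := p)
  let E : Fin (lvl p) ≃ {y : Y // y ≠ 0} := (Fintype.equivFinOfCardEq (by
    rw [Fintype.card_subtype_compl, Fintype.card_subtype_eq, hY]; omega)).symm
  let f : Unit ⊕ Fin (lvl p) → Y := Sum.elim (fun _ => 0) fun k => (E k : Y)
  have hf : Function.Injective f := by
    rintro (⟨⟩ | i) (⟨⟩ | j) h <;> simp only [f, Sum.elim_inl, Sum.elim_inr] at h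
    · rfl
    · exact absurd h.symm (E j).2
    · exact absurd h (E i).2
    · exact congrArg Sum.inr (E.injective (Subtype.ext h))
  let ev : Unit ⊕ Fin (lvl p) ≃ Y := Equiv.ofBijective f
    ((Fintype.bijective_iff_injective_and_card f).2 ⟨hf, by simp [hY, add_comm]⟩)
  refine ⟨ev, ?_⟩
  set v : Fin (lvl p) → Qb := fun l => O.x (E l : Y)
  have e1 : (Matrix.of fun i j => latticeFam O.x a (lvl p) i (ev j)) =
      Matrix.fromBlocks (1 : Matrix Unit Unit Qb) (Matrix.of fun _ _ => 1) 0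
        ((Matrix.vandermonde v).transpose * Matrix.diagonal fun l => v l ^ a) := by
    ext (i | i) (j | j)
    · simp [latticeFam]
    · simp [latticeFam]
    · simp only [latticeFam, ev, f, Matrix.of_apply, Matrix.fromBlocks_apply₂₁, Sum.elim_inr,
        Equiv.ofBijective_apply, Sum.elim_inl, O.x_zero, Matrix.zero_apply]
      exact zero_pow (by omega)
    · simp [latticeFam, ev, f, v, Matrix.mul_diagonal, Matrix.vandermonde_apply, pow_add, mul_comm]
  have e2 : (Matrix.fromBlocks (1 : Matrix Unit Unit Qb) (Matrix.of fun _ _ => 1) 0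
      ((Matrix.vandermonde v).transpose * Matrix.diagonal fun l => v l ^ a)).det =
        (Matrix.vandermonde v).det * ∏ l, v l ^ a := by
    rw [Matrix.det_fromBlocks_zero₂₁, Matrix.det_one, one_mul, Matrix.det_mul,
      Matrix.det_transpose, Matrix.det_diagonal]
  rw [vdet, e1]
  refine Eq.trans (by convert congrArg (fun z => A.valuation z ^ 2) e2) ?_
  rw [map_mul, mul_pow,
    val_det_vandermonde_sq v fun i j h => O.val_x_sub hπ hA hpe fun e => h (E.injective (Subtype.ext e)),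
    map_prod, Finset.prod_congr rfl fun l _ => show A.valuation (v l ^ a) = A.valuation π ^ a by
      rw [map_pow, O.val_x hπ hA hpe (E l).2],
    Finset.prod_const, Finset.card_univ, Fintype.card_fin, ← pow_mul, ← pow_mul, ← pow_add]
  congr 1
  ring

variable (hψ : Lvl2Char p A π ψ) {ζ : Qb} (hζ : IsPrimitiveRoot ζ p)
  {M : Submodule (fixRing A (A.inertiaSubgroupIn ℚ)) (K → Qb)}
  (hM : IsLModel (actOf (scaleAct p ψ)) M) (hbc : BiConn (scaleAct p ψ) ζ M)
include hψ hζ hM hbc

-- Kept: omitting the unused hypotheses would change the signature of a used lemma.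
set_option linter.unusedSectionVars false in
/-- The weight of a model and the linearisation of its first order part. -/
theorem exists_weight : ∃ a : ℕ, ∃ b : K → IsLocalRing.ResidueField A,
    1 ≤ a ∧ a ≤ p + 1 ∧ (∀ f ∈ M, ∀ w, A.valuation (f w - f 0) ≤ A.valuation π ^ a) ∧
    (∀ x y, b (x + y) = b x + b y) ∧ b 1 ≠ 0 ∧
    ∀ σ ∈ A.inertiaSubgroupIn ℚ, ∀ w, b (ψ σ * w) = theta A π σ ^ a * b w := by
  have hpe := not_dvd_lvl (p := p)
  have h0 := root_ne_zero hπ
  have hchar : CharP K p := charP_of_injective_algebraMap (algebraMap (ZMod p) K).injective p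
  have hu := uniform_stabRoot hπ hA hpe
  have hscale : ∀ σ x, actOf (scaleAct p ψ) σ x = ψ σ * x := hψ.scale_apply
  obtain ⟨g, hg, hmax⟩ := hM.exists_small_max 1
  set β := g 1 - g 0 with hβ
  have hβv : A.valuation β ≠ 0 := hM.val_max_ne_zero one_ne_zero hmax
  have hβ0 : β ≠ 0 := (map_ne_zero _).1 hβv
  obtain ⟨a, ha⟩ := hu.exists_natPow hβ0 (fun s hs => by
    rw [hβ, map_sub, hM.apply_zero_fixed hg hs.1,
      hM.apply_fixed hg hs.1 (by rw [hscale, hψ.stab s hs, one_mul])])
    (hbc.1 1 g hg).le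
  rw [ha] at hmax
  have ha1 : 1 ≤ a := by
    by_contra h
    have h' := hbc.1 1 g hg
    rw [← hβ, ha, show a = 0 by omega, pow_zero] at h'
    exact lt_irrefl _ h'
  have hT := hM.val_p_le_pow hA (one_ne_zero (α := K))
    (by rw [nsmul_eq_mul, CharP.cast_eq_zero, zero_mul]) hmax
  rw [← pow_mul, ← val_root_pow hπ, ← zpow_natCast, ← zpow_natCast,
    zpow_le_zpow_iff' hu.ne_zero hu.lt_one] at hT
  have hap : a ≤ p + 1 := by
    have h1 : a * (p - 1) ≤ (p + 1) * (p - 1) := by rw [← lvl_eq_mul]; exact_mod_cast hT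
    exact Nat.le_of_mul_le_mul_right h1 (by have := hp.1.two_le; omega)
  obtain ⟨σ₀, hσ₀, hcoord⟩ := hψ.exists_coords
  set u := A.valuation π with hudef
  have hsmul : ∀ {w : K}, Small M w (u ^ a) → ∀ t : ZMod p, Small M (t • w) (u ^ a) :=
    fun {w} hw t => by
      have e : t • w = t.val • w := by
        rw [← Nat.cast_smul_eq_nsmul (ZMod p), ZMod.natCast_zmod_val]
      rw [e]
      exact hM.small_nsmul hw _
  have hscaleSmall : ∀ σ ∈ A.inertiaSubgroupIn ℚ, ∀ {w : K}, Small M w (u ^ a) →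
      Small M (ψ σ * w) (u ^ a) := fun σ hσ {w} hw f hf => by
    rw [← hscale, hM.equivariant f hf σ hσ, ← hM.apply_zero_fixed hf hσ, ← map_sub,
      val_galois_eq (mem_decomposition_of_inertia hσ)]
    exact hw f hf
  have hall : ∀ w, Small M w (u ^ a) := fun w => by
    obtain ⟨s, t, rfl⟩ := hcoord 1 one_ne_zero w
    exact hM.small_add (hsmul hmax s) (hsmul (hscaleSmall σ₀ hσ₀ hmax) t)
  let b : K → IsLocalRing.ResidueField A := fun w => res A ((g w - g 0) / π ^ a)
  have hmem : ∀ z : Qb, A.valuation z ≤ u ^ a → z / π ^ a ∈ A := fun z hz =>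
    mem_of_val_le_one (by rw [map_div₀, map_pow]; exact div_le_one_of_le₀ hz zero_le)
  have hua : u ^ a < 1 := pow_lt_one₀ zero_le hu.lt_one (by omega)
  refine ⟨a, b, ha1, hap, fun f hf w => hall w f hf, fun x y => ?_, ?_, fun σ hσ w => ?_⟩
  · show res A _ = _ + _
    have hx := hmem _ (hall x g hg)
    have hy := hmem _ (hall y g hg)
    rw [← res_add hx hy, res_eq_res_iff (hmem _ (hall _ g hg)) (A.add_mem _ _ hx hy), ← add_div,
      ← sub_div, map_div₀, map_pow, ← hudef,
      show g (x + y) - g 0 - (g x - g 0 + (g y - g 0)) = g (x + y) - g x - (g y - g 0) by ring,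
      div_lt_one₀ (zero_lt_iff.2 (pow_ne_zero _ hu.ne_zero))]
    exact (hM.val_diff₂_le hg (hall x) (hall y)).trans_lt
      (mul_lt_of_lt_one_left (zero_lt_iff.2 (pow_ne_zero _ hu.ne_zero)) hua)
  · show res A ((g 1 - g 0) / π ^ a) ≠ 0
    rw [res_ne_zero_iff (hmem _ (hall 1 g hg)), ← hβ, map_div₀, ha, map_pow, ← hudef,
      div_self (pow_ne_zero _ hu.ne_zero)]
  · show res A _ = _ * res A _
    have hd := mem_decomposition_of_inertia hσ
    have hz := hmem _ (hall w g hg)
    rw [theta, ← res_pow (ratio_mem hd h0), ← res_inertia hσ hz,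
      ← res_mul (pow_mem (ratio_mem hd h0) _) ((decomposition_mem_iff hd _).2 hz)]
    congr 1
    rw [← hscale, hM.equivariant g hg σ hσ]
    conv_lhs => rw [← hM.apply_zero_fixed hg hσ]
    rw [← map_sub, map_div₀, map_pow, div_pow]
    have h1 : σ π ≠ 0 := by simpa using h0
    field_simp

/-- A model of weight `a`: `a` is one or `p`, and only the stabiliser of `π` fixes a point. -/
theorem weight_cases (hp2 : p ≠ 2) {a : ℕ} {b : K → IsLocalRing.ResidueField A} (ha : 1 ≤ a)
    (hap : a ≤ p + 1) (hadd : ∀ x y, b (x + y) = b x + b y) (hb1 : b 1 ≠ 0)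
    (hequiv : ∀ σ ∈ A.inertiaSubgroupIn ℚ, ∀ w, b (ψ σ * w) = theta A π σ ^ a * b w) :
    (a = 1 ∨ a = p) ∧ ∀ σ ∈ A.inertiaSubgroupIn ℚ, ψ σ = 1 → σ π = π := by
  have hpe := not_dvd_lvl (p := p)
  have hpp := hp.1.two_le
  have := Duality.Local.charP_residue hp.1 hA
  have hchar : CharP K p := charP_of_injective_algebraMap (algebraMap (ZMod p) K).injective p
  have hbn : ∀ (n : ℕ) x, b (n • x) = n • b x := fun n x =>
    map_nsmul (AddMonoidHom.mk' b hadd) n x
  have h1 : ∀ σ ∈ A.inertiaSubgroupIn ℚ, theta A π σ ^ a = b (ψ σ) / b 1 := fun σ hσ => by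
    rw [eq_div_iff hb1, ← hequiv σ hσ 1, mul_one]
  obtain ⟨τ, hτ, ξ, hξ, hpow, -⟩ := exists_tameGen hπ hA hpe
  have hord : ∀ n : ℕ, theta A π (τ ^ n) = theta A π τ ^ n := fun n => by
    induction n with
    | zero => rw [pow_zero, pow_zero, theta_eq_one_iff hπ hA hpe (one_mem _)]; rfl
    | succ n ih => rw [pow_succ, pow_succ, theta_mul hπ hA hpe (pow_mem hτ n) hτ, ih]
  have hrel : theta A π τ ^ (a * (p + 1)) = theta A π τ ^ (p + 1) := by
    rw [mul_comm, pow_mul, ← hord, h1 _ (pow_mem hτ _), hψ.map_pow hτ, hψ.norm τ hτ, hord,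
      theta_pow_succ hπ hA hτ, div_eq_iff hb1]
    conv_lhs => rw [← ZMod.natCast_zmod_val (ExtCitation.cycloChar p τ : ZMod p), map_natCast,
      ← nsmul_one, hbn, nsmul_eq_mul]
  have hdvd : lvl p ∣ (a - 1) * (p + 1) := by
    refine hξ.dvd_of_pow_eq_one _ (mul_right_cancel₀ (root_ne_zero hπ) ?_)
    rw [← hpow, one_mul, ← theta_eq_one_iff hπ hA hpe (pow_mem hτ _), hord]
    have h0 : theta A π τ ≠ 0 := fun h => by
      have := theta_pow_e hπ hτ
      rw [h, zero_pow (NeZero.ne _)] at this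
      exact zero_ne_one this
    refine mul_right_cancel₀ (pow_ne_zero (p + 1) h0) ?_
    rw [← pow_add, ← Nat.succ_mul, show (a - 1).succ = a by omega, one_mul, hrel]
  rw [lvl_eq_mul, mul_comm (a - 1)] at hdvd
  obtain ⟨m, hm⟩ := Nat.dvd_of_mul_dvd_mul_left (by omega) hdvd
  have hm1 : m ≤ 1 := by
    by_contra hlt
    have h3 : 3 ≤ p := by omega
    have : (p - 1) * 2 ≤ (p - 1) * m := Nat.mul_le_mul_left _ (by omega)
    omega
  have hcases : a = 1 ∨ a = p := by
    interval_cases m <;> omega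
  refine ⟨hcases, fun σ hσ hs => (theta_eq_one_iff hπ hA hpe hσ).1 ?_⟩
  have h2 := h1 σ hσ
  rw [hs, div_self hb1] at h2
  rcases hcases with rfl | rfl
  · rwa [pow_one] at h2
  · exact frobenius_inj (IsLocalRing.ResidueField A) a (by simpa [frobenius_def] using h2)

/-- The coordinates belong to the model and to its dual, and the model has weight one. -/
theorem piece_main (hp2 : p ≠ 2) :
    (∀ σ ∈ A.inertiaSubgroupIn ℚ, ψ σ = 1 → σ π = π) ∧
    (∃ ι : K →+* IsLocalRing.ResidueField A,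
      ∀ σ ∈ A.inertiaSubgroupIn ℚ, ι (ψ σ) = theta A π σ) ∧
    ∀ (O : OrbitCoord A π (actOf (scaleAct p ψ)))
      (O' : OrbitCoord A π (dualAct (scaleAct p ψ))),
      O.x ∈ M ∧ O'.x ∈ dual (dualPairing (A.inertiaSubgroupIn ℚ) (scaleAct p ψ)) ζ M := by
  have hpe := not_dvd_lvl (p := p)
  have hu := uniform_stabRoot hπ hA hpe
  obtain ⟨a, b, ha, hap, hsmall, hadd, hb1, hequiv⟩ := exists_weight hπ hA hψ hζ hM hbc
  obtain ⟨hcases, hfree⟩ := weight_cases hπ hA hψ hζ hM hbc hp2 ha hap hadd hb1 hequiv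
  have hKfree : ∀ σ ∈ A.inertiaSubgroupIn ℚ, ∀ y : K, y ≠ 0 →
      (scaleAct p ψ σ y = y ↔ σ π = π) := fun σ hσ y hy => by
    rw [hψ.scale_apply, mul_eq_right₀ hy]
    exact ⟨hfree σ hσ, fun h => hψ.stab σ (mem_stabRoot.2 ⟨hσ, h⟩)⟩
  obtain ⟨O₀⟩ := exists_orbitCoord hπ hA hpe (scaleAct p ψ) hψ.scale_mul hKfree
    (hψ.card.trans lvl_add_one.symm)
  obtain ⟨O₀'⟩ := exists_orbitCoord hπ hA hpe (dualEquiv (scaleAct p ψ)) hψ.dual_mul
    (hψ.dual_free hfree) hψ.card_dual_eq
  let P := dualPairing (A.inertiaSubgroupIn ℚ) (scaleAct p ψ)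
  have hD := isLModel_dual P hζ hM
  have hlat : ∀ (O : OrbitCoord A π (actOf (scaleAct p ψ)))
      (O' : OrbitCoord A π (dualAct (scaleAct p ψ))),
      M ≤ Submodule.span (fixRing A (A.inertiaSubgroupIn ℚ))
        (Set.range (latticeFam O.x a (lvl p))) ∧
      dual P ζ M ≤ Submodule.span (fixRing A (A.inertiaSubgroupIn ℚ))
        (Set.range (latticeFam O'.x 1 (lvl p))) := by
    intro O O'
    refine ⟨O.le_span hπ hA hpe hM (fun s hs => ?_) ha fun f hf => hsmall f hf _,
      O'.le_span hπ hA hpe hD (fun s hs => ?_) le_rfl fun f hf => ?_⟩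
    · show scaleAct p ψ s O.y₁ = O.y₁
      rw [hψ.scale_apply, hψ.stab s hs, one_mul]
    · by_cases h : O'.y₁ = 0
      · rw [h]; exact hD.act_zero hs.1
      exact ((hψ.dual_free hfree) s hs.1 _ h).2 hs.2
    · rw [pow_one]
      refine hu.le_of_lt_one (fun s hs => ?_) (hbc.2 _ f hf)
      rw [map_sub, hD.apply_zero_fixed hf hs.1, hD.apply_fixed hf hs.1 ?_]
      by_cases h : O'.y₁ = 0
      · rw [h]; exact hD.act_zero hs.1
      exact ((hψ.dual_free hfree) s hs.1 _ h).2 hs.2
  have hNv : A.valuation (Fintype.card K : Qb) ^ Fintype.card K =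
      A.valuation π ^ (2 * lvl p * (lvl p + 1)) := by
    rw [hψ.card, Nat.cast_pow, map_pow, ← val_root_pow hπ, ← pow_mul, ← pow_mul, lvl_add_one]
    congr 1
    ring
  have hev : ∀ (O : OrbitCoord A π (actOf (scaleAct p ψ)))
      (O' : OrbitCoord A π (dualAct (scaleAct p ψ))),
      ∃ (ev : Unit ⊕ Fin (lvl p) ≃ K) (ev' : Unit ⊕ Fin (lvl p) ≃ Dual (ZMod p) K),
        (vdet A (latticeFam O.x a (lvl p)) ev * vdet A (latticeFam O'.x 1 (lvl p)) ev') ^ 2 =
          A.valuation π ^ (2 * lvl p * a + 2 * lvl p * lvl p) := by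
    intro O O'
    obtain ⟨ev, hev⟩ := vdet_latticeFam hπ hA O (hψ.card.trans lvl_add_one.symm) ha
    obtain ⟨ev', hev'⟩ := vdet_latticeFam hπ hA O' hψ.card_dual_eq le_rfl
    refine ⟨ev, ev', ?_⟩
    rw [mul_pow, hev, hev', ← pow_add]
    congr 1
    obtain ⟨d, hd⟩ : ∃ d, lvl p = d + 1 := ⟨lvl p - 1, by have := NeZero.ne (lvl p); omega⟩
    rw [hd, Nat.add_sub_cancel]
    ring
  have ha1 : a = 1 := by
    obtain ⟨ev, ev', hv⟩ := hev O₀ O₀'
    have h := disc_le (P := P) hζ hM _ ev _ ev' (hlat O₀ O₀').1 (hlat O₀ O₀').2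
    rw [hNv, hv, ← zpow_natCast, ← zpow_natCast, zpow_le_zpow_iff' hu.ne_zero hu.lt_one,
      Nat.cast_le, mul_add] at h
    have h' : 2 * lvl p * a ≤ 2 * lvl p * 1 := by omega
    have := Nat.le_of_mul_le_mul_left h' (by have := NeZero.ne (lvl p); omega)
    omega
  subst ha1
  refine ⟨hfree, ⟨?_, ?_⟩, fun O O' => ?_⟩
  · exact
      { toFun := fun w => b w / b 1
        map_one' := div_self hb1
        map_mul' := fun x y => by
          rcases eq_or_ne x 0 with rfl | hx
          · have h0 : b 0 = 0 := by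
              have := hadd 0 0
              rw [add_zero] at this
              exact right_eq_add.1 this
            simp [h0]
          obtain ⟨σ, hσ, hσx⟩ := O₀.trans x hx
          obtain ⟨σ', hσ', hσ'1⟩ := O₀.trans 1 one_ne_zero
          have hx' : x = ψ (σ * σ'⁻¹) := by
            have h1 : ψ σ * O₀.y₁ = x := by rw [← hσx]; exact (hψ.scale_apply _ _).symm
            have h2 : ψ σ' * O₀.y₁ = 1 := by rw [← hσ'1]; exact (hψ.scale_apply _ _).symm
            have h3 : ψ σ' * ψ σ'⁻¹ = 1 := by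
              rw [← hψ.mul σ' hσ' _ (inv_mem hσ'), mul_inv_cancel, hψ.map_one]
            rw [hψ.mul σ hσ _ (inv_mem hσ'), ← h1,
              eq_comm.1 (mul_left_cancel₀ (hψ.ne_zero σ') (h3.trans h2.symm))]
          have hI := mul_mem hσ (inv_mem hσ')
          rw [hx', hequiv _ hI y]
          have := hequiv _ hI 1
          rw [mul_one] at this
          rw [this]
          field_simp
        map_zero' := by
          have := hadd 0 0
          rw [add_zero] at this
          rw [right_eq_add.1 this, zero_div]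
        map_add' := fun x y => by rw [hadd, add_div] }
  · intro σ hσ
    show b (ψ σ) / b 1 = _
    have := hequiv σ hσ 1
    rw [mul_one, pow_one] at this
    rw [this, mul_div_cancel_right₀ _ hb1]
  · obtain ⟨ev, ev', hv⟩ := hev O O'
    obtain ⟨r1, r2⟩ := span_eq_of_disc_ge (P := P) hζ hM _ ev _ ev' (hlat O O').1 (hlat O O').2
      (le_of_eq (by rw [hv, hNv]; congr 1; ring))
    have hl : 0 < lvl p := Nat.pos_of_ne_zero (NeZero.ne _)
    refine ⟨r1 ▸ Submodule.subset_span ⟨Sum.inr ⟨0, hl⟩, ?_⟩,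
      r2 ▸ Submodule.subset_span ⟨Sum.inr ⟨0, hl⟩, ?_⟩⟩ <;>
    · funext y
      simp [latticeFam]

end

end FermatAgent.TW.Flat
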