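import Fermat.Agent.TW.Flat.RedSpace
import Fermat.Agent.TW.LocalCommon

/-!
# The flat conditions at an upper triangular ordinary representation
-/

set_option autoImplicit false

open Matrix Module groupCohomology

namespace FermatAgent.TW.Flat

open FermatAgent.Local

noncomputable section

local notation "Qb" => AlgebraicClosure ℚ
local notation "GQ" => AlgebraicClosure ℚ ≃ₐ[ℚ] AlgebraicClosure ℚ

variable {k : Type} [Field k] {p : ℕ} [Fact p.Prime] [Algebra (ZMod p) k]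
  {ρ : GQ →* GL (Fin 2) k} {A : ValuationSubring Qb}

/-- The lower elementary matrix. -/
def lowerNil : sl2 k := ⟨!![0, 0; 1, 0], mem_sl2.2 (by simp [Matrix.trace_fin_two])⟩

variable (ρ A) in
/-- The coboundary of the lower elementary matrix. -/
def lowerDelta : A.decompositionSubgroup ℚ → Matrix (Fin 2) (Fin 2) k :=
  adDelta ρ (A.decompositionSubgroup ℚ) lowerNil

theorem adDelta_apply (D : Subgroup GQ) (a : sl2 k) (σ : D) :
    adDelta ρ D a σ =
      conjAct (ρ σ) (a : Matrix (Fin 2) (Fin 2) k) - (a : Matrix (Fin 2) (Fin 2) k) := rfl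

omit [Fact p.Prime] [Algebra (ZMod p) k] in
theorem flatConds_eq_bot (h : ¬∃ c : GQ → Matrix (Fin 2) (Fin 2) k, IsAdCocycle ρ c ∧
      IsLevelConstant₁ (MonoidHom.id GQ) c ∧ IsFlatCocycle ρ p c) :
    flatConds ρ p A = ⊥ := by
  rw [flatConds, Submodule.span_eq_bot]
  rintro _ ⟨c, hc, rfl⟩
  exact absurd ⟨c, hc⟩ h

theorem rankLE_adCoboundaries :
    RankLE (adCoboundaries ρ (A.decompositionSubgroup ℚ)) 3 := by
  refine ⟨Module.Finite.range _, ?_⟩
  have := LinearMap.finrank_range_le (adDelta ρ (A.decompositionSubgroup ℚ))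
  rwa [finrank_sl2] at this

theorem isLevelConstant₁_delta (hρ : ∃ L : IntermediateField ℚ Qb, FiniteDimensional ℚ L ∧
      ∀ σ ∈ L.fixingSubgroup, ρ σ = 1) {c : GQ → Matrix (Fin 2) (Fin 2) k}
    (hc : IsLevelConstant₁ (MonoidHom.id GQ) c) (a : Matrix (Fin 2) (Fin 2) k) :
    IsLevelConstant₁ (MonoidHom.id GQ) fun σ => c σ + (conjAct (ρ σ) a - a) := by
  obtain ⟨L, hL, hρL⟩ := hρ
  obtain ⟨F, hF, hcF⟩ := hc
  refine ⟨L ⊔ F, IntermediateField.finiteDimensional_sup L F, fun g s hs => ?_⟩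
  show c (g * s) + (conjAct (ρ (g * s)) a - a) = c g + (conjAct (ρ g) a - a)
  rw [hcF g s (IntermediateField.fixingSubgroup_antitone le_sup_right hs), map_mul,
    hρL s (IntermediateField.fixingSubgroup_antitone le_sup_left hs), mul_one]

theorem isAdCocycle_delta {c : GQ → Matrix (Fin 2) (Fin 2) k} (hc : IsAdCocycle ρ c)
    {a : Matrix (Fin 2) (Fin 2) k} (ha : Matrix.trace a = 0) :
    IsAdCocycle ρ fun σ => c σ + (conjAct (ρ σ) a - a) := by
  refine ⟨fun σ => trace_delta _ _ (hc.1 σ) ha, fun σ τ => ?_⟩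
  show c (σ * τ) + (conjAct (ρ (σ * τ)) a - a) =
    c σ + (conjAct (ρ σ) a - a) + conjAct (ρ σ) (c τ + (conjAct (ρ τ) a - a))
  rw [hc.2, map_mul, conjAct_mul]
  simp [conjAct, Matrix.mul_sub, Matrix.sub_mul, Matrix.mul_add, Matrix.add_mul]
  abel

theorem resTo_mem_adCocycles {c : GQ → Matrix (Fin 2) (Fin 2) k} (hc : IsAdCocycle ρ c)
    (hlev : IsLevelConstant₁ (MonoidHom.id GQ) c) :
    resTo (A.decompositionSubgroup ℚ) c ∈ adCocycles ρ (A.decompositionSubgroup ℚ) := by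
  obtain ⟨F, hF, hcF⟩ := hlev
  exact ⟨fun σ => hc.1 σ, fun σ τ => hc.2 σ τ, F, hF, fun g s hs => hcF g s hs⟩

variable [Finite k] (hA : A.LiesOverPrime p) (hp2 : p ≠ 2) (hord : OrdUpper p ρ A)
  (hρ : ∃ L : IntermediateField ℚ Qb, FiniteDimensional ℚ L ∧ ∀ σ ∈ L.fixingSubgroup, ρ σ = 1)
include hA hp2 hord hρ

/-- A flat class, normalised, lies in `redU`. -/
theorem exists_delta_mem_redU {c : GQ → Matrix (Fin 2) (Fin 2) k} (hc : IsAdCocycle ρ c)
    (hlev : IsLevelConstant₁ (MonoidHom.id GQ) c) (hflat : IsFlatCocycle ρ p c) :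
    ∃ a : sl2 k, resTo (A.decompositionSubgroup ℚ) c +
      adDelta ρ (A.decompositionSubgroup ℚ) a ∈ redU p ρ A := by
  obtain ⟨a, ha, h10, h00⟩ := exists_shape hA hp2 hord hc hflat
  refine ⟨⟨a, mem_sl2.2 ha⟩, ?_⟩
  set c' := fun σ => c σ + (conjAct (ρ σ) a - a) with hc'
  have hc'c := isAdCocycle_delta hc ha
  have hc'l := isLevelConstant₁_delta hρ hlev a
  have heq : resTo (A.decompositionSubgroup ℚ) c +
      adDelta ρ (A.decompositionSubgroup ℚ) ⟨a, mem_sl2.2 ha⟩ =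
        resTo (A.decompositionSubgroup ℚ) c' := rfl
  rw [heq]
  refine ⟨resTo_mem_adCocycles hc'c hc'l, fun σ => h10 σ σ.2, fun σ hσ => h00 σ hσ, fun z hz => ?_⟩
  refine (peu_of_flat hA hord hz hc'c hc'l (isFlatCocycle_add_delta hflat a)
    (fun σ hσ => h10 σ (mem_decomposition_of_inertia (mem_inertiaCyclo.1 hσ).1))
    fun σ hσ => h00 σ (mem_inertiaCyclo.1 hσ).1).congr fun σ hσ => ?_
  rw [extFun_resTo A c' (mem_decomposition_of_inertia (mem_inertiaCyclo.1 hσ).1)]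

-- Kept: omitting the unused hypotheses would change the signature of a used lemma.
set_option linter.unusedSectionVars false in
omit hp2 in
theorem upperNil_mem_redU :
    adDelta ρ (A.decompositionSubgroup ℚ) ⟨!![0, 1; 0, 0], mem_sl2.2 (by simp [Matrix.trace_fin_two])⟩
      ∈ redU₀ p ρ A := by
  set a : Matrix (Fin 2) (Fin 2) k := !![0, 1; 0, 0] with ha
  have he : ∀ σ ∈ A.decompositionSubgroup ℚ, (conjAct (ρ σ) a - a) 1 0 = 0 ∧
      (conjAct (ρ σ) a - a) 0 0 = 0 ∧ (conjAct (ρ σ) a - a) 0 1 = kap ρ σ - 1 := fun σ hσ => by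
    obtain ⟨e0, e1, e2⟩ := conjAct_upper (hord.upper σ hσ) a
    rw [Matrix.sub_apply, Matrix.sub_apply, Matrix.sub_apply, e0, e1, e2]
    simp [ha, kap]
  refine ⟨⟨adDelta_mem hρ _ _, fun σ => (he σ σ.2).1, fun σ _ => (he σ σ.2).2.1, fun z hz => ?_⟩,
    fun σ => (he σ σ.2).2.1⟩
  refine (isPeu_zero (k := k)).congr fun σ hσ => ?_
  obtain ⟨hI, hχ⟩ := mem_inertiaCyclo.1 hσ
  have hd := mem_decomposition_of_inertia hI
  rw [extFun_apply A _ hd, adDelta_apply]
  show (0 : k) = (conjAct (ρ σ) a - a) 0 1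
  rw [(he σ hd).2.2, kap, hord.char σ hI, hord.quot σ hI, hχ]
  simp

theorem diag_mem_redU {c : GQ → Matrix (Fin 2) (Fin 2) k} (hc : IsAdCocycle ρ c)
    (hlev : IsLevelConstant₁ (MonoidHom.id GQ) c) (hflat : IsFlatCocycle ρ p c) :
    adDelta ρ (A.decompositionSubgroup ℚ) ⟨!![1, 0; 0, -1], mem_sl2.2 (by simp [Matrix.trace_fin_two])⟩
      ∈ redU₀ p ρ A := by
  obtain ⟨a₀, ha₀, h10, h00⟩ := exists_shape hA hp2 hord hc hflat
  set c' := fun σ => c σ + (conjAct (ρ σ) a₀ - a₀) with hc'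
  set a : Matrix (Fin 2) (Fin 2) k := !![1, 0; 0, -1] with ha
  have hta : Matrix.trace a = 0 := by simp [ha, Matrix.trace_fin_two]
  have hc'c := isAdCocycle_delta hc ha₀
  have hc'l := isLevelConstant₁_delta hρ hlev a₀
  have hc'f := isFlatCocycle_add_delta hflat a₀
  have he : ∀ σ ∈ A.decompositionSubgroup ℚ, (conjAct (ρ σ) a - a) 1 0 = 0 ∧
      (conjAct (ρ σ) a - a) 0 0 = 0 := fun σ hσ => by
    obtain ⟨e0, e1, e2⟩ := conjAct_upper (hord.upper σ hσ) a
    rw [Matrix.sub_apply, Matrix.sub_apply, e0, e2]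
    simp [ha]
  refine ⟨⟨adDelta_mem hρ _ _, fun σ => (he σ σ.2).1, fun σ _ => (he σ σ.2).2, fun z hz => ?_⟩,
    fun σ => (he σ σ.2).2⟩
  have hJd : ∀ σ ∈ inertiaCyclo p A, σ ∈ A.decompositionSubgroup ℚ := fun σ hσ =>
    mem_decomposition_of_inertia (mem_inertiaCyclo.1 hσ).1
  have h1 := peu_of_flat hA hord hz hc'c hc'l hc'f
    (fun σ hσ => h10 σ (hJd σ hσ)) (fun σ hσ => h00 σ (mem_inertiaCyclo.1 hσ).1)
  have h2 := peu_of_flat hA hord hz (isAdCocycle_delta hc'c hta)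
    (isLevelConstant₁_delta hρ hc'l a) (isFlatCocycle_add_delta hc'f a)
    (fun σ hσ => by
      show c' σ 1 0 + (conjAct (ρ σ) a - a) 1 0 = 0
      rw [(he σ (hJd σ hσ)).1, add_zero]
      exact h10 σ (hJd σ hσ))
    (fun σ hσ => by
      show c' σ 0 0 + (conjAct (ρ σ) a - a) 0 0 = 0
      rw [(he σ (hJd σ hσ)).2, add_zero]
      exact h00 σ (mem_inertiaCyclo.1 hσ).1)
  refine (h2.add hz (h1.smul (-1))).congr fun σ hσ => ?_
  rw [extFun_apply A _ (hJd σ hσ), adDelta_apply]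
  show (c' σ 0 1 + (conjAct (ρ σ) a - a) 0 1) + (-1 : k) * c' σ 0 1 =
    (conjAct (ρ σ) a - a) 0 1
  ring

/-- All coboundaries are upper, up to the lower one. -/
theorem coboundaries_le {c : GQ → Matrix (Fin 2) (Fin 2) k} (hc : IsAdCocycle ρ c)
    (hlev : IsLevelConstant₁ (MonoidHom.id GQ) c) (hflat : IsFlatCocycle ρ p c) :
    adCoboundaries ρ (A.decompositionSubgroup ℚ) ≤
      redU₀ p ρ A ⊔ Submodule.span k {lowerDelta ρ A} := by
  rintro _ ⟨⟨b, hb⟩, rfl⟩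
  have hb' : (⟨b, hb⟩ : sl2 k) =
      b 0 1 • ⟨!![0, 1; 0, 0], mem_sl2.2 (by simp [Matrix.trace_fin_two])⟩ +
      b 0 0 • ⟨!![1, 0; 0, -1], mem_sl2.2 (by simp [Matrix.trace_fin_two])⟩ +
      b 1 0 • lowerNil := by
    apply Subtype.ext
    have := TW.apply_one_one_of_trace (mem_sl2.1 hb)
    ext i j
    fin_cases i <;> fin_cases j <;> simp [lowerNil, this]
  rw [hb', map_add, map_add, map_smul, map_smul, map_smul]
  exact add_mem (Submodule.mem_sup_left (add_mem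
    (Submodule.smul_mem _ _ (upperNil_mem_redU hA hord hρ))
    (Submodule.smul_mem _ _ (diag_mem_redU hA hp2 hord hρ hc hlev hflat))))
    (Submodule.mem_sup_right (Submodule.smul_mem _ _ (Submodule.mem_span_singleton_self _)))

theorem flatConds_le {c₀ : GQ → Matrix (Fin 2) (Fin 2) k} (hc₀ : IsAdCocycle ρ c₀)
    (hlev₀ : IsLevelConstant₁ (MonoidHom.id GQ) c₀) (hflat₀ : IsFlatCocycle ρ p c₀) :
    flatConds ρ p A ⊔ adCoboundaries ρ (A.decompositionSubgroup ℚ) ≤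
      redU p ρ A ⊔ Submodule.span k {lowerDelta ρ A} := by
  have hB : adCoboundaries ρ (A.decompositionSubgroup ℚ) ≤
      redU p ρ A ⊔ Submodule.span k {lowerDelta ρ A} :=
    (coboundaries_le hA hp2 hord hρ hc₀ hlev₀ hflat₀).trans
      (sup_le_sup_right (fun _ h => h.1) _)
  refine sup_le (Submodule.span_le.2 ?_) hB
  rintro _ ⟨c, ⟨hc, hlev, hflat⟩, rfl⟩
  obtain ⟨a, ha⟩ := exists_delta_mem_redU hA hp2 hord hρ hc hlev hflat
  rw [← add_sub_cancel_right (resTo (A.decompositionSubgroup ℚ) c)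
    (adDelta ρ (A.decompositionSubgroup ℚ) a)]
  exact sub_mem (Submodule.mem_sup_left ha) (hB ⟨a, rfl⟩)

theorem rankLE_flat_upper :
    RankLE (flatConds ρ p A ⊔ adCoboundaries ρ (A.decompositionSubgroup ℚ)) 4 := by
  by_cases h : ∃ c : GQ → Matrix (Fin 2) (Fin 2) k, IsAdCocycle ρ c ∧
      IsLevelConstant₁ (MonoidHom.id GQ) c ∧ IsFlatCocycle ρ p c
  · obtain ⟨c, hc, hlev, hflat⟩ := h
    exact rankLE_mono (rankLE_sup (rankLE_redU hord hA hp2) (rankLE_span_singleton _))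
      (flatConds_le hA hp2 hord hρ hc hlev hflat)
  · rw [flatConds_eq_bot h, bot_sup_eq]
    exact ⟨rankLE_adCoboundaries.1, rankLE_adCoboundaries.2.trans (by norm_num)⟩

theorem rankLE_flatConst_upper :
    RankLE (flatConstConds ρ p A ![1, 0] ⊔ adCoboundaries ρ (A.decompositionSubgroup ℚ)) 3 := by
  by_cases h : ∃ c : GQ → Matrix (Fin 2) (Fin 2) k, IsAdCocycle ρ c ∧
      IsLevelConstant₁ (MonoidHom.id GQ) c ∧ IsFlatCocycle ρ p c
  swap
  · rw [flatConstConds, flatConds_eq_bot h, bot_inf_eq, bot_sup_eq]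
    exact rankLE_adCoboundaries
  obtain ⟨c, hc, hlev, hflat⟩ := h
  refine rankLE_mono (rankLE_sup (rankLE_redU₀ hord hA hp2)
    (rankLE_span_singleton (lowerDelta ρ A))) ?_
  have hB := coboundaries_le hA hp2 hord hρ hc hlev hflat
  refine sup_le ?_ hB
  rintro x ⟨hxflat, hxs⟩
  obtain ⟨s, hs, b, hb, rfl⟩ := Submodule.mem_sup.1 hxs
  refine add_mem ?_ (hB hb)
  have hs' : s ∈ redU p ρ A ⊔ Submodule.span k {lowerDelta ρ A} := by
    have h1 := flatConds_le hA hp2 hord hρ hc hlev hflat (Submodule.mem_sup_left hxflat)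
    have h2 := flatConds_le hA hp2 hord hρ hc hlev hflat (Submodule.mem_sup_right hb)
    simpa using sub_mem h1 h2
  obtain ⟨u, hu, z, hz, rfl⟩ := Submodule.mem_sup.1 hs'
  obtain ⟨t, rfl⟩ := Submodule.mem_span_singleton.1 hz
  have hcol : ∀ σ, (u + t • lowerDelta ρ A) σ 1 0 = 0 ∧ (u + t • lowerDelta ρ A) σ 0 0 = 0 := by
    intro σ
    have hh := hs.2 σ
    exact ⟨by simpa [Matrix.mulVec, dotProduct, Fin.sum_univ_two] using congrFun hh 1,
      by simpa [Matrix.mulVec, dotProduct, Fin.sum_univ_two] using congrFun hh 0⟩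
  obtain ⟨c₀, hc₀⟩ : ∃ c₀ : (ZMod p)ˣ, c₀ ≠ 1 := by
    refine Fintype.exists_ne_of_one_lt_card ?_ 1
    rw [ZMod.card_units p]
    have := (Fact.out : p.Prime).two_le
    omega
  obtain ⟨σ₀, hσ₀, hχ₀⟩ := exists_inertia_cycloChar hA c₀
  have hd₀ := mem_decomposition_of_inertia hσ₀
  have ht : t = 0 := by
    have h1 := (hcol ⟨σ₀, hd₀⟩).1
    simp only [Pi.add_apply, Pi.smul_apply, Matrix.add_apply, Matrix.smul_apply, hu.2.1,
      lowerDelta, adDelta_apply, Matrix.sub_apply, smul_eq_mul, zero_add] at h1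
    rw [(conjAct_upper (hord.upper σ₀ hd₀) _).2.2, hord.char σ₀ hσ₀, hord.quot σ₀ hσ₀, hχ₀] at h1
    refine (mul_eq_zero.1 h1).resolve_right ?_
    simp only [lowerNil, Matrix.of_apply, Matrix.cons_val', Matrix.cons_val_zero,
      Matrix.cons_val_one, Matrix.cons_val_fin_one, mul_one]
    rw [sub_eq_zero, one_div, inv_eq_one]
    exact fun h => hc₀ (Units.ext ((algebraMap (ZMod p) k).injective (by rw [h]; simp)))
  subst ht
  rw [zero_smul, add_zero]
  exact Submodule.mem_sup_left ⟨hu, fun σ => by simpa using (hcol σ).2⟩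

end

end FermatAgent.TW.Flat
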