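import Fermat.Agent.TW.Flat.RedUnits
import Fermat.Agent.TW.Flat.FixedCard
import Fermat.Agent.TW.Decomposition

/-!
# The coefficient map of peu ramifiée classes
-/

set_option autoImplicit false

open Matrix Module

namespace FermatAgent.TW.Flat

open FermatAgent.Local FermatAgent.Duality.Local

noncomputable section

local notation "Qb" => AlgebraicClosure ℚ
local notation "GQ" => AlgebraicClosure ℚ ≃ₐ[ℚ] AlgebraicClosure ℚ

variable {k : Type} [Field k] {p : ℕ} [Fact p.Prime] [Algebra (ZMod p) k]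
  {ρ : GQ →* GL (Fin 2) k} {A : ValuationSubring Qb} (hord : OrdUpper p ρ A) {ζ : Qb}

/-- The residue of `(r ^ p - 1) / p` for a normal root `r` of `l₀ (c e)`. -/
def coeffMap (ζ : Qb) (l₀ : k →ₗ[ZMod p] ZMod p) (e : GQ → k) (c : k) :
    IsLocalRing.ResidueField A :=
  open Classical in
  if h : ∃ r, NormalRoot hord ζ e (l₀.comp (LinearMap.mulLeft (ZMod p) c)) r then
    res A ((h.choose ^ p - 1) / (p : Qb))
  else 0

variable (hA : A.LiesOverPrime p) (hζ : IsPrimitiveRoot ζ p) (l₀ : k →ₗ[ZMod p] ZMod p)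
include hA hζ

theorem coeffMap_eq {e : GQ → k} {c : k} {e' : GQ → k} {l : k →ₗ[ZMod p] ZMod p} {r : Qb}
    (he : PeuClass hord ζ e) (hr : NormalRoot hord ζ e' l r)
    (heq : ∀ σ ∈ ordH p hord.upper, l₀ (c * e σ) = l (e' σ)) :
    coeffMap hord ζ l₀ e c = res A ((r ^ p - 1) / (p : Qb)) := by
  classical
  have h := exists_normalRoot hord hA hζ he (l₀.comp (LinearMap.mulLeft (ZMod p) c))
  rw [coeffMap, dif_pos h]
  exact res_normalRoot_eq hord hA hζ heq h.choose_spec hr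

/-- Products of normal roots. -/
theorem normalRoot_mul {e e' e'' : GQ → k} {l l' l'' : k →ₗ[ZMod p] ZMod p} {r r' : Qb}
    (hr : NormalRoot hord ζ e l r) (hr' : NormalRoot hord ζ e' l' r')
    (heq : ∀ σ ∈ ordH p hord.upper, l (e σ) + l' (e' σ) = l'' (e'' σ)) :
    NormalRoot hord ζ e'' l'' (r * r') ∧
      res A (((r * r') ^ p - 1) / (p : Qb)) =
        res A ((r ^ p - 1) / (p : Qb)) + res A ((r' ^ p - 1) / (p : Qb)) := by
  have hp := (Fact.out : p.Prime)
  have hp0 : (p : Qb) ≠ 0 := Nat.cast_ne_zero.2 hp.ne_zero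
  have hpv := natCast_val_ne_zero A hp
  set a := (r ^ p - 1) / (p : Qb) with ha
  set a' := (r' ^ p - 1) / (p : Qb) with ha'
  have hmem : ∀ x : Qb, A.valuation x ≤ A.valuation (p : Qb) → x / (p : Qb) ∈ A := fun x hx =>
    mem_of_val_le_one (by rw [map_div₀]; exact div_le_one_of_le₀ hx zero_le)
  have haA : a ∈ A := hmem _ hr.2
  have ha'A : a' ∈ A := hmem _ hr'.2
  have hpA : (p : Qb) ∈ A := natCast_mem A p
  have e1 : (r * r') ^ p - 1 = (p : Qb) * (a + a' + (p : Qb) * (a * a')) := by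
    rw [ha, ha', mul_pow]; field_simp; ring
  have hsum : a + a' + (p : Qb) * (a * a') ∈ A :=
    add_mem (add_mem haA ha'A) (mul_mem hpA (mul_mem haA ha'A))
  refine ⟨⟨(hr.1.mul hζ hr'.1).congr heq, ?_⟩, ?_⟩
  · rw [e1, map_mul]; exact mul_le_of_le_one_right' (val_le_one_of_mem hsum)
  · rw [e1, mul_div_cancel_left₀ _ hp0, res_add (add_mem haA ha'A) (mul_mem hpA (mul_mem haA ha'A)),
      res_add haA ha'A, res_mul hpA (mul_mem haA ha'A), (res_eq_zero_iff hpA).2 hA, zero_mul,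
      add_zero]

theorem coeffMap_add_right {e : GQ → k} (he : PeuClass hord ζ e) (c c' : k) :
    coeffMap hord ζ l₀ e (c + c') = coeffMap hord ζ l₀ e c + coeffMap hord ζ l₀ e c' := by
  obtain ⟨r, hr⟩ := exists_normalRoot hord hA hζ he (l₀.comp (LinearMap.mulLeft (ZMod p) c))
  obtain ⟨r', hr'⟩ := exists_normalRoot hord hA hζ he (l₀.comp (LinearMap.mulLeft (ZMod p) c'))
  obtain ⟨hprod, hres⟩ := normalRoot_mul hord hA hζ hr hr'
    (l'' := l₀.comp (LinearMap.mulLeft (ZMod p) (c + c'))) (e'' := e) fun σ _ => by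
      simp [add_mul]
  rw [coeffMap_eq hord hA hζ l₀ he hr fun σ _ => rfl, coeffMap_eq hord hA hζ l₀ he hr' fun σ _ => rfl,
    coeffMap_eq hord hA hζ l₀ he hprod fun σ _ => rfl, hres]

theorem coeffMap_add_left {e e' : GQ → k} (he : PeuClass hord ζ e) (he' : PeuClass hord ζ e')
    (he'' : PeuClass hord ζ (e + e')) (c : k) :
    coeffMap hord ζ l₀ (e + e') c = coeffMap hord ζ l₀ e c + coeffMap hord ζ l₀ e' c := by
  obtain ⟨r, hr⟩ := exists_normalRoot hord hA hζ he (l₀.comp (LinearMap.mulLeft (ZMod p) c))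
  obtain ⟨r', hr'⟩ := exists_normalRoot hord hA hζ he' (l₀.comp (LinearMap.mulLeft (ZMod p) c))
  obtain ⟨hprod, hres⟩ := normalRoot_mul hord hA hζ hr hr'
    (l'' := l₀.comp (LinearMap.mulLeft (ZMod p) c)) (e'' := e + e') fun σ _ => by
      simp [mul_add]
  rw [coeffMap_eq hord hA hζ l₀ he hr fun σ _ => rfl, coeffMap_eq hord hA hζ l₀ he' hr' fun σ _ => rfl,
    coeffMap_eq hord hA hζ l₀ he'' hprod fun σ _ => rfl, hres]

theorem coeffMap_frobenius {e : GQ → k} (he : PeuClass hord ζ e) {F : GQ}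
    (hF : A.IsFrobeniusAt F p) (c : k) :
    coeffMap hord ζ l₀ e (algebraMap (ZMod p) k (ExtCitation.cycloChar p F : ZMod p) /
      kap ρ F * c) = coeffMap hord ζ l₀ e c ^ p := by
  have hFd := (isFrobeniusAt_iff.1 hF).1
  obtain ⟨r, hr⟩ := exists_normalRoot hord hA hζ he (l₀.comp (LinearMap.mulLeft (ZMod p) c))
  have hroot := hr.1.conj hζ (g := F) fun σ hσ => conj_mem_ordH hFd hσ
  have hFr : NormalRoot hord ζ e (l₀.comp (LinearMap.mulLeft (ZMod p)
      (algebraMap (ZMod p) k (ExtCitation.cycloChar p F : ZMod p) / kap ρ F * c))) (F r) := by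
    refine ⟨hroot.congr fun σ hσ => ?_, ?_⟩
    · simp only [LinearMap.comp_apply, LinearMap.mulLeft_apply, he.conj F hFd σ hσ]
      rw [← smul_eq_mul (ExtCitation.cycloChar p F : ZMod p), ← map_smul, Algebra.smul_def]
      congr 1
      ring
    · rw [← map_pow, show F (r ^ p) - 1 = F (r ^ p - 1) by rw [map_sub, map_one],
        val_galois_eq hFd]
      exact hr.2
  rw [coeffMap_eq hord hA hζ l₀ he hr fun σ _ => rfl, coeffMap_eq hord hA hζ l₀ he hFr fun σ _ => rfl,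
    ← res_frobenius hF (mem_of_val_le_one (by
      rw [map_div₀]; exact div_le_one_of_le₀ hr.2 zero_le)),
    map_div₀, map_natCast, map_sub, map_one, map_pow]

theorem eq_zero_of_coeffMap_eq_zero (hp2 : p ≠ 2) (hl₀ : l₀ ≠ 0) {e : GQ → k}
    (he : PeuClass hord ζ e) (h0 : ∀ c, coeffMap hord ζ l₀ e c = 0) {σ : GQ}
    (hσ : σ ∈ ordH p hord.upper) : e σ = 0 := by
  by_contra hne
  obtain ⟨x, hx⟩ : ∃ x, l₀ x ≠ 0 := by
    by_contra! h
    exact hl₀ (LinearMap.ext h)
  obtain ⟨r, hr⟩ := exists_normalRoot hord hA hζ he (l₀.comp (LinearMap.mulLeft (ZMod p) (x / e σ)))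
  have hres := h0 (x / e σ)
  rw [coeffMap_eq hord hA hζ l₀ he hr fun σ _ => rfl] at hres
  have := apply_eq_zero_of_res_eq_zero hord hA hζ hp2 he hr hres hσ
  simp [hne, hx] at this

end

end FermatAgent.TW.Flat
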