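import Fermat.Agent.TW.Flat.Peu

/-!
# Peu ramifiée classes of weight `χ u` on `D`: the level `p - 1` coefficient
-/

set_option autoImplicit false

open Matrix

namespace FermatAgent.TW.Flat

open FermatAgent.Local FermatAgent.Duality.Local

noncomputable section

local notation "Qb" => AlgebraicClosure ℚ
local notation "GQ" => AlgebraicClosure ℚ ≃ₐ[ℚ] AlgebraicClosure ℚ

variable {k : Type} [Field k] {p : ℕ} [Fact p.Prime] [Algebra (ZMod p) k]
  {ρ : GQ →* GL (Fin 2) k} {A : ValuationSubring Qb}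

/-- The elements of `D` on which `χ` and the ratio of the two characters are trivial. -/
def ordH (p : ℕ) [Fact p.Prime] (hup : UpperAt ρ A) : Subgroup GQ where
  carrier := {σ | σ ∈ A.decompositionSubgroup ℚ ∧ ExtCitation.cycloChar p σ = 1 ∧
    (ρ σ : Matrix (Fin 2) (Fin 2) k) 0 0 = (ρ σ : Matrix (Fin 2) (Fin 2) k) 1 1}
  mul_mem' := fun {a b} ha hb => ⟨mul_mem ha.1 hb.1, by rw [map_mul, ha.2.1, hb.2.1, mul_one], by
    obtain ⟨e0, e1, -⟩ := upper_mul (hup a ha.1) (hup b hb.1)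
    rw [map_mul, Units.val_mul, e0, e1, ha.2.2, hb.2.2]⟩
  one_mem' := ⟨one_mem _, map_one _, by simp⟩
  inv_mem' := fun {a} ha => ⟨inv_mem ha.1, by rw [map_inv, ha.2.1, inv_one], by
    obtain ⟨e0, e1, -⟩ := upper_mul (hup a ha.1) (hup _ (inv_mem ha.1))
    rw [← Units.val_mul, ← map_mul, mul_inv_cancel, map_one] at e0 e1
    simp only [Units.val_one, Matrix.one_apply_eq] at e0 e1
    exact mul_left_cancel₀ (diag_ne_zero hup ha.1).1 (by rw [← e0, e1, ha.2.2])⟩

/-- The ratio of the two characters. -/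
def kap (ρ : GQ →* GL (Fin 2) k) (σ : GQ) : k :=
  (ρ σ : Matrix (Fin 2) (Fin 2) k) 0 0 / (ρ σ : Matrix (Fin 2) (Fin 2) k) 1 1

theorem kap_mul (hup : UpperAt ρ A) {σ τ : GQ} (hσ : σ ∈ A.decompositionSubgroup ℚ)
    (hτ : τ ∈ A.decompositionSubgroup ℚ) : kap ρ (σ * τ) = kap ρ σ * kap ρ τ := by
  obtain ⟨e0, e1, -⟩ := upper_mul (hup σ hσ) (hup τ hτ)
  rw [kap, map_mul, Units.val_mul, e0, e1, kap, kap, div_mul_div_comm]

theorem kap_ne_zero (hup : UpperAt ρ A) {σ : GQ} (hσ : σ ∈ A.decompositionSubgroup ℚ) :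
    kap ρ σ ≠ 0 :=
  div_ne_zero (diag_ne_zero hup hσ).1 (diag_ne_zero hup hσ).2

theorem kap_inertia (hord : OrdUpper p ρ A) {σ : GQ} (hσ : σ ∈ A.inertiaSubgroupIn ℚ) :
    kap ρ σ = algebraMap (ZMod p) k (ExtCitation.cycloChar p σ : ZMod p) := by
  rw [kap, hord.quot σ hσ, div_one, hord.char σ hσ]

omit [Algebra (ZMod p) k] in
theorem mem_ordH_iff {hup : UpperAt ρ A} {σ : GQ} : σ ∈ ordH p hup ↔
    σ ∈ A.decompositionSubgroup ℚ ∧ ExtCitation.cycloChar p σ = 1 ∧ kap ρ σ = 1 := by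
  refine ⟨fun h => ⟨h.1, h.2.1, by rw [kap, h.2.2, div_self (diag_ne_zero hup h.1).2]⟩,
    fun h => ⟨h.1, h.2.1, ?_⟩⟩
  have := h.2.2
  rwa [kap, div_eq_one_iff_eq (diag_ne_zero hup h.1).2] at this

omit [Algebra (ZMod p) k] in
theorem conj_mem_ordH {hup : UpperAt ρ A} {g σ : GQ} (hg : g ∈ A.decompositionSubgroup ℚ)
    (hσ : σ ∈ ordH p hup) : g⁻¹ * σ * g ∈ ordH p hup := by
  obtain ⟨hd, hχ, hk⟩ := mem_ordH_iff.1 hσ
  refine mem_ordH_iff.2 ⟨mul_mem (mul_mem (inv_mem hg) hd) hg, ?_, ?_⟩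
  · rw [map_mul, map_mul, hχ, mul_one, map_inv, inv_mul_cancel]
  · rw [kap_mul hup (mul_mem (inv_mem hg) hd) hg, kap_mul hup (inv_mem hg) hd, hk, mul_one,
      ← kap_mul hup (inv_mem hg) hg, inv_mul_cancel, kap, map_one]
    simp

theorem inertiaCyclo_le_ordH (hord : OrdUpper p ρ A) :
    inertiaCyclo p A ≤ ordH p hord.upper := fun σ hσ => mem_ordH_iff.2
  ⟨mem_decomposition_of_inertia (mem_inertiaCyclo.1 hσ).1, (mem_inertiaCyclo.1 hσ).2, by
    rw [kap_inertia hord (mem_inertiaCyclo.1 hσ).1, (mem_inertiaCyclo.1 hσ).2, Units.val_one,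
      map_one]⟩

variable (hord : OrdUpper p ρ A)

/-- A peu ramifiée class of weight `χ u`, seen on `ordH`. -/
structure PeuClass (ζ : Qb) (e : GQ → k) : Prop where
  add : ∀ σ ∈ ordH p hord.upper, ∀ τ ∈ ordH p hord.upper, e (σ * τ) = e σ + e τ
  conj : ∀ g ∈ A.decompositionSubgroup ℚ, ∀ σ ∈ ordH p hord.upper,
    e (g⁻¹ * σ * g) = (kap ρ g)⁻¹ * e σ
  level : ∃ F : IntermediateField ℚ Qb, FiniteDimensional ℚ F ∧
    ∀ g ∈ ordH p hord.upper, ∀ s ∈ ordH p hord.upper, s ∈ F.fixingSubgroup → e (g * s) = e g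
  peu : IsPeu p A ζ e

variable {ζ : Qb}

/-- A root of `l ∘ e` congruent to one to first order. -/
def NormalRoot (ζ : Qb) (e : GQ → k) (l : k →ₗ[ZMod p] ZMod p) (r : Qb) : Prop :=
  IsRoot p ζ (ordH p hord.upper) (fun σ => l (e σ)) r ∧
    A.valuation (r ^ p - 1) ≤ A.valuation (p : Qb)

variable (hA : A.LiesOverPrime p) (hζ : IsPrimitiveRoot ζ p)
include hA hζ

-- Kept: omitting the unused hypotheses would change the signature of a used lemma.
set_option linter.unusedSectionVars false in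
theorem zeta_fixed_ordH {σ : GQ} (hσ : σ ∈ ordH p hord.upper) : σ ζ = ζ := by
  rw [apply_root_eq_pow hζ σ, hσ.2.1, Units.val_one, ZMod.val_one, pow_one]

/-- Two units congruent to one with the same character. -/
theorem val_root_change {r r' : Qb} {f : GQ → ZMod p}
    (hr : IsRoot p ζ (inertiaCyclo p A) f r) (hr' : IsRoot p ζ (inertiaCyclo p A) f r')
    (h1 : A.valuation (r ^ p - 1) < 1) (h1' : A.valuation (r' ^ p - 1) < 1) :
    A.valuation (r' ^ p - r ^ p) ≤ A.valuation (ζ - 1) ^ p := by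
  have hp := (Fact.out : p.Prime)
  have hu := uniform_inertiaCyclo (A := A) hζ hA
  set u := A.valuation (ζ - 1) with hudef
  set y := r' / r
  have hw := val_sub_one_lt hA h1
  have hw' := val_sub_one_lt hA h1'
  have hv : A.valuation r = 1 := val_eq_one_of_sub_lt hw
  have hy1 : A.valuation (y - 1) < 1 := by
    rw [show y - 1 = (r' - r) / r by simp [y, sub_div, div_self hr.1], map_div₀, hv, div_one,
      show r' - r = (r' - 1) + -(r - 1) by ring]
    exact A.valuation.map_add_lt hw' (by rwa [Valuation.map_neg])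
  have hyu : A.valuation (y - 1) ≤ u := hu.le_of_lt_one (fun σ hσ => by
    rw [map_sub, map_one, hr'.div_fixed hr hσ]) hy1
  have hpu : A.valuation (p : Qb) = u ^ (p - 1) := (val_zeta_sub_one_pow hζ).symm
  have hyp : A.valuation (y ^ p - 1) ≤ u ^ p := by
    refine (val_pow_sub_one_le hy1.le).trans (max_le ?_ (pow_le_pow_left' hyu p))
    calc A.valuation (p : Qb) * A.valuation (y - 1) ≤ u ^ (p - 1) * u :=
          hpu ▸ mul_le_mul' le_rfl hyu
      _ = u ^ p := by rw [← pow_succ, Nat.sub_add_cancel hp.one_le]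
  have e : r' ^ p - r ^ p = r ^ p * (y ^ p - 1) := by
    rw [mul_sub, ← mul_pow, mul_one, mul_div_cancel₀ _ hr.1]
  rw [e, map_mul, map_pow, hv, one_pow, one_mul]
  exact hyp

theorem exists_normalRoot {e : GQ → k} (he : PeuClass hord ζ e) (l : k →ₗ[ZMod p] ZMod p) :
    ∃ r, NormalRoot hord ζ e l r := by
  classical
  have hp := (Fact.out : p.Prime)
  set H := ordH p hord.upper with hH
  have hJH : inertiaCyclo p A ≤ H := inertiaCyclo_le_ordH hord
  have hu := uniform_inertiaCyclo (A := A) hζ hA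
  set π := ζ - 1 with hπdef
  have hπ0 : π ≠ 0 := zeta_sub_one_ne_zero hζ
  have hπH : ∀ σ ∈ H, σ π = π := fun σ hσ => by
    rw [hπdef, map_sub, map_one, zeta_fixed_ordH hord hA hζ hσ]
  set u := A.valuation π with hudef
  set f : GQ → ZMod p := fun σ => l (e σ)
  obtain ⟨F, hF, hlev⟩ := he.level
  obtain ⟨r₀, hr₀⟩ := exists_isRoot hζ (fun σ hσ => zeta_fixed_ordH hord hA hζ hσ) (f := f)
    ⟨fun σ hσ τ hτ => by simp only [f, he.add σ hσ τ hτ, map_add],
      F, hF, fun g hg s hs h => by simp only [f, hlev g hg s hs h]⟩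
  obtain ⟨r₁, hr₁v, hr₁⟩ := he.peu l
  obtain ⟨n, hn⟩ := hu.fixed (r₀ / r₁) (div_ne_zero hr₀.1 hr₁.1)
    fun σ hσ => (hr₀.mono hJH).div_fixed hr₁ hσ
  rw [map_div₀, hr₁v, div_one] at hn
  set r₂ := r₀ * π ^ (-n) with hr₂def
  have hr₂ : IsRoot p ζ H f r₂ := hr₀.mul_fixed (zpow_ne_zero _ hπ0) fun σ hσ => by
    rw [map_zpow₀, hπH σ hσ]
  have hr₂v : A.valuation r₂ = 1 := by
    rw [hr₂def, map_mul, hn, map_zpow₀, ← hudef, ← zpow_add₀ hu.ne_zero, add_neg_cancel, zpow_zero]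
  obtain ⟨c, hcA, hcfix, hc⟩ := exists_pth_root_mod hA (H := H)
    (x := r₂ ^ p) (mem_of_val_le_one (by rw [map_pow, hr₂v, one_pow]))
    fun σ hσ => hr₂.pow_fixed hζ hσ
  have hcv : A.valuation c = 1 := eq_one_of_pow_eq_one hp.ne_zero (by
    have h1 : A.valuation (r₂ ^ p) = 1 := by rw [map_pow, hr₂v, one_pow]
    rw [← map_pow, ← h1]
    refine A.valuation.map_eq_of_sub_lt ?_
    rw [Valuation.map_sub_swap, h1]
    exact hc)
  have hc0 : c ≠ 0 := fun h => by rw [h, map_zero] at hcv; exact zero_ne_one hcv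
  set r := r₂ * c⁻¹ with hrdef
  have hr : IsRoot p ζ H f r := hr₂.mul_fixed (inv_ne_zero hc0) fun σ hσ => by
    rw [map_inv₀, hcfix σ hσ]
  have hb1 : A.valuation (r ^ p - 1) < 1 := by
    rw [hrdef, mul_pow, inv_pow, ← div_eq_mul_inv, div_sub_one (pow_ne_zero _ hc0), map_div₀,
      map_pow, hcv, one_pow, div_one]
    exact hc
  refine ⟨r, hr, not_lt.1 fun hlt => ?_⟩
  set b := r ^ p with hbdef
  have hb0 : b - 1 ≠ 0 := fun h => by rw [h, map_zero] at hlt; exact not_lt_zero hlt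
  have hbfix : ∀ σ ∈ inertiaCyclo p A, σ (b - 1) = b - 1 := fun σ hσ => by
    rw [map_sub, map_one, hr.pow_fixed hζ (hJH hσ)]
  obtain ⟨s, hs⟩ := hu.exists_natPow hb0 hbfix hb1.le
  have hs0 : s ≠ 0 := fun h => by rw [hs, h, pow_zero] at hb1; exact lt_irrefl _ hb1
  have hsp : s < p - 1 := by
    rw [hs, ← val_zeta_sub_one_pow hζ, ← hπdef, ← hudef, ← zpow_natCast, ← zpow_natCast,
      zpow_lt_zpow_iff' hu.ne_zero hu.lt_one] at hlt
    exact_mod_cast hlt
  -- inertia acts on this level by a non-trivial character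
  obtain ⟨c₀, hc₀⟩ := IsCyclic.exists_ofOrder_eq_natCard (α := (ZMod p)ˣ)
  obtain ⟨g, hg, hχg⟩ := exists_inertia_cycloChar hA c₀
  have hgd := mem_decomposition_of_inertia hg
  have hgr : IsRoot p ζ H f (g r) := by
    refine (hr.conj hζ fun σ hσ => conj_mem_ordH hgd hσ).congr fun σ hσ => ?_
    show _ * l (e (g⁻¹ * σ * g)) = l (e σ)
    rw [he.conj g hgd σ hσ, kap_inertia hord hg, ← map_inv₀, ← Algebra.smul_def, map_smul,
      smul_eq_mul, ← mul_assoc, mul_inv_cancel₀ (Units.ne_zero _), one_mul]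
  have hgb : A.valuation ((g r) ^ p - 1) < 1 := by
    rw [← map_pow, ← hbdef, show g b - 1 = g (b - 1) by rw [map_sub, map_one], val_galois_eq hgd]
    exact hb1
  have h := val_root_change hA hζ (hr.mono hJH) (hgr.mono hJH) hb1 hgb
  rw [← map_pow, ← hbdef, show g b - b = (b - 1) * (g (b - 1) / (b - 1) - 1) by
    rw [map_sub, map_one]; field_simp; ring, map_mul, hs] at h
  have hratio : A.valuation (g (b - 1) / (b - 1) - 1) = 1 := by
    have hmem := ratio_mem (A := A) hgd hb0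
    refine le_antisymm (val_le_one_of_mem (sub_mem hmem A.one_mem)) (not_lt.1 fun hlt' => ?_)
    rw [← res_eq_res_iff hmem A.one_mem, res_one, ← tameVal_eq_res hb0 hgd,
      tameVal_eq_of_val_eq (pow_ne_zero s hπ0) (by rw [hs, map_pow]) hg,
      tameVal_eq_res (pow_ne_zero _ hπ0) hgd, map_pow, ← div_pow,
      res_pow (ratio_mem hgd hπ0), hπdef, res_ratio_zeta hζ hA g, hχg] at hlt'
    have := Duality.Local.charP_residue hp hA
    have h1 : ((c₀ : ZMod p) ^ s) = 1 := by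
      apply (ZMod.castHom (dvd_refl p) (IsLocalRing.ResidueField A)).injective
      rw [map_pow, map_one, ZMod.castHom_apply, ← ZMod.natCast_val]
      exact hlt'
    have h2 : orderOf c₀ ∣ s := orderOf_dvd_of_pow_eq_one (Units.ext (by simpa using h1))
    rw [hc₀, Nat.card_eq_fintype_card, ZMod.card_units p] at h2
    have := Nat.le_of_dvd (by omega) h2
    omega
  rw [hratio, mul_one, ← hudef, ← zpow_natCast, ← zpow_natCast,
    zpow_le_zpow_iff' hu.ne_zero hu.lt_one] at h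
  omega

/-- The coefficient of a normal root does not depend on the root. -/
theorem res_normalRoot_eq {e e' : GQ → k} {l l' : k →ₗ[ZMod p] ZMod p}
    (heq : ∀ σ ∈ ordH p hord.upper, l (e σ) = l' (e' σ)) {r r' : Qb}
    (hr : NormalRoot hord ζ e l r) (hr' : NormalRoot hord ζ e' l' r') :
    res A ((r ^ p - 1) / (p : Qb)) = res A ((r' ^ p - 1) / (p : Qb)) := by
  have hp := (Fact.out : p.Prime)
  have hp0 := natCast_val_ne_zero A hp
  have hmem : ∀ x : Qb, A.valuation x ≤ A.valuation (p : Qb) → x / (p : Qb) ∈ A := fun x hx =>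
    mem_of_val_le_one (by rw [map_div₀]; exact div_le_one_of_le₀ hx zero_le)
  rw [res_eq_res_iff (hmem _ hr.2) (hmem _ hr'.2), ← sub_div, map_div₀,
    div_lt_one₀ (zero_lt_iff.2 hp0), sub_sub_sub_cancel_right]
  refine (val_root_change hA hζ (hr'.1.mono (inertiaCyclo_le_ordH hord))
    ((hr.1.congr heq).mono (inertiaCyclo_le_ordH hord))
    (hr'.2.trans_lt hA) (hr.2.trans_lt hA)).trans_lt ?_
  rw [← val_zeta_sub_one_pow hζ]
  conv_lhs => rw [← Nat.sub_add_cancel hp.one_le, pow_succ]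
  exact mul_lt_of_lt_one_right
    (zero_lt_iff.2 (pow_ne_zero _ (uniform_inertiaCyclo hζ hA).ne_zero))
    (val_zeta_sub_one_lt hζ hA)

/-- A vanishing coefficient means a trivial class on `ordH`. -/
theorem apply_eq_zero_of_res_eq_zero (hp2 : p ≠ 2) {e : GQ → k} (he : PeuClass hord ζ e)
    {l : k →ₗ[ZMod p] ZMod p} {r : Qb} (hr : NormalRoot hord ζ e l r)
    (h0 : res A ((r ^ p - 1) / (p : Qb)) = 0) {σ : GQ} (hσ : σ ∈ ordH p hord.upper) :
    l (e σ) = 0 := by
  have hp := (Fact.out : p.Prime)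
  have hp0 := natCast_val_ne_zero A hp
  have hu := uniform_inertiaCyclo (A := A) hζ hA
  have hJH := inertiaCyclo_le_ordH hord
  rw [res_eq_zero_iff (mem_of_val_le_one (by
    rw [map_div₀]; exact div_le_one_of_le₀ hr.2 zero_le)), map_div₀,
    div_lt_one₀ (zero_lt_iff.2 hp0), ← val_zeta_sub_one_pow hζ] at h0
  have hclose := hu.le_of_lt_pow (fun s hs => by
    rw [map_sub, map_one, hr.1.pow_fixed hζ (hJH hs)]) h0
  rw [Nat.sub_add_cancel hp.one_le] at hclose
  have hJ0 : ∀ s ∈ inertiaCyclo p A, l (e s) = 0 := fun s hs => by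
    have h1 := fixed_of_close hA hζ (hr.1.mono hJH) hclose hs (mem_inertiaCyclo.1 hs).1
      (zeta_fixed_ordH hord hA hζ (hJH hs))
    have h2 := hr.1.2 s (hJH hs)
    rw [h1] at h2
    exact (zpw_eq_one_iff hζ).1 ((eq_comm.1 h2).trans (one_mul r).symm |> mul_right_cancel₀ hr.1.1)
  obtain ⟨c₀, hc₀⟩ : ∃ c₀ : (ZMod p)ˣ, c₀ ≠ 1 := by
    refine Fintype.exists_ne_of_one_lt_card ?_ 1
    rw [ZMod.card_units p]
    have := hp.two_le
    omega
  obtain ⟨g, hg, hχg⟩ := exists_inertia_cycloChar hA c₀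
  have hgd := mem_decomposition_of_inertia hg
  have hσd := hσ.1
  have hcomm : g⁻¹ * σ * g * σ⁻¹ ∈ inertiaCyclo p A := by
    refine mem_inertiaCyclo.2 ⟨?_, ?_⟩
    · rw [mul_assoc _ σ g, mul_assoc _ _ σ⁻¹]
      exact mul_mem (inv_mem hg) (conj_mem_inertia' hσd hg)
    · rw [map_mul, map_mul, map_mul, map_inv, map_inv, hσ.2.1]
      group
  have h1 := congrArg l (he.add _ (hJH hcomm) σ hσ)
  rw [inv_mul_cancel_right, map_add, hJ0 _ hcomm, zero_add, he.conj g hgd σ hσ,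
    kap_inertia hord hg, hχg, ← map_inv₀, ← Algebra.smul_def, map_smul, smul_eq_mul] at h1
  have h2 : (((c₀ : ZMod p))⁻¹ - 1) * l (e σ) = 0 := by rw [sub_mul, h1, one_mul, sub_self]
  refine (mul_eq_zero.1 h2).resolve_left (sub_ne_zero.2 fun h => hc₀ (Units.ext ?_))
  rw [inv_eq_one] at h
  rw [h, Units.val_one]

end

end FermatAgent.TW.Flat
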