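import Fermat.Agent.TW.Flat.Upper
import Fermat.Agent.TW.BorelCocycle

/-!
# The shape of a flat deformation of an ordinary representation

After a coboundary it is upper triangular on the decomposition group with unramified diagonal.
-/

set_option autoImplicit false

open Matrix

namespace FermatAgent.TW.Flat

open FermatAgent.Local

noncomputable section

local notation "Qb" => AlgebraicClosure ℚ
local notation "GQ" => AlgebraicClosure ℚ ≃ₐ[ℚ] AlgebraicClosure ℚ

variable {k : Type} [Field k] {p : ℕ} [Fact p.Prime] [Algebra (ZMod p) k]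
  {ρ : GQ →* GL (Fin 2) k} {A : ValuationSubring Qb}

/-- `ρ|D` is upper triangular, inertia acting by the cyclotomic character on the line and trivially
on the quotient. -/
structure OrdUpper (p : ℕ) [Fact p.Prime] [Algebra (ZMod p) k] (ρ : GQ →* GL (Fin 2) k)
    (A : ValuationSubring Qb) : Prop where
  upper : UpperAt ρ A
  char : ∀ σ ∈ A.inertiaSubgroupIn ℚ, (ρ σ : Matrix (Fin 2) (Fin 2) k) 0 0 =
    algebraMap (ZMod p) k (ExtCitation.cycloChar p σ : ZMod p)
  quot : ∀ σ ∈ A.inertiaSubgroupIn ℚ, (ρ σ : Matrix (Fin 2) (Fin 2) k) 1 1 = 1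

/-- Entries of the adjoint action of an upper triangular element. -/
theorem conjAct_upper {g : GL (Fin 2) k} (h10 : (g : Matrix (Fin 2) (Fin 2) k) 1 0 = 0)
    (a : Matrix (Fin 2) (Fin 2) k) :
    conjAct g a 0 0 = a 0 0 + g 0 1 / g 0 0 * a 1 0 ∧
    conjAct g a 0 1 = g 0 0 / g 1 1 * a 0 1 + g 0 1 / g 1 1 * (a 1 1 - a 0 0) -
      g 0 1 ^ 2 / (g 0 0 * g 1 1) * a 1 0 ∧
    conjAct g a 1 0 = g 1 1 / g 0 0 * a 1 0 := by
  have hd : (g : Matrix (Fin 2) (Fin 2) k).det = g 0 0 * g 1 1 := by simp [det_fin_two, h10]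
  have hd0 : g 0 0 * g 1 1 ≠ 0 := hd ▸ g.det_ne_zero
  have h0 := left_ne_zero_of_mul hd0
  have h1 := right_ne_zero_of_mul hd0
  obtain ⟨e0, e1, e2⟩ := twAd_upper h10 a
  have key : ∀ i j, g 0 0 * g 1 1 * conjAct g a i j = twAd g a i j := fun i j => by
    rw [twAd_eq_smul, hd, Matrix.smul_apply, smul_eq_mul]
  refine ⟨mul_left_cancel₀ hd0 ?_, mul_left_cancel₀ hd0 ?_, mul_left_cancel₀ hd0 ?_⟩
  · rw [key, e0]; field_simp
  · rw [key, e1]; field_simp
  · rw [key, e2]; field_simp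

theorem trace_delta (g : GL (Fin 2) k) {a : Matrix (Fin 2) (Fin 2) k} (c : Matrix (Fin 2) (Fin 2) k)
    (hc : Matrix.trace c = 0) (ha : Matrix.trace a = 0) :
    Matrix.trace (c + (conjAct g a - a)) = 0 := by
  rw [Matrix.trace_add, Matrix.trace_sub, trace_conjAct, hc, ha]
  simp

variable [Finite k] (hA : A.LiesOverPrime p) (hp2 : p ≠ 2) (hord : OrdUpper p ρ A)
include hA hp2 hord

/-- The points of a flat deformation reducing to zero lie over the line, twice. -/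
theorem connected_in_line {c : GQ → Matrix (Fin 2) (Fin 2) k}
    (G : GalRep.Flat.FunctionModel p ((Fin 2 → k) × (Fin 2 → k)) (actOf (gAct p ρ c))) :
    (∀ x y, InC (ofFunctionModel G A (A.inertiaSubgroupIn ℚ)) (x, y) → x 1 = 0) ∧
      ∀ y, InC (ofFunctionModel G A (A.inertiaSubgroupIn ℚ)) (0, y) → y 1 = 0 := by
  classical
  have hp := (Fact.out : p.Prime)
  have hchar : CharP k p := charP_of_injective_algebraMap (algebraMap (ZMod p) k).injective p
  have : Fintype k := Fintype.ofFinite k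
  have : NeZero p := ⟨hp.ne_zero⟩
  obtain ⟨ζ, hζ⟩ := exists_primitiveRoot_qbar p
  have hG := isLModel_ofFunctionModel (J := A.inertiaSubgroupIn ℚ) G hA
  have hfix : ∀ σ ∈ A.inertiaSubgroupIn ℚ, ∀ v : Fin 2 → k,
      ((ρ σ : Matrix (Fin 2) (Fin 2) k) *ᵥ v) 1 = v 1 := fun σ hσ v => by
    simp [Matrix.mulVec, dotProduct, Fin.sum_univ_two, hord.quot σ hσ,
      hord.upper σ (mem_decomposition_of_inertia hσ)]
  have hp0 : ∀ t : k, p • t = 0 := fun t => by rw [nsmul_eq_mul, CharP.cast_eq_zero, zero_mul]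
  refine ⟨fun x y h => ?_, fun y h => ?_⟩
  · let π : (Fin 2 → k) × (Fin 2 → k) →ₗ[ZMod p] k :=
      (LinearMap.proj 1).comp (LinearMap.fst (ZMod p) (Fin 2 → k) (Fin 2 → k))
    have hπ : Function.Surjective π := fun t => ⟨(![0, t], 0), by simp [π]⟩
    have hN := isLModel_quot (ρ' := fun _ => LinearEquiv.refl (ZMod p) k) hζ hG π hπ fun σ hσ z => by
      show (gAct p ρ c σ z).1 1 = z.1 1
      rw [gAct_apply]
      exact hfix σ hσ z.1
    by_contra h0
    exact not_inC_of_fixed hA hN (τ := x 1) h0 (hp0 _) hp2 (fun σ _ => rfl) fun g hg => by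
      simpa [LinearMap.funLeft, π] using h _ hg
  · let ι : (Fin 2 → k) →ₗ[ZMod p] (Fin 2 → k) × (Fin 2 → k) := LinearMap.inr _ _ _
    have hM := hG.restrict (act' := actOf (vAct p ρ)) ι.toAddMonoidHom
      (fun a b h => congrArg Prod.snd h) fun σ _ x => by
        show ι (vAct p ρ σ x) = gAct p ρ c σ (ι x)
        simp [ι, gAct_apply]
    let π : (Fin 2 → k) →ₗ[ZMod p] k := LinearMap.proj 1
    have hπ : Function.Surjective π := fun t => ⟨![0, t], by simp [π]⟩
    have hN := isLModel_quot (ρ' := fun _ => LinearEquiv.refl (ZMod p) k) hζ hM π hπ fun σ hσ z => by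
      show (vAct p ρ σ z) 1 = z 1
      rw [vAct_apply]
      exact hfix σ hσ z
    by_contra h0
    exact not_inC_of_fixed hA hN (τ := y 1) h0 (hp0 _) hp2 (fun σ _ => rfl) fun g hg => by
      simpa [LinearMap.funLeft, π] using (inC_restrict ι.toAddMonoidHom).2 h _ hg

/-- A coboundary making a flat cocycle upper triangular with unramified diagonal. -/
theorem exists_shape {c : GQ → Matrix (Fin 2) (Fin 2) k} (hc : IsAdCocycle ρ c)
    (hflat : IsFlatCocycle ρ p c) :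
    ∃ a : Matrix (Fin 2) (Fin 2) k, Matrix.trace a = 0 ∧
      (∀ σ ∈ A.decompositionSubgroup ℚ, (c σ + (conjAct (ρ σ) a - a)) 1 0 = 0) ∧
      ∀ σ ∈ A.inertiaSubgroupIn ℚ, (c σ + (conjAct (ρ σ) a - a)) 0 0 = 0 := by
  classical
  have hp := (Fact.out : p.Prime)
  obtain ⟨c₀, hc₀⟩ : ∃ c₀ : (ZMod p)ˣ, c₀ ≠ 1 := by
    refine Fintype.exists_ne_of_one_lt_card ?_ 1
    rw [ZMod.card_units p]
    have := hp.two_le
    omega
  obtain ⟨σ₀, hσ₀, hχ₀⟩ := exists_inertia_cycloChar hA c₀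
  have hd₀ := mem_decomposition_of_inertia hσ₀
  set x₀ := algebraMap (ZMod p) k (c₀ : ZMod p) with hx₀def
  have hx₀0 : x₀ ≠ 0 := by simp [hx₀def]
  have hx₀1 : x₀ - 1 ≠ 0 := by
    rw [sub_ne_zero, hx₀def, ← map_one (algebraMap (ZMod p) k)]
    exact fun h => hc₀ (Units.ext ((algebraMap (ZMod p) k).injective h))
  have hx00 : (ρ σ₀ : Matrix (Fin 2) (Fin 2) k) 0 0 = x₀ := by rw [hord.char σ₀ hσ₀, hχ₀]
  have hx11 := hord.quot σ₀ hσ₀
  -- kill the lower left corner at `σ₀`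
  set s : k := x₀ * c σ₀ 1 0 / (x₀ - 1) with hs
  set a : Matrix (Fin 2) (Fin 2) k := !![0, 0; s, 0] with ha
  have hta : Matrix.trace a = 0 := by simp [ha, Matrix.trace_fin_two]
  refine ⟨a, hta, ?_⟩
  set c' : GQ → Matrix (Fin 2) (Fin 2) k := fun σ => c σ + (conjAct (ρ σ) a - a) with hc'
  have htr : ∀ σ, c' σ 1 1 = - c' σ 0 0 := fun σ =>
    eq_neg_of_add_eq_zero_right (by
      rw [← Matrix.trace_fin_two]; exact trace_delta (ρ σ) _ (hc.1 σ) hta)
  have h10 : c' σ₀ 1 0 = 0 := by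
    rw [hc']
    simp only [Matrix.add_apply, Matrix.sub_apply]
    rw [(conjAct_upper (hord.upper σ₀ hd₀) a).2.2, hx00, hx11, ha]
    show c σ₀ 1 0 + (1 / x₀ * s - s) = 0
    rw [hs]
    field_simp
    ring
  obtain ⟨G⟩ := exists_functionModel (isFlatCocycle_add_delta hflat a)
  set M := ofFunctionModel G A (A.inertiaSubgroupIn ℚ)
  have hM := isLModel_ofFunctionModel (J := A.inertiaSubgroupIn ℚ) G hA
  obtain ⟨hline₁, hline₂⟩ := connected_in_line hA hp2 hord G
  have hact : ∀ (σ : GQ) (x y : Fin 2 → k), gAct p ρ c' σ (x, y) =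
      ((ρ σ : Matrix (Fin 2) (Fin 2) k) *ᵥ x,
        (ρ σ : Matrix (Fin 2) (Fin 2) k) *ᵥ y + (c' σ * (ρ σ : Matrix (Fin 2) (Fin 2) k)) *ᵥ x) :=
    fun σ x y => gAct_apply p ρ c' σ (x, y)
  have himg : ∀ {σ : GQ}, σ ∈ A.inertiaSubgroupIn ℚ → ∀ z, InC M (gAct p ρ c' σ z - z) :=
    fun hσ z => hM.act_sub_mem_connSub le_rfl hσ z
  -- the diagonal vanishes at `σ₀`
  have h00 : c' σ₀ 0 0 = 0 := by
    set t : k := (ρ σ₀ : Matrix (Fin 2) (Fin 2) k) 0 1 / (x₀ - 1) with ht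
    have h := himg hσ₀ (![-t, 1], 0)
    have e1 : (ρ σ₀ : Matrix (Fin 2) (Fin 2) k) *ᵥ ![-t, 1] = ![-t, 1] := by
      have hrt : (ρ σ₀ : Matrix (Fin 2) (Fin 2) k) 0 1 = t * (x₀ - 1) := by
        rw [ht, div_mul_cancel₀ _ hx₀1]
      ext i
      fin_cases i <;>
        simp [Matrix.mulVec, dotProduct, Fin.sum_univ_two, hord.upper σ₀ hd₀, hx00, hx11, hrt]
      ring
    rw [hact, Prod.mk_sub_mk, e1, sub_self, Matrix.mulVec_zero, zero_add, sub_zero,
      ← Matrix.mulVec_mulVec, e1] at h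
    have := hline₂ _ h
    simpa [Matrix.mulVec, dotProduct, Fin.sum_univ_two, h10, htr] using this
  -- the line of the first copy reduces to zero
  have hC : ∀ α : k, InC M (![α, 0], 0) := by
    intro α
    have h := himg hσ₀ (![α / (x₀ - 1), 0], ![-(c' σ₀ 0 0 * x₀ * α) / (x₀ - 1) ^ 2, 0])
    convert h using 1
    rw [hact, Prod.mk_sub_mk, mulVec_e0 hord.upper hd₀, mulVec_e0 hord.upper hd₀,
      ← Matrix.mulVec_mulVec, mulVec_e0 hord.upper hd₀, hx00]
    refine Prod.ext ?_ ?_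
    · ext i
      fin_cases i
      · show α = x₀ * (α / (x₀ - 1)) - α / (x₀ - 1)
        field_simp
      · show (0 : k) = 0 - 0
        simp
    · ext i
      fin_cases i <;> simp [h10, h00]
  refine ⟨fun σ hσ => ?_, fun σ hσ => ?_⟩
  · show c' σ 1 0 = 0
    have h : InC M (gAct p ρ c' σ (![1, 0], 0)) := inC_act_of_decomposition G hσ (hC 1)
    rw [hact, Matrix.mulVec_zero, zero_add, ← Matrix.mulVec_mulVec, mulVec_e0 hord.upper hσ,
      mul_one] at h
    have h' : InC M ((![(ρ σ : Matrix (Fin 2) (Fin 2) k) 0 0, 0],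
        c' σ *ᵥ ![(ρ σ : Matrix (Fin 2) (Fin 2) k) 0 0, 0]) -
        (![(ρ σ : Matrix (Fin 2) (Fin 2) k) 0 0, 0], (0 : Fin 2 → k))) :=
      hM.mem_connSub.1 (hM.connSub.sub_mem (hM.mem_connSub.2 h) (hM.mem_connSub.2 (hC _)))
    rw [Prod.mk_sub_mk, sub_self, sub_zero] at h'
    have := hline₂ _ h'
    simpa [Matrix.mulVec, dotProduct, Fin.sum_univ_two, (diag_ne_zero hord.upper hσ).1] using this
  · show c' σ 0 0 = 0
    have hd := mem_decomposition_of_inertia hσ
    have h := himg hσ (![0, 1], 0)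
    rw [hact, Prod.mk_sub_mk, Matrix.mulVec_zero, zero_add, sub_zero, ← Matrix.mulVec_mulVec] at h
    set w : Fin 2 → k := (ρ σ : Matrix (Fin 2) (Fin 2) k) *ᵥ ![0, 1] with hw
    have hw0 : (w - (![0, 1] : Fin 2 → k)) = ![(w - (![0, 1] : Fin 2 → k)) 0, 0] := by
      ext i
      fin_cases i
      · simp
      · simp [hw, hord.quot σ hσ]
    rw [hw0] at h
    have h' : InC M ((![(w - (![0, 1] : Fin 2 → k)) 0, 0], c' σ *ᵥ w) -
        (![(w - (![0, 1] : Fin 2 → k)) 0, 0], (0 : Fin 2 → k))) :=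
      hM.mem_connSub.1 (hM.connSub.sub_mem (hM.mem_connSub.2 h) (hM.mem_connSub.2 (hC _)))
    rw [Prod.mk_sub_mk, sub_self, sub_zero] at h'
    have h2 := hline₂ _ h'
    have h10σ : c' σ 1 0 = 0 := by
      have hh : InC M (gAct p ρ c' σ (![1, 0], 0)) := inC_act_of_decomposition G hd (hC 1)
      rw [hact, Matrix.mulVec_zero, zero_add, ← Matrix.mulVec_mulVec, mulVec_e0 hord.upper hd,
        mul_one] at hh
      have hh' := hM.mem_connSub.1 (hM.connSub.sub_mem (hM.mem_connSub.2 hh)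
        (hM.mem_connSub.2 (hC ((ρ σ : Matrix (Fin 2) (Fin 2) k) 0 0))))
      rw [Prod.mk_sub_mk, sub_self, sub_zero] at hh'
      have := hline₂ _ hh'
      simpa [Matrix.mulVec, dotProduct, Fin.sum_univ_two, (diag_ne_zero hord.upper hd).1] using this
    simpa [hw, Matrix.mulVec, dotProduct, Fin.sum_univ_two, h10σ, htr, hord.quot σ hσ] using h2

end

end FermatAgent.TW.Flat
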