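import Fermat.Agent.TW.Flat.Setup
import Fermat.Agent.TW.Flat.Eigen
import Fermat.Agent.TW.Flat.TameChar
import Fermat.Agent.RT.Frobenius

/-!
# Upper triangular `ρ|D`: the characters on inertia and the connected line
-/

set_option autoImplicit false

open Matrix

namespace FermatAgent.TW.Flat

open FermatAgent.Local

noncomputable section

local notation "Qb" => AlgebraicClosure ℚ
local notation "GQ" => AlgebraicClosure ℚ ≃ₐ[ℚ] AlgebraicClosure ℚ

variable {k : Type} [Field k] {p : ℕ} [Fact p.Prime] [Algebra (ZMod p) k]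
  {ρ : GQ →* GL (Fin 2) k}

/-- `ρ|D` is upper triangular. -/
def UpperAt (ρ : GQ →* GL (Fin 2) k) (A : ValuationSubring Qb) : Prop :=
  ∀ σ ∈ A.decompositionSubgroup ℚ, (ρ σ : Matrix (Fin 2) (Fin 2) k) 1 0 = 0

theorem upper_mul {g h : Matrix (Fin 2) (Fin 2) k} (hg : g 1 0 = 0) (hh : h 1 0 = 0) :
    (g * h) 0 0 = g 0 0 * h 0 0 ∧ (g * h) 1 1 = g 1 1 * h 1 1 ∧
      (g * h) 0 1 = g 0 0 * h 0 1 + g 0 1 * h 1 1 := by
  simp [Matrix.mul_apply, Fin.sum_univ_two, hg, hh]

variable {A : ValuationSubring Qb}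

theorem diag_ne_zero (hup : UpperAt ρ A) {σ : GQ} (hσ : σ ∈ A.decompositionSubgroup ℚ) :
    (ρ σ : Matrix (Fin 2) (Fin 2) k) 0 0 ≠ 0 ∧ (ρ σ : Matrix (Fin 2) (Fin 2) k) 1 1 ≠ 0 := by
  have h := (ρ σ).det_ne_zero
  rw [Matrix.det_fin_two, hup σ hσ, mul_zero, sub_zero] at h
  exact ⟨left_ne_zero_of_mul h, right_ne_zero_of_mul h⟩

theorem mulVec_e0 (hup : UpperAt ρ A) {σ : GQ} (hσ : σ ∈ A.decompositionSubgroup ℚ) (α : k) :
    (ρ σ : Matrix (Fin 2) (Fin 2) k) *ᵥ ![α, 0] =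
      ![(ρ σ : Matrix (Fin 2) (Fin 2) k) 0 0 * α, 0] := by
  ext i
  fin_cases i <;> simp [Matrix.mulVec, dotProduct, Fin.sum_univ_two, hup σ hσ]

/-- `x ^ p = x` forces `x` into the prime field. -/
theorem exists_zmod_of_pow_eq [Finite k] {x : k} (h : x ^ p = x) :
    ∃ c : ZMod p, algebraMap (ZMod p) k c = x := by
  have : CharP k p := charP_of_injective_algebraMap (algebraMap (ZMod p) k).injective p
  have h0 := Duality.Local.prod_sub_natCast_eq (p := p) x
  rw [h, sub_self, Finset.prod_eq_zero_iff] at h0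
  obtain ⟨i, -, hi⟩ := h0
  exact ⟨i, by rw [map_natCast, sub_eq_zero.1 hi]⟩

variable [Finite k] (hup : UpperAt ρ A) (hA : A.LiesOverPrime p)
  {L : IntermediateField ℚ Qb} [FiniteDimensional ℚ L] (hL : ∀ σ ∈ L.fixingSubgroup, ρ σ = 1)
include hup hA hL

/-- The diagonal character on inertia, with values in `𝔽_pˣ`. -/
theorem exists_inertia_char : ∃ j : A.inertiaSubgroupIn ℚ →* (ZMod p)ˣ, ∀ σ : A.inertiaSubgroupIn ℚ,
    algebraMap (ZMod p) k (j σ : ZMod p) = (ρ σ : Matrix (Fin 2) (Fin 2) k) 0 0 := by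
  classical
  have hp := (Fact.out : p.Prime)
  have hchar : CharP k p := charP_of_injective_algebraMap (algebraMap (ZMod p) k).injective p
  let f : A.inertiaSubgroupIn ℚ →* kˣ :=
    { toFun := fun σ => Units.mk0 _ (diag_ne_zero hup (mem_decomposition_of_inertia σ.2)).1
      map_one' := Units.ext (by simp)
      map_mul' := fun σ τ => Units.ext (by
        simp only [Units.val_mk0, Units.val_mul, Subgroup.coe_mul, map_mul]
        exact (upper_mul (hup _ (mem_decomposition_of_inertia σ.2))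
          (hup _ (mem_decomposition_of_inertia τ.2))).1) }
  let N := IntermediateField.normalClosure ℚ L Qb
  have : FiniteDimensional ℚ N := normalClosure.is_finiteDimensional ℚ _ Qb
  have : Normal ℚ Qb := RT.isGalois_algClosureRat.to_normal
  have : Normal ℚ N := normalClosure.normal ℚ _ Qb
  obtain ⟨F, hF⟩ := RT.exists_isFrobeniusAt hp hA
  have hFd := (isFrobeniusAt_iff.1 hF).1
  have hcard : Nat.Coprime (Nat.card kˣ) p := by
    have : Fintype k := Fintype.ofFinite k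
    obtain ⟨n, -, hn⟩ := FiniteField.card k p
    rw [Nat.card_eq_fintype_card, Fintype.card_units, hn, Nat.coprime_comm, hp.coprime_iff_not_dvd]
    intro hd
    have h1 : p ∣ p ^ (n : ℕ) := dvd_pow_self p n.ne_zero
    have h2 : 1 ≤ p ^ (n : ℕ) := Nat.one_le_pow _ _ hp.pos
    have : p ∣ 1 := by
      have := Nat.dvd_sub h1 hd
      rwa [Nat.sub_sub_self h2] at this
    exact hp.not_dvd_one this
  have hpow : ∀ σ : A.inertiaSubgroupIn ℚ, (f σ : k) ^ p = f σ := by
    intro σ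
    let σ' : A.inertiaSubgroupIn ℚ := ⟨F * (σ : GQ) * F⁻¹, conj_mem_inertia' hFd σ.2⟩
    have h := map_frobenius_conj hA N f (fun s hs => Units.ext (by
        show (ρ (s : GQ) : Matrix (Fin 2) (Fin 2) k) 0 0 = 1
        rw [hL _ fun x => hs _ (IntermediateField.le_normalClosure L x.2)]
        simp))
      (fun s => ⟨_, hcard, pow_card_eq_one'⟩) hF σ σ' rfl
    rw [← Units.val_pow_eq_pow_val, ← h]
    show (ρ (F * (σ : GQ) * F⁻¹) : Matrix (Fin 2) (Fin 2) k) 0 0 =
      (ρ (σ : GQ) : Matrix (Fin 2) (Fin 2) k) 0 0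
    have hσd := mem_decomposition_of_inertia σ.2
    have e : (ρ F : Matrix (Fin 2) (Fin 2) k) 0 0 * (ρ F⁻¹ : Matrix (Fin 2) (Fin 2) k) 0 0 = 1 := by
      rw [← (upper_mul (hup F hFd) (hup _ (inv_mem hFd))).1, ← Units.val_mul, ← map_mul,
        mul_inv_cancel, map_one]
      simp
    rw [map_mul, map_mul, Units.val_mul, Units.val_mul,
      (upper_mul (by rw [← Units.val_mul, ← map_mul]; exact hup _ (mul_mem hFd hσd))
        (hup _ (inv_mem hFd))).1, (upper_mul (hup F hFd) (hup _ hσd)).1]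
    linear_combination (ρ (σ : GQ) : Matrix (Fin 2) (Fin 2) k) 0 0 * e
  choose c hc using fun σ => exists_zmod_of_pow_eq (p := p) (hpow σ)
  have hc0 : ∀ σ, c σ ≠ 0 := fun σ h => (f σ).ne_zero (by rw [← hc σ, h, map_zero])
  exact ⟨{ toFun := fun σ => Units.mk0 (c σ) (hc0 σ)
           map_one' := Units.ext ((algebraMap (ZMod p) k).injective (by simp [hc]))
           map_mul' := fun σ τ => Units.ext ((algebraMap (ZMod p) k).injective (by simp [hc])) },
    fun σ => hc σ⟩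

variable {act : GQ → (Fin 2 → k) → (Fin 2 → k)}
  (hact : ∀ σ x, act σ x = (ρ σ : Matrix (Fin 2) (Fin 2) k) *ᵥ x)
  {M : Submodule (fixRing A (A.inertiaSubgroupIn ℚ)) ((Fin 2 → k) → Qb)} (hM : IsLModel act M)
include hact hM

/-- The two cases for the first character. -/
theorem char_cases (hp2 : p ≠ 2) :
    (∀ σ ∈ A.inertiaSubgroupIn ℚ, (ρ σ : Matrix (Fin 2) (Fin 2) k) 0 0 =
      algebraMap (ZMod p) k (ExtCitation.cycloChar p σ : ZMod p)) ∨
    ((∀ σ ∈ A.inertiaSubgroupIn ℚ, (ρ σ : Matrix (Fin 2) (Fin 2) k) 0 0 = 1) ∧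
      ∀ α : k, InC M ![α, 0] → α = 0) := by
  have hchar : CharP k p := charP_of_injective_algebraMap (algebraMap (ZMod p) k).injective p
  obtain ⟨j, hj⟩ := exists_inertia_char hup hA hL
  have hne : (![1, 0] : Fin 2 → k) ≠ 0 := fun h => one_ne_zero (congrFun h 0)
  have hpτ : ∀ v : Fin 2 → k, p • v = 0 := fun v => funext fun i => by
    rw [Pi.smul_apply, nsmul_eq_mul, CharP.cast_eq_zero, zero_mul, Pi.zero_apply]
  have hjτ : ∀ σ : A.inertiaSubgroupIn ℚ, act σ ![1, 0] = (j σ : ZMod p).val • ![(1 : k), 0] := by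
    intro σ
    rw [hact, mulVec_e0 hup (mem_decomposition_of_inertia σ.2), mul_one, ← hj σ]
    conv_lhs => rw [← ZMod.natCast_zmod_val (j σ : ZMod p), map_natCast]
    ext i
    fin_cases i <;> simp
  by_cases hC : InC M ![1, 0]
  · refine Or.inl fun σ hσ => ?_
    rw [← hj ⟨σ, hσ⟩, eigen_cyclo_of_inC hA hM hne (hpτ _) j hjτ hC ⟨σ, hσ⟩]
  · have h1 : ∀ σ ∈ A.inertiaSubgroupIn ℚ, (ρ σ : Matrix (Fin 2) (Fin 2) k) 0 0 = 1 := fun σ hσ => by
      rw [← hj ⟨σ, hσ⟩, eigen_trivial_of_not_inC hM hne (hpτ _) j hjτ hC, Units.val_one, map_one]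
    refine Or.inr ⟨h1, fun α hα => ?_⟩
    by_contra h0
    refine not_inC_of_fixed hA hM (fun h => h0 (congrFun h 0)) (hpτ _) hp2 (fun σ hσ => ?_) hα
    rw [hact, mulVec_e0 hup (mem_decomposition_of_inertia hσ), h1 σ hσ, one_mul]

omit hact hM in
/-- An ordinary line for an upper triangular flat representation. -/
theorem exists_ordLine (hp2 : p ≠ 2) (hdet : DetCyclo p ρ) {c : GQ → Matrix (Fin 2) (Fin 2) k}
    (G : GalRep.Flat.FunctionModel p ((Fin 2 → k) × (Fin 2 → k)) (actOf (gAct p ρ c))) :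
    ∃ v, OrdLine ρ A v := by
  classical
  let ι : (Fin 2 → k) →+ (Fin 2 → k) × (Fin 2 → k) := AddMonoidHom.inr _ _
  have hG := isLModel_ofFunctionModel (J := A.inertiaSubgroupIn ℚ) G hA
  have hιact : ∀ σ x, ι ((ρ σ : Matrix (Fin 2) (Fin 2) k) *ᵥ x) = actOf (gAct p ρ c) σ (ι x) :=
    fun σ x => by
      show _ = gAct p ρ c σ _
      simp [ι, gAct_apply]
  have hM := hG.restrict (act' := fun σ x => (ρ σ : Matrix (Fin 2) (Fin 2) k) *ᵥ x) ι
    (fun a b h => congrArg Prod.snd h) fun σ _ x => hιact σ x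
  have hdiag : ∀ σ ∈ A.inertiaSubgroupIn ℚ,
      (ρ σ : Matrix (Fin 2) (Fin 2) k) 0 0 * (ρ σ : Matrix (Fin 2) (Fin 2) k) 1 1 =
        algebraMap (ZMod p) k (ExtCitation.cycloChar p σ : ZMod p) := fun σ hσ => by
    rw [← hdet σ, Matrix.det_fin_two, hup σ (mem_decomposition_of_inertia hσ), mul_zero, sub_zero]
  rcases char_cases hup hA hL (fun σ x => rfl) hM hp2 with ha | ⟨ha, hC0⟩
  · refine ⟨![1, 0], fun h => one_ne_zero (congrFun h 0), fun σ hσ => ?_, fun σ hσ w => ?_⟩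
    · refine ⟨(ρ σ : Matrix (Fin 2) (Fin 2) k) 0 0, ?_⟩
      rw [mulVec_e0 hup hσ]
      ext i; fin_cases i <;> simp
    · have hd := hdiag σ hσ
      have hd' : (ρ σ : Matrix (Fin 2) (Fin 2) k) 1 1 = 1 := by
        rw [ha σ hσ] at hd
        exact mul_left_cancel₀ (by simp) (hd.trans (mul_one _).symm)
      refine ⟨((ρ σ : Matrix (Fin 2) (Fin 2) k) *ᵥ w - w) 0, ?_⟩
      ext i
      fin_cases i <;>
        simp [hd', hup σ (mem_decomposition_of_inertia hσ)]
  · obtain ⟨c₀, hc₀⟩ : ∃ c₀ : (ZMod p)ˣ, c₀ ≠ 1 := by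
      refine Fintype.exists_ne_of_one_lt_card ?_ 1
      rw [ZMod.card_units p]
      have := (Fact.out : p.Prime).two_le
      omega
    obtain ⟨σ₀, hσ₀, hχ₀⟩ := exists_inertia_cycloChar hA c₀
    set R : Matrix (Fin 2) (Fin 2) k := (ρ σ₀ : Matrix (Fin 2) (Fin 2) k) with hR
    set v : Fin 2 → k := R *ᵥ ![0, 1] - ![0, 1] with hv
    have hR10 : R 1 0 = 0 := hup σ₀ (mem_decomposition_of_inertia hσ₀)
    have hR11 : R 1 1 - 1 ≠ 0 := by
      rw [sub_ne_zero]
      intro h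
      have hd := hdiag σ₀ hσ₀
      rw [ha σ₀ hσ₀, one_mul, ← hR, h, hχ₀, ← map_one (algebraMap (ZMod p) k)] at hd
      exact hc₀ (Units.ext ((algebraMap (ZMod p) k).injective hd).symm)
    have hv1 : v 1 = R 1 1 - 1 := by
      simp [hv]
    set C := hM.connSub with hC
    have hmemline : ∀ α : k, α • v ∈ C := fun α => by
      have := hM.act_sub_mem_connSub le_rfl hσ₀ (α • ![0, 1])
      rwa [Matrix.mulVec_smul, ← smul_sub] at this
    have hCv : ∀ x ∈ C, x = (x 1 / v 1) • v := by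
      intro x hx
      have hd := C.sub_mem hx (hmemline (x 1 / v 1))
      have h1 : (x - (x 1 / v 1) • v) 1 = 0 := by
        simp [hv1, div_mul_cancel₀ _ hR11]
      set z := x - (x 1 / v 1) • v
      have hz : z = ![z 0, 0] := by ext i; fin_cases i <;> simp [h1]
      have h0 := hC0 (z 0) (hz ▸ hd)
      rw [← sub_eq_zero]
      show z = 0
      rw [hz, h0]
      ext i; fin_cases i <;> rfl
    refine ⟨v, fun h => hR11 (by rw [← hv1, h, Pi.zero_apply]), fun σ hσ => ?_, fun σ hσ w => ?_⟩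
    · have h1 : InC (ofFunctionModel G A (A.inertiaSubgroupIn ℚ)) (ι v) :=
        (inC_restrict ι).1 (hM.mem_connSub.1 (by have := hmemline 1; rwa [one_smul] at this))
      have h2 := inC_act_of_decomposition G hσ h1
      rw [← hιact] at h2
      exact ⟨_, hCv _ (hM.mem_connSub.2 ((inC_restrict ι).2 h2))⟩
    · exact ⟨_, hCv _ (hM.act_sub_mem_connSub le_rfl hσ w)⟩

end

end FermatAgent.TW.Flat
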